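import Fermat.Agent.Lib.CFT.Profinite.MutualT

/-!
# Change of group along an isomorphism, and the comparison for `W = ⊤`  (P-CFT, L4, `[TR]`)

* `TMapOfHom_mulEquiv_bijective`: for a group isomorphism `e : H ≃* G` which is compatible with the
  level families in both directions, the change-of-group map
  `T 𝒰 p X n → T 𝒱 p (Rep.res e X) n` is bijective (inverse: the change-of-group map along
  `e.symm`); `map_mulEquiv_bijective` is the analogue on level cohomology.
* `TMapOfHom_top_bijective`: the case of `(⊤ : Subgroup G).subtype`, i.e. the comparison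
  `T 𝒰 p X n → T (restrict 𝒰 ⊤) p (Rep.res ⊤.subtype X) n` is bijective.

(The variant for two mutually cofinal level families on the same group is
`TMutual_bijective` in `Profinite/MutualT.lean`.)
-/

set_option autoImplicit false

universe u

open CategoryTheory

namespace Fermat.Agent.Lib.CFT.Profinite.LES

open LevelFamily Fermat.Agent.Lib.CFT.Duality Fermat.Agent.Lib.CFT.Duality.KCalc ConcreteHomology
  HomologicalComplex

variable {k : Type u} [CommRing k] {G H : Type u} [Group G] [Group H]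

section MulEquiv

variable (e : H ≃* G) (X : Rep.{u} k G)

/-- The identity of `X`, as a morphism `Rep.res e.symm (Rep.res e X) ⟶ X`. -/
noncomputable def resSymmResHom :
    Rep.res e.symm.toMonoidHom (Rep.res e.toMonoidHom X) ⟶ X :=
  Rep.ofHom (LinearMap.intertwiningMap_of_isIntertwiningMap
    (ρ := (Rep.res e.symm.toMonoidHom (Rep.res e.toMonoidHom X)).ρ) (σ := X.ρ)
    (f := (LinearMap.id : X →ₗ[k] X)) (fun g x => by
      show X.ρ (e (e.symm g)) x = X.ρ g x
      rw [e.apply_symm_apply]))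

@[simp]
theorem resSymmResHom_hom_apply (x : X) : (resSymmResHom e X).hom x = x := rfl

variable (𝒰 : LevelFamily G) (𝒱 : LevelFamily H) (p : ℕ)
  (he : IsCompatible 𝒱 𝒰 e.toMonoidHom) (he' : IsCompatible 𝒰 𝒱 e.symm.toMonoidHom)

theorem mulEquiv_comp_symm : e.toMonoidHom.comp e.symm.toMonoidHom = MonoidHom.id G :=
  MonoidHom.ext fun g => e.apply_symm_apply g

theorem mulEquiv_symm_comp : e.symm.toMonoidHom.comp e.toMonoidHom = MonoidHom.id H :=
  MonoidHom.ext fun h => e.symm_apply_apply h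

/-- The change-of-group map along `e.symm` is a left inverse of the one along `e`, on `T`. -/
theorem TMapOfHom_symm_TMapOfHom (n : ℕ) (t : T 𝒰 p X n) :
    TMapOfHom 𝒱 p 𝒰 e.symm.toMonoidHom he' (resSymmResHom e X) n
      (TMapOfHom 𝒰 p 𝒱 e.toMonoidHom he (𝟙 (Rep.res e.toMonoidHom X)) n t) = t := by
  rw [← TMapOfHom_comp]
  have h := TMapOfHom_congr 𝒰 𝒰 p (IsCompatible.comp he he') (mulEquiv_comp_symm e)
    ((Rep.resFunctor e.symm.toMonoidHom).map (𝟙 (Rep.res e.toMonoidHom X)) ≫ resSymmResHom e X)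
    (𝟙 X) (by ext x; rfl) n
  rw [h, ← TMap_eq_TMapOfHom]
  exact TMap_id 𝒰 p n t

/-- The change-of-group map along `e.symm` is a right inverse of the one along `e`, on `T`. -/
theorem TMapOfHom_TMapOfHom_symm (n : ℕ) (s : T 𝒱 p (Rep.res e.toMonoidHom X) n) :
    TMapOfHom 𝒰 p 𝒱 e.toMonoidHom he (𝟙 (Rep.res e.toMonoidHom X)) n
      (TMapOfHom 𝒱 p 𝒰 e.symm.toMonoidHom he' (resSymmResHom e X) n s) = s := by
  rw [← TMapOfHom_comp]
  have h := TMapOfHom_congr (X := Rep.res e.toMonoidHom X) (Y := Rep.res e.toMonoidHom X) 𝒱 𝒱 p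
    (IsCompatible.comp he' he) (mulEquiv_symm_comp e)
    ((Rep.resFunctor e.toMonoidHom).map (resSymmResHom e X) ≫ 𝟙 (Rep.res e.toMonoidHom X))
    (𝟙 (Rep.res e.toMonoidHom X)) (LinearMap.ext fun x => rfl) n
  rw [h, ← TMap_eq_TMapOfHom]
  exact TMap_id 𝒱 p n s

include he' in
/-- **Change of group along an isomorphism is bijective on `T`.** -/
theorem TMapOfHom_mulEquiv_bijective (n : ℕ) :
    Function.Bijective (TMapOfHom 𝒰 p 𝒱 e.toMonoidHom he (𝟙 (Rep.res e.toMonoidHom X)) n) :=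
  ⟨Function.LeftInverse.injective (TMapOfHom_symm_TMapOfHom e X 𝒰 𝒱 p he he' n),
    Function.RightInverse.surjective (TMapOfHom_TMapOfHom_symm e X 𝒰 𝒱 p he he' n)⟩

/-- The change-of-group equivalence on `T` along an isomorphism of groups. -/
noncomputable def TEquivOfMulEquiv (n : ℕ) :
    T 𝒰 p X n ≃ₗ[k] T 𝒱 p (Rep.res e.toMonoidHom X) n :=
  { TMapOfHom 𝒰 p 𝒱 e.toMonoidHom he (𝟙 (Rep.res e.toMonoidHom X)) n with
    invFun := TMapOfHom 𝒱 p 𝒰 e.symm.toMonoidHom he' (resSymmResHom e X) n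
    left_inv := TMapOfHom_symm_TMapOfHom e X 𝒰 𝒱 p he he' n
    right_inv := TMapOfHom_TMapOfHom_symm e X 𝒰 𝒱 p he he' n }

@[simp]
theorem TEquivOfMulEquiv_apply (n : ℕ) (t : T 𝒰 p X n) :
    TEquivOfMulEquiv e X 𝒰 𝒱 p he he' n t =
      TMapOfHom 𝒰 p 𝒱 e.toMonoidHom he (𝟙 (Rep.res e.toMonoidHom X)) n t := rfl

include he' in
/-- Variant with an arbitrary isomorphism of coefficients `Rep.res e X ≅ Y`. -/
theorem TMapOfHom_mulEquiv_bijective_of_iso {Y : Rep.{u} k H} (lam : Rep.res e.toMonoidHom X ≅ Y)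
    (n : ℕ) : Function.Bijective (TMapOfHom 𝒰 p 𝒱 e.toMonoidHom he lam.hom n) := by
  have h1 : ∀ t, TMapOfHom 𝒰 p 𝒱 e.toMonoidHom he lam.hom n t =
      TMap 𝒱 p lam.hom n (TMapOfHom 𝒰 p 𝒱 e.toMonoidHom he (𝟙 (Rep.res e.toMonoidHom X)) n t) := by
    intro t
    rw [TMap_eq_TMapOfHom, ← TMapOfHom_comp]
    exact congr_fun (congr_arg DFunLike.coe (TMapOfHom_congr 𝒰 𝒱 p he rfl _ _
      (by ext x; rfl) n)) t
  have h2 : Function.Bijective (TMap 𝒱 p lam.hom n) := by
    refine Function.bijective_iff_has_inverse.2 ⟨TMap 𝒱 p lam.inv n, fun t => ?_, fun t => ?_⟩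
    · rw [← TMap_comp, lam.hom_inv_id, TMap_id]
    · rw [← TMap_comp, lam.inv_hom_id, TMap_id]
  have h3 : ⇑(TMapOfHom 𝒰 p 𝒱 e.toMonoidHom he lam.hom n) =
      ⇑(TMap 𝒱 p lam.hom n) ∘
        ⇑(TMapOfHom 𝒰 p 𝒱 e.toMonoidHom he (𝟙 (Rep.res e.toMonoidHom X)) n) := funext h1
  rw [h3]
  exact h2.comp (TMapOfHom_mulEquiv_bijective e X 𝒰 𝒱 p he he' n)

/-! ### The same on level cohomology -/

theorem map_symm_map (n : ℕ) (x : 𝒰.levelCohomology X n) :
    (map e.symm.toMonoidHom he' (resSymmResHom e X) n).hom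
      ((map e.toMonoidHom he (𝟙 (Rep.res e.toMonoidHom X)) n).hom x) = x := by
  have h := map_comp (𝒰 := 𝒰) (𝒰' := 𝒱) (𝒰'' := 𝒰) e.toMonoidHom he
    (𝟙 (Rep.res e.toMonoidHom X)) e.symm.toMonoidHom he' (resSymmResHom e X) n
  have h2 : map (e.toMonoidHom.comp e.symm.toMonoidHom) (IsCompatible.comp he he')
      ((Rep.resFunctor e.symm.toMonoidHom).map (𝟙 (Rep.res e.toMonoidHom X)) ≫
        resSymmResHom e X) n = map (MonoidHom.id G) 𝒰.isCompatible_id (𝟙 X) n :=
    map_congr (mulEquiv_comp_symm e) _ (LinearMap.ext fun x => rfl) n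
  rw [h2, map_id] at h
  exact (congr($h x)).symm

theorem map_map_symm (n : ℕ) (y : 𝒱.levelCohomology (Rep.res e.toMonoidHom X) n) :
    (map e.toMonoidHom he (𝟙 (Rep.res e.toMonoidHom X)) n).hom
      ((map e.symm.toMonoidHom he' (resSymmResHom e X) n).hom y) = y := by
  have h := map_comp (𝒰 := 𝒱) (𝒰' := 𝒰) (𝒰'' := 𝒱) e.symm.toMonoidHom he'
    (resSymmResHom e X) e.toMonoidHom he (𝟙 (Rep.res e.toMonoidHom X)) n
  have h2 : map (e.symm.toMonoidHom.comp e.toMonoidHom) (IsCompatible.comp he' he)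
      ((Rep.resFunctor e.toMonoidHom).map (resSymmResHom e X) ≫
        𝟙 (Rep.res e.toMonoidHom X)) n =
      map (M := Rep.res e.toMonoidHom X) (MonoidHom.id H) 𝒱.isCompatible_id
        (𝟙 (Rep.res e.toMonoidHom X)) n := by
    refine map_congr (𝒰 := 𝒱) (𝒰' := 𝒱) (M := Rep.res e.toMonoidHom X)
      (M' := Rep.res e.toMonoidHom X) (mulEquiv_symm_comp e) (IsCompatible.comp he' he) ?_ n
    exact LinearMap.ext fun x => rfl
  rw [h2, map_id] at h
  exact (congr($h y)).symm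

include he' in
/-- **Change of group along an isomorphism is bijective on level cohomology.** -/
theorem map_mulEquiv_bijective (n : ℕ) :
    Function.Bijective (map e.toMonoidHom he (𝟙 (Rep.res e.toMonoidHom X)) n).hom :=
  ⟨Function.LeftInverse.injective (map_symm_map e X 𝒰 𝒱 he he' n),
    Function.RightInverse.surjective (map_map_symm e X 𝒰 𝒱 he he' n)⟩

end MulEquiv

/-! ### The case `W = ⊤` -/

section Top

variable (𝒰 : LevelFamily G) (p : ℕ) (X : Rep.{u} k G)

/-- The inverse of `(⊤ : Subgroup G).subtype` is compatible with `𝒰` and `restrict 𝒰 ⊤`. -/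
theorem isCompatible_topEquiv_symm :
    IsCompatible 𝒰 (restrict 𝒰 (⊤ : Subgroup G))
      (Subgroup.topEquiv (G := G)).symm.toMonoidHom := by
  rintro _ ⟨U, hU, rfl⟩
  exact ⟨U, hU, fun x hx => hx⟩

/-- **The comparison for `W = ⊤`**: restriction to the subgroup `⊤` is bijective on `T`. -/
theorem TMapOfHom_top_bijective (n : ℕ) :
    Function.Bijective (TMapOfHom 𝒰 p (restrict 𝒰 (⊤ : Subgroup G)) (⊤ : Subgroup G).subtype
      (isCompatible_comap 𝒰 _) (𝟙 (Rep.res (⊤ : Subgroup G).subtype X)) n) :=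
  TMapOfHom_mulEquiv_bijective (Subgroup.topEquiv (G := G)) X 𝒰 (restrict 𝒰 ⊤) p
    (isCompatible_comap 𝒰 _) (isCompatible_topEquiv_symm 𝒰) n

/-- The comparison for `W = ⊤` on level cohomology. -/
theorem map_top_bijective (n : ℕ) :
    Function.Bijective (map (⊤ : Subgroup G).subtype (isCompatible_comap 𝒰 _)
      (𝟙 (Rep.res (⊤ : Subgroup G).subtype X)) n).hom :=
  map_mulEquiv_bijective (Subgroup.topEquiv (G := G)) X 𝒰 (restrict 𝒰 ⊤)
    (isCompatible_comap 𝒰 _) (isCompatible_topEquiv_symm 𝒰) n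

end Top

end Fermat.Agent.Lib.CFT.Profinite.LES
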