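import Fermat.Agent.Lib.CFT.Duality.BaseCase.ArithLG
import Fermat.Agent.Lib.CFT.Duality.BaseCase.TransferTop
import Fermat.Agent.Lib.CFT.Global.SVersion.LocalCompare

/-!
# Local Hilbert 90 in the limit, in the shape consumed by `ArithLG.arith_hLG` (P-CFT L4, helper87)

`H¹(G_q, ℚ̄_qˣ) = 0` for the full family of open subgroups of the local Galois group: helper66's
`LocalCompare.subsingleton_H1` at `W = ⊤`, transported along `restrict 𝒰 ⊤ ≃ 𝒰`
(helper49's `LES.map_top_bijective`).
-/

set_option autoImplicit false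

open CategoryTheory Fermat.Agent.Lib.CFT.Profinite ExtCitation

namespace Fermat.Agent.Lib.CFT.Duality.GlobalBase.ArithLG

open Fermat.Agent.Lib.CFT.Duality.ArithKDatum
  Fermat.Agent.Lib.CFT.Global Fermat.Agent.Lib.CFT.Global.SVersion
  Fermat.Agent.Lib.CFT.Local.LqModule

/-- `⊤` is a level of the local family. -/
theorem top_mem_primeLocalLevels (q : Nat.Primes) :
    (⊤ : Subgroup (primeLocalGaloisGroup q)) ∈ (primeLocalLevels q).levels := by
  obtain ⟨V, hV⟩ := (primeLocalLevels q).nonempty
  exact LocalCompare.mem_primeLocalLevels_of_le q hV le_top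

/-- **Local Hilbert 90 in the limit**: `H¹(G_q, ℚ̄_qˣ) = 0`. -/
theorem subsingleton_H1_Lq (q : Nat.Primes) :
    Subsingleton ((primeLocalLevels q).levelCohomology (Lq q) 1) := by
  have h := LocalCompare.subsingleton_H1 q ⊤ (top_mem_primeLocalLevels q)
  have hb := LES.map_top_bijective (primeLocalLevels q) (Lq q) 1
  exact hb.1.subsingleton

variable (S : Finset Nat.Primes) (p : ℕ) [hp : Fact p.Prime]
  (hpS : (⟨p, hp.out⟩ : Nat.Primes) ∈ S)

/-- The hypothesis `h90` of `arith_hLG`. -/
theorem arith_h90 : ∀ v : (arithDatum S).ι,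
    Subsingleton (((arithDatum S).𝒱 v).levelCohomology ((arithKDatum S p hpS).L v) 1) :=
  fun v => subsingleton_H1_Lq v.1

end Fermat.Agent.Lib.CFT.Duality.GlobalBase.ArithLG
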