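import Fermat.Agent.Lib.CFT.Profinite.LES
import Fermat.Agent.Lib.CFT.Profinite.ConcreteHomology

/-!
# Change of coefficient ring: from `k`-linear to `ℤ`-linear representations

A dictionary between `k`-coefficients and `ℤ`-coefficients: the underlying `ℤ`-linear
representation `intRep M` of a `k`-linear representation `M`, and the comparison of level
cochains and level cohomology.
-/

set_option autoImplicit false

open CategoryTheory groupCohomology

namespace Fermat.Agent.Lib.CFT.Duality.ChangeRing

open Fermat.Agent.Lib.CFT.Profinite Fermat.Agent.Lib.CFT.Profinite.LevelFamily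
open Fermat.Agent.Lib.CFT.ConcreteHomology

section IntRep

variable {k G : Type} [CommRing k] [Group G]

/-- The underlying `ℤ`-linear representation of a `k`-linear representation. -/
def intρ (M : Rep.{0} k G) : Representation ℤ G M where
  toFun g := (M.ρ g).toAddMonoidHom.toIntLinearMap
  map_one' := by
    ext x
    simp
  map_mul' g h := by
    ext x
    simp

@[simp]
theorem intρ_apply (M : Rep.{0} k G) (g : G) (x : M) : intρ M g x = M.ρ g x := rfl

/-- The underlying `ℤ`-linear representation, as an object of `Rep ℤ G`; same carrier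
(reducibly so: `(intRep M).V` unfolds to `M.V`). -/
noncomputable abbrev intRep (M : Rep.{0} k G) : Rep.{0} ℤ G := Rep.of (intρ M)

theorem intRep_V (M : Rep.{0} k G) : (intRep M).V = M.V := rfl

@[simp]
theorem intRep_ρ_apply (M : Rep.{0} k G) (g : G) (x : M) : (intRep M).ρ g x = M.ρ g x := rfl

/-- The identity map from `M` to `intRep M`, as an additive equivalence. -/
def toInt (M : Rep.{0} k G) : M ≃+ intRep M := AddEquiv.refl _

@[simp]
theorem toInt_apply (M : Rep.{0} k G) (x : M) : toInt M x = x := rfl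

/-- Functoriality of `intRep`. -/
noncomputable def intMap {M N : Rep.{0} k G} (f : M ⟶ N) : intRep M ⟶ intRep N :=
  Rep.ofHom ⟨f.hom.toLinearMap.toAddMonoidHom.toIntLinearMap, fun g => by
    ext x
    exact Rep.hom_comm_apply f g x⟩

@[simp]
theorem intMap_hom_apply {M N : Rep.{0} k G} (f : M ⟶ N) (x : M) :
    (intMap f).hom x = f.hom x := rfl

theorem intMap_id (M : Rep.{0} k G) : intMap (𝟙 M) = 𝟙 (intRep M) := by
  ext x
  rfl

theorem intMap_comp {M N P : Rep.{0} k G} (f : M ⟶ N) (g : N ⟶ P) :
    intMap (f ≫ g) = intMap f ≫ intMap g := by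
  ext x
  rfl

theorem intMap_zero (M N : Rep.{0} k G) : intMap (0 : M ⟶ N) = 0 := by
  ext x
  rfl

theorem intMap_add {M N : Rep.{0} k G} (f g : M ⟶ N) : intMap (f + g) = intMap f + intMap g := by
  ext x
  rfl

/-- `intRep` as a functor. -/
noncomputable def intFunctor (k G : Type) [CommRing k] [Group G] : Rep.{0} k G ⥤ Rep.{0} ℤ G where
  obj M := intRep M
  map f := intMap f
  map_id M := intMap_id M
  map_comp f g := intMap_comp f g

instance : (intFunctor k G).PreservesZeroMorphisms where
  map_zero M N := intMap_zero M N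

instance : (intFunctor k G).Additive where
  map_add := intMap_add _ _

theorem intMap_injective_iff {M N : Rep.{0} k G} (f : M ⟶ N) :
    Function.Injective (intMap f).hom ↔ Function.Injective f.hom := Iff.rfl

theorem intMap_surjective_iff {M N : Rep.{0} k G} (f : M ⟶ N) :
    Function.Surjective (intMap f).hom ↔ Function.Surjective f.hom := Iff.rfl

theorem intMap_mono_iff {M N : Rep.{0} k G} (f : M ⟶ N) : Mono (intMap f) ↔ Mono f := by
  rw [Rep.mono_iff_injective, Rep.mono_iff_injective]
  exact intMap_injective_iff f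

theorem intMap_epi_iff {M N : Rep.{0} k G} (f : M ⟶ N) : Epi (intMap f) ↔ Epi f := by
  rw [Rep.epi_iff_surjective, Rep.epi_iff_surjective]
  exact intMap_surjective_iff f

/-- Exactness of a short complex of representations, in terms of elements. -/
theorem rep_exact_iff {R : Type} [CommRing R] (X : ShortComplex (Rep.{0} R G)) :
    X.Exact ↔ ∀ y : X.X₂, X.g.hom y = 0 → ∃ x : X.X₁, X.f.hom x = y := by
  rw [← ShortComplex.exact_map_iff_of_faithful (F := forget₂ (Rep R G) (ModuleCat R)),
    ShortComplex.moduleCat_exact_iff]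
  rfl

theorem intFunctor_map_exact_iff (X : ShortComplex (Rep.{0} k G)) :
    (X.map (intFunctor k G)).Exact ↔ X.Exact := by
  rw [rep_exact_iff, rep_exact_iff]
  rfl

theorem intFunctor_map_shortExact_iff (X : ShortComplex (Rep.{0} k G)) :
    (X.map (intFunctor k G)).ShortExact ↔ X.ShortExact := by
  constructor
  · intro h
    exact { exact := (intFunctor_map_exact_iff X).1 h.exact
            mono_f := (intMap_mono_iff X.f).1 h.mono_f
            epi_g := (intMap_epi_iff X.g).1 h.epi_g }
  · intro h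
    exact { exact := (intFunctor_map_exact_iff X).2 h.exact
            mono_f := (intMap_mono_iff X.f).2 h.mono_f
            epi_g := (intMap_epi_iff X.g).2 h.epi_g }

theorem isDiscrete_intRep_iff (𝒰 : LevelFamily G) (M : Rep.{0} k G) :
    𝒰.IsDiscrete (intRep M) ↔ 𝒰.IsDiscrete M := Iff.rfl

theorem intRep_res {H : Type} [Group H] (φ : H →* G) (M : Rep.{0} k G) :
    intRep (Rep.res φ M) = Rep.res φ (intRep M) := rfl

theorem intMap_resMap {H : Type} [Group H] (φ : H →* G) {M N : Rep.{0} k G} (f : M ⟶ N) :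
    intMap ((Rep.resFunctor φ).map f) = (Rep.resFunctor φ).map (intMap f) := rfl

end IntRep

/-! ### Additive maps between complexes over different rings -/

section HomAdd

variable {k l : Type} [CommRing k] [CommRing l]

/-- Descend an additive map on cocycles that kills the classes of coboundaries to homology
(additive version of `descH`). -/
noncomputable def descAdd {K : CochainComplex (ModuleCat.{0} k) ℕ} {N : Type*} [AddCommGroup N]
    {n : ℕ} (f : Z K n →+ N) (hf : ∀ x, classOf K n x = 0 → f x = 0) : K.homology n →+ N :=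
  (classOf K n).toAddMonoidHom.liftOfRightInverse (Function.surjInv (classOf_surjective K n))
    (Function.rightInverse_surjInv (classOf_surjective K n))
    ⟨f, fun x hx => AddMonoidHom.mem_ker.mpr (hf x (AddMonoidHom.mem_ker.mp hx))⟩

@[simp]
theorem descAdd_classOf {K : CochainComplex (ModuleCat.{0} k) ℕ} {N : Type*} [AddCommGroup N]
    {n : ℕ} (f : Z K n →+ N) (hf : ∀ x, classOf K n x = 0 → f x = 0) (x : Z K n) :
    descAdd f hf (classOf K n x) = f x :=
  AddMonoidHom.liftOfRightInverse_comp_apply _ _ _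
    ⟨f, fun x hx => AddMonoidHom.mem_ker.mpr (hf x (AddMonoidHom.mem_ker.mp hx))⟩ x

/-- Two additive maps out of homology agreeing on classes of cocycles are equal. -/
theorem addHom_ext_classOf {K : CochainComplex (ModuleCat.{0} k) ℕ} {N : Type*} [AddCommGroup N]
    {n : ℕ} {f g : K.homology n →+ N} (h : ∀ x, f (classOf K n x) = g (classOf K n x)) :
    f = g := by
  ext y
  obtain ⟨x, rfl⟩ := classOf_surjective K n y
  exact h x

/-- A family of additive maps between the terms of two cochain complexes (over possibly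
different rings) commuting with the differentials. -/
structure AddChainMap (A : CochainComplex (ModuleCat.{0} k) ℕ)
    (B : CochainComplex (ModuleCat.{0} l) ℕ) where
  /-- the components -/
  toFun : ∀ n, A.X n →+ B.X n
  comm : ∀ n (x : A.X n), toFun (n + 1) ((A.d n (n + 1)).hom x) = (B.d n (n + 1)).hom (toFun n x)

namespace AddChainMap

variable {A : CochainComplex (ModuleCat.{0} k) ℕ} {B : CochainComplex (ModuleCat.{0} l) ℕ}
  (e : AddChainMap A B)

theorem map_mem_Z {n : ℕ} {x : A.X n} (hx : x ∈ Z A n) : e.toFun n x ∈ Z B n := by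
  rw [mem_Z_iff] at hx ⊢
  rw [← e.comm, hx, map_zero]

/-- The induced map on cocycles. -/
def mapZ (n : ℕ) : Z A n →+ Z B n where
  toFun x := ⟨e.toFun n x.1, e.map_mem_Z x.2⟩
  map_zero' := Subtype.ext (map_zero _)
  map_add' _ _ := Subtype.ext (map_add _ _ _)

@[simp]
theorem mapZ_coe (n : ℕ) (x : Z A n) : (e.mapZ n x).1 = e.toFun n x.1 := rfl

theorem classOf_mapZ_eq_zero (n : ℕ) (x : Z A n) (hx : classOf A n x = 0) :
    classOf B n (e.mapZ n x) = 0 := by
  cases n with
  | zero =>
    rw [classOf_eq_zero_iff_zero] at hx ⊢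
    rw [hx, map_zero]
  | succ m =>
    rw [classOf_eq_zero_iff_succ] at hx ⊢
    obtain ⟨y, hy⟩ := hx
    exact ⟨e.toFun m y, by rw [← e.comm, hy, mapZ_coe]⟩

/-- The induced additive map on homology. -/
noncomputable def homAdd (n : ℕ) : A.homology n →+ B.homology n :=
  descAdd ((classOf B n).toAddMonoidHom.comp (e.mapZ n)) (e.classOf_mapZ_eq_zero n)

@[simp]
theorem homAdd_classOf (n : ℕ) (x : Z A n) :
    e.homAdd n (classOf A n x) = classOf B n (e.mapZ n x) :=
  descAdd_classOf _ _ x

theorem homAdd_injective (hbij : ∀ n, Function.Bijective (e.toFun n)) (n : ℕ) :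
    Function.Injective (e.homAdd n) := by
  rw [injective_iff_map_eq_zero]
  intro y hy
  obtain ⟨x, rfl⟩ := classOf_surjective A n y
  rw [homAdd_classOf] at hy
  cases n with
  | zero =>
    rw [classOf_eq_zero_iff_zero] at hy ⊢
    apply Subtype.ext
    apply (hbij 0).1
    rw [← mapZ_coe, hy]
    exact (map_zero _).symm
  | succ m =>
    rw [classOf_eq_zero_iff_succ] at hy ⊢
    obtain ⟨y', hy'⟩ := hy
    obtain ⟨y, rfl⟩ := (hbij m).2 y'
    refine ⟨y, (hbij (m + 1)).1 ?_⟩
    rw [e.comm, hy', mapZ_coe]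

theorem homAdd_surjective (hbij : ∀ n, Function.Bijective (e.toFun n)) (n : ℕ) :
    Function.Surjective (e.homAdd n) := by
  intro y
  obtain ⟨w, rfl⟩ := classOf_surjective B n y
  obtain ⟨x, hx⟩ := (hbij n).2 w.1
  have hxZ : x ∈ Z A n := by
    rw [mem_Z_iff]
    apply (hbij (n + 1)).1
    rw [e.comm, hx, map_zero]
    exact w.2
  refine ⟨classOf A n ⟨x, hxZ⟩, ?_⟩
  rw [homAdd_classOf]
  congr 1
  exact Subtype.ext hx

theorem homAdd_bijective (hbij : ∀ n, Function.Bijective (e.toFun n)) (n : ℕ) :
    Function.Bijective (e.homAdd n) :=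
  ⟨e.homAdd_injective hbij n, e.homAdd_surjective hbij n⟩

/-- The induced additive equivalence on homology when all components are bijective. -/
noncomputable def homAddEquiv (hbij : ∀ n, Function.Bijective (e.toFun n)) (n : ℕ) :
    A.homology n ≃+ B.homology n :=
  AddEquiv.ofBijective (e.homAdd n) (e.homAdd_bijective hbij n)

@[simp]
theorem homAddEquiv_apply (hbij : ∀ n, Function.Bijective (e.toFun n)) (n : ℕ)
    (x : A.homology n) : e.homAddEquiv hbij n x = e.homAdd n x := rfl

/-- A one-sided inverse at chain level gives a one-sided inverse on homology. -/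
theorem homAdd_homAdd_of_leftInverse (e' : AddChainMap B A)
    (h : ∀ n (x : A.X n), e'.toFun n (e.toFun n x) = x) (n : ℕ) (x : A.homology n) :
    e'.homAdd n (e.homAdd n x) = x := by
  obtain ⟨z, rfl⟩ := classOf_surjective A n x
  rw [homAdd_classOf, homAdd_classOf]
  congr 1
  exact Subtype.ext (h n z.1)

theorem homAddEquiv_symm_apply (hbij : ∀ n, Function.Bijective (e.toFun n)) (e' : AddChainMap B A)
    (h : ∀ n (x : A.X n), e'.toFun n (e.toFun n x) = x) (n : ℕ) (y : B.homology n) :
    (e.homAddEquiv hbij n).symm y = e'.homAdd n y := by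
  rw [AddEquiv.symm_apply_eq, homAddEquiv_apply]
  obtain ⟨x, rfl⟩ := (e.homAdd_bijective hbij n).2 y
  rw [e.homAdd_homAdd_of_leftInverse e' h]

/-- Naturality: a commutative square of (additive) chain maps, with horizontal maps honest
chain maps, induces a commutative square on homology. -/
theorem homAdd_naturality {A' : CochainComplex (ModuleCat.{0} k) ℕ}
    {B' : CochainComplex (ModuleCat.{0} l) ℕ} (e' : AddChainMap A' B') (φ : A ⟶ A') (ψ : B ⟶ B')
    (h : ∀ n (x : A.X n), e'.toFun n ((φ.f n).hom x) = (ψ.f n).hom (e.toFun n x)) (n : ℕ)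
    (x : A.homology n) :
    e'.homAdd n ((HomologicalComplex.homologyMap φ n).hom x) =
      (HomologicalComplex.homologyMap ψ n).hom (e.homAdd n x) := by
  obtain ⟨z, rfl⟩ := classOf_surjective A n x
  rw [homologyMap_classOf, homAdd_classOf, homAdd_classOf, homologyMap_classOf]
  congr 1
  exact Subtype.ext (h n z.1)

/-- Compatibility with connecting homomorphisms: a morphism (by additive chain maps) between
two short exact sequences of complexes commutes with `δ`. -/
theorem homAdd_δ {S : ShortComplex (CochainComplex (ModuleCat.{0} k) ℕ)} (hS : S.ShortExact)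
    {S' : ShortComplex (CochainComplex (ModuleCat.{0} l) ℕ)} (hS' : S'.ShortExact)
    (e₁ : AddChainMap S.X₁ S'.X₁) (e₂ : AddChainMap S.X₂ S'.X₂) (e₃ : AddChainMap S.X₃ S'.X₃)
    (hf : ∀ n (x : S.X₁.X n), e₂.toFun n ((S.f.f n).hom x) = (S'.f.f n).hom (e₁.toFun n x))
    (hg : ∀ n (x : S.X₂.X n), e₃.toFun n ((S.g.f n).hom x) = (S'.g.f n).hom (e₂.toFun n x))
    (i : ℕ) (x : S.X₃.homology i) :
    e₁.homAdd (i + 1) ((hS.δ i (i + 1) rfl).hom x) =
      (hS'.δ i (i + 1) rfl).hom (e₃.homAdd i x) := by
  obtain ⟨z, rfl⟩ := classOf_surjective S.X₃ i x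
  have hi : (S.map (HomologicalComplex.eval (ModuleCat.{0} k) (ComplexShape.up ℕ) i)).ShortExact :=
    hS.map_of_exact _
  have hi1 : (S.map (HomologicalComplex.eval (ModuleCat.{0} k) (ComplexShape.up ℕ)
      (i + 1))).ShortExact := hS.map_of_exact _
  have hsurj : Function.Surjective (S.g.f i).hom := (ModuleCat.epi_iff_surjective _).1 hi.epi_g
  have hex : Function.Exact (S.f.f (i + 1)).hom (S.g.f (i + 1)).hom :=
    (ShortComplex.ShortExact.moduleCat_exact_iff_function_exact _).1 hi1.exact
  obtain ⟨y, hy⟩ := hsurj z.1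
  have h0 : (S.g.f (i + 1)).hom ((S.X₂.d i (i + 1)).hom y) = 0 := by
    have := congr($(S.g.comm i (i + 1)) y)
    simp only [ModuleCat.hom_comp, LinearMap.coe_comp, Function.comp_apply] at this
    rw [← this, hy]
    exact z.2
  obtain ⟨x₁, hx₁⟩ := (hex _).1 h0
  rw [δ_classOf hS i z y hy x₁ hx₁, homAdd_classOf, homAdd_classOf]
  have hy' : (S'.g.f i).hom (e₂.toFun i y) = (e₃.mapZ i z).1 := by
    rw [← hg, hy, mapZ_coe]
  have hx₁' : (S'.f.f (i + 1)).hom (e₁.toFun (i + 1) x₁) =
      (S'.X₂.d i (i + 1)).hom (e₂.toFun i y) := by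
    rw [← hf, hx₁, e₂.comm]
  rw [δ_classOf hS' i (e₃.mapZ i z) (e₂.toFun i y) hy' (e₁.toFun (i + 1) x₁) hx₁']
  rfl

end AddChainMap

end HomAdd

/-! ### Level cochains and level cohomology -/

section Level

variable {k G : Type} [CommRing k] [Group G]

theorem neg_one_pow_smul_eq {M : Type*} [AddCommGroup M] [Module k M] (n : ℕ) (m : M) :
    ((-1 : k) ^ n) • m = ((-1 : ℤ) ^ n) • m := by
  rcases Nat.even_or_odd n with h | h
  · rw [h.neg_one_pow, h.neg_one_pow, one_smul, one_smul]
  · rw [h.neg_one_pow, h.neg_one_pow, neg_smul, neg_smul, one_smul, one_smul]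

/-- The inhomogeneous differential of `intRep M` is that of `M`. -/
theorem d_intRep_apply (M : Rep.{0} k G) (n : ℕ) (f : (Fin n → G) → M) (g : Fin (n + 1) → G) :
    (inhomogeneousCochains.d (intRep M) n).hom f g = (inhomogeneousCochains.d M n).hom f g := by
  rw [inhomogeneousCochains.d_hom_apply, inhomogeneousCochains.d_hom_apply]
  congr 1
  refine Finset.sum_congr rfl fun j _ => ?_
  exact (neg_one_pow_smul_eq (k := k) _ _).symm

theorem d_intRep (M : Rep.{0} k G) (n : ℕ) (f : (Fin n → G) → M) :
    (inhomogeneousCochains.d (intRep M) n).hom f = (inhomogeneousCochains.d M n).hom f :=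
  funext fun g => d_intRep_apply M n f g

variable (𝒰 : LevelFamily G) (M : Rep.{0} k G)

theorem isLevelCochain_intRep_iff {n : ℕ} (f : (Fin n → G) → M) :
    𝒰.IsLevelCochain (intRep M) f ↔ 𝒰.IsLevelCochain M f := Iff.rfl

/-- Level cochains of `M` and of `intRep M` coincide (identity on functions). -/
def levelCochainsInt (n : ℕ) : 𝒰.levelCochains M n ≃+ 𝒰.levelCochains (intRep M) n where
  toFun x := ⟨x.1, x.2⟩
  invFun x := ⟨x.1, x.2⟩
  left_inv _ := rfl
  right_inv _ := rfl
  map_add' _ _ := rfl

@[simp]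
theorem levelCochainsInt_coe {n : ℕ} (x : 𝒰.levelCochains M n) :
    (levelCochainsInt 𝒰 M n x).1 = x.1 := rfl

@[simp]
theorem levelCochainsInt_symm_coe {n : ℕ} (x : 𝒰.levelCochains (intRep M) n) :
    ((levelCochainsInt 𝒰 M n).symm x).1 = x.1 := rfl

/-- The identity on level cochains, as an additive chain map from the level complex of `M` to
that of `intRep M`. -/
noncomputable def levelInt : AddChainMap (𝒰.levelComplex M) (𝒰.levelComplex (intRep M)) where
  toFun n := (levelCochainsInt 𝒰 M n).toAddMonoidHom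
  comm n x := by
    apply Subtype.ext
    refine Eq.trans ?_ (LES.levelComplex_d_hom_coe 𝒰 (intRep M) n (levelCochainsInt 𝒰 M n x)).symm
    rw [d_intRep]
    exact LES.levelComplex_d_hom_coe 𝒰 M n x

@[simp]
theorem levelInt_toFun_coe {n : ℕ} (x : 𝒰.levelCochains M n) :
    (show 𝒰.levelCochains (intRep M) n from (levelInt 𝒰 M).toFun n x).1 = x.1 := rfl

theorem levelInt_bijective (n : ℕ) : Function.Bijective ((levelInt 𝒰 M).toFun n) :=
  (levelCochainsInt 𝒰 M n).bijective

/-- Level cohomology of `M` and of `intRep M` coincide. -/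
noncomputable def levelCohomologyInt (n : ℕ) :
    𝒰.levelCohomology M n ≃+ 𝒰.levelCohomology (intRep M) n :=
  (levelInt 𝒰 M).homAddEquiv (levelInt_bijective 𝒰 M) n

theorem levelCohomologyInt_classOf (n : ℕ) (z : Z (𝒰.levelComplex M) n) :
    levelCohomologyInt 𝒰 M n (classOf _ n z) =
      classOf (𝒰.levelComplex (intRep M)) n ((levelInt 𝒰 M).mapZ n z) :=
  (levelInt 𝒰 M).homAdd_classOf n z

/-- The inverse of `levelInt`. -/
noncomputable def levelIntInv : AddChainMap (𝒰.levelComplex (intRep M)) (𝒰.levelComplex M) where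
  toFun n := (levelCochainsInt 𝒰 M n).symm.toAddMonoidHom
  comm n x := by
    apply Subtype.ext
    refine Eq.trans ?_
      (LES.levelComplex_d_hom_coe 𝒰 M n ((levelCochainsInt 𝒰 M n).symm x)).symm
    rw [← d_intRep]
    exact LES.levelComplex_d_hom_coe 𝒰 (intRep M) n x

theorem levelCohomologyInt_symm_apply (n : ℕ) (y : 𝒰.levelCohomology (intRep M) n) :
    (levelCohomologyInt 𝒰 M n).symm y = (levelIntInv 𝒰 M).homAdd n y :=
  (levelInt 𝒰 M).homAddEquiv_symm_apply (levelInt_bijective 𝒰 M) (levelIntInv 𝒰 M)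
    (fun _ _ => rfl) n y

theorem levelCohomologyInt_symm_classOf (n : ℕ) (z : Z (𝒰.levelComplex (intRep M)) n) :
    (levelCohomologyInt 𝒰 M n).symm (classOf _ n z) =
      classOf (𝒰.levelComplex M) n ((levelIntInv 𝒰 M).mapZ n z) := by
  rw [levelCohomologyInt_symm_apply, AddChainMap.homAdd_classOf]

section LevelNaturality

variable {G' : Type} [Group G'] {𝒰 : LevelFamily G} {𝒰' : LevelFamily G'}
  {M : Rep.{0} k G} {M' : Rep.{0} k G'}

/-- The morphism `intMap φ`, for `φ : Rep.res f M ⟶ M'`, viewed as a morphism out of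
`Rep.res f (intRep M)`. -/
noncomputable abbrev intMapRes (f : G' →* G) (φ : Rep.res f M ⟶ M') :
    Rep.res f (intRep M) ⟶ intRep M' := intMap φ

/-- Cochain level compatibility of `levelInt` with change of group and coefficients. -/
theorem levelInt_levelCochainsMap (f : G' →* G) (hf : IsCompatible 𝒰' 𝒰 f)
    (φ : Rep.res f M ⟶ M') (n : ℕ) (x : (𝒰.levelComplex M).X n) :
    (levelInt 𝒰' M').toFun n (((levelCochainsMap f hf φ).f n).hom x) =
      ((levelCochainsMap f hf (intMapRes f φ)).f n).hom ((levelInt 𝒰 M).toFun n x) := rfl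

/-- `levelCohomologyInt` is natural with respect to change of group and coefficients. -/
theorem levelCohomologyInt_map (f : G' →* G) (hf : IsCompatible 𝒰' 𝒰 f)
    (φ : Rep.res f M ⟶ M') (n : ℕ) (x : 𝒰.levelCohomology M n) :
    levelCohomologyInt 𝒰' M' n ((LES.map f hf φ n).hom x) =
      (LES.map f hf (intMapRes f φ) n).hom (levelCohomologyInt 𝒰 M n x) :=
  (levelInt 𝒰 M).homAdd_naturality (levelInt 𝒰' M') (levelCochainsMap f hf φ)
    (levelCochainsMap f hf (intMapRes f φ)) (levelInt_levelCochainsMap f hf φ) n x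

/-- `levelCohomologyInt` is natural in the coefficient module. -/
theorem levelCohomologyInt_levelCohomologyMap {N : Rep.{0} k G} (φ : M ⟶ N) (n : ℕ)
    (x : 𝒰.levelCohomology M n) :
    levelCohomologyInt 𝒰 N n ((𝒰.levelCohomologyMap φ n).hom x) =
      (𝒰.levelCohomologyMap (intMap φ) n).hom (levelCohomologyInt 𝒰 M n x) :=
  levelCohomologyInt_map (MonoidHom.id G) 𝒰.isCompatible_id φ n x

/-- `levelCohomologyInt` is compatible with the connecting homomorphisms. -/
theorem levelCohomologyInt_δ {X : ShortComplex (Rep.{0} k G)} (hX : X.ShortExact)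
    (hd : 𝒰.IsDiscrete X.X₂) (i j : ℕ) (hij : i + 1 = j) (x : 𝒰.levelCohomology X.X₃ i) :
    levelCohomologyInt 𝒰 X.X₁ j ((𝒰.δ hX hd i j hij).hom x) =
      (𝒰.δ (X := X.map (intFunctor k G)) ((intFunctor_map_shortExact_iff X).2 hX) hd i j hij).hom
        (levelCohomologyInt 𝒰 X.X₃ i x) := by
  subst hij
  exact AddChainMap.homAdd_δ (𝒰.map_levelComplexFunctor_shortExact hX hd)
    (𝒰.map_levelComplexFunctor_shortExact (X := X.map (intFunctor k G))
      ((intFunctor_map_shortExact_iff X).2 hX) hd)
    (levelInt 𝒰 X.X₁) (levelInt 𝒰 X.X₂) (levelInt 𝒰 X.X₃) (fun _ _ => rfl) (fun _ _ => rfl) i x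

end LevelNaturality

end Level

end Fermat.Agent.Lib.CFT.Duality.ChangeRing
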