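import Fermat.Agent.Lib.CFT.Duality.NatConeMap

/-!
# The abstract zigzag `Hⁿ⁺¹(cone(loc)) ≅ Hⁿ(KC)`

Abstract homological algebra behind the base case of global duality.  Given complexes and maps

```
      A  --loc-->  B
      |u           |uL
      v            v
      KE --i--> KJ --lam--> KL          KE --i--> KJ --π--> KC  termwise short exact
```

with `loc ≫ uL = u ≫ i ≫ lam`, the zigzag
`Hⁿ⁺¹(cone loc) → Hⁿ⁺¹(cone (i ≫ lam)) ← Hⁿ⁺¹(cone i) → Hⁿ(KC)` defines
`theta : Hⁿ⁺¹(cone loc) → Hⁿ(KC)` as soon as the middle arrow is bijective; it is natural for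
morphisms of such data, of degree `0` (chain maps) and of degree `1` (`Deg1Map`, e.g. cup products
with a class of degree one).
-/

set_option autoImplicit false

universe u

open CategoryTheory

namespace Fermat.Agent.Lib.CFT.Duality.Zigzag

open ConcreteHomology NatCone HomologicalComplex natCone

variable {k : Type u} [CommRing k]

/-! ### Degree-one maps -/

/-- A degree-one map of cochain complexes commuting with the differentials (no sign). -/
structure Deg1Map (A B : CochainComplex (ModuleCat.{u} k) ℕ) where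
  /-- the components -/
  f : ∀ n, A.X n →ₗ[k] B.X (n + 1)
  comm : ∀ n (a : A.X n),
    f (n + 1) ((A.d n (n + 1)).hom a) = (B.d (n + 1) (n + 1 + 1)).hom (f n a)

namespace Deg1Map

variable {A B A' B' : CochainComplex (ModuleCat.{u} k) ℕ} (F : Deg1Map A B)

theorem f_mem_Z (n : ℕ) (z : Z A n) : F.f n z.1 ∈ Z B (n + 1) := by
  rw [mem_Z_iff, ← F.comm, (mem_Z_iff A z.1).1 z.2, map_zero]

/-- The induced map on cocycles. -/
def mapZ1 (n : ℕ) : Z A n →ₗ[k] Z B (n + 1) :=
  ((F.f n).comp (Z A n).subtype).codRestrict _ (fun z => F.f_mem_Z n z)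

@[simp] theorem mapZ1_coe (n : ℕ) (z : Z A n) : (F.mapZ1 n z).1 = F.f n z.1 := rfl

/-- The induced map `Hⁿ(A) → Hⁿ⁺¹(B)`. -/
noncomputable def homologyMap (n : ℕ) : A.homology n →ₗ[k] B.homology (n + 1) :=
  descH ((classOf B (n + 1)).comp (F.mapZ1 n)) (fun z hz => by
    rw [LinearMap.comp_apply]
    cases n with
    | zero =>
      have h0 := (classOf_eq_zero_iff_zero A z).1 hz
      rw [h0, map_zero, map_zero]
    | succ m =>
      obtain ⟨w, hw⟩ := (classOf_eq_zero_iff_succ A m z).1 hz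
      rw [classOf_eq_zero_iff_succ]
      exact ⟨F.f m w, by rw [← F.comm, hw]; rfl⟩)

@[simp] theorem homologyMap_classOf (n : ℕ) (z : Z A n) :
    F.homologyMap n (classOf A n z) = classOf B (n + 1) (F.mapZ1 n z) := by
  unfold homologyMap
  rw [descH_classOf]
  rfl

/-- Compatibility with chain maps: a commutative square of a degree-one map with chain maps
commutes in homology. -/
theorem homologyMap_sq (F' : Deg1Map A' B') (g : A ⟶ A') (h : B ⟶ B')
    (hc : ∀ n (a : A.X n), (h.f (n + 1)).hom (F.f n a) = F'.f n ((g.f n).hom a))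
    (n : ℕ) (x : A.homology n) :
    (HomologicalComplex.homologyMap h (n + 1)).hom (F.homologyMap n x) =
      F'.homologyMap n ((HomologicalComplex.homologyMap g n).hom x) := by
  obtain ⟨z, rfl⟩ := classOf_surjective A n x
  rw [homologyMap_classOf, ConcreteHomology.homologyMap_classOf,
    ConcreteHomology.homologyMap_classOf, homologyMap_classOf]
  congr 1
  apply Subtype.ext
  rw [mapZ_coe, mapZ1_coe, mapZ1_coe, mapZ_coe, hc]

end Deg1Map

/-! ### The cone of a pair of degree-one maps -/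

section cone1

variable {K L K' L' : CochainComplex (ModuleCat.{u} k) ℕ} (φ : K ⟶ L) (φ' : K' ⟶ L')
  (FK : Deg1Map K K') (FL : Deg1Map L L')

/-- The components of the degree-one map of cones `(a, b) ↦ (FK a, FL b)`. -/
noncomputable def cone1L : ∀ n, (natCone φ).X n →ₗ[k] (natCone φ').X (n + 1)
  | 0 => (inlL φ' 1).comp ((FK.f 0).comp (fstL φ 0))
  | m + 1 => (inlL φ' (m + 1 + 1)).comp ((FK.f (m + 1)).comp (fstL φ (m + 1))) +
      (inrL φ' (m + 1)).comp ((FL.f m).comp (sndL φ m))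

@[simp] theorem fstL_cone1L (n : ℕ) (x : (natCone φ).X n) :
    fstL φ' (n + 1) (cone1L φ φ' FK FL n x) = FK.f n (fstL φ n x) := by
  cases n with
  | zero => rfl
  | succ m =>
    show fstL φ' (m + 1 + 1) (inlL φ' (m + 1 + 1) _ + inrL φ' (m + 1) _) = _
    rw [map_add, fstL_inlL, fstL_inrL, add_zero]
    rfl

@[simp] theorem sndL_cone1L_zero (x : (natCone φ).X 0) :
    sndL φ' 0 (cone1L φ φ' FK FL 0 x) = 0 := rfl

@[simp] theorem sndL_cone1L_succ (m : ℕ) (x : (natCone φ).X (m + 1)) :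
    sndL φ' (m + 1) (cone1L φ φ' FK FL (m + 1) x) = FL.f m (sndL φ m x) := by
  show sndL φ' (m + 1) (inlL φ' (m + 1 + 1) _ + inrL φ' (m + 1) _) = _
  rw [map_add, sndL_inlL, sndL_inrL, zero_add]
  rfl

variable (hc : ∀ n (a : K.X n), (φ'.f (n + 1)).hom (FK.f n a) = FL.f n ((φ.f n).hom a))

/-- The degree-one map of cones induced by a pair of degree-one maps commuting with `φ`, `φ'`. -/
noncomputable def cone1 : Deg1Map (natCone φ) (natCone φ') where
  f := cone1L φ φ' FK FL
  comm n x := by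
    refine ext_succ φ' ?_ ?_
    · rw [fstL_cone1L, fstL_d, fstL_d, fstL_cone1L, FK.comm]
    · cases n with
      | zero =>
        rw [sndL_cone1L_succ, sndL_d_zero, sndL_d_succ, fstL_cone1L, sndL_cone1L_zero, map_zero,
          sub_zero, hc]
      | succ m =>
        rw [sndL_cone1L_succ, sndL_d_succ, sndL_d_succ, fstL_cone1L, sndL_cone1L_succ, map_sub,
          hc, FL.comm]

@[simp] theorem cone1_f (n : ℕ) (x : (natCone φ).X n) :
    (cone1 φ φ' FK FL hc).f n x = cone1L φ φ' FK FL n x := rfl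

end cone1

section cone1sq

variable {K L K' L' M N M' N' : CochainComplex (ModuleCat.{u} k) ℕ}
  (φ : K ⟶ L) (φ' : K' ⟶ L') (ψ : M ⟶ N) (ψ' : M' ⟶ N')
  (FK : Deg1Map K K') (FL : Deg1Map L L') (GM : Deg1Map M M') (GN : Deg1Map N N')
  (hF : ∀ n (a : K.X n), (φ'.f (n + 1)).hom (FK.f n a) = FL.f n ((φ.f n).hom a))
  (hG : ∀ n (a : M.X n), (ψ'.f (n + 1)).hom (GM.f n a) = GN.f n ((ψ.f n).hom a))
  (α : K ⟶ M) (β : L ⟶ N) (hαβ : φ ≫ β = α ≫ ψ)
  (α' : K' ⟶ M') (β' : L' ⟶ N') (hαβ' : φ' ≫ β' = α' ≫ ψ')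
  (hα : ∀ n (a : K.X n), (α'.f (n + 1)).hom (FK.f n a) = GM.f n ((α.f n).hom a))
  (hβ : ∀ n (b : L.X n), (β'.f (n + 1)).hom (FL.f n b) = GN.f n ((β.f n).hom b))

include hα hβ in
/-- Degree-one maps of cones commute with maps of cones, termwise. -/
theorem map_cone1 (n : ℕ) (x : (natCone φ).X n) :
    ((natCone.map φ' ψ' α' β' hαβ').f (n + 1)).hom ((cone1 φ φ' FK FL hF).f n x) =
      (cone1 ψ ψ' GM GN hG).f n (((natCone.map φ ψ α β hαβ).f n).hom x) := by
  refine ext_succ ψ' ?_ ?_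
  · rw [fstL_map, cone1_f, fstL_cone1L, cone1_f, fstL_cone1L, fstL_map, hα]
  · cases n with
    | zero =>
      rw [sndL_map, cone1_f, sndL_cone1L_zero, cone1_f, sndL_cone1L_zero, map_zero]
    | succ m =>
      rw [sndL_map, cone1_f, sndL_cone1L_succ, cone1_f, sndL_cone1L_succ, sndL_map, hβ]

include hα hβ in
theorem homologyMap_map_cone1 (n : ℕ) (x : (natCone φ).homology n) :
    (HomologicalComplex.homologyMap (natCone.map φ' ψ' α' β' hαβ') (n + 1)).hom
        ((cone1 φ φ' FK FL hF).homologyMap n x) =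
      (cone1 ψ ψ' GM GN hG).homologyMap n
        ((HomologicalComplex.homologyMap (natCone.map φ ψ α β hαβ) n).hom x) :=
  Deg1Map.homologyMap_sq _ _ _ _
    (map_cone1 φ φ' ψ ψ' FK FL GM GN hF hG α β hαβ α' β' hαβ' hα hβ) n x

end cone1sq

section coker1

variable {K L Q K' L' Q' : CochainComplex (ModuleCat.{u} k) ℕ} (i : K ⟶ L) (π : L ⟶ Q)
  (hex : ∀ n (b : L.X n), (π.f n).hom b = 0 ↔ ∃ a, (i.f n).hom a = b)
  (i' : K' ⟶ L') (π' : L' ⟶ Q')
  (hex' : ∀ n (b : L'.X n), (π'.f n).hom b = 0 ↔ ∃ a, (i'.f n).hom a = b)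
  (FK : Deg1Map K K') (FL : Deg1Map L L') (FQ : Deg1Map Q Q')
  (hi : ∀ n (a : K.X n), (i'.f (n + 1)).hom (FK.f n a) = FL.f n ((i.f n).hom a))
  (hπ : ∀ n (b : L.X n), (π'.f (n + 1)).hom (FL.f n b) = FQ.f n ((π.f n).hom b))

include hπ in
/-- `toCoker` is compatible with degree-one maps. -/
theorem toCoker_cone1 (n : ℕ) (x : (natCone i).homology (n + 1)) :
    toCoker i' π' hex' (n + 1) ((cone1 i i' FK FL hi).homologyMap (n + 1) x) =
      FQ.homologyMap n (toCoker i π hex n x) := by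
  obtain ⟨z, rfl⟩ := classOf_surjective (natCone i) (n + 1) x
  rw [Deg1Map.homologyMap_classOf, toCoker_classOf, toCoker_classOf, Deg1Map.homologyMap_classOf]
  congr 1
  apply Subtype.ext
  rw [toCokerZ_coe, Deg1Map.mapZ1_coe, Deg1Map.mapZ1_coe, toCokerZ_coe, cone1_f,
    sndL_cone1L_succ, hπ]

end coker1

section coker0

variable {K L Q K' L' Q' : CochainComplex (ModuleCat.{u} k) ℕ} (i : K ⟶ L) (π : L ⟶ Q)
  (hex : ∀ n (b : L.X n), (π.f n).hom b = 0 ↔ ∃ a, (i.f n).hom a = b)
  (i' : K' ⟶ L') (π' : L' ⟶ Q')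
  (hex' : ∀ n (b : L'.X n), (π'.f n).hom b = 0 ↔ ∃ a, (i'.f n).hom a = b)
  (fK : K ⟶ K') (fL : L ⟶ L') (fQ : Q ⟶ Q')
  (hi : i ≫ fL = fK ≫ i') (hπ : π ≫ fQ = fL ≫ π')

include hπ in
/-- `toCoker` is natural for morphisms of termwise short exact sequences. -/
theorem toCoker_map (n : ℕ) (x : (natCone i).homology (n + 1)) :
    toCoker i' π' hex' n
        ((HomologicalComplex.homologyMap (natCone.map i i' fK fL hi) (n + 1)).hom x) =
      (HomologicalComplex.homologyMap fQ n).hom (toCoker i π hex n x) := by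
  obtain ⟨z, rfl⟩ := classOf_surjective (natCone i) (n + 1) x
  rw [ConcreteHomology.homologyMap_classOf, toCoker_classOf, toCoker_classOf,
    ConcreteHomology.homologyMap_classOf]
  congr 1
  apply Subtype.ext
  rw [toCokerZ_coe, mapZ_coe, mapZ_coe, toCokerZ_coe, sndL_map]
  exact (comm_f_apply π π' fL fQ hπ n _).symm

end coker0

/-! ### Zigzag data -/

variable (k) in
/-- The data of the zigzag: a square `loc ≫ uL = u ≫ i ≫ lam` and a termwise short exact
sequence `KE → KJ → KC`. -/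
structure Data where
  (A B KE KJ KC KL : CochainComplex (ModuleCat.{u} k) ℕ)
  loc : A ⟶ B
  u : A ⟶ KE
  uL : B ⟶ KL
  i : KE ⟶ KJ
  π : KJ ⟶ KC
  lam : KJ ⟶ KL
  comm : loc ≫ uL = u ≫ i ≫ lam
  hinj : ∀ n, Function.Injective (i.f n).hom
  hsurj : ∀ n, Function.Surjective (π.f n).hom
  hex : ∀ n (b : KJ.X n), (π.f n).hom b = 0 ↔ ∃ a, (i.f n).hom a = b

namespace Data

variable (D : Data k)

/-- The composite `KE → KJ → KL`. -/
noncomputable abbrev il : D.KE ⟶ D.KL := D.i ≫ D.lam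

/-- The first arrow of the zigzag, `cone(loc) → cone(i ≫ lam)`. -/
noncomputable def m1 : natCone D.loc ⟶ natCone D.il :=
  natCone.map D.loc D.il D.u D.uL D.comm

/-- The second (backwards) arrow of the zigzag, `cone(i) → cone(i ≫ lam)`. -/
noncomputable def m2 : natCone D.i ⟶ natCone D.il :=
  natCone.map D.i D.il (𝟙 _) D.lam (by simp)

/-- The zigzag relation between `Hⁿ⁺¹(cone loc)` and `Hⁿ(KC)`. -/
def Rel (n : ℕ) (x : (natCone D.loc).homology (n + 1)) (c : D.KC.homology n) : Prop :=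
  ∃ y : (natCone D.i).homology (n + 1),
    (HomologicalComplex.homologyMap D.m2 (n + 1)).hom y =
      (HomologicalComplex.homologyMap D.m1 (n + 1)).hom x ∧
    toCoker D.i D.π D.hex n y = c

/-- The middle arrow of the zigzag is bijective in degree `n + 1`. -/
def Good (n : ℕ) : Prop :=
  Function.Bijective (HomologicalComplex.homologyMap D.m2 (n + 1)).hom

theorem good_of_lam (n : ℕ) (h0 : Function.Bijective (HomologicalComplex.homologyMap D.lam n).hom)
    (h1 : Function.Injective (HomologicalComplex.homologyMap D.lam (n + 1)).hom) : D.Good n := by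
  refine natCone.map_homology_bijective D.i D.il (𝟙 _) D.lam (by simp) n ?_ h0 ?_ h1
  · rw [HomologicalComplex.homologyMap_id]
    exact Function.surjective_id
  · rw [HomologicalComplex.homologyMap_id]
    exact Function.bijective_id

theorem m1_bijective (n : ℕ)
    (hu0 : Function.Surjective (HomologicalComplex.homologyMap D.u n).hom)
    (hL0 : Function.Bijective (HomologicalComplex.homologyMap D.uL n).hom)
    (hu1 : Function.Bijective (HomologicalComplex.homologyMap D.u (n + 1)).hom)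
    (hL1 : Function.Injective (HomologicalComplex.homologyMap D.uL (n + 1)).hom) :
    Function.Bijective (HomologicalComplex.homologyMap D.m1 (n + 1)).hom :=
  natCone.map_homology_bijective D.loc D.il D.u D.uL D.comm n hu0 hL0 hu1 hL1

variable {D}

/-- The zigzag map `Hⁿ⁺¹(cone loc) → Hⁿ(KC)`. -/
noncomputable def theta {n : ℕ} (hg : D.Good n) :
    (natCone D.loc).homology (n + 1) →ₗ[k] D.KC.homology n :=
  (toCoker D.i D.π D.hex n).comp
    ((LinearEquiv.ofBijective _ hg).symm.toLinearMap.comp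
      (HomologicalComplex.homologyMap D.m1 (n + 1)).hom)

theorem rel_theta {n : ℕ} (hg : D.Good n) (x : (natCone D.loc).homology (n + 1)) :
    D.Rel n x (theta hg x) :=
  ⟨(LinearEquiv.ofBijective _ hg).symm ((HomologicalComplex.homologyMap D.m1 (n + 1)).hom x),
    (LinearEquiv.ofBijective _ hg).apply_symm_apply _, rfl⟩

theorem Rel.eq_theta {n : ℕ} (hg : D.Good n) {x : (natCone D.loc).homology (n + 1)}
    {c : D.KC.homology n} (h : D.Rel n x c) : c = theta hg x := by
  obtain ⟨y, hy, rfl⟩ := h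
  obtain ⟨y', hy', h'⟩ := rel_theta hg x
  rw [← h', hg.1 (hy.trans hy'.symm)]

theorem theta_bijective {n : ℕ} (hg : D.Good n)
    (h1 : Function.Bijective (HomologicalComplex.homologyMap D.m1 (n + 1)).hom) :
    Function.Bijective (theta hg) :=
  (toCoker_bijective D.i D.π D.hinj D.hsurj D.hex n).comp
    ((LinearEquiv.ofBijective _ hg).symm.bijective.comp h1)

/-- The zigzag on the image of the boundary map `Hⁿ(B) → Hⁿ⁺¹(cone loc)`. -/
theorem rel_bdry (n : ℕ) (x : D.B.homology n) (y : D.KJ.homology n)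
    (hxy : (HomologicalComplex.homologyMap D.lam n).hom y =
      (HomologicalComplex.homologyMap D.uL n).hom x) :
    D.Rel n (bdry D.loc n x) ((HomologicalComplex.homologyMap D.π n).hom y) := by
  refine ⟨bdry D.i n y, ?_, toCoker_bdry D.i D.π D.hex n y⟩
  unfold m1 m2
  rw [homologyMap_map_bdry, homologyMap_map_bdry, hxy]

theorem theta_bdry {n : ℕ} (hg : D.Good n) (x : D.B.homology n) (y : D.KJ.homology n)
    (hxy : (HomologicalComplex.homologyMap D.lam n).hom y =
      (HomologicalComplex.homologyMap D.uL n).hom x) :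
    theta hg (bdry D.loc n x) = (HomologicalComplex.homologyMap D.π n).hom y :=
  ((rel_bdry n x y hxy).eq_theta hg).symm

end Data

/-! ### Naturality in degree zero -/

/-- A morphism of zigzag data. -/
structure Hom (D D' : Data k) where
  fA : D.A ⟶ D'.A
  fB : D.B ⟶ D'.B
  fKE : D.KE ⟶ D'.KE
  fKJ : D.KJ ⟶ D'.KJ
  fKC : D.KC ⟶ D'.KC
  fKL : D.KL ⟶ D'.KL
  loc_comm : D.loc ≫ fB = fA ≫ D'.loc
  u_comm : D.u ≫ fKE = fA ≫ D'.u
  uL_comm : D.uL ≫ fKL = fB ≫ D'.uL
  i_comm : D.i ≫ fKJ = fKE ≫ D'.i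
  π_comm : D.π ≫ fKC = fKJ ≫ D'.π
  lam_comm : D.lam ≫ fKL = fKJ ≫ D'.lam

namespace Hom

variable {D D' : Data k} (f : Hom D D')

theorem il_comm : D.il ≫ f.fKL = f.fKE ≫ D'.il := by
  rw [Category.assoc, f.lam_comm, ← Category.assoc, f.i_comm, Category.assoc]

/-- The induced map on `cone(loc)`. -/
noncomputable def coneLoc : natCone D.loc ⟶ natCone D'.loc :=
  natCone.map D.loc D'.loc f.fA f.fB f.loc_comm

/-- The induced map on `cone(i)`. -/
noncomputable def coneI : natCone D.i ⟶ natCone D'.i :=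
  natCone.map D.i D'.i f.fKE f.fKJ f.i_comm

/-- The induced map on `cone(i ≫ lam)`. -/
noncomputable def coneIl : natCone D.il ⟶ natCone D'.il :=
  natCone.map D.il D'.il f.fKE f.fKL f.il_comm

theorem m1_comm : D.m1 ≫ f.coneIl = f.coneLoc ≫ D'.m1 := by
  unfold Data.m1 coneIl coneLoc
  rw [natCone.map_comp, natCone.map_comp]
  refine natCone.hom_ext _ (fun n x => ?_) (fun n x => ?_)
  · rw [fstL_map, fstL_map]
    exact congr($(f.u_comm).f n _)
  · rw [sndL_map, sndL_map]
    exact congr($(f.uL_comm).f n _)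

theorem m2_comm : D.m2 ≫ f.coneIl = f.coneI ≫ D'.m2 := by
  unfold Data.m2 coneIl coneI
  rw [natCone.map_comp, natCone.map_comp]
  refine natCone.hom_ext _ (fun n x => ?_) (fun n x => ?_)
  · rw [fstL_map, fstL_map]
    simp
  · rw [sndL_map, sndL_map]
    exact congr($(f.lam_comm).f n _)

/-- Naturality of the zigzag relation. -/
theorem rel {n : ℕ} {x : (natCone D.loc).homology (n + 1)} {c : D.KC.homology n}
    (h : D.Rel n x c) :
    D'.Rel n ((HomologicalComplex.homologyMap f.coneLoc (n + 1)).hom x)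
      ((HomologicalComplex.homologyMap f.fKC n).hom c) := by
  obtain ⟨y, hy, rfl⟩ := h
  refine ⟨(HomologicalComplex.homologyMap f.coneI (n + 1)).hom y, ?_,
    toCoker_map D.i D.π D.hex D'.i D'.π D'.hex f.fKE f.fKJ f.fKC f.i_comm f.π_comm n y⟩
  have h1 := congr_arg (fun g => HomologicalComplex.homologyMap g (n + 1)) f.m1_comm
  have h2 := congr_arg (fun g => HomologicalComplex.homologyMap g (n + 1)) f.m2_comm
  simp only [HomologicalComplex.homologyMap_comp] at h1 h2
  have h1' := congr($h1 x)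
  have h2' := congr($h2 y)
  simp only [ModuleCat.hom_comp, LinearMap.comp_apply] at h1' h2'
  rw [← h2', hy, h1']

theorem theta_comm {n : ℕ} (hg : D.Good n) (hg' : D'.Good n)
    (x : (natCone D.loc).homology (n + 1)) :
    Data.theta hg' ((HomologicalComplex.homologyMap f.coneLoc (n + 1)).hom x) =
      (HomologicalComplex.homologyMap f.fKC n).hom (Data.theta hg x) :=
  ((f.rel (Data.rel_theta hg x)).eq_theta hg').symm

end Hom

/-! ### Naturality in degree one -/

/-- A degree-one morphism of zigzag data. -/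
structure Hom1 (D D' : Data k) where
  fA : Deg1Map D.A D'.A
  fB : Deg1Map D.B D'.B
  fKE : Deg1Map D.KE D'.KE
  fKJ : Deg1Map D.KJ D'.KJ
  fKC : Deg1Map D.KC D'.KC
  fKL : Deg1Map D.KL D'.KL
  loc_comm : ∀ n (a : D.A.X n), (D'.loc.f (n + 1)).hom (fA.f n a) = fB.f n ((D.loc.f n).hom a)
  u_comm : ∀ n (a : D.A.X n), (D'.u.f (n + 1)).hom (fA.f n a) = fKE.f n ((D.u.f n).hom a)
  uL_comm : ∀ n (b : D.B.X n), (D'.uL.f (n + 1)).hom (fB.f n b) = fKL.f n ((D.uL.f n).hom b)
  i_comm : ∀ n (a : D.KE.X n), (D'.i.f (n + 1)).hom (fKE.f n a) = fKJ.f n ((D.i.f n).hom a)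
  π_comm : ∀ n (b : D.KJ.X n), (D'.π.f (n + 1)).hom (fKJ.f n b) = fKC.f n ((D.π.f n).hom b)
  lam_comm : ∀ n (b : D.KJ.X n),
    (D'.lam.f (n + 1)).hom (fKJ.f n b) = fKL.f n ((D.lam.f n).hom b)

namespace Hom1

variable {D D' : Data k} (f : Hom1 D D')

theorem il_comm (n : ℕ) (a : D.KE.X n) :
    (D'.il.f (n + 1)).hom (f.fKE.f n a) = f.fKL.f n ((D.il.f n).hom a) := by
  show (D'.lam.f (n + 1)).hom ((D'.i.f (n + 1)).hom (f.fKE.f n a)) =
    f.fKL.f n ((D.lam.f n).hom ((D.i.f n).hom a))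
  rw [f.i_comm, f.lam_comm]

/-- The induced degree-one map on `cone(loc)`. -/
noncomputable def coneLoc : Deg1Map (natCone D.loc) (natCone D'.loc) :=
  cone1 D.loc D'.loc f.fA f.fB f.loc_comm

/-- The induced degree-one map on `cone(i)`. -/
noncomputable def coneI : Deg1Map (natCone D.i) (natCone D'.i) :=
  cone1 D.i D'.i f.fKE f.fKJ f.i_comm

/-- The induced degree-one map on `cone(i ≫ lam)`. -/
noncomputable def coneIl : Deg1Map (natCone D.il) (natCone D'.il) :=
  cone1 D.il D'.il f.fKE f.fKL f.il_comm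

/-- Naturality of the zigzag relation for degree-one morphisms. -/
theorem rel {n : ℕ} {x : (natCone D.loc).homology (n + 1)} {c : D.KC.homology n}
    (h : D.Rel n x c) :
    D'.Rel (n + 1) (f.coneLoc.homologyMap (n + 1) x) (f.fKC.homologyMap n c) := by
  obtain ⟨y, hy, rfl⟩ := h
  refine ⟨f.coneI.homologyMap (n + 1) y, ?_,
    toCoker_cone1 D.i D.π D.hex D'.i D'.π D'.hex f.fKE f.fKJ f.fKC f.i_comm f.π_comm n y⟩
  have h1 := homologyMap_map_cone1 D.loc D'.loc D.il D'.il f.fA f.fB f.fKE f.fKL f.loc_comm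
    f.il_comm D.u D.uL D.comm D'.u D'.uL D'.comm f.u_comm f.uL_comm (n + 1) x
  have h2 := homologyMap_map_cone1 D.i D'.i D.il D'.il f.fKE f.fKJ f.fKE f.fKL f.i_comm
    f.il_comm (𝟙 _) D.lam (by simp) (𝟙 _) D'.lam (by simp) (fun _ _ => rfl) f.lam_comm (n + 1) y
  exact h2.trans ((congr_arg _ hy).trans h1.symm)

theorem theta_comm {n : ℕ} (hg : D.Good n) (hg' : D'.Good (n + 1))
    (x : (natCone D.loc).homology (n + 1)) :
    Data.theta hg' (f.coneLoc.homologyMap (n + 1) x) = f.fKC.homologyMap n (Data.theta hg x) :=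
  ((f.rel (Data.rel_theta hg x)).eq_theta hg').symm

end Hom1

end Fermat.Agent.Lib.CFT.Duality.Zigzag
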