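import Fermat.Agent.Lib.CFT.Duality.BaseCase.KerToKp
import Fermat.Agent.Lib.CFT.Duality.BaseCase.Zigzag
import Fermat.Agent.Lib.CFT.Duality.ConeLES

/-!
# The zigzag of the base case, for level complexes

A `KDatum` over a localisation datum `D` packages a module `N` killed by `p`, a short exact
sequence `0 ⟶ E ⟶ J ⟶ C ⟶ 0` of `G`-modules with `N ≅ E[p]`, `E` `p`-divisible and `J` discrete,
and for every place `v` a discrete `p`-divisible local module `L v` with a map `res J ⟶ L v` such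
that `N ≅ (L v)[p]`.  It yields a `Zigzag.Data`, hence a map
`theta : Hⁿ⁺¹_c(N) ⟶ Tⁿ(C)` which is bijective as soon as `Tⁿ(J) ⟶ ∏ᵥ Tⁿ(L v)` is bijective in
degree `n` and injective in degree `n + 1`.
-/

set_option autoImplicit false

open CategoryTheory Fermat.Agent.Lib.CFT.Profinite

namespace Fermat.Agent.Lib.CFT.Duality.KCalc

open ConcreteHomology Fermat.Agent.Lib.CFT.Duality.Zigzag

/-- The data of the base case zigzag. -/
structure KDatum (k : Type) [CommRing k] {G : Type} [Group G] (D : LocDatum G) (p : ℕ) where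
  (N E J C : Rep k G)
  ι : N ⟶ E
  i : E ⟶ J
  π : J ⟶ C
  L : ∀ v : D.ι, Rep k (D.H v)
  ρ : ∀ v, D.resRep J v ⟶ L v
  zero : i ≫ π = 0
  hses : (ShortComplex.mk i π zero).ShortExact
  hJ : D.𝒰.IsDiscrete J
  hL : ∀ v, (D.𝒱 v).IsDiscrete (L v)
  hι_inj : Function.Injective ι.hom
  hι_tors : ∀ a : N, p • ι.hom a = 0
  hι_surj : ∀ e : E, p • e = 0 → ∃ a : N, ι.hom a = e
  hdivE : ∀ e : E, ∃ e' : E, p • e' = e
  hdivL : ∀ v (l : L v), ∃ l' : L v, p • l' = l
  hL_inj : ∀ v, Function.Injective fun a : N => (ρ v).hom (i.hom (ι.hom a))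
  hL_surj : ∀ v (l : L v), p • l = 0 → ∃ a : N, (ρ v).hom (i.hom (ι.hom a)) = l

namespace KDatum

variable {k : Type} [CommRing k] {G : Type} [Group G] {D : LocDatum G} {p : ℕ}
  (K : KDatum k D p)

/-- The short exact sequence `0 ⟶ E ⟶ J ⟶ C ⟶ 0`. -/
noncomputable abbrev S : ShortComplex (Rep k G) := ShortComplex.mk K.i K.π K.zero

/-- The composite `res N ⟶ res E ⟶ res J ⟶ L v`. -/
noncomputable def κ (v : D.ι) : D.resRep K.N v ⟶ K.L v :=
  (Rep.resFunctor (D.φ v)).map (K.ι ≫ K.i) ≫ K.ρ v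

theorem κ_hom_apply (v : D.ι) (a : K.N) :
    (K.κ v).hom a = (K.ρ v).hom (K.i.hom (K.ι.hom a)) := rfl

theorem κ_tors (v : D.ι) (a : D.resRep K.N v) : p • (K.κ v).hom a = 0 := by
  have h : (K.κ v).hom a = (K.ρ v).hom (K.i.hom (K.ι.hom a)) := rfl
  rw [h, ← map_nsmul, ← map_nsmul, K.hι_tors, map_zero, map_zero]

theorem i_injective : Function.Injective K.i.hom :=
  (Rep.mono_iff_injective K.i).1 K.hses.2

/-- `E` is discrete, being a submodule of `J`. -/
theorem hE : D.𝒰.IsDiscrete K.E := by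
  intro e
  obtain ⟨U, hU, h⟩ := K.hJ (K.i.hom e)
  refine ⟨U, hU, fun s hs => K.i_injective ?_⟩
  rw [Rep.hom_comm_apply, h s hs]

/-! ### The zigzag data -/

/-- The local comparison map `C(H_v, N) ⟶ Kp (L v)`. -/
noncomputable def uLAt (v : D.ι) :
    (D.𝒱 v).levelComplex (D.resRep K.N v) ⟶ Kp (D.𝒱 v) p (K.L v) :=
  kerToKp (D.𝒱 v) p (K.κ v) (K.κ_tors v)

/-- The local map `Kp J ⟶ Kp (L v)`. -/
noncomputable def lamAt (v : D.ι) : Kp D.𝒰 p K.J ⟶ Kp (D.𝒱 v) p (K.L v) :=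
  KpMapOfHom D.𝒰 p (D.𝒱 v) (D.φ v) (D.compat v) (K.ρ v)

theorem comm_at (v : D.ι) :
    D.locMapAt K.N v ≫ K.uLAt v =
      kerToKp D.𝒰 p K.ι K.hι_tors ≫ KpMap D.𝒰 p K.i ≫ K.lamAt v := by
  refine natCone.hom_ext _ (fun n x => ?_) (fun n x => ?_)
  · rfl
  · show (0 : (D.𝒱 v).levelCochains (K.L v) n) =
      ((LevelFamily.levelCochainsMap (D.φ v) (D.compat v) (K.ρ v)).f n).hom
        ((((D.𝒰.levelComplexFunctor (k := k)).map K.i).f n).hom
          (natCone.sndL (mulP D.𝒰 p K.E) n (((kerToKp D.𝒰 p K.ι K.hι_tors).f (n + 1)).hom x)))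
    rw [sndL_kerToKp]
    refine Eq.symm ((congr_arg _ (map_zero _)).trans (map_zero _))

theorem KpShort_shortExact' : (KpShort D.𝒰 p K.S).ShortExact :=
  KpShort_shortExact D.𝒰 p K.hses K.hJ

/-- The zigzag data attached to a `KDatum`. -/
noncomputable def zig : Zigzag.Data k where
  A := D.𝒰.levelComplex K.N
  B := D.locComplex K.N
  KE := Kp D.𝒰 p K.E
  KJ := Kp D.𝒰 p K.J
  KC := Kp D.𝒰 p K.C
  KL := PiComplex.piComplex fun v => Kp (D.𝒱 v) p (K.L v)
  loc := D.locMap K.N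
  u := kerToKp D.𝒰 p K.ι K.hι_tors
  uL := PiComplex.map fun v => K.uLAt v
  i := KpMap D.𝒰 p K.i
  π := KpMap D.𝒰 p K.π
  lam := PiComplex.lift fun v => K.lamAt v
  comm := by
    refine piComplex_hom_ext fun v => ?_
    rw [Category.assoc, PiComplex.map_proj, Category.assoc, Category.assoc, PiComplex.lift_proj,
      ← K.comm_at v, ← Category.assoc]
    congr 1
  hinj n := shortExact_f_injective K.KpShort_shortExact' n
  hsurj n := shortExact_g_surjective K.KpShort_shortExact' n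
  hex n b := ⟨fun h => shortExact_exact_apply K.KpShort_shortExact' n b h, by
    rintro ⟨a, rfl⟩
    exact shortComplex_zero_apply (S := KpShort D.𝒰 p K.S) n a⟩

/-! ### (1) The vertical maps are quasi-isomorphisms -/

theorem zig_u_bijective (n : ℕ) :
    Function.Bijective (HomologicalComplex.homologyMap K.zig.u n).hom :=
  kerToKp_homologyMap_bijective D.𝒰 p K.ι K.hι_tors K.hι_inj K.hι_surj K.hE K.hdivE n

theorem uLAt_bijective (v : D.ι) (n : ℕ) :
    Function.Bijective (HomologicalComplex.homologyMap (K.uLAt v) n).hom :=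
  kerToKp_homologyMap_bijective (D.𝒱 v) p (K.κ v) (K.κ_tors v) (K.hL_inj v) (K.hL_surj v)
    (K.hL v) (K.hdivL v) n

theorem zig_uL_bijective (n : ℕ) :
    Function.Bijective (HomologicalComplex.homologyMap K.zig.uL n).hom :=
  piMap_homologyMap_bijective (fun v => K.uLAt v) n fun v => K.uLAt_bijective v n

theorem zig_m1_bijective (n : ℕ) :
    Function.Bijective (HomologicalComplex.homologyMap K.zig.m1 (n + 1)).hom :=
  K.zig.m1_bijective n (K.zig_u_bijective n).2 (K.zig_uL_bijective n) (K.zig_u_bijective (n + 1))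
    (K.zig_uL_bijective (n + 1)).1

/-! ### (2) The semilocal condition and the map `theta` -/

/-- The total semilocal map `Tⁿ(J) ⟶ ∏ᵥ Tⁿ(L v)`. -/
noncomputable def lamT (n : ℕ) : T D.𝒰 p K.J n →ₗ[k] ∀ v, T (D.𝒱 v) p (K.L v) n :=
  LinearMap.pi fun v => TMapOfHom D.𝒰 p (D.𝒱 v) (D.φ v) (D.compat v) (K.ρ v) n

@[simp] theorem lamT_apply (n : ℕ) (y : T D.𝒰 p K.J n) (v : D.ι) :
    K.lamT n y v = TMapOfHom D.𝒰 p (D.𝒱 v) (D.φ v) (D.compat v) (K.ρ v) n y := rfl

theorem homologyPiEquiv_zig_lam (n : ℕ) (y : T D.𝒰 p K.J n) :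
    PiComplex.homologyPiEquiv (fun v => Kp (D.𝒱 v) p (K.L v)) n
      ((HomologicalComplex.homologyMap K.zig.lam n).hom y) = K.lamT n y := by
  funext v
  exact PiComplex.homologyPiEquiv_homologyMap_lift (fun v => K.lamAt v) n y v

theorem zig_lam_injective (n : ℕ) (h : Function.Injective (K.lamT n)) :
    Function.Injective (HomologicalComplex.homologyMap K.zig.lam n).hom := by
  intro y y' hy
  apply h
  rw [← homologyPiEquiv_zig_lam, ← homologyPiEquiv_zig_lam, hy]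

theorem zig_lam_surjective (n : ℕ) (h : Function.Surjective (K.lamT n)) :
    Function.Surjective (HomologicalComplex.homologyMap K.zig.lam n).hom := by
  intro z
  obtain ⟨y, hy⟩ := h (PiComplex.homologyPiEquiv (fun v => Kp (D.𝒱 v) p (K.L v)) n z)
  refine ⟨y, (PiComplex.homologyPiEquiv (fun v => Kp (D.𝒱 v) p (K.L v)) n).injective ?_⟩
  rw [homologyPiEquiv_zig_lam, hy]

/-- `(2)`: the zigzag is defined in degree `n` as soon as the semilocal map is bijective in degree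
`n` and injective in degree `n + 1`. -/
theorem good_of_semilocal (n : ℕ) (h0 : Function.Bijective (K.lamT n))
    (h1 : Function.Injective (K.lamT (n + 1))) : K.zig.Good n :=
  K.zig.good_of_lam n ⟨K.zig_lam_injective n h0.1, K.zig_lam_surjective n h0.2⟩
    (K.zig_lam_injective (n + 1) h1)

/-- The zigzag map `Hⁿ⁺¹_c(N) ⟶ Tⁿ(C)`. -/
noncomputable def theta {n : ℕ} (hg : K.zig.Good n) : D.Hc K.N (n + 1) →ₗ[k] T D.𝒰 p K.C n :=
  Zigzag.Data.theta hg

theorem theta_bijective {n : ℕ} (hg : K.zig.Good n) : Function.Bijective (K.theta hg) :=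
  Zigzag.Data.theta_bijective hg (K.zig_m1_bijective n)

/-! ### (4) The zigzag on the image of the local cohomology -/

/-- The componentwise comparison `Pⁿ(N) ⟶ ∏ᵥ Tⁿ(L v)`. -/
noncomputable def uLT (n : ℕ) : D.locH K.N n →ₗ[k] ∀ v, T (D.𝒱 v) p (K.L v) n :=
  LinearMap.pi fun v => kerToT (D.𝒱 v) p (K.κ v) (K.κ_tors v) n ∘ₗ LinearMap.proj v

@[simp] theorem uLT_apply (n : ℕ) (x : D.locH K.N n) (v : D.ι) :
    K.uLT n x v = kerToT (D.𝒱 v) p (K.κ v) (K.κ_tors v) n (x v) := rfl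

theorem uLT_bijective (n : ℕ) : Function.Bijective (K.uLT n) := by
  constructor
  · intro x x' h
    funext v
    exact (K.uLAt_bijective v n).1 (congr_fun h v)
  · intro z
    have h : ∀ v, ∃ x, kerToT (D.𝒱 v) p (K.κ v) (K.κ_tors v) n x = z v := fun v =>
      (K.uLAt_bijective v n).2 (z v)
    choose x hx using h
    exact ⟨x, funext hx⟩

theorem homologyPiEquiv_zig_uL (n : ℕ) (x : (D.locComplex K.N).homology n) :
    PiComplex.homologyPiEquiv (fun v => Kp (D.𝒱 v) p (K.L v)) n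
      ((HomologicalComplex.homologyMap K.zig.uL n).hom x) = K.uLT n (D.locHEquiv K.N n x) := by
  funext v
  exact PiComplex.homologyPiEquiv_homologyMap_map (fun v => K.uLAt v) n x v

/-- `(4)`: the zigzag on the image of `Pⁿ(N) ⟶ Hⁿ⁺¹_c(N)`. -/
theorem theta_HcOfLocal {n : ℕ} (hg : K.zig.Good n) (x : D.locH K.N n) (y : T D.𝒰 p K.J n)
    (hxy : K.lamT n y = K.uLT n x) :
    K.theta hg (D.HcOfLocal K.N n x) = TMap D.𝒰 p K.π n y := by
  obtain ⟨x', rfl⟩ := (D.locHEquiv K.N n).surjective x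
  rw [LocDatum.HcOfLocal_locHEquiv]
  refine Zigzag.Data.theta_bdry hg x' y ?_
  apply (PiComplex.homologyPiEquiv (fun v => Kp (D.𝒱 v) p (K.L v)) n).injective
  rw [homologyPiEquiv_zig_lam, homologyPiEquiv_zig_uL, hxy]

/-! ### (3) Morphisms -/

/-- A morphism of `KDatum`s (same localisation datum, same `p`). -/
structure Hom (K K' : KDatum k D p) where
  fN : K.N ⟶ K'.N
  fE : K.E ⟶ K'.E
  fJ : K.J ⟶ K'.J
  fC : K.C ⟶ K'.C
  fL : ∀ v, K.L v ⟶ K'.L v
  ι_comm : K.ι ≫ fE = fN ≫ K'.ι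
  i_comm : K.i ≫ fJ = fE ≫ K'.i
  π_comm : K.π ≫ fC = fJ ≫ K'.π
  ρ_comm : ∀ v (x : K.J), (fL v).hom ((K.ρ v).hom x) = (K'.ρ v).hom (fJ.hom x)

namespace Hom

variable {K} {K' : KDatum k D p} (f : Hom K K')

theorem κ_comm (v : D.ι) (a : K.N) :
    (f.fL v).hom ((K.κ v).hom a) = (K'.κ v).hom (f.fN.hom a) := by
  rw [κ_hom_apply, κ_hom_apply, f.ρ_comm]
  have h1 : f.fJ.hom (K.i.hom (K.ι.hom a)) = K'.i.hom (f.fE.hom (K.ι.hom a)) :=
    congr($(f.i_comm).hom (K.ι.hom a))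
  have h2 : f.fE.hom (K.ι.hom a) = K'.ι.hom (f.fN.hom a) := congr($(f.ι_comm).hom a)
  rw [h1, h2]

theorem uLAt_comm (v : D.ι) :
    K.uLAt v ≫ KpMap (D.𝒱 v) p (f.fL v) =
      ((D.𝒱 v).levelComplexFunctor (k := k)).map ((Rep.resFunctor (D.φ v)).map f.fN) ≫
        K'.uLAt v := by
  refine kerToKp_comp_KpMap (D.𝒱 v) p (K.κ v) (K.κ_tors v) (K'.κ v) (K'.κ_tors v)
    ((Rep.resFunctor (D.φ v)).map f.fN) (f.fL v) ?_
  ext a
  exact f.κ_comm v a

theorem lamAt_comm (v : D.ι) :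
    K.lamAt v ≫ KpMap (D.𝒱 v) p (f.fL v) = KpMap D.𝒰 p f.fJ ≫ K'.lamAt v := by
  refine natCone.hom_ext _ (fun n x => ?_) (fun n x => ?_)
  · apply Subtype.ext
    funext g
    exact f.ρ_comm v _
  · apply Subtype.ext
    funext g
    exact f.ρ_comm v _

/-- The morphism of zigzag data induced by a morphism of `KDatum`s. -/
noncomputable def zig : Zigzag.Hom K.zig K'.zig where
  fA := (D.𝒰.levelComplexFunctor (k := k)).map f.fN
  fB := D.locComplexMap f.fN
  fKE := KpMap D.𝒰 p f.fE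
  fKJ := KpMap D.𝒰 p f.fJ
  fKC := KpMap D.𝒰 p f.fC
  fKL := PiComplex.map fun v => KpMap (D.𝒱 v) p (f.fL v)
  loc_comm := (D.locMap_naturality f.fN).symm
  u_comm := kerToKp_comp_KpMap D.𝒰 p K.ι K.hι_tors K'.ι K'.hι_tors f.fN f.fE f.ι_comm
  uL_comm := by
    refine piComplex_hom_ext fun v => ?_
    show (PiComplex.map (fun v => K.uLAt v) ≫ PiComplex.map fun v => KpMap (D.𝒱 v) p (f.fL v)) ≫
        PiComplex.proj _ v =
      (D.locComplexMap f.fN ≫ PiComplex.map fun v => K'.uLAt v) ≫ PiComplex.proj _ v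
    rw [Category.assoc, PiComplex.map_proj, PiComplex.map_proj_assoc, Category.assoc,
      PiComplex.map_proj, f.uLAt_comm v, LocDatum.locComplexMap, PiComplex.map_proj_assoc]
    rfl
  i_comm := by
    show KpMap D.𝒰 p K.i ≫ KpMap D.𝒰 p f.fJ = KpMap D.𝒰 p f.fE ≫ KpMap D.𝒰 p K'.i
    rw [← KpMap_comp, ← KpMap_comp, f.i_comm]
  π_comm := by
    show KpMap D.𝒰 p K.π ≫ KpMap D.𝒰 p f.fC = KpMap D.𝒰 p f.fJ ≫ KpMap D.𝒰 p K'.π
    rw [← KpMap_comp, ← KpMap_comp, f.π_comm]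
  lam_comm := by
    refine piComplex_hom_ext fun v => ?_
    show (PiComplex.lift (fun v => K.lamAt v) ≫
        PiComplex.map fun v => KpMap (D.𝒱 v) p (f.fL v)) ≫ PiComplex.proj _ v =
      (KpMap D.𝒰 p f.fJ ≫ PiComplex.lift fun v => K'.lamAt v) ≫ PiComplex.proj _ v
    rw [Category.assoc, PiComplex.map_proj, PiComplex.lift_proj_assoc, Category.assoc,
      PiComplex.lift_proj, f.lamAt_comm v]

/-- `(3)`: naturality of `theta`. -/
theorem theta_comm {n : ℕ} (hg : K.zig.Good n) (hg' : K'.zig.Good n) (x : D.Hc K.N (n + 1)) :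
    K'.theta hg' (D.HcMap f.fN (n + 1) x) = TMap D.𝒰 p f.fC n (K.theta hg x) :=
  Zigzag.Hom.theta_comm f.zig hg hg' x

end Hom

end KDatum

end Fermat.Agent.Lib.CFT.Duality.KCalc
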