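import Fermat.Agent.Lib.CFT.Profinite.LevelLES

/-!
# Multiplication by `p` on a representation and its kernel

Representation-level input of the `K(X)`-calculus (cone of multiplication by `p` on level
cochains): the endomorphism `mulRep p X`, the `p`-torsion subrepresentation `torsionRep p X`,
and the short exact sequence `0 ⟶ X[p] ⟶ X ⟶ X ⟶ 0` for `p`-divisible `X`.
-/

set_option autoImplicit false

universe u

open CategoryTheory Fermat.Agent.Lib.CFT.Profinite

namespace Fermat.Agent.Lib.CFT.Duality.KCalc

variable {k G : Type u} [CommRing k] [Group G] (p : ℕ) (X : Rep.{u} k G)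

/-- Multiplication by `p` as an endomorphism of the representation `X`. -/
noncomputable def mulRep : X ⟶ X := p • 𝟙 X

@[simp]
theorem mulRep_hom_apply (x : X) : (mulRep p X).hom x = p • x := rfl

variable {X} in
/-- Multiplication by `p` is natural. -/
theorem mulRep_naturality {Y : Rep.{u} k G} (f : X ⟶ Y) : mulRep p X ≫ f = f ≫ mulRep p Y := by
  simp [mulRep]

/-- The submodule of elements killed by `p`. -/
def torsionSub : Submodule k X where
  carrier := {x | p • x = 0}
  add_mem' := by
    intro a b ha hb
    simp only [Set.mem_ofPred_eq] at ha hb ⊢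
    rw [smul_add, ha, hb, add_zero]
  zero_mem' := smul_zero p
  smul_mem' := by
    intro c x hx
    simp only [Set.mem_ofPred_eq] at hx ⊢
    rw [smul_comm, hx, smul_zero]

theorem mem_torsionSub_iff (x : X) : x ∈ torsionSub p X ↔ p • x = 0 := Iff.rfl

theorem torsionSub_le_comap (g : G) : torsionSub p X ≤ (torsionSub p X).comap (X.ρ g) := by
  intro x hx
  rw [Submodule.mem_comap, mem_torsionSub_iff, ← map_nsmul, (mem_torsionSub_iff p X x).1 hx,
    map_zero]

/-- The `p`-torsion subrepresentation `X[p]`. -/
noncomputable abbrev torsionRep : Rep.{u} k G :=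
  Rep.subrepresentation X (torsionSub p X) (torsionSub_le_comap p X)

/-- The inclusion `X[p] ⟶ X`. -/
noncomputable abbrev torsionι : torsionRep p X ⟶ X :=
  Rep.subtype X (torsionSub p X) (torsionSub_le_comap p X)

theorem torsionι_injective : Function.Injective (torsionι p X).hom :=
  fun _ _ h => Subtype.ext h

theorem torsionι_hom_apply (x : torsionRep p X) : (torsionι p X).hom x = x.1 := rfl

theorem smul_torsionι (x : torsionRep p X) : p • (torsionι p X).hom x = 0 := x.2

theorem exists_torsionι_eq (x : X) (hx : p • x = 0) :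
    ∃ y : torsionRep p X, (torsionι p X).hom y = x := ⟨⟨x, hx⟩, rfl⟩

/-- The short complex `X[p] ⟶ X ⟶ X`. -/
noncomputable def torsionSeq : ShortComplex (Rep.{u} k G) :=
  ShortComplex.mk (torsionι p X) (mulRep p X) (by
    ext x
    exact x.2)

@[simp] theorem torsionSeq_X₁ : (torsionSeq p X).X₁ = torsionRep p X := rfl
@[simp] theorem torsionSeq_X₂ : (torsionSeq p X).X₂ = X := rfl
@[simp] theorem torsionSeq_X₃ : (torsionSeq p X).X₃ = X := rfl
@[simp] theorem torsionSeq_f : (torsionSeq p X).f = torsionι p X := rfl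
@[simp] theorem torsionSeq_g : (torsionSeq p X).g = mulRep p X := rfl

/-- For `p`-divisible `X` the sequence `0 ⟶ X[p] ⟶ X ⟶ X ⟶ 0` is short exact. -/
theorem torsionSeq_shortExact (hdiv : ∀ x : X, ∃ y : X, p • y = x) :
    (torsionSeq p X).ShortExact where
  exact := by
    rw [← ShortComplex.exact_map_iff_of_faithful (F := forget₂ (Rep k G) (ModuleCat k)),
      ShortComplex.moduleCat_exact_iff]
    intro x hx
    exact ⟨⟨x, hx⟩, rfl⟩
  mono_f := (Rep.mono_iff_injective _).2 (torsionι_injective p X)
  epi_g := (Rep.epi_iff_surjective _).2 hdiv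

variable {X} in
/-- Discreteness passes to the `p`-torsion. -/
theorem isDiscrete_torsionRep (𝒰 : LevelFamily G) (hX : 𝒰.IsDiscrete X) :
    𝒰.IsDiscrete (torsionRep p X) := by
  intro a
  obtain ⟨U, hU, h⟩ := hX a.1
  exact ⟨U, hU, fun s hs => Subtype.ext (h s hs)⟩

variable {X} in
/-- Functoriality of the `p`-torsion. -/
noncomputable def torsionMap {Y : Rep.{u} k G} (f : X ⟶ Y) : torsionRep p X ⟶ torsionRep p Y :=
  Rep.ofHom ⟨f.hom.toLinearMap.restrict (p := torsionSub p X) (q := torsionSub p Y)
    (fun x hx => by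
      rw [mem_torsionSub_iff] at hx ⊢
      have : f.hom.toLinearMap (p • x) = p • f.hom.toLinearMap x := map_nsmul _ _ _
      rw [← this, hx, map_zero]), fun g => by
    ext x
    exact Rep.hom_comm_apply f g x.1⟩

variable {X} in
@[simp]
theorem torsionMap_hom_apply_coe {Y : Rep.{u} k G} (f : X ⟶ Y) (x : torsionRep p X) :
    ((torsionMap p f).hom x).1 = f.hom x.1 := rfl

variable {X} in
theorem torsionMap_comp_torsionι {Y : Rep.{u} k G} (f : X ⟶ Y) :
    torsionMap p f ≫ torsionι p Y = torsionι p X ≫ f := by
  ext x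
  rfl

end Fermat.Agent.Lib.CFT.Duality.KCalc
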