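import Mathlib
import Fermat.Agent.Lib.CFT.Global.SVersion.ESTorsion
import Fermat.Agent.Lib.CFT.Global.SVersion.QSTorsion
import Fermat.Agent.Lib.CFT.Local.LqModule
import Fermat.Agent.Lib.CFT.Duality.BaseCase.KDatum
import Fermat.Agent.Lib.CFT.Duality.BaseCase.ChangeRing

/-!
# P-CFT L4, Duality/BaseCase: the arithmetic zigzag datum (helper25)

Assembly of the arithmetic `KDatum` over `arithDatum S` for a prime `p ∈ S`
(blueprint note CFT-L4-BASECASE-BLUEPRINT, item [KD]):

* `locMult q : ℚ_q ⊗ Qbar → Qbar_q`, `a ⊗ x ↦ a · x` along the embedding `padicEmbedding q`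
  defining `primeLocalToGlobal q`, equivariant for the local Galois group (`locMult_smul`);
* `rho q S : res (J_S) ⟶ L_q`, the projection to the `q`-component followed by `locMult`;
* `iota p hpS : μ_p ⟶ E_S`, `a ↦ ζ ^ a` for the primitive root `zetaQbar p` of `LqModule`;
* `rho_i_iota` : the composite `μ_p → E_S → J_S → L_q` is `LqModule.torsionMap q p`;
* `arithKDatum S p hpS : KCalc.KDatum ℤ (arithDatum S) p` with `N = intRep (muRep p)`,
  `E = ES S`, `J = JS S`, `C = CS' S`, `L q = Lq q`;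
* `TMap_cs'ToCS_bijective` : `T^r(C'_S) ⟶ T^r(C_S)` is bijective (as `p` is bijective on `Q_S`).
-/

set_option autoImplicit false

open scoped TensorProduct NumberField
open CategoryTheory

noncomputable section

namespace Fermat.Agent.Lib.CFT.Duality.ArithKDatum

open ExtCitation Fermat.Agent.Lib.CFT.Profinite Fermat.Agent.Lib.CFT.Profinite.Bridge
open Fermat.Agent.Lib.CFT.Global Fermat.Agent.Lib.CFT.Global.SVersion
open Fermat.Agent.Lib.CFT.Local.LqModule

local notation "Qbar" => AlgebraicClosure ℚ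
local notation "Γℚ" => (AlgebraicClosure ℚ ≃ₐ[ℚ] AlgebraicClosure ℚ)

variable (q : Nat.Primes)

/-- The structure map `ℚ_q → Qbar_q`, with source written as in `LocAlg`. -/
def qqToQqbar : ℚ_[pv q] →+* Qqbar q :=
  letI : Fact (q : ℕ).Prime := ⟨q.2⟩
  (algebraMap ℚ_[(q : ℕ)] (PadicAlgCl (q : ℕ)))

/-- The embedding `Qbar → Qbar_q` of the Prelude. -/
def embQ : Qbar →+* Qqbar q :=
  letI : Fact (q : ℕ).Prime := ⟨q.2⟩
  (padicEmbedding (q : ℕ)).toRingHom

/-- The multiplication map `ℚ_q ⊗ Qbar → Qbar_q`, `a ⊗ x ↦ a · x`. -/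
def locMult : LocAlg Qbar q →+* Qqbar q :=
  (Algebra.TensorProduct.productMap ((qqToQqbar q).toRatAlgHom) ((embQ q).toRatAlgHom)).toRingHom

@[simp] theorem locMult_tmul (a : ℚ_[pv q]) (x : Qbar) :
    locMult q (a ⊗ₜ x) = qqToQqbar q a * embQ q x := by
  simp [locMult]

theorem aut_qqToQqbar (s : primeLocalGaloisGroup q) (a : ℚ_[pv q]) :
    aut q s (qqToQqbar q a) = qqToQqbar q a := by
  have : Fact (q : ℕ).Prime := ⟨q.2⟩
  exact (aut q s).commutes a

theorem embQ_primeLocalToGlobal (s : primeLocalGaloisGroup q) (x : Qbar) :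
    embQ q (primeLocalToGlobal q s x) = aut q s (embQ q x) := by
  have : Fact (q : ℕ).Prime := ⟨q.2⟩
  exact padicEmbedding_localGaloisToGlobal (q : ℕ) (aut q s) x

/-- Equivariance of the multiplication map. -/
theorem locMult_smul (s : primeLocalGaloisGroup q) (x : LocAlg Qbar q) :
    locMult q (primeLocalToGlobal q s • x) = aut q s (locMult q x) := by
  induction x using TensorProduct.induction_on with
  | zero => simp
  | tmul a y =>
    have h1 : primeLocalToGlobal q s • (a ⊗ₜ[ℚ] y : LocAlg Qbar q) =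
        a ⊗ₜ[ℚ] (primeLocalToGlobal q s y) := by
      change locMap (MulSemiringAction.toRingHom Γℚ Qbar (primeLocalToGlobal q s)) q (a ⊗ₜ y) = _
      rw [locMap_tmul]
      rfl
    rw [h1, locMult_tmul, locMult_tmul, map_mul, aut_qqToQqbar, embQ_primeLocalToGlobal]
  | add x y hx hy => rw [smul_add, map_add, hx, hy, map_add, map_add]

variable (S : Finset Nat.Primes)

/-- The projection `J_S → Qbar_qˣ`: the `q`-component followed by the multiplication map. -/
def rhoMul : JSgrp S →* (Qqbar q)ˣ :=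
  (Units.map (locMult q : LocAlg Qbar q →* Qqbar q)).comp
    (((Pi.evalMonoidHom (fun q' : Nat.Primes => (LocAlg Qbar q')ˣ) q).comp
      (MonoidHom.fst (∀ q' : Nat.Primes, (LocAlg Qbar q')ˣ) (ArchAlg Qbar)ˣ)).comp (ideleSS S).subtype)

theorem val_rhoMul (a : JSgrp S) :
    ((rhoMul q S a : (Qqbar q)ˣ) : Qqbar q) =
      locMult q (((a : AmbJ).1 q : (LocAlg Qbar q)ˣ) : LocAlg Qbar q) := rfl

theorem val_rhoMul_smul (s : primeLocalGaloisGroup q) (a : JSgrp S) :
    ((rhoMul q S (primeLocalToGlobal q s • a) : (Qqbar q)ˣ) : Qqbar q) =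
      aut q s ((rhoMul q S a : (Qqbar q)ˣ) : Qqbar q) := by
  rw [val_rhoMul, val_rhoMul, ← locMult_smul]
  rfl

/-- The local projection `ρ_q : res J_S ⟶ L_q`. -/
def rho : Rep.res (primeLocalToGlobal q) (JS S) ⟶ Lq q :=
  Rep.ofHom (LinearMap.intertwiningMap_of_isIntertwiningMap
    (ρ := (Rep.res (primeLocalToGlobal q) (JS S)).ρ) (σ := (Lq q).ρ)
    ((rhoMul q S).toAdditive.toIntLinearMap) (fun s v => by
      symm
      rw [ρ_eq_iff]
      exact (val_rhoMul_smul q S s (Additive.toMul v)).symm))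

theorem rho_hom_apply (x : JS S) :
    (rho q S).hom x = ofUnit q (rhoMul q S (Additive.toMul (show Additive (JSgrp S) from x))) := rfl

/-! ### The embedding `μ_p → E_S` -/

section Iota

variable (p : ℕ) [hp : Fact p.Prime]

theorem zetaQbar_ne_zero : zetaQbar p ≠ 0 :=
  (isPrimitiveRoot_zetaQbar p).ne_zero hp.out.ne_zero

/-- The chosen primitive `p`-th root of unity as a unit of `Qbar`. -/
def zetaQbarUnit : Qbarˣ := Units.mk0 (zetaQbar p) (zetaQbar_ne_zero p)

theorem zetaQbarUnit_pow : zetaQbarUnit p ^ p = 1 :=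
  Units.ext (by simpa [zetaQbarUnit] using (isPrimitiveRoot_zetaQbar p).pow_eq_one)

variable {S} in
theorem zetaQbarUnit_mem (hpS : (⟨p, hp.out⟩ : Nat.Primes) ∈ S) : zetaQbarUnit p ∈ unitsS S :=
  rootsOfUnity_le_unitsS hp.out.ne_zero (prime_dvd_mem p hpS)
    ((mem_rootsOfUnity _ _).mpr (zetaQbarUnit_pow p))

variable {S} in
/-- The chosen primitive `p`-th root of unity as an element of `E_S`. -/
def zetaES (hpS : (⟨p, hp.out⟩ : Nat.Primes) ∈ S) : ESgrp S := ⟨zetaQbarUnit p, zetaQbarUnit_mem p hpS⟩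

variable {S} in
theorem zetaES_pow (hpS : (⟨p, hp.out⟩ : Nat.Primes) ∈ S) : zetaES p hpS ^ p = 1 :=
  Subtype.ext (zetaQbarUnit_pow p)

variable {S} in
/-- The additive map `ℤ/p → E_S`, `a ↦ ζ ^ a`. -/
def iotaAdd (hpS : (⟨p, hp.out⟩ : Nat.Primes) ∈ S) : ZMod p →+ Additive (ESgrp S) :=
  ZMod.lift p ⟨zmultiplesHom (Additive (ESgrp S)) (Additive.ofMul (zetaES p hpS)), by
    rw [zmultiplesHom_apply, natCast_zsmul, ← ofMul_pow, zetaES_pow]; rfl⟩

variable {S} in
theorem iotaAdd_natCast (hpS : (⟨p, hp.out⟩ : Nat.Primes) ∈ S) (n : ℕ) :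
    iotaAdd p hpS (n : ZMod p) = Additive.ofMul (zetaES p hpS ^ n) := by
  have h : ((n : ℤ) : ZMod p) = (n : ZMod p) := by push_cast; rfl
  rw [← h, iotaAdd, ZMod.lift_coe, zmultiplesHom_apply, natCast_zsmul, ofMul_pow]

variable {S} in
theorem iotaAdd_apply (hpS : (⟨p, hp.out⟩ : Nat.Primes) ∈ S) (a : ZMod p) :
    iotaAdd p hpS a = Additive.ofMul (zetaES p hpS ^ a.val) := by
  have : NeZero p := ⟨hp.out.ne_zero⟩
  conv_lhs => rw [← ZMod.natCast_zmod_val a]
  exact iotaAdd_natCast p hpS a.val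

variable {S} in
/-- The value of `iotaAdd` in `Qbar`. -/
theorem coe_iotaAdd (hpS : (⟨p, hp.out⟩ : Nat.Primes) ∈ S) (a : ZMod p) :
    (((Additive.toMul (iotaAdd p hpS a) : ESgrp S) : Qbarˣ) : Qbar) =
      zetaQbar p ^ a.val := by
  rw [iotaAdd_apply]
  rfl

end Iota

section IotaProps

variable (p : ℕ) [hp : Fact p.Prime] {S} (hpS : (⟨p, hp.out⟩ : Nat.Primes) ∈ S)

theorem iotaAdd_injective : Function.Injective (iotaAdd p hpS) := by
  have : NeZero p := ⟨hp.out.ne_zero⟩
  intro a b hab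
  have h1 : zetaQbar p ^ a.val = zetaQbar p ^ b.val := by
    rw [← coe_iotaAdd p hpS, ← coe_iotaAdd p hpS, hab]
  exact ZMod.val_injective p
    ((isPrimitiveRoot_zetaQbar p).pow_inj (ZMod.val_lt a) (ZMod.val_lt b) h1)

theorem nsmul_iotaAdd (a : ZMod p) : p • iotaAdd p hpS a = 0 := by
  rw [← map_nsmul, nsmul_eq_mul, ZMod.natCast_self, zero_mul, map_zero]

theorem exists_iotaAdd_eq (e : Additive (ESgrp S)) (he : p • e = 0) :
    ∃ a : ZMod p, iotaAdd p hpS a = e := by
  have h1 : (Additive.toMul e : ESgrp S) ^ p = 1 := congrArg Additive.toMul he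
  have h2 : (((Additive.toMul e : ESgrp S) : Qbarˣ) : Qbar) ^ p = 1 :=
    (pow_eq_one_iff_ESgrp p _).mp h1
  obtain ⟨i, -, hi⟩ := (isPrimitiveRoot_zetaQbar p).eq_pow_of_pow_eq_one h2
  refine ⟨(i : ZMod p), ?_⟩
  rw [iotaAdd_natCast]
  apply congrArg Additive.ofMul
  apply Subtype.ext
  apply Units.ext
  exact hi

/-- Equivariance: `Γℚ` acts on `ℤ/p` through the mod `p` cyclotomic character. -/
theorem iotaAdd_smul (σ : Γℚ) (a : ZMod p) :
    iotaAdd p hpS (((cycloChar p σ : (ZMod p)ˣ) : ZMod p) * a) =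
      Additive.ofMul (σ • (Additive.toMul (iotaAdd p hpS a) : ESgrp S)) := by
  have : NeZero p := ⟨hp.out.ne_zero⟩
  have h : ((cycloChar p σ : (ZMod p)ˣ) : ZMod p) * a =
      (((((cycloChar p σ : (ZMod p)ˣ) : ZMod p)).val * a.val : ℕ) : ZMod p) := by
    push_cast
    rw [ZMod.natCast_zmod_val, ZMod.natCast_zmod_val]
  rw [h, iotaAdd_natCast]
  apply congrArg Additive.ofMul
  apply Subtype.ext
  apply Units.ext
  change zetaQbar p ^ _ = σ (((Additive.toMul (iotaAdd p hpS a) : ESgrp S) : Qbarˣ) : Qbar)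
  rw [coe_iotaAdd, map_pow, apply_zetaQbar, ← pow_mul]

end IotaProps

section IotaRep

variable (p : ℕ) [hp : Fact p.Prime] {S} (hpS : (⟨p, hp.out⟩ : Nat.Primes) ∈ S)

theorem muRep_ρ_apply (σ : Γℚ) (a : ZMod p) :
    (muRep p).ρ σ a = ((cycloChar p σ : (ZMod p)ˣ) : ZMod p) * a := rfl

/-- `ι : μ_p ⟶ E_S`, as a morphism of `ℤ`-linear representations. -/
def iota : ChangeRing.intRep (muRep p) ⟶ ES S :=
  Rep.ofHom (LinearMap.intertwiningMap_of_isIntertwiningMap
    (ρ := (ChangeRing.intRep (muRep p)).ρ) (σ := (ES S).ρ)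
    ((iotaAdd p hpS).toIntLinearMap) (fun σ a => iotaAdd_smul p hpS σ a))

theorem iota_hom_apply (a : ZMod p) : (iota p hpS).hom a = iotaAdd p hpS a := rfl

end IotaRep

section Kappa

variable {S}

theorem qqToQqbar_one : qqToQqbar q 1 = 1 := map_one _

/-- On `S`-units, the local projection is the embedding `Qbar → Qbar_q` (for `q ∈ S`). -/
theorem val_rhoMul_esToJS (hq : q ∈ S) (x : ESgrp S) :
    ((rhoMul q S (esToJS S x) : (Qqbar q)ˣ) : Qqbar q) = embQ q ((x : Qbarˣ) : Qbar) := by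
  rw [val_rhoMul, coe_esToJS, cutAmb_fst_of_mem S _ hq, val_ambDiag_fst, locMult_tmul,
    qqToQqbar_one, one_mul]

variable (p : ℕ) [hp : Fact p.Prime] (hpS : (⟨p, hp.out⟩ : Nat.Primes) ∈ S)

theorem embQ_zetaQbar : embQ q (zetaQbar p) = zetaLoc q p := rfl

/-- The composite `μ_p → E_S → J_S → L_q` is the torsion embedding of `LqModule`. -/
theorem rho_i_iota (hq : q ∈ S) (a : ZMod p) :
    (rho q S).hom ((seqEJC S).f.hom ((iota p hpS).hom a)) = torsionMap q p a := by
  rw [iota_hom_apply, torsionMap_apply]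
  change ofUnit q (rhoMul q S (esToJS S (Additive.toMul (iotaAdd p hpS a)))) = _
  apply congrArg (ofUnit q)
  apply Units.ext
  rw [val_rhoMul_esToJS q hq, coe_iotaAdd, map_pow, embQ_zetaQbar, Units.val_pow_eq_pow_val]
  rfl

end Kappa

/-! ### The arithmetic zigzag datum -/

section Datum

variable (p : ℕ) [hp : Fact p.Prime] (hpS : (⟨p, hp.out⟩ : Nat.Primes) ∈ S)

/-- **The arithmetic `KDatum`**: `N = μ_p`, `0 → E_S → J_S → C'_S → 0`, `L_q = Qbar_qˣ`. -/
def arithKDatum : KCalc.KDatum ℤ (arithDatum S) p where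
  N := ChangeRing.intRep (muRep p)
  E := ES S
  J := JS S
  C := CS' S
  ι := iota p hpS
  i := (seqEJC S).f
  π := (seqEJC S).g
  L v := Lq v.1
  ρ v := rho v.1 S
  zero := (seqEJC S).zero
  hses := shortExact_seqEJC S
  hJ := isDiscrete_JS S
  hL v := isDiscrete_Lq v.1
  hι_inj := iotaAdd_injective p hpS
  hι_tors a := nsmul_iotaAdd p hpS a
  hι_surj e he := exists_iotaAdd_eq p hpS e he
  hdivE e := exists_nsmul_eq_ES hp.out.ne_zero (prime_dvd_mem p hpS) e
  hdivL v l := Fermat.Agent.Lib.CFT.Local.LqModule.exists_nsmul_eq v.1 hp.out.ne_zero l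
  hL_inj v := by
    intro a b hab
    have hab' : (rho v.1 S).hom ((seqEJC S).f.hom ((iota p hpS).hom a)) =
        (rho v.1 S).hom ((seqEJC S).f.hom ((iota p hpS).hom b)) := hab
    rw [rho_i_iota v.1 p hpS v.2, rho_i_iota v.1 p hpS v.2] at hab'
    exact torsionMap_injective v.1 p hab'
  hL_surj v l hl := by
    have hmem : l ∈ Set.range (torsionMap v.1 p) := by
      rw [range_torsionMap]
      exact hl
    obtain ⟨a, ha⟩ := hmem
    exact ⟨a, (rho_i_iota v.1 p hpS v.2 a).trans ha⟩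

@[simp] theorem arithKDatum_N : (arithKDatum S p hpS).N = ChangeRing.intRep (muRep p) := rfl
@[simp] theorem arithKDatum_E : (arithKDatum S p hpS).E = ES S := rfl
@[simp] theorem arithKDatum_J : (arithKDatum S p hpS).J = JS S := rfl
@[simp] theorem arithKDatum_C : (arithKDatum S p hpS).C = CS' S := rfl
@[simp] theorem arithKDatum_L (v : (arithDatum S).ι) : (arithKDatum S p hpS).L v = Lq v.1 := rfl
theorem arithKDatum_ι : (arithKDatum S p hpS).ι = iota p hpS := rfl
theorem arithKDatum_i : (arithKDatum S p hpS).i = (seqEJC S).f := rfl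
theorem arithKDatum_π : (arithKDatum S p hpS).π = (seqEJC S).g := rfl
theorem arithKDatum_ρ (v : (arithDatum S).ι) : (arithKDatum S p hpS).ρ v = rho v.1 S := rfl

/-- The composite `res μ_p ⟶ L_q` of the arithmetic datum is the torsion embedding. -/
theorem arithKDatum_κ_apply (v : (arithDatum S).ι) (a : ZMod p) :
    ((arithKDatum S p hpS).κ v).hom a = torsionMap v.1 p a :=
  rho_i_iota v.1 p hpS v.2 a

include hpS in
/-- **Comparison `C'_S ⟶ C_S`**: since multiplication by `p` is bijective on the cokernel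
`Q_S = colim Cl_S(F)`, the map `T^r(C'_S) ⟶ T^r(C_S)` is bijective for all `r`. -/
theorem TMap_cs'ToCS_bijective (r : ℕ) :
    Function.Bijective (KCalc.TMap (levelsS S) p (seqCCQ S).f r) :=
  KCalc.TMap_f_bijective (levelsS S) p (shortExact_seqCCQ S) (isDiscrete_CS S)
    (bijective_nsmul_QS hp.out hpS) r

end Datum

end Fermat.Agent.Lib.CFT.Duality.ArithKDatum
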