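import Fermat.Agent.Lib.CFT.Duality.BaseCase.KDatum
import Fermat.Agent.Lib.CFT.Profinite.LES

/-!
# Lifting the local-global statement from level cohomology to the cone of multiplication by `p`

For a zigzag datum `K` over a localisation datum `D`: a `p`-torsion class `y` of `H²(G, J)` which
is locally trivial away from a place `q` and has nonzero image in `H²(G, C)` lifts to a class `ỹ`
of `T²(J)` with `lamT ỹ v = 0` for `v ≠ q` and `invT (π ỹ) ≠ 0`, as soon as `invT` is injective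
and `H¹(H_v, L v) = 0` for all `v` (local Hilbert 90).  This is the field `hLG` of the `P`-form
contract.
-/

set_option autoImplicit false

open CategoryTheory Fermat.Agent.Lib.CFT.Profinite

namespace Fermat.Agent.Lib.CFT.Duality.LGLift

open KCalc

variable {k : Type} [CommRing k] {G : Type} [Group G] {D : LocDatum G} {p : ℕ}
  (K : KDatum k D p)

/-- A class of `T²(L v)` whose image in `H²(L v)` vanishes is zero when `H¹(L v) = 0`. -/
theorem eq_zero_of_toH_eq_zero {H : Type} [Group H] (𝒱 : LevelFamily H) (L : Rep k H)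
    (h1 : Subsingleton (𝒱.levelCohomology L 1)) (t : T 𝒱 p L 2) (ht : toH 𝒱 p L 2 t = 0) :
    t = 0 := by
  obtain ⟨z, rfl⟩ := (toH_eq_zero_iff 𝒱 p L 1 t).1 ht
  rw [Subsingleton.elim z 0, map_zero]

/-- `toH` is injective on `T²` when `H¹ = 0`. -/
theorem toH_two_injective {H : Type} [Group H] (𝒱 : LevelFamily H) (L : Rep k H)
    (h1 : Subsingleton (𝒱.levelCohomology L 1)) : Function.Injective (toH 𝒱 p L 2) := by
  rw [injective_iff_map_eq_zero]
  exact fun t ht => eq_zero_of_toH_eq_zero 𝒱 L h1 t ht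

/-- **Lift of the local-global statement to `T`**, in terms of the injectivity of `toH` on the
local groups `T²(L v)`. -/
theorem exists_lift_of_toH_injective {Z : Type*} [AddZeroClass Z]
    (invT : T D.𝒰 p K.C 2 →+ Z) (hinv : Function.Injective invT) (q : D.ι)
    (hloc : ∀ v, v ≠ q → Function.Injective (toH (D.𝒱 v) p (K.L v) 2))
    (y : D.𝒰.levelCohomology K.J 2) (hy : p • y = 0)
    (hyv : ∀ v, v ≠ q → (LES.map (D.φ v) (D.compat v) (K.ρ v) 2).hom y = 0)
    (hyπ : (D.𝒰.levelCohomologyMap K.π 2).hom y ≠ 0) :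
    ∃ yt : T D.𝒰 p K.J 2, toH D.𝒰 p K.J 2 yt = y ∧ (∀ v, v ≠ q → K.lamT 2 yt v = 0) ∧
      invT (TMap D.𝒰 p K.π 2 yt) ≠ 0 := by
  obtain ⟨yt, hyt⟩ := (exists_toH_eq_iff D.𝒰 p K.J 2 y).2 hy
  refine ⟨yt, hyt, fun v hv => hloc v hv ?_, fun h0 => hyπ ?_⟩
  · rw [map_zero, KDatum.lamT_apply, toH_TMapOfHom, hyt]
    exact hyv v hv
  · have h1 : TMap D.𝒰 p K.π 2 yt = 0 := hinv (h0.trans (map_zero invT).symm)
    rw [← hyt, ← toH_TMap, h1, map_zero]

/-- **Lift of the local-global statement to `T`** (the field `hLG` of the `P`-form contract, for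
one place `q`): under local Hilbert 90 `H¹(H_v, L v) = 0`. -/
theorem exists_lift {Z : Type*} [AddZeroClass Z]
    (invT : T D.𝒰 p K.C 2 →+ Z) (hinv : Function.Injective invT) (q : D.ι)
    (h90 : ∀ v, v ≠ q → Subsingleton ((D.𝒱 v).levelCohomology (K.L v) 1))
    (y : D.𝒰.levelCohomology K.J 2) (hy : p • y = 0)
    (hyv : ∀ v, v ≠ q → (LES.map (D.φ v) (D.compat v) (K.ρ v) 2).hom y = 0)
    (hyπ : (D.𝒰.levelCohomologyMap K.π 2).hom y ≠ 0) :
    ∃ yt : T D.𝒰 p K.J 2, (∀ v, v ≠ q → K.lamT 2 yt v = 0) ∧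
      invT (TMap D.𝒰 p K.π 2 yt) ≠ 0 := by
  obtain ⟨yt, -, h1, h2⟩ := exists_lift_of_toH_injective K invT hinv q
    (fun v hv => toH_two_injective (D.𝒱 v) (K.L v) (h90 v hv)) y hy hyv hyπ
  exact ⟨yt, h1, h2⟩

/-- The field `hLG` of the `P`-form contract from the `H`-level local-global statement at every
place. -/
theorem hLG_of_forall {Z : Type*} [AddZeroClass Z]
    (invT : T D.𝒰 p K.C 2 →+ Z) (hinv : Function.Injective invT)
    (h90 : ∀ v, Subsingleton ((D.𝒱 v).levelCohomology (K.L v) 1))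
    (hH : ∀ q : D.ι, ∃ y : D.𝒰.levelCohomology K.J 2, p • y = 0 ∧
      (∀ v, v ≠ q → (LES.map (D.φ v) (D.compat v) (K.ρ v) 2).hom y = 0) ∧
      (D.𝒰.levelCohomologyMap K.π 2).hom y ≠ 0) :
    ∀ q : D.ι, ∃ yt : T D.𝒰 p K.J 2, (∀ v, v ≠ q → K.lamT 2 yt v = 0) ∧
      invT (TMap D.𝒰 p K.π 2 yt) ≠ 0 := by
  intro q
  obtain ⟨y, hy, hyv, hyπ⟩ := hH q
  exact exists_lift K invT hinv q (fun v _ => h90 v) y hy hyv hyπ

end Fermat.Agent.Lib.CFT.Duality.LGLift
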