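import Fermat.Agent.Lib.CFT.Duality.BaseCase.PFormBridge
import Fermat.Agent.Lib.CFT.Duality.BaseCase.LGLift

/-!
# The local-global field `hLG` of the arithmetic `P`-form contract

The argument `hLG` of `PFormBridge.arithPForm` from the `H`-level local-global statement: for every
`q ∈ S` a `p`-torsion class of `H²(G_S, J_S)` which is locally trivial away from `q` and has
nonzero image in `H²(G_S, C_S)`; it needs the injectivity of the invariant map and the local
Hilbert 90 for the modules `L_q`.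
-/

set_option autoImplicit false

open CategoryTheory Fermat.Agent.Lib.CFT.Profinite

namespace Fermat.Agent.Lib.CFT.Duality.GlobalBase.ArithLG

open KCalc ChangeRing PFormBridge ArithKDatum Fermat.Agent.Lib.CFT.Profinite.Bridge
  Fermat.Agent.Lib.CFT.Global Fermat.Agent.Lib.CFT.Global.SVersion
  Fermat.Agent.Lib.CFT.Local.LqModule

variable (S : Finset Nat.Primes) (p : ℕ) [hp : Fact p.Prime]
  (hpS : (⟨p, hp.out⟩ : Nat.Primes) ∈ S)

/-- **The field `hLG` of the arithmetic `P`-form contract** from the `H`-level statement. -/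
theorem arith_hLG (invT : T (arithDatum S).𝒰 p (CS S) 2 →+ ZMod p)
    (hinvT : Function.Injective invT)
    (h90 : ∀ v : (arithDatum S).ι,
      Subsingleton (((arithDatum S).𝒱 v).levelCohomology ((arithKDatum S p hpS).L v) 1))
    (hH : ∀ q : (arithDatum S).ι,
      ∃ y : (arithDatum S).𝒰.levelCohomology (arithKDatum S p hpS).J 2, p • y = 0 ∧
        (∀ v, v ≠ q → (LES.map ((arithDatum S).φ v) ((arithDatum S).compat v)
          ((arithKDatum S p hpS).ρ v) 2).hom y = 0) ∧
        ((arithDatum S).𝒰.levelCohomologyMap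
          ((arithKDatum S p hpS).π ≫ cs'ToCSHom S) 2).hom y ≠ 0) :
    ∀ q : (arithDatum S).ι, ∃ y : T (arithDatum S).𝒰 p (arithKDatum S p hpS).J 2,
      (∀ v, v ≠ q → (arithKDatum S p hpS).lamT 2 y v = 0) ∧
        invT (TMap (arithDatum S).𝒰 p ((arithKDatum S p hpS).π ≫ cs'ToCSHom S) 2 y) ≠ 0 := by
  have hinj : Function.Injective
      (pullInv (arithDatum S).𝒰 (cs'ToCSHom S) invT) := by
    intro a b hab
    exact (TMap_cs'ToCS_bijective S p hpS 2).1 (hinvT hab)
  have hH' : ∀ q : (arithDatum S).ι,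
      ∃ y : (arithDatum S).𝒰.levelCohomology (arithKDatum S p hpS).J 2, p • y = 0 ∧
        (∀ v, v ≠ q → (LES.map ((arithDatum S).φ v) ((arithDatum S).compat v)
          ((arithKDatum S p hpS).ρ v) 2).hom y = 0) ∧
        ((arithDatum S).𝒰.levelCohomologyMap (arithKDatum S p hpS).π 2).hom y ≠ 0 := by
    intro q
    obtain ⟨y, hy, hyv, hyπ⟩ := hH q
    refine ⟨y, hy, hyv, fun h0 => hyπ ?_⟩
    have h1 := DevissageStep.levelCohomologyMap_comp (arithDatum S).𝒰
      (arithKDatum S p hpS).π (cs'ToCSHom S) 2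
    rw [h1]
    show ((arithDatum S).𝒰.levelCohomologyMap (cs'ToCSHom S) 2).hom
      (((arithDatum S).𝒰.levelCohomologyMap (arithKDatum S p hpS).π 2).hom y) = 0
    rw [h0]
    exact map_zero _
  intro q
  obtain ⟨yt, h1, h2⟩ := LGLift.hLG_of_forall (arithKDatum S p hpS)
    (pullInv (arithDatum S).𝒰 (cs'ToCSHom S) invT) hinj h90 hH' q
  refine ⟨yt, h1, fun h0 => h2 ?_⟩
  exact (pullInv_TMap (arithDatum S).𝒰 (C' := CS' S) (cs'ToCSHom S) invT
    (arithKDatum S p hpS).π yt).trans h0

end Fermat.Agent.Lib.CFT.Duality.GlobalBase.ArithLG
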