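import Fermat.Agent.Lib.CFT.Profinite.LevelClasses
import Fermat.Agent.Lib.CFT.Duality.BaseCase.KCalcRep

/-!
# Bockstein pairs (P-CFT, L4 base cases, helper77)

Let `red : Rt ⟶ R` be a *reduction modulo `c`* of representations of `G`: `red` is surjective, its
kernel is `c • Rt`, and `Rt` has no `c`-torsion; in other words `0 ⟶ Rt --c--> Rt --red--> R ⟶ 0`
is short exact (`bockSeq`, `bockSeq_shortExact`).

A *Bockstein pair* of degree `j` is a pair `(y, b)` of level cochains of `Rt` of degrees `j` and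
`j + 1` with `d y = c • b`.  Then `b` is a cocycle, `red ∘ y` is a cocycle of `R`, every class of
`Hʲ(R)` is of the form `[red ∘ y]` for a Bockstein pair, and `δ [red ∘ y] = [b]` for the connecting
homomorphism of the sequence above.
-/

set_option autoImplicit false

universe u

open CategoryTheory groupCohomology

namespace Fermat.Agent.Lib.CFT.Duality.Bockstein

open Fermat.Agent.Lib.CFT.Profinite Fermat.Agent.Lib.CFT.Profinite.LevelFamily

variable {k G : Type u} [CommRing k] [Group G]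

/-! ### Multiplication by a scalar and reductions -/

/-- Multiplication by the scalar `c` as an endomorphism of the representation `X`. -/
noncomputable def smulRep (c : k) (X : Rep.{u} k G) : X ⟶ X := c • 𝟙 X

@[simp]
theorem smulRep_hom_apply (c : k) (X : Rep.{u} k G) (x : X) : (smulRep c X).hom x = c • x := rfl

/-- For a natural number, `smulRep` is `KCalc.mulRep`. -/
theorem smulRep_natCast (p : ℕ) (X : Rep.{u} k G) : smulRep (p : k) X = KCalc.mulRep p X := by
  ext x
  show ((p : k)) • x = p • x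
  exact Nat.cast_smul_eq_nsmul k p x

/-- `red : Rt ⟶ R` is a reduction modulo `c`: it is surjective with kernel `c • Rt`, and `Rt` has
no `c`-torsion. -/
structure IsReduction (c : k) {Rt R : Rep.{u} k G} (red : Rt ⟶ R) : Prop where
  surjective : Function.Surjective red.hom
  ker_eq : ∀ x : Rt, red.hom x = 0 ↔ ∃ y : Rt, c • y = x
  torsionFree : ∀ x : Rt, c • x = 0 → x = 0

variable {c : k} {Rt R : Rep.{u} k G} {red : Rt ⟶ R}

theorem IsReduction.red_smul (h : IsReduction c red) (x : Rt) : red.hom (c • x) = 0 :=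
  (h.ker_eq _).mpr ⟨x, rfl⟩

theorem IsReduction.smul_injective (h : IsReduction c red) :
    Function.Injective (smulRep c Rt).hom := by
  intro x y hxy
  have h1 : c • (x - y) = 0 := by
    rw [smul_sub]
    exact sub_eq_zero.mpr hxy
  exact sub_eq_zero.mp (h.torsionFree _ h1)

/-- The short complex `Rt --c--> Rt --red--> R`. -/
noncomputable def bockSeq (h : IsReduction c red) : ShortComplex (Rep.{u} k G) :=
  ShortComplex.mk (smulRep c Rt) red (by
    ext x
    exact h.red_smul x)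

@[simp] theorem bockSeq_X₁ (h : IsReduction c red) : (bockSeq h).X₁ = Rt := rfl
@[simp] theorem bockSeq_X₂ (h : IsReduction c red) : (bockSeq h).X₂ = Rt := rfl
@[simp] theorem bockSeq_X₃ (h : IsReduction c red) : (bockSeq h).X₃ = R := rfl
@[simp] theorem bockSeq_f (h : IsReduction c red) : (bockSeq h).f = smulRep c Rt := rfl
@[simp] theorem bockSeq_g (h : IsReduction c red) : (bockSeq h).g = red := rfl

/-- The sequence `0 ⟶ Rt --c--> Rt --red--> R ⟶ 0` is short exact. -/
theorem bockSeq_shortExact (h : IsReduction c red) : (bockSeq h).ShortExact where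
  exact := by
    rw [← ShortComplex.exact_map_iff_of_faithful (F := forget₂ (Rep k G) (ModuleCat k)),
      ShortComplex.moduleCat_exact_iff]
    intro x hx
    obtain ⟨y, hy⟩ := (h.ker_eq x).mp hx
    exact ⟨y, hy⟩
  mono_f := (Rep.mono_iff_injective _).2 h.smul_injective
  epi_g := (Rep.epi_iff_surjective _).2 h.surjective

/-- A reduction modulo a natural number `p`, from hypotheses stated with the `ℕ`-action. -/
theorem IsReduction.of_nat {p : ℕ} (hs : Function.Surjective red.hom)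
    (hk : ∀ x : Rt, red.hom x = 0 ↔ ∃ y : Rt, p • y = x) (htf : ∀ x : Rt, p • x = 0 → x = 0) :
    IsReduction (p : k) red where
  surjective := hs
  ker_eq x := by
    rw [hk x]
    exact exists_congr fun y => by rw [Nat.cast_smul_eq_nsmul k p y]
  torsionFree x hx := htf x (by rwa [Nat.cast_smul_eq_nsmul k p x] at hx)

/-- For `c = p` a natural number the first map of `bockSeq` is `KCalc.mulRep p`. -/
theorem bockSeq_f_natCast {p : ℕ} (h : IsReduction (p : k) red) :
    (bockSeq h).f = KCalc.mulRep p Rt := smulRep_natCast p Rt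

variable (𝒰 : LevelFamily G)

/-! ### Reduction of level cochains -/

/-- Composition with `red` on level cochains. -/
noncomputable def redL (red : Rt ⟶ R) (n : ℕ) :
    𝒰.levelCochains Rt n →ₗ[k] 𝒰.levelCochains R n :=
  (((𝒰.levelComplexFunctor (k := k)).map red).f n).hom

@[simp]
theorem redL_apply_coe (n : ℕ) (y : 𝒰.levelCochains Rt n) (g : Fin n → G) :
    (redL 𝒰 red n y).1 g = red.hom (y.1 g) := rfl

theorem levelD_redL (n : ℕ) (y : 𝒰.levelCochains Rt n) :
    (𝒰.levelD R n).hom (redL 𝒰 red n y) = redL 𝒰 red (n + 1) ((𝒰.levelD Rt n).hom y) := by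
  apply Subtype.ext
  have h := congr($((cochainsMap (MonoidHom.id G) red).comm n (n + 1)) y.1)
  simp only [CochainComplex.of_d, ModuleCat.hom_comp, LinearMap.coe_comp,
    Function.comp_apply] at h
  exact h

/-! ### Bockstein pairs -/

/-- The Bockstein pairs of degree `j`: pairs `(y, b)` of level cochains of `Rt` of degrees `j`,
`j + 1` with `d y = c • b`. -/
def BockPair (c : k) (Rt : Rep.{u} k G) (j : ℕ) :
    Submodule k (𝒰.levelCochains Rt j × 𝒰.levelCochains Rt (j + 1)) where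
  carrier := {x | (𝒰.levelD Rt j).hom x.1 = c • x.2}
  add_mem' := by
    intro x x' hx hx'
    simp only [Set.mem_ofPred_eq] at hx hx' ⊢
    rw [Prod.fst_add, Prod.snd_add, map_add, hx, hx', smul_add]
  zero_mem' := by
    simp only [Set.mem_ofPred_eq]
    rw [Prod.fst_zero, Prod.snd_zero, map_zero, smul_zero]
  smul_mem' := by
    intro r x hx
    simp only [Set.mem_ofPred_eq] at hx ⊢
    rw [Prod.smul_fst, Prod.smul_snd, map_smul, hx, smul_comm]

variable {𝒰}

theorem mem_BockPair_iff {j : ℕ} (x : 𝒰.levelCochains Rt j × 𝒰.levelCochains Rt (j + 1)) :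
    x ∈ BockPair 𝒰 c Rt j ↔ (𝒰.levelD Rt j).hom x.1 = c • x.2 := Iff.rfl

/-- The defining relation `d y = c • b` of a Bockstein pair. -/
theorem BockPair.d_fst {j : ℕ} (x : BockPair 𝒰 c Rt j) :
    (𝒰.levelD Rt j).hom x.1.1 = c • x.1.2 := x.2

/-- The defining relation of a Bockstein pair, pointwise. -/
theorem BockPair.d_fst_apply {j : ℕ} (x : BockPair 𝒰 c Rt j) (g : Fin (j + 1) → G) :
    (inhomogeneousCochains.d Rt j).hom x.1.1.1 g = c • x.1.2.1 g := by
  have h := congrArg Subtype.val x.2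
  exact congrFun h g

/-- The second component of a Bockstein pair is a cocycle (no `c`-torsion). -/
theorem BockPair.d_snd (htf : ∀ x : Rt, c • x = 0 → x = 0) {j : ℕ} (x : BockPair 𝒰 c Rt j) :
    (𝒰.levelD Rt (j + 1)).hom x.1.2 = 0 := by
  have h1 : (𝒰.levelD Rt (j + 1)).hom ((𝒰.levelD Rt j).hom x.1.1) = 0 :=
    congr($(𝒰.levelD_comp_levelD Rt j) x.1.1)
  rw [BockPair.d_fst x, map_smul] at h1
  apply Subtype.ext
  funext g
  have h2 := congrFun (congrArg Subtype.val h1) g
  exact htf _ h2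

variable (𝒰)

/-- (1) The cocycle `red ∘ y` of `R` attached to a Bockstein pair `(y, b)`. -/
noncomputable def redCocycle (h : IsReduction c red) (j : ℕ) :
    BockPair 𝒰 c Rt j →ₗ[k] 𝒰.levelCocycles R j :=
  LinearMap.codRestrict _ ((𝒰.levelCochains R j).subtype ∘ₗ redL 𝒰 red j ∘ₗ
      LinearMap.fst k _ _ ∘ₗ (BockPair 𝒰 c Rt j).subtype) (fun x => by
    refine Submodule.mem_inf.mpr ⟨(redL 𝒰 red j x.1.1).2, ?_⟩
    rw [LinearMap.mem_ker]
    have h1 := congrArg Subtype.val (levelD_redL 𝒰 (red := red) j x.1.1)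
    rw [BockPair.d_fst x] at h1
    refine h1.trans ?_
    funext g
    show red.hom (c • x.1.2.1 g) = 0
    exact h.red_smul _)

@[simp]
theorem redCocycle_coe_apply (h : IsReduction c red) (j : ℕ) (x : BockPair 𝒰 c Rt j)
    (g : Fin j → G) : (redCocycle 𝒰 h j x).1 g = red.hom (x.1.1.1 g) := rfl

/-- The cocycle `b` of `Rt` attached to a Bockstein pair `(y, b)`. -/
noncomputable def bockCocycle (h : IsReduction c red) (j : ℕ) :
    BockPair 𝒰 c Rt j →ₗ[k] 𝒰.levelCocycles Rt (j + 1) :=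
  LinearMap.codRestrict _ ((𝒰.levelCochains Rt (j + 1)).subtype ∘ₗ
      LinearMap.snd k _ _ ∘ₗ (BockPair 𝒰 c Rt j).subtype) (fun x => by
    refine Submodule.mem_inf.mpr ⟨x.1.2.2, ?_⟩
    rw [LinearMap.mem_ker]
    exact congrArg Subtype.val (BockPair.d_snd h.torsionFree x))

@[simp]
theorem bockCocycle_coe (h : IsReduction c red) (j : ℕ) (x : BockPair 𝒰 c Rt j) :
    (bockCocycle 𝒰 h j x).1 = x.1.2.1 := rfl

/-- The class `[red ∘ y]` in `Hʲ(R)` of a Bockstein pair `(y, b)`. -/
noncomputable def redClass (h : IsReduction c red) (j : ℕ) :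
    BockPair 𝒰 c Rt j →ₗ[k] 𝒰.levelCohomology R j :=
  𝒰.classMk R j ∘ₗ redCocycle 𝒰 h j

/-- The Bockstein class `[b]` in `Hʲ⁺¹(Rt)` of a Bockstein pair `(y, b)`. -/
noncomputable def bockClass (h : IsReduction c red) (j : ℕ) :
    BockPair 𝒰 c Rt j →ₗ[k] 𝒰.levelCohomology Rt (j + 1) :=
  𝒰.classMk Rt (j + 1) ∘ₗ bockCocycle 𝒰 h j

theorem redClass_apply (h : IsReduction c red) (j : ℕ) (x : BockPair 𝒰 c Rt j) :
    redClass 𝒰 h j x = 𝒰.classMk R j (redCocycle 𝒰 h j x) := rfl

theorem bockClass_apply (h : IsReduction c red) (j : ℕ) (x : BockPair 𝒰 c Rt j) :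
    bockClass 𝒰 h j x = 𝒰.classMk Rt (j + 1) (bockCocycle 𝒰 h j x) := rfl

/-- (2) Existence: every level cocycle of `R` is `red ∘ y` for a Bockstein pair `(y, b)`. -/
theorem exists_bockPair_of_cocycle (h : IsReduction c red) (hd : 𝒰.IsDiscrete Rt) {j : ℕ}
    (z : 𝒰.levelCocycles R j) : ∃ x : BockPair 𝒰 c Rt j, redCocycle 𝒰 h j x = z := by
  have hz : z.1 ∈ 𝒰.levelCochains R j := (Submodule.mem_inf.mp z.2).1
  have hdz : (inhomogeneousCochains.d R j).hom z.1 = 0 := (Submodule.mem_inf.mp z.2).2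
  obtain ⟨y, hy, hyz⟩ := 𝒰.exists_levelCochain_lift (bockSeq_shortExact h) hd
    (z := z.1) hz
  have hdy : (inhomogeneousCochains.d Rt j).hom y ∈ 𝒰.levelCochains Rt (j + 1) :=
    𝒰.d_mem_levelCochains Rt hy
  have hred : ∀ g, red.hom ((inhomogeneousCochains.d Rt j).hom y g) = 0 := by
    intro g
    have h1 := congrArg Subtype.val (levelD_redL 𝒰 (red := red) j ⟨y, hy⟩)
    have h2 : (redL 𝒰 red j ⟨y, hy⟩).1 = z.1 := by
      funext g'
      exact hyz g'
    have h3 : ((𝒰.levelD R j).hom (redL 𝒰 red j ⟨y, hy⟩)).1 =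
        (inhomogeneousCochains.d R j).hom (redL 𝒰 red j ⟨y, hy⟩).1 := rfl
    rw [h3, h2, hdz] at h1
    exact (congrFun h1 g).symm
  obtain ⟨b, hb, hby⟩ := 𝒰.exists_levelCochain_of_comp_eq_zero (bockSeq_shortExact h)
    (y := (inhomogeneousCochains.d Rt j).hom y) hdy hred
  refine ⟨⟨(⟨y, hy⟩, ⟨b, hb⟩), ?_⟩, ?_⟩
  · rw [mem_BockPair_iff]
    apply Subtype.ext
    funext g
    exact (hby g).symm
  · apply Subtype.ext
    funext g
    exact hyz g

/-- (2)+(4) Every class of `Hʲ(R)` is the class of `red ∘ y` for a Bockstein pair `(y, b)`. -/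
theorem redClass_surjective (h : IsReduction c red) (hd : 𝒰.IsDiscrete Rt) (j : ℕ) :
    Function.Surjective (redClass 𝒰 h j) := by
  intro η
  obtain ⟨z, rfl⟩ := 𝒰.classMk_surjective R j η
  obtain ⟨x, rfl⟩ := exists_bockPair_of_cocycle 𝒰 h hd z
  exact ⟨x, rfl⟩

/-- (3) The connecting homomorphism of `0 ⟶ Rt --c--> Rt --red--> R ⟶ 0` sends `[red ∘ y]` to the
Bockstein class `[b]` (sign `+1`). -/
theorem δ_redClass (h : IsReduction c red) (hd : 𝒰.IsDiscrete Rt) (j : ℕ)
    (x : BockPair 𝒰 c Rt j) :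
    (𝒰.δ (bockSeq_shortExact h) hd j (j + 1) rfl).hom (redClass 𝒰 h j x) =
      bockClass 𝒰 h j x := by
  have := δ_classMk (𝒰 := 𝒰) (bockSeq_shortExact h) hd j (redCocycle 𝒰 h j x) x.1.1.1 x.1.1.2
    (fun g => rfl) x.1.2.1 x.1.2.2 (fun g => (BockPair.d_fst_apply x g).symm)
  exact this

/-- Every class `η` of `Hʲ(R)` comes from a Bockstein pair whose Bockstein class is `δ η`. -/
theorem exists_bockPair_of_class (h : IsReduction c red) (hd : 𝒰.IsDiscrete Rt) (j : ℕ)
    (η : 𝒰.levelCohomology R j) :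
    ∃ x : BockPair 𝒰 c Rt j, redClass 𝒰 h j x = η ∧
      bockClass 𝒰 h j x = (𝒰.δ (bockSeq_shortExact h) hd j (j + 1) rfl).hom η := by
  obtain ⟨x, rfl⟩ := redClass_surjective 𝒰 h hd j η
  exact ⟨x, rfl, (δ_redClass 𝒰 h hd j x).symm⟩

end Fermat.Agent.Lib.CFT.Duality.Bockstein
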