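import Fermat.Agent.Lib.CFT.Duality.BaseCase.KCalc

/-!
# The `K(X)`-calculus, part 2: Bockstein sequence, functoriality, long exact sequence

* `(K1)` the sequence `0 ⟶ H^{r}(X)/p ⟶ T^{r+1}(X) ⟶ H^{r+1}(X)[p] ⟶ 0` in element form:
  maps `ofH`, `toH`;
* `(K2)` functoriality `KpMap`, `TMap` and the long exact sequence of `T` attached to a short
  exact sequence of representations with discrete middle term (`Tδ`);
* `(K4)` `TMap S.f` is bijective when `p` is bijective on `S.X₃`;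
* `(K5)` change of group `KpMapOfHom`, `TMapOfHom`.
-/

set_option autoImplicit false

universe u

open CategoryTheory Fermat.Agent.Lib.CFT.Profinite

namespace Fermat.Agent.Lib.CFT.Duality.KCalc

open ConcreteHomology

variable {k G : Type u} [CommRing k] [Group G] (𝒰 : LevelFamily G) (p : ℕ) (X : Rep.{u} k G)

/-! ### (K1) the Bockstein sequence -/

/-- `H^r(X) ⟶ T^{r+1}(X)`, `[b] ↦ [(0, b)]`. -/
noncomputable def ofH (r : ℕ) : 𝒰.levelCohomology X r →ₗ[k] T 𝒰 p X (r + 1) :=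
  natCone.bdry (mulP 𝒰 p X) r

/-- `T^r(X) ⟶ H^r(X)`, `[(a, b)] ↦ [a]`. -/
noncomputable def toH (r : ℕ) : T 𝒰 p X r →ₗ[k] 𝒰.levelCohomology X r :=
  (HomologicalComplex.homologyMap (natCone.fst (mulP 𝒰 p X)) r).hom

theorem toH_classOf (r : ℕ) (z : Z (Kp 𝒰 p X) r) :
    toH 𝒰 p X r (classOf (Kp 𝒰 p X) r z) =
      classOf (𝒰.levelComplex X) r (mapZ (natCone.fst (mulP 𝒰 p X)) r z) :=
  homologyMap_classOf _ r z

@[simp]
theorem toH_ofH (r : ℕ) (y : 𝒰.levelCohomology X r) : toH 𝒰 p X (r + 1) (ofH 𝒰 p X r y) = 0 :=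
  natCone.homologyMap_fst_bdry (mulP 𝒰 p X) r y

/-- The image of `toH` is the `p`-torsion of `H^r(X)`. -/
theorem exists_toH_eq_iff (r : ℕ) (x : 𝒰.levelCohomology X r) :
    (∃ t : T 𝒰 p X r, toH 𝒰 p X r t = x) ↔ p • x = 0 := by
  rw [← homologyMap_mulP_apply]
  exact (natCone.homologyMap_eq_zero_iff (mulP 𝒰 p X) r x).symm

theorem smul_toH (r : ℕ) (t : T 𝒰 p X r) : p • toH 𝒰 p X r t = 0 :=
  (exists_toH_eq_iff 𝒰 p X r _).1 ⟨t, rfl⟩

/-- The kernel of `toH` is the image of `ofH`. -/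
theorem toH_eq_zero_iff (r : ℕ) (t : T 𝒰 p X (r + 1)) :
    toH 𝒰 p X (r + 1) t = 0 ↔ ∃ y : 𝒰.levelCohomology X r, ofH 𝒰 p X r y = t :=
  natCone.homologyMap_fst_eq_zero_iff (mulP 𝒰 p X) r t

/-- The kernel of `ofH` is `p • H^r(X)`. -/
theorem ofH_eq_zero_iff (r : ℕ) (y : 𝒰.levelCohomology X r) :
    ofH 𝒰 p X r y = 0 ↔ ∃ z : 𝒰.levelCohomology X r, p • z = y := by
  refine (natCone.bdry_eq_zero_iff (mulP 𝒰 p X) r y).trans ?_
  constructor
  · rintro ⟨z, hz⟩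
    exact ⟨z, by rw [← homologyMap_mulP_apply]; exact hz⟩
  · rintro ⟨z, hz⟩
    exact ⟨z, by rw [homologyMap_mulP_apply]; exact hz⟩

@[simp]
theorem ofH_smul (r : ℕ) (z : 𝒰.levelCohomology X r) : ofH 𝒰 p X r (p • z) = 0 :=
  (ofH_eq_zero_iff 𝒰 p X r _).2 ⟨z, rfl⟩

theorem toH_zero_injective : Function.Injective (toH 𝒰 p X 0) :=
  natCone.homologyMap_fst_zero_injective (mulP 𝒰 p X)

theorem exact_ofH_toH (r : ℕ) : Function.Exact (ofH 𝒰 p X r) (toH 𝒰 p X (r + 1)) :=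
  natCone.exact_bdry_homologyMap_fst (mulP 𝒰 p X) r

/-- `p` kills `T^r(X)` up to a factor: `p • p • t = 0` (in fact `T` is killed by `p²`). -/
theorem smul_smul_T (r : ℕ) (t : T 𝒰 p X r) : p • p • t = 0 := by
  cases r with
  | zero =>
    apply toH_zero_injective 𝒰 p X
    rw [map_nsmul, map_nsmul, smul_toH, smul_zero, map_zero]
  | succ m =>
    have h1 : toH 𝒰 p X (m + 1) (p • t) = 0 := by rw [map_nsmul, smul_toH]
    obtain ⟨y, hy⟩ := (toH_eq_zero_iff 𝒰 p X m _).1 h1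
    rw [← hy, ← map_nsmul, ofH_smul]

/-! ### (K2) functoriality -/

section functoriality

variable {X} {Y W : Rep.{u} k G}

theorem mulP_naturality (f : X ⟶ Y) :
    mulP 𝒰 p X ≫ (𝒰.levelComplexFunctor (k := k)).map f =
      (𝒰.levelComplexFunctor (k := k)).map f ≫ mulP 𝒰 p Y := by
  ext n x : 3
  apply Subtype.ext
  funext g
  show f.hom (p • x.1 g) = p • f.hom (x.1 g)
  exact map_nsmul _ _ _

/-- Functoriality of the cone of multiplication by `p` in the module. -/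
noncomputable def KpMap (f : X ⟶ Y) : Kp 𝒰 p X ⟶ Kp 𝒰 p Y :=
  natCone.map (mulP 𝒰 p X) (mulP 𝒰 p Y) ((𝒰.levelComplexFunctor (k := k)).map f)
    ((𝒰.levelComplexFunctor (k := k)).map f) (mulP_naturality 𝒰 p f)

/-- Functoriality of `T` in the module. -/
noncomputable def TMap (f : X ⟶ Y) (r : ℕ) : T 𝒰 p X r →ₗ[k] T 𝒰 p Y r :=
  (HomologicalComplex.homologyMap (KpMap 𝒰 p f) r).hom

theorem TMap_classOf (f : X ⟶ Y) (r : ℕ) (z : Z (Kp 𝒰 p X) r) :
    TMap 𝒰 p f r (classOf (Kp 𝒰 p X) r z) = classOf (Kp 𝒰 p Y) r (mapZ (KpMap 𝒰 p f) r z) :=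
  homologyMap_classOf _ r z

theorem levelCohomologyMap_classOf (f : X ⟶ Y) (r : ℕ) (z : Z (𝒰.levelComplex X) r) :
    (𝒰.levelCohomologyMap f r).hom (classOf (𝒰.levelComplex X) r z) =
      classOf (𝒰.levelComplex Y) r (mapZ ((𝒰.levelComplexFunctor (k := k)).map f) r z) :=
  homologyMap_classOf _ r z

theorem KpMap_id : KpMap 𝒰 p (𝟙 X) = 𝟙 (Kp 𝒰 p X) :=
  natCone.hom_ext _ (fun _ _ => rfl) (fun _ _ => rfl)

theorem KpMap_comp (f : X ⟶ Y) (g : Y ⟶ W) : KpMap 𝒰 p (f ≫ g) = KpMap 𝒰 p f ≫ KpMap 𝒰 p g :=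
  natCone.hom_ext _ (fun _ _ => rfl) (fun _ _ => rfl)

@[simp]
theorem TMap_id (r : ℕ) (t : T 𝒰 p X r) : TMap 𝒰 p (𝟙 X) r t = t := by
  unfold TMap
  rw [KpMap_id, HomologicalComplex.homologyMap_id]
  rfl

theorem TMap_comp (f : X ⟶ Y) (g : Y ⟶ W) (r : ℕ) (t : T 𝒰 p X r) :
    TMap 𝒰 p (f ≫ g) r t = TMap 𝒰 p g r (TMap 𝒰 p f r t) := by
  unfold TMap
  rw [KpMap_comp, HomologicalComplex.homologyMap_comp]
  rfl

/-- `toH` is natural. -/
theorem toH_TMap (f : X ⟶ Y) (r : ℕ) (t : T 𝒰 p X r) :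
    toH 𝒰 p Y r (TMap 𝒰 p f r t) = (𝒰.levelCohomologyMap f r).hom (toH 𝒰 p X r t) :=
  natCone.homologyMap_map_fst _ _ _ _ (mulP_naturality 𝒰 p f) r t

/-- `ofH` is natural. -/
theorem TMap_ofH (f : X ⟶ Y) (r : ℕ) (y : 𝒰.levelCohomology X r) :
    TMap 𝒰 p f (r + 1) (ofH 𝒰 p X r y) = ofH 𝒰 p Y r ((𝒰.levelCohomologyMap f r).hom y) :=
  natCone.homologyMap_map_bdry _ _ _ _ (mulP_naturality 𝒰 p f) r y

/-- The comparison `H^r(X[p]) ⟶ T^r(X)`. -/
noncomputable def torsionToT (X : Rep.{u} k G) (r : ℕ) :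
    𝒰.levelCohomology (torsionRep p X) r →ₗ[k] T 𝒰 p X r :=
  (HomologicalComplex.homologyMap (torsionToKp 𝒰 p X) r).hom

theorem torsionToT_classOf (X : Rep.{u} k G) (r : ℕ)
    (z : Z (𝒰.levelComplex (torsionRep p X)) r) :
    torsionToT 𝒰 p X r (classOf (𝒰.levelComplex (torsionRep p X)) r z) =
      classOf (Kp 𝒰 p X) r (mapZ (torsionToKp 𝒰 p X) r z) :=
  homologyMap_classOf _ r z

theorem torsionToT_bijective (X : Rep.{u} k G) (hd : 𝒰.IsDiscrete X)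
    (hdiv : ∀ x : X, ∃ y : X, p • y = x) (r : ℕ) :
    Function.Bijective (torsionToT 𝒰 p X r) :=
  torsionToKp_homologyMap_bijective 𝒰 p X hd hdiv r

/-- `toH ∘ torsionToT` is the map induced by the inclusion `X[p] ⟶ X`. -/
theorem toH_torsionToT (X : Rep.{u} k G) (r : ℕ) (y : 𝒰.levelCohomology (torsionRep p X) r) :
    toH 𝒰 p X r (torsionToT 𝒰 p X r y) = (𝒰.levelCohomologyMap (torsionι p X) r).hom y := by
  obtain ⟨z, rfl⟩ := classOf_surjective (𝒰.levelComplex (torsionRep p X)) r y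
  rw [torsionToT_classOf, toH_classOf, levelCohomologyMap_classOf]
  rfl

/-- The comparison `H^r(X[p]) ⟶ T^r(X)` is natural. -/
theorem TMap_torsionToT (f : X ⟶ Y) (r : ℕ) (y : 𝒰.levelCohomology (torsionRep p X) r) :
    TMap 𝒰 p f r (torsionToT 𝒰 p X r y) =
      torsionToT 𝒰 p Y r ((𝒰.levelCohomologyMap (torsionMap p f) r).hom y) := by
  obtain ⟨z, rfl⟩ := classOf_surjective (𝒰.levelComplex (torsionRep p X)) r y
  rw [torsionToT_classOf, TMap_classOf, levelCohomologyMap_classOf, torsionToT_classOf]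
  refine congr_arg _ (Subtype.ext ?_)
  rw [mapZ_coe, mapZ_coe, mapZ_coe, mapZ_coe]
  cases r with
  | zero => exact natCone.ext_zero _ rfl
  | succ m =>
    refine natCone.ext_succ _ rfl ?_
    show (((𝒰.levelComplexFunctor (k := k)).map f).f m).hom
        (natCone.sndL (mulP 𝒰 p X) m (natCone.inlL (mulP 𝒰 p X) (m + 1) _)) =
      natCone.sndL (mulP 𝒰 p Y) m (natCone.inlL (mulP 𝒰 p Y) (m + 1) _)
    rw [natCone.sndL_inlL, natCone.sndL_inlL]
    exact map_zero _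

end functoriality

/-! ### (K2) the long exact sequence -/

section les

variable {S : ShortComplex (Rep.{u} k G)} (hS : S.ShortExact) (hd : 𝒰.IsDiscrete S.X₂)

variable (S) in
/-- Multiplication by `p` as an endomorphism of the short complex of level complexes. -/
noncomputable def mulPShort :
    S.map (𝒰.levelComplexFunctor (k := k)) ⟶ S.map (𝒰.levelComplexFunctor (k := k)) where
  τ₁ := mulP 𝒰 p S.X₁
  τ₂ := mulP 𝒰 p S.X₂
  τ₃ := mulP 𝒰 p S.X₃
  comm₁₂ := mulP_naturality 𝒰 p S.f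
  comm₂₃ := mulP_naturality 𝒰 p S.g

variable (S) in
/-- The short complex `Kp X₁ ⟶ Kp X₂ ⟶ Kp X₃`. -/
noncomputable def KpShort : ShortComplex (CochainComplex (ModuleCat.{u} k) ℕ) :=
  natConeShortComplex (mulPShort 𝒰 p S)

theorem KpShort_f : (KpShort 𝒰 p S).f = KpMap 𝒰 p S.f := rfl

theorem KpShort_g : (KpShort 𝒰 p S).g = KpMap 𝒰 p S.g := rfl

include hS hd in
theorem KpShort_shortExact : (KpShort 𝒰 p S).ShortExact :=
  natConeShortComplex_shortExact _ (𝒰.map_levelComplexFunctor_shortExact hS hd)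
    (𝒰.map_levelComplexFunctor_shortExact hS hd)

/-- The connecting homomorphism `T^i(X₃) ⟶ T^j(X₁)`. -/
noncomputable def Tδ (i j : ℕ) (hij : i + 1 = j) : T 𝒰 p S.X₃ i →ₗ[k] T 𝒰 p S.X₁ j :=
  ((KpShort_shortExact 𝒰 p hS hd).δ i j hij).hom

/-- Exactness of `T^i(X₃) ⟶ T^j(X₁) ⟶ T^j(X₂)`. -/
theorem exact_Tδ_TMap_f (i j : ℕ) (hij : i + 1 = j) :
    Function.Exact (Tδ 𝒰 p hS hd i j hij) (TMap 𝒰 p S.f j) := by
  have h := (KpShort_shortExact 𝒰 p hS hd).homology_exact₁ i j hij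
  rw [ShortComplex.ShortExact.moduleCat_exact_iff_function_exact] at h
  exact h

include hS hd in
/-- Exactness of `T^i(X₁) ⟶ T^i(X₂) ⟶ T^i(X₃)`. -/
theorem exact_TMap_f_TMap_g (i : ℕ) :
    Function.Exact (TMap 𝒰 p S.f i) (TMap 𝒰 p S.g i) := by
  have h := (KpShort_shortExact 𝒰 p hS hd).homology_exact₂ i
  rw [ShortComplex.ShortExact.moduleCat_exact_iff_function_exact] at h
  exact h

/-- Exactness of `T^i(X₂) ⟶ T^i(X₃) ⟶ T^j(X₁)`. -/
theorem exact_TMap_g_Tδ (i j : ℕ) (hij : i + 1 = j) :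
    Function.Exact (TMap 𝒰 p S.g i) (Tδ 𝒰 p hS hd i j hij) := by
  have h := (KpShort_shortExact 𝒰 p hS hd).homology_exact₃ i j hij
  rw [ShortComplex.ShortExact.moduleCat_exact_iff_function_exact] at h
  exact h

/-- `toH` commutes with the connecting homomorphisms. -/
theorem toH_Tδ (i j : ℕ) (hij : i + 1 = j) (t : T 𝒰 p S.X₃ i) :
    toH 𝒰 p S.X₁ j (Tδ 𝒰 p hS hd i j hij t) = (𝒰.δ hS hd i j hij).hom (toH 𝒰 p S.X₃ i t) := by
  have h := natConeShortComplex_δ_fst (mulPShort 𝒰 p S)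
    (𝒰.map_levelComplexFunctor_shortExact hS hd) (𝒰.map_levelComplexFunctor_shortExact hS hd)
    i j hij
  exact congr($h t)

/-- `ofH` anti-commutes with the connecting homomorphisms. -/
theorem Tδ_ofH (n : ℕ) (y : 𝒰.levelCohomology S.X₃ n) :
    Tδ 𝒰 p hS hd (n + 1) (n + 1 + 1) rfl (ofH 𝒰 p S.X₃ n y) =
      -ofH 𝒰 p S.X₁ (n + 1) ((𝒰.δ hS hd n (n + 1) rfl).hom y) :=
  natConeShortComplex_δ_bdry (mulPShort 𝒰 p S)
    (𝒰.map_levelComplexFunctor_shortExact hS hd) (𝒰.map_levelComplexFunctor_shortExact hS hd) n y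

include hS hd in
/-- `(K4)`: if `p` is bijective on `X₃` then `T^r(X₁) ⟶ T^r(X₂)` is bijective. -/
theorem TMap_f_bijective (hbij : Function.Bijective fun x : S.X₃ => p • x) (r : ℕ) :
    Function.Bijective (TMap 𝒰 p S.f r) := by
  constructor
  · rw [injective_iff_map_eq_zero]
    intro t ht
    cases r with
    | zero =>
      -- `T⁰` embeds into `H⁰`, and `H⁰(X₁) ⟶ H⁰(X₂)` is injective
      apply toH_zero_injective 𝒰 p S.X₁
      rw [map_zero]
      have h1 : (𝒰.levelCohomologyMap S.f 0).hom (toH 𝒰 p S.X₁ 0 t) = 0 := by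
        rw [← toH_TMap, ht, map_zero]
      obtain ⟨z, hz⟩ := classOf_surjective (𝒰.levelComplex S.X₁) 0 (toH 𝒰 p S.X₁ 0 t)
      rw [← hz] at h1 ⊢
      rw [levelCohomologyMap_classOf, classOf_eq_zero_iff_zero] at h1
      have hinj : Function.Injective S.f.hom := (Rep.mono_iff_injective S.f).1 hS.2
      have : z = 0 := by
        apply Subtype.ext
        apply Subtype.ext
        funext g
        apply hinj
        have h2 := congr_arg (fun w => (w.1 : 𝒰.levelCochains S.X₂ 0).1 g) h1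
        refine h2.trans ?_
        exact (map_zero S.f.hom).symm
      rw [this, map_zero]
    | succ m =>
      obtain ⟨s, hs⟩ := (exact_Tδ_TMap_f 𝒰 p hS hd m (m + 1) rfl t).1 ht
      rw [← hs, T_eq_zero_of_bijective 𝒰 p S.X₃ hbij m s, map_zero]
  · intro t
    have h0 : TMap 𝒰 p S.g r t = 0 := T_eq_zero_of_bijective 𝒰 p S.X₃ hbij r _
    exact (exact_TMap_f_TMap_g 𝒰 p hS hd r t).1 h0

end les

/-! ### (K5) change of group -/

section changeOfGroup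

variable {H : Type u} [Group H] (𝒱 : LevelFamily H) {X} {Y : Rep.{u} k H}
  (φ : H →* G) (hφ : LevelFamily.IsCompatible 𝒱 𝒰 φ) (lam : Rep.res φ X ⟶ Y)

theorem mulP_comp_levelCochainsMap :
    mulP 𝒰 p X ≫ LevelFamily.levelCochainsMap φ hφ lam =
      LevelFamily.levelCochainsMap φ hφ lam ≫ mulP 𝒱 p Y := by
  ext n x : 3
  apply Subtype.ext
  funext g
  show lam.hom (p • x.1 (φ ∘ g)) = p • lam.hom (x.1 (φ ∘ g))
  exact map_nsmul _ _ _

/-- The map of cones induced by a change of group. -/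
noncomputable def KpMapOfHom : Kp 𝒰 p X ⟶ Kp 𝒱 p Y :=
  natCone.map (mulP 𝒰 p X) (mulP 𝒱 p Y) (LevelFamily.levelCochainsMap φ hφ lam)
    (LevelFamily.levelCochainsMap φ hφ lam) (mulP_comp_levelCochainsMap 𝒰 p 𝒱 φ hφ lam)

/-- The map on `T` induced by a change of group. -/
noncomputable def TMapOfHom (r : ℕ) : T 𝒰 p X r →ₗ[k] T 𝒱 p Y r :=
  (HomologicalComplex.homologyMap (KpMapOfHom 𝒰 p 𝒱 φ hφ lam) r).hom

theorem toH_TMapOfHom (r : ℕ) (t : T 𝒰 p X r) :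
    toH 𝒱 p Y r (TMapOfHom 𝒰 p 𝒱 φ hφ lam r t) =
      (HomologicalComplex.homologyMap (LevelFamily.levelCochainsMap φ hφ lam) r).hom
        (toH 𝒰 p X r t) :=
  natCone.homologyMap_map_fst _ _ _ _ (mulP_comp_levelCochainsMap 𝒰 p 𝒱 φ hφ lam) r t

theorem TMapOfHom_ofH (r : ℕ) (y : 𝒰.levelCohomology X r) :
    TMapOfHom 𝒰 p 𝒱 φ hφ lam (r + 1) (ofH 𝒰 p X r y) =
      ofH 𝒱 p Y r
        ((HomologicalComplex.homologyMap (LevelFamily.levelCochainsMap φ hφ lam) r).hom y) :=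
  natCone.homologyMap_map_bdry _ _ _ _ (mulP_comp_levelCochainsMap 𝒰 p 𝒱 φ hφ lam) r y

end changeOfGroup

end Fermat.Agent.Lib.CFT.Duality.KCalc
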