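import Fermat.Agent.Lib.CFT.Duality.BaseCase.KCalcCupT
import Fermat.Agent.Lib.CFT.Duality.BaseCase.Bockstein
import Fermat.Agent.Lib.CFT.Profinite.ShapiroT
import Fermat.Agent.Lib.CFT.Profinite.CupShapiro
import Fermat.Agent.Lib.CFT.Profinite.CoresT

/-!
# The Bockstein-twisted cup product versus Shapiro's lemma and the trace pairing

* naturality of `PhiT` under change of group and coefficients (`TMapOfHom_PhiT`) and in the
  coefficient modules (`TMap_PhiT`, `PhiT_postcomp`);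
* change of group on Bockstein pairs (`mapBock`) and its compatibility with `redClass`,
  `bockClass`; the Shapiro map on Bockstein pairs (`shBock`);
* `(TP2)` `shapiroT_PhiT`, `(TP3)` `PhiT_tracePairing` and `(TP4)` `PhiT_tracePairing_eq_coresT`
  (with the corestriction `LES.coresT` on `T` of `Profinite/CoresT`).
-/

set_option autoImplicit false
set_option linter.unusedSectionVars false

universe u

open CategoryTheory groupCohomology

namespace Fermat.Agent.Lib.CFT.Duality.TransferPhi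

open Fermat.Agent.Lib.CFT Fermat.Agent.Lib.CFT.Profinite Fermat.Agent.Lib.CFT.Profinite.LES
  Fermat.Agent.Lib.CFT.Coh.Cup Fermat.Agent.Lib.CFT.Duality Fermat.Agent.Lib.CFT.Duality.KCalcCup
  ConcreteHomology

variable {k G : Type u} [CommRing k] [Group G] {𝒰 : LevelFamily G}

/-! ### Naturality of `PhiT` under change of group and coefficients -/

section ChangeOfGroup

variable {G₁ : Type u} [Group G₁] {𝒰₁ : LevelFamily G₁}
  (f : G₁ →* G) (hf : LevelFamily.IsCompatible 𝒰₁ 𝒰 f)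

/-- `lmap` commutes with the differentials. -/
theorem dL_lmap {M : Rep.{u} k G} {M₁ : Rep.{u} k G₁} (φ : Rep.res f M ⟶ M₁) (n : ℕ)
    (x : 𝒰.levelCochains M n) :
    dL 𝒰₁ M₁ n (lmap f hf φ n x) = lmap f hf φ (n + 1) (dL 𝒰 M n x) := by
  have h := congr($((LevelFamily.levelCochainsMap f hf φ).comm n (n + 1)) x)
  simp only [ModuleCat.hom_comp, LinearMap.coe_comp, Function.comp_apply] at h
  rw [← levelComplex_d_apply, ← levelComplex_d_apply]
  exact h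

theorem TMapOfHom_classOf (p : ℕ) {M : Rep.{u} k G} {M₁ : Rep.{u} k G₁} (φ : Rep.res f M ⟶ M₁)
    (r : ℕ) (z : Z (KCalc.Kp 𝒰 p M) r) :
    KCalc.TMapOfHom 𝒰 p 𝒰₁ f hf φ r (classOf (KCalc.Kp 𝒰 p M) r z) =
      classOf (KCalc.Kp 𝒰₁ p M₁) r (mapZ (KCalc.KpMapOfHom 𝒰 p 𝒰₁ f hf φ) r z) :=
  homologyMap_classOf _ r z

variable (p : ℕ) {X' R X : Rep.{u} k G} (ψ : Pairing X' R X)
  {X'₁ R₁ X₁ : Rep.{u} k G₁} (ψ₁ : Pairing X'₁ R₁ X₁)
  (α : Rep.res f X' ⟶ X'₁) (ρ : Rep.res f R ⟶ R₁) (γ : Rep.res f X ⟶ X₁)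
  (hγ : ∀ (a : X') (b : R), γ.hom (ψ.toLin a b) = ψ₁.toLin (α.hom a) (ρ.hom b))
  (y : 𝒰.levelCochains R 1) (β : 𝒰.levelCochains R 2)
  (hy : dL 𝒰 R 1 y = (p : k) • β) (hβ : dL 𝒰 R 2 β = 0)

include hy in
theorem dL_lmap_one : dL 𝒰₁ R₁ 1 (lmap f hf ρ 1 y) = (p : k) • lmap f hf ρ 2 β := by
  rw [dL_lmap, hy, map_smul]

include hβ in
theorem dL_lmap_two : dL 𝒰₁ R₁ 2 (lmap f hf ρ 2 β) = 0 := by
  rw [dL_lmap, hβ, map_zero]

include hγ in
/-- `PhiT` is natural with respect to change of group and of coefficients. -/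
theorem TMapOfHom_PhiT (n : ℕ) (t : KCalc.T 𝒰 p X' n) :
    KCalc.TMapOfHom 𝒰 p 𝒰₁ f hf γ (n + 1) (PhiT 𝒰 p ψ y β hy hβ n t) =
      PhiT 𝒰₁ p ψ₁ (lmap f hf ρ 1 y) (lmap f hf ρ 2 β) (dL_lmap_one f hf p ρ y β hy)
        (dL_lmap_two f hf ρ β hβ) n (KCalc.TMapOfHom 𝒰 p 𝒰₁ f hf α n t) := by
  obtain ⟨x, rfl⟩ := classOf_surjective (KCalc.Kp 𝒰 p X') n t
  refine (congrArg (KCalc.TMapOfHom 𝒰 p 𝒰₁ f hf γ (n + 1)) (PhiT_classOf 𝒰 p ψ y β hy hβ n x)).trans ?_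
  refine (TMapOfHom_classOf f hf p γ (n + 1) _).trans ?_
  refine Eq.trans ?_ (congrArg (PhiT 𝒰₁ p ψ₁ (lmap f hf ρ 1 y) (lmap f hf ρ 2 β)
    (dL_lmap_one f hf p ρ y β hy) (dL_lmap_two f hf ρ β hβ) n)
    (TMapOfHom_classOf f hf p α n x)).symm
  refine Eq.trans ?_ (PhiT_classOf 𝒰₁ p ψ₁ (lmap f hf ρ 1 y) (lmap f hf ρ 2 β)
    (dL_lmap_one f hf p ρ y β hy) (dL_lmap_two f hf ρ β hβ) n _).symm
  refine congr_arg _ (Subtype.ext ?_)
  exact map_Phi ψ ψ₁ f hf α ρ γ hγ (KCalc.mulP 𝒰 p X') (KCalc.mulP 𝒰 p X)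
    (KCalc.mulP 𝒰₁ p X'₁) (KCalc.mulP 𝒰₁ p X₁)
    (KCalc.mulP_comp_levelCochainsMap 𝒰 p 𝒰₁ f hf α)
    (KCalc.mulP_comp_levelCochainsMap 𝒰 p 𝒰₁ f hf γ) y β n x.1

end ChangeOfGroup

/-! ### Naturality of `PhiT` in the coefficient modules -/

section Coefficients

variable (𝒰) (p : ℕ) {X' R X X'₁ R₁ X₁ : Rep.{u} k G} (ψ : Pairing X' R X) (ψ₁ : Pairing X'₁ R₁ X₁)
  (α : X' ⟶ X'₁) (ρ : R ⟶ R₁) (γ : X ⟶ X₁)
  (hγ : ∀ (a : X') (b : R), γ.hom (ψ.toLin a b) = ψ₁.toLin (α.hom a) (ρ.hom b))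
  (y : 𝒰.levelCochains R 1) (β : 𝒰.levelCochains R 2)
  (hy : dL 𝒰 R 1 y = (p : k) • β) (hβ : dL 𝒰 R 2 β = 0)

include hy in
theorem dL_cmap_one : dL 𝒰 R₁ 1 (cmap 𝒰 ρ 1 y) = (p : k) • cmap 𝒰 ρ 2 β := by
  rw [dL_cmap, hy, map_smul]

include hβ in
theorem dL_cmap_two : dL 𝒰 R₁ 2 (cmap 𝒰 ρ 2 β) = 0 := by
  rw [dL_cmap, hβ, map_zero]

include hγ in
/-- `PhiT` is natural in the three coefficient modules. -/
theorem TMap_PhiT (n : ℕ) (t : KCalc.T 𝒰 p X' n) :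
    KCalc.TMap 𝒰 p γ (n + 1) (PhiT 𝒰 p ψ y β hy hβ n t) =
      PhiT 𝒰 p ψ₁ (cmap 𝒰 ρ 1 y) (cmap 𝒰 ρ 2 β) (dL_cmap_one 𝒰 p ρ y β hy)
        (dL_cmap_two 𝒰 ρ β hβ) n (KCalc.TMap 𝒰 p α n t) := by
  rw [TMap_eq_TMapOfHom, TMap_eq_TMapOfHom]
  exact TMapOfHom_PhiT (MonoidHom.id G) 𝒰.isCompatible_id p ψ ψ₁ α ρ γ hγ y β hy hβ n t

/-- `(TP3)`, general form: postcomposing the pairing with a morphism `γ` of the target module
composes `PhiT` with `TMap γ`. -/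
theorem PhiT_postcomp (n : ℕ) (t : KCalc.T 𝒰 p X' n) :
    PhiT 𝒰 p (ψ.postcomp γ) y β hy hβ n t =
      KCalc.TMap 𝒰 p γ (n + 1) (PhiT 𝒰 p ψ y β hy hβ n t) := by
  have h := TMap_PhiT 𝒰 p ψ (ψ.postcomp γ) (𝟙 X') (𝟙 R) γ (fun _ _ => rfl) y β hy hβ n t
  rw [KCalc.TMap_id] at h
  exact h.symm

end Coefficients

/-! ### Change of group on Bockstein pairs -/

section Bock

open Bockstein

variable {G₁ : Type u} [Group G₁] {𝒰₁ : LevelFamily G₁}
  (f : G₁ →* G) (hf : LevelFamily.IsCompatible 𝒰₁ 𝒰 f)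
  {c : k} {Rt R : Rep.{u} k G} {Rt₁ R₁ : Rep.{u} k G₁} (φ : Rep.res f Rt ⟶ Rt₁)

/-- `lmap` commutes with the differentials of the level complexes (in the `levelD` form). -/
theorem levelD_lmap {M : Rep.{u} k G} {M₁ : Rep.{u} k G₁} (θ : Rep.res f M ⟶ M₁) (n : ℕ)
    (x : 𝒰.levelCochains M n) :
    (𝒰₁.levelD M₁ n).hom (lmap f hf θ n x) = lmap f hf θ (n + 1) ((𝒰.levelD M n).hom x) :=
  dL_lmap f hf θ n x

/-- Change of group and coefficients on Bockstein pairs: `(y, b) ↦ (f^* y, f^* b)`. -/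
noncomputable def mapBock (j : ℕ) : BockPair 𝒰 c Rt j →ₗ[k] BockPair 𝒰₁ c Rt₁ j :=
  (LinearMap.prodMap (lmap f hf φ j) (lmap f hf φ (j + 1))).restrict (fun x hx => by
    rw [mem_BockPair_iff] at hx ⊢
    show (𝒰₁.levelD Rt₁ j).hom (lmap f hf φ j x.1) = c • lmap f hf φ (j + 1) x.2
    rw [levelD_lmap, hx, map_smul])

@[simp] theorem mapBock_fst (j : ℕ) (x : BockPair 𝒰 c Rt j) :
    (mapBock f hf φ j x).1.1 = lmap f hf φ j x.1.1 := rfl

@[simp] theorem mapBock_snd (j : ℕ) (x : BockPair 𝒰 c Rt j) :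
    (mapBock f hf φ j x).1.2 = lmap f hf φ (j + 1) x.1.2 := rfl

variable {red : Rt ⟶ R} {red₁ : Rt₁ ⟶ R₁} (h : IsReduction c red) (h₁ : IsReduction c red₁)
  (φb : Rep.res f R ⟶ R₁) (hsq : (Rep.resFunctor f).map red ≫ φb = φ ≫ red₁)

include hsq in
/-- `mapBock` is compatible with the reduction classes. -/
theorem map_redClass (j : ℕ) (x : BockPair 𝒰 c Rt j) :
    (LES.map f hf φb j).hom (redClass 𝒰 h j x) = redClass 𝒰₁ h₁ j (mapBock f hf φ j x) := by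
  rw [redClass_apply, redClass_apply]
  refine (LevelFamily.levelCohomologyMapOfHom_classMk f hf φb j _).trans ?_
  refine congr_arg _ (Subtype.ext ?_)
  rw [LevelFamily.levelCocyclesMap_coe]
  funext g
  exact congr($hsq (x.1.1.1 (f ∘ g)))

/-- `mapBock` is compatible with the Bockstein classes. -/
theorem map_bockClass (j : ℕ) (x : BockPair 𝒰 c Rt j) :
    (LES.map f hf φ (j + 1)).hom (bockClass 𝒰 h j x) =
      bockClass 𝒰₁ h₁ j (mapBock f hf φ j x) := by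
  rw [bockClass_apply, bockClass_apply]
  refine (LevelFamily.levelCohomologyMapOfHom_classMk f hf φ (j + 1) _).trans ?_
  refine congr_arg _ (Subtype.ext ?_)
  rw [LevelFamily.levelCocyclesMap_coe]
  rfl

end Bock

/-! ### Shapiro's lemma: Bockstein pairs and `PhiT` -/

section Shapiro

open Bockstein

variable (𝒰) (V : Subgroup G)

/-- Coinduction preserves reductions modulo `c`. -/
theorem isReduction_coindMap {c : k} {Bt B : Rep.{u} k V} {red : Bt ⟶ B}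
    (h : IsReduction c red) : IsReduction c (Rep.coindMap V.subtype red) where
  surjective := by
    have h1 : Epi red := (Rep.epi_iff_surjective _).2 h.surjective
    have h2 : Epi ((Rep.coindFunctor k V.subtype).map red) := inferInstance
    exact (Rep.epi_iff_surjective _).1 h2
  ker_eq F := by
    constructor
    · intro hF
      have h0 : ∀ x, red.hom (F.1 x) = 0 := fun x => congr_fun (congrArg Subtype.val hF) x
      choose y hy using fun x => (h.ker_eq (F.1 x)).1 (h0 x)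
      refine ⟨⟨y, fun v x => ?_⟩, Subtype.ext (funext hy)⟩
      apply h.smul_injective
      show c • y (V.subtype v * x) = c • Bt.ρ v (y x)
      rw [hy, ← map_smul, hy]
      exact F.2 v x
    · rintro ⟨F', rfl⟩
      apply Subtype.ext
      funext x
      exact h.red_smul (F'.1 x)
  torsionFree F hF := by
    apply Subtype.ext
    funext x
    exact h.torsionFree _ (congr_fun (congrArg Subtype.val hF) x)

/-- The Shapiro map on level cochains: restrict to `V`, evaluate at `1`. -/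
noncomputable def shL (B : Rep.{u} k V) (n : ℕ) :
    𝒰.levelCochains (Rep.coind V.subtype B) n →ₗ[k] (restrict 𝒰 V).levelCochains B n :=
  lmap V.subtype (isCompatible_comap 𝒰 V.subtype) (coindEval V B) n

@[simp] theorem shL_apply_coe (B : Rep.{u} k V) (n : ℕ)
    (x : 𝒰.levelCochains (Rep.coind V.subtype B) n) (g : Fin n → V) :
    (shL 𝒰 V B n x).1 g = (x.1 (fun i => (g i : G))).1 1 := rfl

/-- `(TP1)` The Shapiro map on Bockstein pairs, `(y, b) ↦ (sh y, sh b)`. -/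
noncomputable def shBock {c : k} (Bt : Rep.{u} k V) (j : ℕ) :
    BockPair 𝒰 c (Rep.coind V.subtype Bt) j →ₗ[k] BockPair (restrict 𝒰 V) c Bt j :=
  mapBock V.subtype (isCompatible_comap 𝒰 V.subtype) (coindEval V Bt) j

@[simp] theorem shBock_fst {c : k} (Bt : Rep.{u} k V) (j : ℕ)
    (x : BockPair 𝒰 c (Rep.coind V.subtype Bt) j) :
    (shBock 𝒰 V Bt j x).1.1 = shL 𝒰 V Bt j x.1.1 := rfl

@[simp] theorem shBock_snd {c : k} (Bt : Rep.{u} k V) (j : ℕ)
    (x : BockPair 𝒰 c (Rep.coind V.subtype Bt) j) :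
    (shBock 𝒰 V Bt j x).1.2 = shL 𝒰 V Bt (j + 1) x.1.2 := rfl

variable {c : k} {Bt B : Rep.{u} k V} {red : Bt ⟶ B} (h : IsReduction c red)
  (hc : IsReduction c (Rep.coindMap V.subtype red))

/-- `(TP1)` The Shapiro map sends the reduction class of a Bockstein pair to the reduction class of
its image. -/
theorem shapiro_redClass (j : ℕ) (x : BockPair 𝒰 c (Rep.coind V.subtype Bt) j) :
    (shapiro 𝒰 V B j).hom (redClass 𝒰 hc j x) =
      redClass (restrict 𝒰 V) h j (shBock 𝒰 V Bt j x) :=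
  map_redClass V.subtype (isCompatible_comap 𝒰 V.subtype) (coindEval V Bt) hc h (coindEval V B)
    (coindEval_naturality red) j x

/-- `(TP1)` The Shapiro map sends the Bockstein class of a Bockstein pair to the Bockstein class
of its image. -/
theorem shapiro_bockClass (j : ℕ) (x : BockPair 𝒰 c (Rep.coind V.subtype Bt) j) :
    (shapiro 𝒰 V Bt (j + 1)).hom (bockClass 𝒰 hc j x) =
      bockClass (restrict 𝒰 V) h j (shBock 𝒰 V Bt j x) :=
  map_bockClass V.subtype (isCompatible_comap 𝒰 V.subtype) (coindEval V Bt) hc h j x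

/-- `(TP1)`, general form: compatibility of `shBock` with reduction classes for arbitrary
reductions on the `G`-side and on the `V`-side related by a morphism `ρb`. -/
theorem redClass_shBock {Rb : Rep.{u} k G} {Rb' : Rep.{u} k V}
    {redG : Rep.coind V.subtype Bt ⟶ Rb} {redV : Bt ⟶ Rb'} (hG : IsReduction c redG)
    (hV' : IsReduction c redV) (ρb : Rep.res V.subtype Rb ⟶ Rb')
    (hsq : (Rep.resFunctor V.subtype).map redG ≫ ρb = coindEval V Bt ≫ redV) (j : ℕ)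
    (q : BockPair 𝒰 c (Rep.coind V.subtype Bt) j) :
    redClass (restrict 𝒰 V) hV' j (shBock 𝒰 V Bt j q) =
      (LES.map V.subtype (isCompatible_comap 𝒰 V.subtype) ρb j).hom (redClass 𝒰 hG j q) :=
  (map_redClass V.subtype (isCompatible_comap 𝒰 V.subtype) (coindEval V Bt) hG hV' ρb hsq j q).symm

/-- Compatibility of `shBock` with Bockstein classes for arbitrary reductions. -/
theorem bockClass_shBock {Rb : Rep.{u} k G} {Rb' : Rep.{u} k V}
    {redG : Rep.coind V.subtype Bt ⟶ Rb} {redV : Bt ⟶ Rb'} (hG : IsReduction c redG)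
    (hV' : IsReduction c redV) (j : ℕ) (q : BockPair 𝒰 c (Rep.coind V.subtype Bt) j) :
    bockClass (restrict 𝒰 V) hV' j (shBock 𝒰 V Bt j q) =
      (shapiro 𝒰 V Bt (j + 1)).hom (bockClass 𝒰 hG j q) :=
  (map_bockClass V.subtype (isCompatible_comap 𝒰 V.subtype) (coindEval V Bt) hG hV' j q).symm

end Shapiro

/-! ### `(TP2)`: `PhiT` and the Shapiro map on `T` -/

section ShapiroPhi

variable (𝒰) (p : ℕ) (V : Subgroup G) {A B D : Rep.{u} k V} (ψ : Pairing A B D)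
  (y : 𝒰.levelCochains (Rep.coind V.subtype B) 1) (β : 𝒰.levelCochains (Rep.coind V.subtype B) 2)
  (hy : dL 𝒰 (Rep.coind V.subtype B) 1 y = (p : k) • β)
  (hβ : dL 𝒰 (Rep.coind V.subtype B) 2 β = 0)

include hy in
theorem dL_shL_one : dL (restrict 𝒰 V) B 1 (shL 𝒰 V B 1 y) = (p : k) • shL 𝒰 V B 2 β :=
  dL_lmap_one V.subtype (isCompatible_comap 𝒰 V.subtype) p (coindEval V B) y β hy

include hβ in
theorem dL_shL_two : dL (restrict 𝒰 V) B 2 (shL 𝒰 V B 2 β) = 0 :=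
  dL_lmap_two V.subtype (isCompatible_comap 𝒰 V.subtype) (coindEval V B) β hβ

/-- `(TP2)` The Shapiro map on `T` intertwines `PhiT` for the pointwise pairing on coinduced
modules with `PhiT` for the original pairing on the subgroup. -/
theorem shapiroT_PhiT (n : ℕ) (t : KCalc.T 𝒰 p (Rep.coind V.subtype A) n) :
    shapiroT 𝒰 p V D (n + 1) (PhiT 𝒰 p (coindPairing V ψ) y β hy hβ n t) =
      PhiT (restrict 𝒰 V) p ψ (shL 𝒰 V B 1 y) (shL 𝒰 V B 2 β) (dL_shL_one 𝒰 p V y β hy)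
        (dL_shL_two 𝒰 V β hβ) n (shapiroT 𝒰 p V A n t) :=
  TMapOfHom_PhiT V.subtype (isCompatible_comap 𝒰 V.subtype) p (coindPairing V ψ) ψ
    (coindEval V A) (coindEval V B) (coindEval V D) (fun _ _ => rfl) y β hy hβ n t

end ShapiroPhi

/-! ### `(TP3)`, `(TP4)`: the trace pairing and corestriction on `T` -/

section Trace

variable (p : ℕ) {V : Subgroup G} [V.FiniteIndex] {A B : Rep.{u} k V} {C : Rep.{u} k G}
  (ψ : Pairing A B (Rep.res V.subtype C))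
  (y : 𝒰.levelCochains (Rep.coind V.subtype B) 1) (β : 𝒰.levelCochains (Rep.coind V.subtype B) 2)
  (hy : dL 𝒰 (Rep.coind V.subtype B) 1 y = (p : k) • β)
  (hβ : dL 𝒰 (Rep.coind V.subtype B) 2 β = 0)

/-- `(TP3)` `PhiT` for the trace pairing is `PhiT` for the pointwise pairing followed by the map
induced by the trace `coind (res C) ⟶ C`. -/
theorem PhiT_tracePairing (n : ℕ) (t : KCalc.T 𝒰 p (Rep.coind V.subtype A) n) :
    PhiT 𝒰 p (tracePairing V ψ) y β hy hβ n t =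
      KCalc.TMap 𝒰 p (coindTrace V C) (n + 1) (PhiT 𝒰 p (coindPairing V ψ) y β hy hβ n t) :=
  PhiT_postcomp 𝒰 p (coindPairing V ψ) (coindTrace V C) y β hy hβ n t

variable (hV : IsOpenSubgroup 𝒰 V) (hC : 𝒰.IsDiscrete C)

/-- `(TP4)` `PhiT` for the trace pairing is the corestriction of `PhiT` on the subgroup, after the
Shapiro maps. -/
theorem PhiT_tracePairing_eq_coresT (n : ℕ) (t : KCalc.T 𝒰 p (Rep.coind V.subtype A) n) :
    PhiT 𝒰 p (tracePairing V ψ) y β hy hβ n t =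
      coresT p hV hC (n + 1)
        (PhiT (restrict 𝒰 V) p ψ (shL 𝒰 V B 1 y) (shL 𝒰 V B 2 β) (dL_shL_one 𝒰 p V y β hy)
          (dL_shL_two 𝒰 V β hβ) n (shapiroT 𝒰 p V A n t)) := by
  rw [← shapiroT_PhiT, coresT_shapiroT, PhiT_tracePairing]

end Trace

/-! ### Versions packaged with Bockstein pairs -/

section Packaged

open Bockstein

/-- `PhiT` attached to a Bockstein pair `(y, b)` of degree `1` of a module without `p`-torsion. -/
noncomputable def PhiTB (𝒰 : LevelFamily G) (p : ℕ) {X' R X : Rep.{u} k G} (ψ : Pairing X' R X)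
    (htf : ∀ r : R, (p : k) • r = 0 → r = 0) (x : BockPair 𝒰 (p : k) R 1) (n : ℕ) :
    KCalc.T 𝒰 p X' n →ₗ[k] KCalc.T 𝒰 p X (n + 1) :=
  PhiT 𝒰 p ψ x.1.1 x.1.2 x.2 (BockPair.d_snd htf x) n

theorem PhiTB_eq (𝒰 : LevelFamily G) (p : ℕ) {X' R X : Rep.{u} k G} (ψ : Pairing X' R X)
    (htf : ∀ r : R, (p : k) • r = 0 → r = 0) (x : BockPair 𝒰 (p : k) R 1) (n : ℕ) :
    PhiTB 𝒰 p ψ htf x n = PhiT 𝒰 p ψ x.1.1 x.1.2 x.2 (BockPair.d_snd htf x) n := rfl

/-- Naturality of `PhiTB` under change of group and coefficients. -/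
theorem TMapOfHom_PhiTB {G₁ : Type u} [Group G₁] {𝒰₁ : LevelFamily G₁} (f : G₁ →* G)
    (hf : LevelFamily.IsCompatible 𝒰₁ 𝒰 f) (p : ℕ) {X' R X : Rep.{u} k G} (ψ : Pairing X' R X)
    {X'₁ R₁ X₁ : Rep.{u} k G₁} (ψ₁ : Pairing X'₁ R₁ X₁)
    (α : Rep.res f X' ⟶ X'₁) (ρ : Rep.res f R ⟶ R₁) (γ : Rep.res f X ⟶ X₁)
    (hγ : ∀ (a : X') (b : R), γ.hom (ψ.toLin a b) = ψ₁.toLin (α.hom a) (ρ.hom b))
    (htf : ∀ r : R, (p : k) • r = 0 → r = 0) (htf₁ : ∀ r : R₁, (p : k) • r = 0 → r = 0)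
    (x : BockPair 𝒰 (p : k) R 1) (n : ℕ) (t : KCalc.T 𝒰 p X' n) :
    KCalc.TMapOfHom 𝒰 p 𝒰₁ f hf γ (n + 1) (PhiTB 𝒰 p ψ htf x n t) =
      PhiTB 𝒰₁ p ψ₁ htf₁ (mapBock f hf ρ 1 x) n (KCalc.TMapOfHom 𝒰 p 𝒰₁ f hf α n t) :=
  TMapOfHom_PhiT f hf p ψ ψ₁ α ρ γ hγ x.1.1 x.1.2 x.2 (BockPair.d_snd htf x) n t

variable (p : ℕ) {V : Subgroup G}

/-- `(TP2)`, packaged. -/
theorem shapiroT_PhiTB {A B D : Rep.{u} k V} (ψ : Pairing A B D)
    (htf : ∀ r : B, (p : k) • r = 0 → r = 0)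
    (htfc : ∀ r : Rep.coind V.subtype B, (p : k) • r = 0 → r = 0)
    (x : BockPair 𝒰 (p : k) (Rep.coind V.subtype B) 1) (n : ℕ)
    (t : KCalc.T 𝒰 p (Rep.coind V.subtype A) n) :
    shapiroT 𝒰 p V D (n + 1) (PhiTB 𝒰 p (coindPairing V ψ) htfc x n t) =
      PhiTB (restrict 𝒰 V) p ψ htf (shBock 𝒰 V B 1 x) n (shapiroT 𝒰 p V A n t) :=
  shapiroT_PhiT 𝒰 p V ψ x.1.1 x.1.2 x.2 (BockPair.d_snd htfc x) n t

/-- A coinduced module has no `p`-torsion if the original module has none. -/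
theorem coind_torsionFree {B : Rep.{u} k V} (htf : ∀ r : B, (p : k) • r = 0 → r = 0)
    (F : Rep.coind V.subtype B) (hF : (p : k) • F = 0) : F = 0 := by
  apply Subtype.ext
  funext x
  exact htf _ (congr_fun (congrArg Subtype.val hF) x)

variable [V.FiniteIndex] {A B : Rep.{u} k V} {C : Rep.{u} k G}
  (ψ : Pairing A B (Rep.res V.subtype C))

/-- `(TP3)`, packaged. -/
theorem PhiTB_tracePairing (htfc : ∀ r : Rep.coind V.subtype B, (p : k) • r = 0 → r = 0)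
    (x : BockPair 𝒰 (p : k) (Rep.coind V.subtype B) 1) (n : ℕ)
    (t : KCalc.T 𝒰 p (Rep.coind V.subtype A) n) :
    PhiTB 𝒰 p (tracePairing V ψ) htfc x n t =
      KCalc.TMap 𝒰 p (coindTrace V C) (n + 1) (PhiTB 𝒰 p (coindPairing V ψ) htfc x n t) :=
  PhiT_tracePairing p ψ x.1.1 x.1.2 x.2 (BockPair.d_snd htfc x) n t

/-- `(TP4)`, packaged: `PhiT` for the trace pairing and a Bockstein pair `(y, b)` of `coind B` is
the corestriction of `PhiT` for `ψ` and the Bockstein pair `(sh y, sh b)` of `B`. -/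
theorem PhiTB_tracePairing_eq_coresT (hV : IsOpenSubgroup 𝒰 V) (hC : 𝒰.IsDiscrete C)
    (htf : ∀ r : B, (p : k) • r = 0 → r = 0)
    (htfc : ∀ r : Rep.coind V.subtype B, (p : k) • r = 0 → r = 0)
    (x : BockPair 𝒰 (p : k) (Rep.coind V.subtype B) 1) (n : ℕ)
    (t : KCalc.T 𝒰 p (Rep.coind V.subtype A) n) :
    PhiTB 𝒰 p (tracePairing V ψ) htfc x n t =
      coresT p hV hC (n + 1)
        (PhiTB (restrict 𝒰 V) p ψ htf (shBock 𝒰 V B 1 x) n (shapiroT 𝒰 p V A n t)) :=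
  PhiT_tracePairing_eq_coresT p ψ x.1.1 x.1.2 x.2 (BockPair.d_snd htfc x) hV hC n t

end Packaged

end Fermat.Agent.Lib.CFT.Duality.TransferPhi
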