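import Fermat.Agent.Lib.CFT.Duality.BaseCase.PForm
import Fermat.Agent.Lib.CFT.Duality.BaseCase.TransferPhi
import Fermat.Agent.Lib.CFT.Duality.BaseCase.ArithKDatum

/-!
# P-CFT L4, Duality/BaseCase: the bridge `C'_S ⟶ C_S` in `P`-form (helper25)

The contract `PForm D χ K` of the base case contains three fields which only involve the module
`K.C` and the invariant map `invT : T²(K.C) → ZMod p` (`hinv`, `hleft`, `hright`; the field
`fin` is independent of `K`).  In the
arithmetic situation `K.C = C'_S = J_S / E_S`, whereas class field theory computes with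
`C_S = colim C_S(F)`.  This file transports these fields along a morphism `f : C' ⟶ C` such
that `T^r(P W C') ⟶ T^r(P W C)` is bijective for all open `W`:

* generic part (`section Generic`): `pullInv f invT := invT ∘ T²(f)`; `hinv_of_bijective`,
  `fin0_of_injective`, `hleft_of_injective`, `hright_of_surjective` (one subgroup `W` at a time),
  and the bundled versions `hinv_transport`, `fin0_transport`, `hleft_transport`,
  `hright_transport` in exactly the shape of the fields of `PForm`;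
* arithmetic part (`section Arith`): `TMap_PMap_cs'ToCS_bijective`: for `p ∈ S` and every open
  `W`, `T^r(P W C'_S) ⟶ T^r(P W C_S)` is bijective; `invTCS'`, the pulled back invariant map, and
  the four fields for `arithKDatum S p hpS` from those for `C_S`.
-/

set_option autoImplicit false
set_option linter.unusedSectionVars false

open CategoryTheory Fermat.Agent.Lib.CFT.Profinite

namespace Fermat.Agent.Lib.CFT.Duality.GlobalBase.PFormBridge

open KCalc KCalcCup ChangeRing DevissageRep PVCalc KDatumPV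

/-! ### The generic transport -/

section Generic

variable {G : Type} [Group G] (𝒰 : LevelFamily G) {p : ℕ} [Fact p.Prime]
  {C' C : Rep.{0} ℤ G} (f : C' ⟶ C) (invT : T 𝒰 p C 2 →+ ZMod p)

/-- The invariant map of `C'` pulled back from `C` along `f : C' ⟶ C`. -/
noncomputable def pullInv : T 𝒰 p C' 2 →+ ZMod p :=
  invT.comp (TMap 𝒰 p f 2).toAddMonoidHom

@[simp] theorem pullInv_apply (t : T 𝒰 p C' 2) :
    pullInv 𝒰 f invT t = invT (TMap 𝒰 p f 2 t) := rfl

/-- Transport of the weak local-global compatibility: the pulled back invariant of the image of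
`y` under `π' : J ⟶ C'` is the invariant of its image under `π' ≫ f`. -/
theorem pullInv_TMap {J : Rep.{0} ℤ G} (π' : J ⟶ C') (y : T 𝒰 p J 2) :
    pullInv 𝒰 f invT (TMap 𝒰 p π' 2 y) = invT (TMap 𝒰 p (π' ≫ f) 2 y) := by
  rw [pullInv_apply, TMap_comp]

variable (W : Subgroup G) [W.FiniteIndex]

/-- The sum map followed by the pulled back invariant map factors through `T²(P W f)`. -/
theorem pullInv_sumMap (t : T 𝒰 p (P W C') 2) :
    pullInv 𝒰 f invT (TMap 𝒰 p (sumMap W C') 2 t) =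
      invT (TMap 𝒰 p (sumMap W C) 2 (TMap 𝒰 p (PMap W f) 2 t)) := by
  rw [pullInv_apply, ← TMap_comp, ← TMap_comp, sumMap_naturality]

/-- Transport of `hinv` for one subgroup. -/
theorem hinv_of_bijective (hb : Function.Bijective (TMap 𝒰 p (PMap W f) 2))
    (h : Function.Bijective fun t : T 𝒰 p (P W C) 2 => invT (TMap 𝒰 p (sumMap W C) 2 t)) :
    Function.Bijective fun t : T 𝒰 p (P W C') 2 =>
      pullInv 𝒰 f invT (TMap 𝒰 p (sumMap W C') 2 t) := by
  have : (fun t : T 𝒰 p (P W C') 2 => pullInv 𝒰 f invT (TMap 𝒰 p (sumMap W C') 2 t)) =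
      (fun t : T 𝒰 p (P W C) 2 => invT (TMap 𝒰 p (sumMap W C) 2 t)) ∘
        (TMap 𝒰 p (PMap W f) 2) := funext fun t => pullInv_sumMap 𝒰 f invT W t
  rw [this]
  exact h.comp hb

omit [W.FiniteIndex] in
/-- Transport of `fin0` for one subgroup. -/
theorem fin0_of_injective (hb : Function.Injective (TMap 𝒰 p (PMap W f) 0))
    (h : Finite (T 𝒰 p (P W C) 0)) : Finite (T 𝒰 p (P W C') 0) :=
  Finite.of_injective _ hb

/-- The key naturality: `T²(f) ∘ PhiT(tracePairing W C') = PhiT(tracePairing W C) ∘ T¹(P W f)`. -/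
theorem TMap_PhiT_tracePairing (y : 𝒰.levelCochains (R ℤ W) 1) (β : 𝒰.levelCochains (R ℤ W) 2)
    (hy : dL 𝒰 (R ℤ W) 1 y = ((p : ℕ) : ℤ) • β) (hβ : dL 𝒰 (R ℤ W) 2 β = 0) (n : ℕ)
    (t : T 𝒰 p (P W C') n) :
    TMap 𝒰 p f (n + 1) (PhiT 𝒰 p (tracePairing W C') y β hy hβ n t) =
      PhiT 𝒰 p (tracePairing W C) y β hy hβ n (TMap 𝒰 p (PMap W f) n t) :=
  TransferPhi.TMap_PhiT 𝒰 p (tracePairing W C') (tracePairing W C) (PMap W f) (𝟙 (R ℤ W)) f
    (fun a b => tracePairing_naturality W f a b) y β hy hβ n t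

/-- Transport of `hleft` for one subgroup. -/
theorem hleft_of_injective (hb : Function.Injective (TMap 𝒰 p (PMap W f) 1))
    (h : ∀ t : T 𝒰 p (P W C) 1,
      (∀ b : Bockstein.BockPair 𝒰 ((p : ℕ) : ℤ) (R ℤ W) 1,
        invT (PhiT 𝒰 p (tracePairing W C) b.1.1 b.1.2 b.2
          (Bockstein.BockPair.d_snd (BocksteinPV.isReduction_red W p).torsionFree b) 1 t) = 0) →
      t = 0)
    (t : T 𝒰 p (P W C') 1)
    (ht : ∀ b : Bockstein.BockPair 𝒰 ((p : ℕ) : ℤ) (R ℤ W) 1,
      pullInv 𝒰 f invT (PhiT 𝒰 p (tracePairing W C') b.1.1 b.1.2 b.2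
        (Bockstein.BockPair.d_snd (BocksteinPV.isReduction_red W p).torsionFree b) 1 t) = 0) :
    t = 0 := by
  apply hb
  rw [map_zero]
  apply h
  intro b
  rw [← TMap_PhiT_tracePairing]
  exact ht b

/-- Transport of `hright` for one subgroup. -/
theorem hright_of_surjective (hb : Function.Surjective (TMap 𝒰 p (PMap W f) 1))
    (h : ∀ b : Bockstein.BockPair 𝒰 ((p : ℕ) : ℤ) (R ℤ W) 1,
      (∀ t : T 𝒰 p (P W C) 1,
        invT (PhiT 𝒰 p (tracePairing W C) b.1.1 b.1.2 b.2
          (Bockstein.BockPair.d_snd (BocksteinPV.isReduction_red W p).torsionFree b) 1 t) = 0) →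
      Bockstein.redClass 𝒰 (BocksteinPV.isReduction_red W p) 1 b = 0)
    (b : Bockstein.BockPair 𝒰 ((p : ℕ) : ℤ) (R ℤ W) 1)
    (hb' : ∀ t : T 𝒰 p (P W C') 1,
      pullInv 𝒰 f invT (PhiT 𝒰 p (tracePairing W C') b.1.1 b.1.2 b.2
        (Bockstein.BockPair.d_snd (BocksteinPV.isReduction_red W p).torsionFree b) 1 t) = 0) :
    Bockstein.redClass 𝒰 (BocksteinPV.isReduction_red W p) 1 b = 0 := by
  apply h
  intro t
  obtain ⟨t', rfl⟩ := hb t
  rw [← TMap_PhiT_tracePairing]
  exact hb' t'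

end Generic

/-! ### The transport in the shape of the fields of `PForm` -/

section Bundled

variable {G : Type} [Group G] (D : LocDatum G) {p : ℕ} [Fact p.Prime] (χ : G →* (ZMod p)ˣ)
  {C' C : Rep.{0} ℤ G} (f : C' ⟶ C) (invT : T D.𝒰 p C 2 →+ ZMod p)
  (hb : ∀ (W : Subgroup G), LES.IsOpenSubgroup D.𝒰 W → W ≤ χ.ker →
    ∀ r : ℕ, Function.Bijective (TMap D.𝒰 p (PMap W f) r))

include hb

/-- Transport of the field `hinv` of `PForm` along `f : C' ⟶ C`. -/
theorem hinv_transport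
    (h : ∀ (W : Subgroup G) [W.FiniteIndex], LES.IsOpenSubgroup D.𝒰 W → W ≤ χ.ker →
      Function.Bijective fun t : T D.𝒰 p (P W C) 2 => invT (TMap D.𝒰 p (sumMap W C) 2 t)) :
    ∀ (W : Subgroup G) [W.FiniteIndex], LES.IsOpenSubgroup D.𝒰 W → W ≤ χ.ker →
      Function.Bijective fun t : T D.𝒰 p (P W C') 2 =>
        pullInv D.𝒰 f invT (TMap D.𝒰 p (sumMap W C') 2 t) :=
  fun W _ hW hle => hinv_of_bijective D.𝒰 f invT W (hb W hW hle 2) (h W hW hle)

/-- Transport of the finiteness of `T⁰(P W C)` along `f : C' ⟶ C` (no longer a field of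
`PForm`, kept for reference). -/
theorem fin0_transport
    (h : ∀ (W : Subgroup G), LES.IsOpenSubgroup D.𝒰 W → W ≤ χ.ker →
      Finite (T D.𝒰 p (P W C) 0)) :
    ∀ (W : Subgroup G), LES.IsOpenSubgroup D.𝒰 W → W ≤ χ.ker →
      Finite (T D.𝒰 p (P W C') 0) :=
  fun W hW hle => fin0_of_injective D.𝒰 f W (hb W hW hle 0).1 (h W hW hle)

/-- Transport of the field `hleft` of `PForm` along `f : C' ⟶ C`. -/
theorem hleft_transport
    (h : ∀ (W : Subgroup G) [W.FiniteIndex], LES.IsOpenSubgroup D.𝒰 W → W ≤ χ.ker →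
      ∀ t : T D.𝒰 p (P W C) 1,
        (∀ b : Bockstein.BockPair D.𝒰 ((p : ℕ) : ℤ) (R ℤ W) 1,
          invT (PhiT D.𝒰 p (tracePairing W C) b.1.1 b.1.2 b.2
            (Bockstein.BockPair.d_snd (BocksteinPV.isReduction_red W p).torsionFree b) 1 t) = 0) →
        t = 0) :
    ∀ (W : Subgroup G) [W.FiniteIndex], LES.IsOpenSubgroup D.𝒰 W → W ≤ χ.ker →
      ∀ t : T D.𝒰 p (P W C') 1,
        (∀ b : Bockstein.BockPair D.𝒰 ((p : ℕ) : ℤ) (R ℤ W) 1,
          pullInv D.𝒰 f invT (PhiT D.𝒰 p (tracePairing W C') b.1.1 b.1.2 b.2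
            (Bockstein.BockPair.d_snd (BocksteinPV.isReduction_red W p).torsionFree b) 1 t) = 0) →
        t = 0 :=
  fun W _ hW hle => hleft_of_injective D.𝒰 f invT W (hb W hW hle 1).1 (h W hW hle)

/-- Transport of the field `hright` of `PForm` along `f : C' ⟶ C`. -/
theorem hright_transport
    (h : ∀ (W : Subgroup G) [W.FiniteIndex], LES.IsOpenSubgroup D.𝒰 W → W ≤ χ.ker →
      ∀ b : Bockstein.BockPair D.𝒰 ((p : ℕ) : ℤ) (R ℤ W) 1,
        (∀ t : T D.𝒰 p (P W C) 1,
          invT (PhiT D.𝒰 p (tracePairing W C) b.1.1 b.1.2 b.2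
            (Bockstein.BockPair.d_snd (BocksteinPV.isReduction_red W p).torsionFree b) 1 t) = 0) →
        Bockstein.redClass D.𝒰 (BocksteinPV.isReduction_red W p) 1 b = 0) :
    ∀ (W : Subgroup G) [W.FiniteIndex], LES.IsOpenSubgroup D.𝒰 W → W ≤ χ.ker →
      ∀ b : Bockstein.BockPair D.𝒰 ((p : ℕ) : ℤ) (R ℤ W) 1,
        (∀ t : T D.𝒰 p (P W C') 1,
          pullInv D.𝒰 f invT (PhiT D.𝒰 p (tracePairing W C') b.1.1 b.1.2 b.2
            (Bockstein.BockPair.d_snd (BocksteinPV.isReduction_red W p).torsionFree b) 1 t) = 0) →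
        Bockstein.redClass D.𝒰 (BocksteinPV.isReduction_red W p) 1 b = 0 :=
  fun W _ hW hle => hright_of_surjective D.𝒰 f invT W (hb W hW hle 1).2 (h W hW hle)

omit hb in
/-- **The bridge, packaged**: a `P`-form contract for a zigzag datum `K` from the semilocal
theorems of `K`, and the invariant map, local-global compatibility, perfectness and finiteness
stated for a module `C` receiving a morphism `f : K.C ⟶ C` which induces bijections
`T^r(P W K.C) ⟶ T^r(P W C)`. -/
noncomputable def pformOfBridge (K : KDatum ℤ D p) {C : Rep.{0} ℤ G} (f : K.C ⟶ C)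
    (invT : T D.𝒰 p C 2 →+ ZMod p)
    (hb : ∀ (W : Subgroup G), LES.IsOpenSubgroup D.𝒰 W → W ≤ χ.ker →
      ∀ r : ℕ, Function.Bijective (TMap D.𝒰 p (PMap W f) r))
    (semi₀ : Function.Bijective (K.lamT 2) ∧ Function.Injective (K.lamT 3))
    (hLG : ∀ q : D.ι, ∃ y : T D.𝒰 p K.J 2,
      (∀ v, v ≠ q → K.lamT 2 y v = 0) ∧ invT (TMap D.𝒰 p (K.π ≫ f) 2 y) ≠ 0)
    (semi : ∀ (W : Subgroup G) (hW : LES.IsOpenSubgroup D.𝒰 W), W ≤ χ.ker →
      Function.Bijective ((pv K W hW).lamT 1) ∧ Function.Bijective ((pv K W hW).lamT 2) ∧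
        Function.Injective ((pv K W hW).lamT 3))
    (hinv : ∀ (W : Subgroup G) [W.FiniteIndex], LES.IsOpenSubgroup D.𝒰 W → W ≤ χ.ker →
      Function.Bijective fun t : T D.𝒰 p (P W C) 2 => invT (TMap D.𝒰 p (sumMap W C) 2 t))
    (fin : ∀ (W : Subgroup G), LES.IsOpenSubgroup D.𝒰 W → W ≤ χ.ker →
      Module.Finite (ZMod p)
        ((LES.restrict D.𝒰 W).levelCohomology (Rep.trivial (ZMod p) W (ZMod p)) 1))
    (hleft : ∀ (W : Subgroup G) [W.FiniteIndex], LES.IsOpenSubgroup D.𝒰 W → W ≤ χ.ker →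
      ∀ t : T D.𝒰 p (P W C) 1,
        (∀ b : Bockstein.BockPair D.𝒰 ((p : ℕ) : ℤ) (R ℤ W) 1,
          invT (PhiT D.𝒰 p (tracePairing W C) b.1.1 b.1.2 b.2
            (Bockstein.BockPair.d_snd (BocksteinPV.isReduction_red W p).torsionFree b) 1 t) = 0) →
        t = 0)
    (hright : ∀ (W : Subgroup G) [W.FiniteIndex], LES.IsOpenSubgroup D.𝒰 W → W ≤ χ.ker →
      ∀ b : Bockstein.BockPair D.𝒰 ((p : ℕ) : ℤ) (R ℤ W) 1,
        (∀ t : T D.𝒰 p (P W C) 1,
          invT (PhiT D.𝒰 p (tracePairing W C) b.1.1 b.1.2 b.2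
            (Bockstein.BockPair.d_snd (BocksteinPV.isReduction_red W p).torsionFree b) 1 t) = 0) →
        Bockstein.redClass D.𝒰 (BocksteinPV.isReduction_red W p) 1 b = 0) :
    PForm D χ K where
  invT := pullInv D.𝒰 f invT
  semi₀ := semi₀
  hLG q := by
    obtain ⟨y, hy0, hy⟩ := hLG q
    exact ⟨y, hy0, by rw [pullInv_TMap]; exact hy⟩
  semi := semi
  hinv := hinv_transport D χ f invT hb hinv
  fin := fin
  hleft := hleft_transport D χ f invT hb hleft
  hright := hright_transport D χ f invT hb hright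

omit hb in
@[simp] theorem pformOfBridge_invT (K : KDatum ℤ D p) {C : Rep.{0} ℤ G} (f : K.C ⟶ C)
    (invT : T D.𝒰 p C 2 →+ ZMod p) hb semi₀ hLG semi hinv fin hleft hright :
    (pformOfBridge D χ K f invT hb semi₀ hLG semi hinv fin hleft hright).invT =
      pullInv D.𝒰 f invT := rfl

end Bundled

/-! ### The arithmetic bridge `C'_S ⟶ C_S` -/

section Arith

open Fermat.Agent.Lib.CFT.Profinite.Bridge Fermat.Agent.Lib.CFT.Global
  Fermat.Agent.Lib.CFT.Global.SVersion Fermat.Agent.Lib.CFT.Duality.ArithKDatum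

local notation "Γℚ" => (AlgebraicClosure ℚ ≃ₐ[ℚ] AlgebraicClosure ℚ)

/-- If `p` is bijective on `X`, it is bijective on `P V X`. -/
theorem bijective_nsmul_P {G : Type} [Group G] (V : Subgroup G) (p : ℕ) (X : Rep.{0} ℤ G)
    (hbij : Function.Bijective fun x : X => p • x) :
    Function.Bijective fun φ : P V X => p • φ := by
  constructor
  · intro φ φ' h
    apply PVCalc.coord_injective V X
    funext x
    apply hbij.1
    show p • CoindDual.coord V X φ x = p • CoindDual.coord V X φ' x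
    have h' : p • φ = p • φ' := h
    have := congrFun (congrArg (CoindDual.coord V X) h') x
    rwa [coord_nsmul, coord_nsmul] at this
  · intro φ
    exact divisible_P V p X (fun x => hbij.2 x) φ

variable (S : Finset Nat.Primes) (p : ℕ) [hp : Fact p.Prime]
  (hpS : (⟨p, hp.out⟩ : Nat.Primes) ∈ S)

/-- The comparison morphism `C'_S ⟶ C_S`. -/
noncomputable def cs'ToCSHom : CS' S ⟶ CS S := (seqCCQ S).f

theorem cs'ToCSHom_eq : cs'ToCSHom S = (seqCCQ S).f := rfl

include hpS in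
/-- **The bridge hypothesis**: for `p ∈ S` and every open subgroup `W`, the map
`T^r(P W C'_S) ⟶ T^r(P W C_S)` is bijective for all `r`. -/
theorem TMap_PMap_cs'ToCS_bijective (W : Subgroup Γℚ) (hW : LES.IsOpenSubgroup (levelsS S) W)
    (r : ℕ) : Function.Bijective (TMap (levelsS S) p (PMap W (cs'ToCSHom S)) r) := by
  have := hW.finiteIndex
  exact KCalc.TMap_f_bijective (levelsS S) p (PSeq_shortExact W (shortExact_seqCCQ S))
    (isDiscrete_P W (CS S) (levelsS S) hW (isDiscrete_CS S))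
    (bijective_nsmul_P W p (QS S) (bijective_nsmul_QS hp.out hpS)) r

include hpS in
/-- The bridge hypothesis in the shape used by `pformOfBridge`, for any character `χ`. -/
theorem arith_hb (χ : Γℚ →* (ZMod p)ˣ) :
    ∀ (W : Subgroup Γℚ), LES.IsOpenSubgroup (arithDatum S).𝒰 W → W ≤ χ.ker →
      ∀ r : ℕ, Function.Bijective (TMap (arithDatum S).𝒰 p (PMap W (cs'ToCSHom S)) r) :=
  fun W hW _ r => TMap_PMap_cs'ToCS_bijective S p hpS W hW r

/-- The invariant map of `C'_S` pulled back from the invariant map of `C_S`. -/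
noncomputable def invTCS' (invT : T (arithDatum S).𝒰 p (CS S) 2 →+ ZMod p) :
    T (arithDatum S).𝒰 p (arithKDatum S p hpS).C 2 →+ ZMod p :=
  pullInv (arithDatum S).𝒰 (cs'ToCSHom S) invT

@[simp] theorem invTCS'_apply (invT : T (arithDatum S).𝒰 p (CS S) 2 →+ ZMod p)
    (t : T (arithDatum S).𝒰 p (arithKDatum S p hpS).C 2) :
    invTCS' S p hpS invT t = invT (TMap (arithDatum S).𝒰 p (cs'ToCSHom S) 2 t) := rfl

/-- **The arithmetic `P`-form contract from the `C_S`-statements**: the fields `hinv`,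
`hleft`, `hright` (and `hLG`) may be proved for `C_S = colim C_S(F)` with any invariant map
`invT : T²(C_S) → ZMod p`. -/
noncomputable def arithPForm (χ : Γℚ →* (ZMod p)ˣ)
    (invT : T (arithDatum S).𝒰 p (CS S) 2 →+ ZMod p)
    (semi₀ : Function.Bijective ((arithKDatum S p hpS).lamT 2) ∧
      Function.Injective ((arithKDatum S p hpS).lamT 3))
    (hLG : ∀ q : (arithDatum S).ι, ∃ y : T (arithDatum S).𝒰 p (arithKDatum S p hpS).J 2,
      (∀ v, v ≠ q → (arithKDatum S p hpS).lamT 2 y v = 0) ∧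
        invT (TMap (arithDatum S).𝒰 p ((arithKDatum S p hpS).π ≫ cs'ToCSHom S) 2 y) ≠ 0)
    (semi : ∀ (W : Subgroup Γℚ) (hW : LES.IsOpenSubgroup (arithDatum S).𝒰 W), W ≤ χ.ker →
      Function.Bijective ((pv (arithKDatum S p hpS) W hW).lamT 1) ∧
        Function.Bijective ((pv (arithKDatum S p hpS) W hW).lamT 2) ∧
          Function.Injective ((pv (arithKDatum S p hpS) W hW).lamT 3))
    (hinv : ∀ (W : Subgroup Γℚ) [W.FiniteIndex], LES.IsOpenSubgroup (arithDatum S).𝒰 W →
      W ≤ χ.ker → Function.Bijective fun t : T (arithDatum S).𝒰 p (P W (CS S)) 2 =>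
        invT (TMap (arithDatum S).𝒰 p (sumMap W (CS S)) 2 t))
    (fin : ∀ (W : Subgroup Γℚ), LES.IsOpenSubgroup (arithDatum S).𝒰 W → W ≤ χ.ker →
      Module.Finite (ZMod p)
        ((LES.restrict (arithDatum S).𝒰 W).levelCohomology
          (Rep.trivial (ZMod p) W (ZMod p)) 1))
    (hleft : ∀ (W : Subgroup Γℚ) [W.FiniteIndex], LES.IsOpenSubgroup (arithDatum S).𝒰 W →
      W ≤ χ.ker → ∀ t : T (arithDatum S).𝒰 p (P W (CS S)) 1,
        (∀ b : Bockstein.BockPair (arithDatum S).𝒰 ((p : ℕ) : ℤ) (R ℤ W) 1,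
          invT (PhiT (arithDatum S).𝒰 p (tracePairing W (CS S)) b.1.1 b.1.2 b.2
            (Bockstein.BockPair.d_snd (BocksteinPV.isReduction_red W p).torsionFree b) 1 t) = 0) →
        t = 0)
    (hright : ∀ (W : Subgroup Γℚ) [W.FiniteIndex], LES.IsOpenSubgroup (arithDatum S).𝒰 W →
      W ≤ χ.ker → ∀ b : Bockstein.BockPair (arithDatum S).𝒰 ((p : ℕ) : ℤ) (R ℤ W) 1,
        (∀ t : T (arithDatum S).𝒰 p (P W (CS S)) 1,
          invT (PhiT (arithDatum S).𝒰 p (tracePairing W (CS S)) b.1.1 b.1.2 b.2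
            (Bockstein.BockPair.d_snd (BocksteinPV.isReduction_red W p).torsionFree b) 1 t) = 0) →
        Bockstein.redClass (arithDatum S).𝒰 (BocksteinPV.isReduction_red W p) 1 b = 0) :
    PForm (arithDatum S) χ (arithKDatum S p hpS) :=
  pformOfBridge (arithDatum S) χ (arithKDatum S p hpS) (cs'ToCSHom S) invT
    (arith_hb S p hpS χ) semi₀ hLG semi hinv fin hleft hright

end Arith

end Fermat.Agent.Lib.CFT.Duality.GlobalBase.PFormBridge
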