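import Fermat.Agent.Lib.CFT.Duality.BaseCase.WFieldsOfFormation
import Fermat.Agent.Lib.CFT.Duality.BaseCase.PFormBridge
import Fermat.Agent.Lib.CFT.Global.SVersion.OpenLevelField

/-!
# The fields `hinv`, `fin`, `hleft`, `hright` of the arithmetic `P`-form contract from the
`S`-class formation and the existence theorem modulo `p` (P-CFT, L4 base cases, packaging)

* `ExistenceModP F p` : the existence theorem modulo `p` for a formation `F` over `ℤ`, as ONE
  proposition (the hypotheses `U₀ U hU hUU₀ hexp hcomm hN0 hcard` of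
  `FormationT.VForm.ofExistenceInt`);
* `wfields_of_existenceModP` : the `WFields` record for one open subgroup `W` from a class
  formation `F` on `G` and `ExistenceModP` for its restriction to `W`;
* arithmetic: for the `S`-class formation `formationQOf S hdata` on `Γℚ` (level family
  `galFamily S`, module `C_S`), `invArith S hdata p : T²(levelsS S, C_S) →+ ZMod p`, and from
  `ArithExistence S hdata p χ` (= `ExistenceModP` over every level field `F₀` whose fixing subgroup
  lies in `ker χ`) the four arguments `hinv`, `fin`, `hleft`, `hright` of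
  `PFormBridge.arithPForm` (`arith_hinv`, `arith_fin`, `arith_hleft`, `arith_hright`), and the
  resulting `P`-form contract `arithPFormOfFormation`.
-/

set_option autoImplicit false
set_option linter.unusedSectionVars false

open CategoryTheory Fermat.Agent.Lib.CFT.Profinite

namespace Fermat.Agent.Lib.CFT.Duality.GlobalBase.PFormOfVForm

open KCalc KCalcCup DevissageRep PVCalc LES LevelFamily
open Fermat.Agent.Lib.CFT.Coh.ClassFormation Fermat.Agent.Lib.CFT.Global.ExistenceFormation
open Fermat.Agent.Lib.CFT.Duality.FormationT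

/-! ### The existence theorem modulo `p`, as one proposition -/

section Abstract

variable {G : Type} [Group G]

/-- **The existence theorem modulo `p`** for a formation over `ℤ`: a normal subgroup `U₀`
containing a normal level `U`, with `G ⧸ U₀` abelian of exponent `p` and of order at least
`[C^G : p C^G] ≠ 0`. -/
def ExistenceModP (F : Formation ℤ G) (p : ℕ) : Prop :=
  ∃ (U₀ : Subgroup G) (_ : U₀.Normal) (U : Subgroup G) (_ : U.Normal),
    U ∈ F.𝒰.levels ∧ U ≤ U₀ ∧ (∀ g : G ⧸ U₀, g ^ p = 1) ∧ (∀ g h : G ⧸ U₀, g * h = h * g) ∧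
      (pMul F p).index ≠ 0 ∧ (pMul F p).index ≤ Nat.card (G ⧸ U₀)

theorem ExistenceModP.mk' {F : Formation ℤ G} {p : ℕ} (U₀ : Subgroup G) [h₀ : U₀.Normal]
    (U : Subgroup G) [h : U.Normal] (hU : U ∈ F.𝒰.levels) (hUU₀ : U ≤ U₀)
    (hexp : ∀ g : G ⧸ U₀, g ^ p = 1) (hcomm : ∀ g h : G ⧸ U₀, g * h = h * g)
    (hN0 : (pMul F p).index ≠ 0) (hcard : (pMul F p).index ≤ Nat.card (G ⧸ U₀)) :
    ExistenceModP F p :=
  ⟨U₀, h₀, U, h, hU, hUU₀, hexp, hcomm, hN0, hcard⟩

variable (F : ClassFormation G) (𝒰 : LevelFamily G)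
  (h𝒰 : IsCompatible F.𝒰 𝒰 (MonoidHom.id G)) {W : Subgroup G} {𝒰' : LevelFamily W}

/-- The `WFields` record for one open subgroup `W`, from a class formation on `G` and the
existence theorem modulo `p` for its restriction to `W`. -/
theorem wfields_of_existenceModP (h𝒰' : IsCompatible 𝒰 F.𝒰 (MonoidHom.id G))
    (p : ℕ) [Fact p.Prime] [W.FiniteIndex] (hW : IsOpenSubgroup 𝒰 W) (hs : IsSubFamily F.𝒰 W 𝒰') (hcof : IsCofinalSub F.𝒰 W 𝒰')
    (hp : ∃ U ∈ 𝒰'.levels, U.Normal ∧ p ∣ U.index)
    (hex : ExistenceModP (F.restrictOn W 𝒰' hs hcof).toFormation p) :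
    WFields 𝒰 p F.C (invG F 𝒰 h𝒰 p) W := by
  obtain ⟨U₀, h₀, U, h, hU, hUU₀, hexp, hcomm, hN0, hcard⟩ := hex
  exact wfields_of_existence F 𝒰 h𝒰 h𝒰' p hW hs hcof hp U₀ U hU hUU₀ hexp hcomm hN0 hcard

end Abstract

/-! ### The arithmetic instance -/

section Arith

open Fermat.Agent.Lib.CFT.Profinite.Bridge Fermat.Agent.Lib.CFT.Global
  Fermat.Agent.Lib.CFT.Global.SVersion Fermat.Agent.Lib.CFT.Duality.ArithKDatum
  Fermat.Agent.Lib.CFT.Global.SVersion.Formation
  Fermat.Agent.Lib.CFT.Global.SVersion.FormationOfLayers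
  Fermat.Agent.Lib.CFT.Global.SVersion.OpenLevelField

local notation "Qbar" => AlgebraicClosure ℚ
local notation "Γℚ" => (AlgebraicClosure ℚ ≃ₐ[ℚ] AlgebraicClosure ℚ)

variable (S : Finset Nat.Primes) (hdata : LayerData (galFamily S) (CS S))
  (p : ℕ) [hp : Fact p.Prime]

/-- **The arithmetic invariant map** `T²(Γℚ, C_S) →+ ZMod p` (levels `levelsS S`), from the
`S`-class formation over `ℚ`. -/
noncomputable def invArith : T (arithDatum S).𝒰 p (CS S) 2 →+ ZMod p :=
  invG (formationQOf S hdata) (levelsS S) (isCompatible_galFamily_levelsS S) p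

theorem invArith_eq :
    invArith S hdata p =
      invG (formationQOf S hdata) (levelsS S) (isCompatible_galFamily_levelsS S) p := rfl

/-- **The existence theorem modulo `p` over all level fields containing the fixed field of
`ker χ`** (for `χ` the mod `p` cyclotomic character: over all level fields containing `ζ_p`). -/
def ArithExistence (χ : Γℚ →* (ZMod p)ˣ) : Prop :=
  ∀ (F₀ : IntermediateField ℚ Qbar) (hF₀ : F₀.IsUnramifiedOutside S),
    F₀.fixingSubgroup ≤ χ.ker → ExistenceModP (formationOverOf hdata F₀ hF₀).toFormation p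

variable {S}

/-- `p` divides the index of a normal level of `galFamilyOver F₀`, for `p ∈ S`. -/
theorem exists_dvd_index_galFamilyOver (hpS : (⟨p, hp.out⟩ : Nat.Primes) ∈ S)
    (F₀ : IntermediateField ℚ Qbar) (hF₀ : F₀.IsUnramifiedOutside S) :
    ∃ U ∈ (galFamilyOver F₀ hF₀).levels, U.Normal ∧ p ∣ U.index := by
  obtain ⟨U, hU⟩ := (galFamilyOver F₀ hF₀).nonempty
  obtain ⟨U', hn', hU', -, hdvd⟩ :=
    galFamilyOver_tower hpS F₀ hF₀ U (galFamilyOver_normal hU) hU
  exact ⟨U', hU', hn', dvd_of_mul_right_dvd hdvd⟩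

/-- The fixing subgroup of a level field is open. -/
theorem isOpenSubgroup_fixingSubgroup (F₀ : IntermediateField ℚ Qbar)
    (hF₀ : F₀.IsUnramifiedOutside S) : IsOpenSubgroup (levelsS S) F₀.fixingSubgroup :=
  ⟨_, ⟨F₀, hF₀, rfl⟩, le_rfl⟩

/-- **The `WFields` record over a level field**. -/
theorem wfields_levelField (hpS : (⟨p, hp.out⟩ : Nat.Primes) ∈ S)
    (F₀ : IntermediateField ℚ Qbar) (hF₀ : F₀.IsUnramifiedOutside S)
    [(F₀.fixingSubgroup).FiniteIndex]
    (hex : ExistenceModP (formationOverOf hdata F₀ hF₀).toFormation p) :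
    WFields (levelsS S) p (CS S) (invArith S hdata p) F₀.fixingSubgroup :=
  wfields_of_existenceModP (formationQOf S hdata) (levelsS S) (isCompatible_galFamily_levelsS S)
    (isCompatible_levelsS_galFamily S) p (isOpenSubgroup_fixingSubgroup F₀ hF₀)
    (isSubFamily_galFamilyOver F₀ hF₀) (isCofinalSub_galFamilyOver F₀ hF₀)
    (exists_dvd_index_galFamilyOver p hpS F₀ hF₀) hex

variable (χ : Γℚ →* (ZMod p)ˣ)

/-- **The `WFields` records for all open subgroups `W ≤ ker χ`**. -/
theorem wfields_arith (hpS : (⟨p, hp.out⟩ : Nat.Primes) ∈ S)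
    (hex : ArithExistence S hdata p χ) :
    ∀ (W : Subgroup Γℚ) [W.FiniteIndex], IsOpenSubgroup (arithDatum S).𝒰 W → W ≤ χ.ker →
      WFields (arithDatum S).𝒰 p (CS S) (invArith S hdata p) W := by
  intro W _ hW hle
  obtain ⟨F₀, hF₀, rfl⟩ := exists_levelField_of_isOpenSubgroup W hW
  exact wfields_levelField hdata p hpS F₀ hF₀ (hex F₀ hF₀ hle)

section Fields

variable (hpS : (⟨p, hp.out⟩ : Nat.Primes) ∈ S) (hex : ArithExistence S hdata p χ)

include hpS hex

/-- The argument `hinv` of `PFormBridge.arithPForm`. -/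
theorem arith_hinv :
    ∀ (W : Subgroup Γℚ) [W.FiniteIndex], IsOpenSubgroup (arithDatum S).𝒰 W → W ≤ χ.ker →
      Function.Bijective fun t : T (arithDatum S).𝒰 p (P W (CS S)) 2 =>
        invArith S hdata p (TMap (arithDatum S).𝒰 p (sumMap W (CS S)) 2 t) :=
  WFields.hinv_all (arithDatum S) χ (invArith S hdata p) (wfields_arith hdata p χ hpS hex)

/-- The argument `fin` of `PFormBridge.arithPForm`. -/
theorem arith_fin :
    ∀ (W : Subgroup Γℚ), IsOpenSubgroup (arithDatum S).𝒰 W → W ≤ χ.ker →
      Module.Finite (ZMod p)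
        ((LES.restrict (arithDatum S).𝒰 W).levelCohomology
          (Rep.trivial (ZMod p) W (ZMod p)) 1) :=
  WFields.fin_all (arithDatum S) χ (invArith S hdata p) (wfields_arith hdata p χ hpS hex)

/-- The argument `hleft` of `PFormBridge.arithPForm`. -/
theorem arith_hleft :
    ∀ (W : Subgroup Γℚ) [W.FiniteIndex], IsOpenSubgroup (arithDatum S).𝒰 W → W ≤ χ.ker →
      ∀ t : T (arithDatum S).𝒰 p (P W (CS S)) 1,
        (∀ b : Bockstein.BockPair (arithDatum S).𝒰 ((p : ℕ) : ℤ) (R ℤ W) 1,
          invArith S hdata p (PhiT (arithDatum S).𝒰 p (tracePairing W (CS S)) b.1.1 b.1.2 b.2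
            (Bockstein.BockPair.d_snd (BocksteinPV.isReduction_red W p).torsionFree b) 1 t) = 0) →
        t = 0 :=
  WFields.hleft_all (arithDatum S) χ (invArith S hdata p) (wfields_arith hdata p χ hpS hex)

/-- The argument `hright` of `PFormBridge.arithPForm`. -/
theorem arith_hright :
    ∀ (W : Subgroup Γℚ) [W.FiniteIndex], IsOpenSubgroup (arithDatum S).𝒰 W → W ≤ χ.ker →
      ∀ b : Bockstein.BockPair (arithDatum S).𝒰 ((p : ℕ) : ℤ) (R ℤ W) 1,
        (∀ t : T (arithDatum S).𝒰 p (P W (CS S)) 1,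
          invArith S hdata p (PhiT (arithDatum S).𝒰 p (tracePairing W (CS S)) b.1.1 b.1.2 b.2
            (Bockstein.BockPair.d_snd (BocksteinPV.isReduction_red W p).torsionFree b) 1 t) = 0) →
        Bockstein.redClass (arithDatum S).𝒰 (BocksteinPV.isReduction_red W p) 1 b = 0 :=
  WFields.hright_all (arithDatum S) χ (invArith S hdata p) (wfields_arith hdata p χ hpS hex)

end Fields

/-- **The arithmetic `P`-form contract from the `S`-class formation and the existence theorem
modulo `p`**: only the semilocal statements `semi₀`, `semi` and the local-global compatibility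
`hLG` of the invariant map remain. -/
noncomputable def arithPFormOfFormation (hpS : (⟨p, hp.out⟩ : Nat.Primes) ∈ S)
    (hex : ArithExistence S hdata p χ)
    (semi₀ : Function.Bijective ((arithKDatum S p hpS).lamT 2) ∧
      Function.Injective ((arithKDatum S p hpS).lamT 3))
    (hLG : ∀ q : (arithDatum S).ι, ∃ y : T (arithDatum S).𝒰 p (arithKDatum S p hpS).J 2,
      (∀ v, v ≠ q → (arithKDatum S p hpS).lamT 2 y v = 0) ∧
        invArith S hdata p
          (TMap (arithDatum S).𝒰 p ((arithKDatum S p hpS).π ≫ PFormBridge.cs'ToCSHom S) 2 y) ≠ 0)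
    (semi : ∀ (W : Subgroup Γℚ) (hW : LES.IsOpenSubgroup (arithDatum S).𝒰 W), W ≤ χ.ker →
      Function.Bijective ((KDatumPV.pv (arithKDatum S p hpS) W hW).lamT 1) ∧
        Function.Bijective ((KDatumPV.pv (arithKDatum S p hpS) W hW).lamT 2) ∧
          Function.Injective ((KDatumPV.pv (arithKDatum S p hpS) W hW).lamT 3)) :
    PForm (arithDatum S) χ (arithKDatum S p hpS) :=
  PFormBridge.arithPForm S p hpS χ (invArith S hdata p) semi₀ hLG semi
    (arith_hinv hdata p χ hpS hex) (arith_fin hdata p χ hpS hex)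
    (arith_hleft hdata p χ hpS hex) (arith_hright hdata p χ hpS hex)

end Arith

end Fermat.Agent.Lib.CFT.Duality.GlobalBase.PFormOfVForm
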