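import Fermat.Agent.Lib.CFT.Duality.BaseCase.FormationTRestrict

/-!
# Corestriction and the invariant maps of a restricted class formation (three level families)

Let `F` be a class formation on `G` (level family `F.𝒰`, e.g. Galois levels only), `𝒰` a level
family on `G` with `F.𝒰` finer than `𝒰` (`h𝒰`), `W` a `𝒰`-open subgroup, `𝒰'` a level family on
`W` subordinate to and cofinal among the normal levels `≤ W` of `F`, and finer than
`restrict 𝒰 W` (`hm`).  Then, for `s ∈ T²(𝒰, coind (res C))`,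
`invT_G (T²(trace) s) = invT_W (shapiroT s)`, where `invT_G = invT F ∘ TMutual` and
`invT_W = invT (F.restrictOn W 𝒰') ∘ TMutual` (`invT_TMap_coindTrace_restrictOn`).
-/

set_option autoImplicit false
set_option linter.unusedSectionVars false

open CategoryTheory

namespace Fermat.Agent.Lib.CFT.Duality.FormationT

open Fermat.Agent.Lib.CFT.Profinite Fermat.Agent.Lib.CFT.Profinite.LevelFamily
open Fermat.Agent.Lib.CFT.Profinite.LES
open Fermat.Agent.Lib.CFT.Coh.ClassFormation Fermat.Agent.Lib.CFT.Duality.KCalc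

variable {G : Type} [Group G] (F : ClassFormation G)

/-- A `𝒰`-open subgroup is `F.𝒰`-open if `F.𝒰` is finer than `𝒰`. -/
theorem isOpenSubgroup_of_isCompatible {𝒰 𝒱 : LevelFamily G}
    (h : IsCompatible 𝒱 𝒰 (MonoidHom.id G)) {W : Subgroup G} (hW : IsOpenSubgroup 𝒰 W) :
    IsOpenSubgroup 𝒱 W := by
  obtain ⟨U, hU, hle⟩ := hW
  obtain ⟨U', hU', hle'⟩ := h U hU
  exact ⟨U', hU', hle'.trans hle⟩

/-- **Corestriction preserves the invariant on `T²`**, for the restriction of a class formation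
to a subordinate cofinal level family `𝒰'` of `W`. -/
theorem invT_coresT_restrictOn (p : ℕ) [Fact p.Prime] (W : Subgroup G) (𝒰' : LevelFamily W)
    (hs : IsSubFamily F.𝒰 W 𝒰') (hcof : IsCofinalSub F.𝒰 W 𝒰') (hW : IsOpenSubgroup F.𝒰 W)
    (t : T 𝒰' p (Rep.res W.subtype F.C) 2) :
    invT F.toFormation p (coresT p hW F.discrete 2
        (TMutual p hs.isCompatible_restrict (Rep.res W.subtype F.C) 2 t)) =
      invT (F.restrictOn W 𝒰' hs hcof).toFormation p t := by
  exact invT_coresT_restrictOn_of_layer F.toFormation p hs hcof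
    (fun U' _ hU' => (F.restrictOn W 𝒰' hs hcof).toFormation.isLayer U' hU') hW t

/-- **The `hcor` glue**: `invT_G ∘ T²(trace) = invT_W ∘ shapiroT` across the three level
families `𝒰` (on `G`), `F.𝒰` (Galois levels on `G`) and `𝒰'` (on `W`). -/
theorem invT_TMap_coindTrace_restrictOn (𝒰 : LevelFamily G)
    (h𝒰 : IsCompatible F.𝒰 𝒰 (MonoidHom.id G)) (p : ℕ) [Fact p.Prime] (W : Subgroup G)
    (𝒰' : LevelFamily W) (hs : IsSubFamily F.𝒰 W 𝒰') (hcof : IsCofinalSub F.𝒰 W 𝒰')
    (hW : IsOpenSubgroup 𝒰 W) (hm : IsCompatible 𝒰' (restrict 𝒰 W) (MonoidHom.id W))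
    (s : T 𝒰 p (Rep.coind W.subtype (Rep.res W.subtype F.C)) 2) :
    haveI := hW.finiteIndex
    invT F.toFormation p (TMutual p h𝒰 F.C 2 (TMap 𝒰 p (coindTrace W F.C) 2 s)) =
      invT (F.restrictOn W 𝒰' hs hcof).toFormation p
        (TMutual p hm (Rep.res W.subtype F.C) 2
          (shapiroT 𝒰 p W (Rep.res W.subtype F.C) 2 s)) := by
  have := hW.finiteIndex
  have hW' : IsOpenSubgroup F.𝒰 W := isOpenSubgroup_of_isCompatible h𝒰 hW
  rw [← invT_coresT_restrictOn F p W 𝒰' hs hcof hW', TMutual_TMap,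
    ← coresT_shapiroT p hW' F.discrete 2]
  congr 2
  have hφ₁ : IsCompatible (restrict F.𝒰 W) 𝒰 W.subtype := fun U hU => by
    obtain ⟨U', hU', hle'⟩ := h𝒰 U hU
    exact ⟨U'.comap W.subtype, comap_mem_comap_levels W.subtype hU', Subgroup.comap_mono hle'⟩
  have hφ₂ : IsCompatible 𝒰' 𝒰 W.subtype := fun U hU => by
    obtain ⟨V, hV, hle⟩ := hm (U.comap W.subtype) (comap_mem_comap_levels W.subtype hU)
    exact ⟨V, hV, hle⟩
  rw [shapiroT, shapiroT, TMapOfHom_TMutual p W.subtype _ _ h𝒰 hφ₁,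
    TMutual_TMapOfHom p W.subtype _ _ hm hφ₂,
    TMutual_TMapOfHom p W.subtype _ hφ₂ hs.isCompatible_restrict hφ₁]

end Fermat.Agent.Lib.CFT.Duality.FormationT
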