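import Fermat.Agent.Lib.CFT.Duality.BaseCase.FormationTFin
import Fermat.Agent.Lib.CFT.Duality.BaseCase.TransferPhi
import Fermat.Agent.Lib.CFT.Profinite.MutualT

/-!
# Transport of the `V`-form package along mutually cofinal level families

The class formation on an open subgroup `W` produced by the arithmetic lives on a level family
(Galois levels only) which is only mutually cofinal with the restricted level family
`LES.restrict 𝒰 W` used by the transfer to coinduced modules.  `VForm.ofMutual` transports the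
`V`-form package (`FormationTFin.lean`) along two mutually cofinal level families.
-/

set_option autoImplicit false
set_option linter.unusedSectionVars false

open CategoryTheory

namespace Fermat.Agent.Lib.CFT.Duality.FormationT

open Fermat.Agent.Lib.CFT.Profinite Fermat.Agent.Lib.CFT.Profinite.LevelFamily
open Fermat.Agent.Lib.CFT.Profinite.LES
open Fermat.Agent.Lib.CFT.Duality.KCalc Fermat.Agent.Lib.CFT.Duality.KCalcCup
open Fermat.Agent.Lib.CFT.Duality.Bockstein Fermat.Agent.Lib.CFT.Duality.TransferPhi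
open Fermat.Agent.Lib.CFT.Coh.Cup

section Mutual

variable {k Γ : Type} [CommRing k] [Group Γ] {𝒰 𝒱 : LevelFamily Γ}

/-- Bockstein pairs for `𝒰` are Bockstein pairs for a level family `𝒱` compatible with `𝒰`. -/
noncomputable def bockMutual (h1 : IsCompatible 𝒱 𝒰 (MonoidHom.id Γ)) (c : k) (Rt : Rep.{0} k Γ)
    (j : ℕ) : BockPair 𝒰 c Rt j →ₗ[k] BockPair 𝒱 c Rt j :=
  mapBock (MonoidHom.id Γ) h1 (𝟙 Rt) j

theorem bockMutual_bockMutual (h1 : IsCompatible 𝒱 𝒰 (MonoidHom.id Γ))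
    (h2 : IsCompatible 𝒰 𝒱 (MonoidHom.id Γ)) (c : k) (Rt : Rep.{0} k Γ) (j : ℕ)
    (x : BockPair 𝒰 c Rt j) : bockMutual h2 c Rt j (bockMutual h1 c Rt j x) = x :=
  Subtype.ext (Prod.ext (Subtype.ext rfl) (Subtype.ext rfl))

/-- `PhiT` is compatible with the comparison maps of mutually cofinal level families. -/
theorem TMutual_PhiT (h1 : IsCompatible 𝒱 𝒰 (MonoidHom.id Γ)) (p : ℕ) {X' Rt X : Rep.{0} k Γ}
    (ψ : Pairing X' Rt X) (htf : ∀ r : Rt, (p : k) • r = 0 → r = 0)
    (x : BockPair 𝒰 (p : k) Rt 1) (n : ℕ) (t : T 𝒰 p X' n) :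
    TMutual p h1 X (n + 1) (PhiT 𝒰 p ψ x.1.1 x.1.2 (BockPair.d_fst x) (BockPair.d_snd htf x) n t) =
      PhiT 𝒱 p ψ (bockMutual h1 (p : k) Rt 1 x).1.1 (bockMutual h1 (p : k) Rt 1 x).1.2
        (BockPair.d_fst (bockMutual h1 (p : k) Rt 1 x))
        (BockPair.d_snd htf (bockMutual h1 (p : k) Rt 1 x)) n (TMutual p h1 X' n t) :=
  TMapOfHom_PhiT (MonoidHom.id Γ) h1 p ψ ψ (𝟙 X') (𝟙 Rt) (𝟙 X) (fun _ _ => rfl) x.1.1 x.1.2
    (BockPair.d_fst x) (BockPair.d_snd htf x) n t

/-- The reduction class is compatible with the comparison maps. -/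
theorem mapMutual_redClass (h1 : IsCompatible 𝒱 𝒰 (MonoidHom.id Γ)) {c : k} {Rt R : Rep.{0} k Γ}
    {red : Rt ⟶ R} (hred : IsReduction c red) (j : ℕ) (x : BockPair 𝒰 c Rt j) :
    (mapMutual h1 R j).hom (redClass 𝒰 hred j x) = redClass 𝒱 hred j (bockMutual h1 c Rt j x) :=
  map_redClass (MonoidHom.id Γ) h1 (𝟙 Rt) hred hred (𝟙 R) rfl j x

/-- **Transport of the `V`-form package** along mutually cofinal level families. -/
noncomputable def VForm.ofMutual (h1 : IsCompatible 𝒱 𝒰 (MonoidHom.id Γ))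
    (h2 : IsCompatible 𝒰 𝒱 (MonoidHom.id Γ)) {C : Rep.{0} k Γ} {p : ℕ} [Fact p.Prime]
    {ψ : Pairing C (Rep.trivial k Γ k) C} {htf : ∀ a : k, (p : k) * a = 0 → a = 0}
    {R : Rep.{0} k Γ} {red : Rep.trivial k Γ k ⟶ R} {hred : IsReduction (p : k) red}
    (I : VForm 𝒰 C p ψ htf hred) : VForm 𝒱 C p ψ htf hred where
  invT := (TEquivOfMutual p h2 h1 C 2).toAddEquiv.trans I.invT
  hleft t' ht' := by
    have h0 : TMutual p h2 C 1 t' = 0 := by
      refine I.hleft _ fun x => ?_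
      have h3 := ht' (bockMutual h1 (p : k) (Rep.trivial k Γ k) 1 x)
      have h4 := TMutual_PhiT h2 p ψ htf (bockMutual h1 (p : k) (Rep.trivial k Γ k) 1 x) 1 t'
      rw [bockMutual_bockMutual h1 h2] at h4
      rw [← h4]
      exact h3
    have h5 := TMutual_TMutual p h2 h1 C 1 t'
    rw [h0, map_zero] at h5
    exact h5.symm
  hright x' hx' := by
    have h0 : redClass 𝒰 hred 1 (bockMutual h2 (p : k) (Rep.trivial k Γ k) 1 x') = 0 := by
      refine I.hright _ fun t => ?_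
      have h3 := hx' (TMutual p h1 C 1 t)
      have h4 := TMutual_PhiT h2 p ψ htf x' 1 (TMutual p h1 C 1 t)
      rw [TMutual_TMutual p h1 h2 C 1 t] at h4
      rw [← h4]
      exact h3
    rw [← mapMutual_redClass h2 hred 1 x'] at h0
    exact (mapMutual_bijective h2 h1 R 1).1 (h0.trans (map_zero _).symm)
  hcongr x' x'' h t' := by
    have h3 := I.hcongr (bockMutual h2 (p : k) (Rep.trivial k Γ k) 1 x')
      (bockMutual h2 (p : k) (Rep.trivial k Γ k) 1 x'') (by
        rw [← mapMutual_redClass h2 hred 1 x', ← mapMutual_redClass h2 hred 1 x'', h])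
      (TMutual p h2 C 1 t')
    rw [← TMutual_PhiT h2 p ψ htf x' 1 t', ← TMutual_PhiT h2 p ψ htf x'' 1 t'] at h3
    exact h3
  fin := by
    have := I.fin
    exact Module.Finite.of_surjective
      (mapMutual h1 (Rep.trivial (ZMod p) Γ (ZMod p)) 1).hom
      (mapMutual_bijective h1 h2 (Rep.trivial (ZMod p) Γ (ZMod p)) 1).2

theorem VForm.ofMutual_invT_apply (h1 : IsCompatible 𝒱 𝒰 (MonoidHom.id Γ))
    (h2 : IsCompatible 𝒰 𝒱 (MonoidHom.id Γ)) {C : Rep.{0} k Γ} {p : ℕ} [Fact p.Prime]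
    {ψ : Pairing C (Rep.trivial k Γ k) C} {htf : ∀ a : k, (p : k) * a = 0 → a = 0}
    {R : Rep.{0} k Γ} {red : Rep.trivial k Γ k ⟶ R} {hred : IsReduction (p : k) red}
    (I : VForm 𝒰 C p ψ htf hred) (t : T 𝒱 p C 2) :
    (VForm.ofMutual h1 h2 I).invT t = I.invT (TMutual p h2 C 2 t) := rfl

end Mutual

end Fermat.Agent.Lib.CFT.Duality.FormationT
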