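import Fermat.Agent.Lib.CFT.Duality.BaseCase.WFields
import Fermat.Agent.Lib.CFT.Duality.BaseCase.VFormMutual
import Fermat.Agent.Lib.CFT.Duality.BaseCase.VFormCores
import Fermat.Agent.Lib.CFT.Coh.ClassFormation.RestrictFormation
import Fermat.Agent.Lib.CFT.Global.SVersion.Formation

/-!
# The four `P`-form fields for one open subgroup from a class formation (P-CFT L4, helper1)

Let `F` be a class formation on `G` (level family `F.𝒰`, e.g. Galois levels only) and `𝒰` a level
family on `G` mutually cofinal with `F.𝒰` (`h𝒰`, `h𝒰'`; e.g. `levelsS S` versus `galFamily S`).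
For a `𝒰`-open subgroup `W` and a level family `𝒰'` on `W` subordinate to and cofinal among the
normal levels `≤ W` of `F` (`hs`, `hcof`; e.g. `galFamilyOver F₀`), the restricted class formation
`F.restrictOn W 𝒰' hs hcof` lives on `𝒰'`, which is only mutually cofinal with `restrict 𝒰 W`.

* `isCompatible_sub_restrict`, `isCompatible_restrict_sub` : the mutual cofinality of `𝒰'` and
  `restrict 𝒰 W`, derived from `hs`, `hcof`, `h𝒰`, `h𝒰'`;
* `invG F 𝒰 h𝒰 p : T²(𝒰, F.C) →+ ZMod p` : the invariant map of `F` transported to `𝒰`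
  (`invG_injective`, `invG_surjective`);
* `wfields_of_restrictOn` : `GlobalBase.WFields 𝒰 p F.C (invG F 𝒰 h𝒰 p) W` (the statements `hinv`,
  `fin`, `hleft`, `hright` of the `P`-form contract for `W`) from a `V`-form package on `𝒰'`
  whose invariant map is that of the restricted formation;
* `wfields_of_existence` : the same from the hypotheses of the existence theorem modulo `p`
  (`VForm.ofExistenceInt`) for the restricted formation.
-/

set_option autoImplicit false
set_option linter.unusedSectionVars false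

open CategoryTheory

namespace Fermat.Agent.Lib.CFT.Duality.FormationT

open Fermat.Agent.Lib.CFT.Profinite Fermat.Agent.Lib.CFT.Profinite.LevelFamily
open Fermat.Agent.Lib.CFT.Profinite.LES
open Fermat.Agent.Lib.CFT.Coh.ClassFormation Fermat.Agent.Lib.CFT.Duality.KCalc
open Fermat.Agent.Lib.CFT.Duality.GlobalBase Fermat.Agent.Lib.CFT.Duality.PVCalc
open Fermat.Agent.Lib.CFT.Global.ExistenceFormation
open Fermat.Agent.Lib.CFT.Global.SVersion.Formation

section WFieldsOfFormation

variable {G : Type} [Group G] (F : ClassFormation G) (𝒰 : LevelFamily G)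
  (h𝒰 : IsCompatible F.𝒰 𝒰 (MonoidHom.id G)) (h𝒰' : IsCompatible 𝒰 F.𝒰 (MonoidHom.id G))
  {W : Subgroup G} {𝒰' : LevelFamily W}

include h𝒰 in
/-- A cofinal subordinate family of `F.𝒰` on `W` refines the restriction to `W` of any level
family refined by `F.𝒰`. -/
theorem isCompatible_sub_restrict (hcof : IsCofinalSub F.𝒰 W 𝒰') :
    IsCompatible 𝒰' (restrict 𝒰 W) (MonoidHom.id W) := by
  rintro _ ⟨U₀, hU₀, rfl⟩
  obtain ⟨U₁, hU₁, hle₁⟩ := h𝒰 U₀ hU₀
  obtain ⟨U', hU', hle'⟩ := hcof U₁ hU₁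
  exact ⟨U', hU', fun x hx => hle₁ (hle' (Subgroup.mem_map_of_mem W.subtype hx))⟩

include h𝒰' in
/-- The restriction to `W` of a level family refining `F.𝒰` refines every subordinate family of
`F.𝒰` on `W`. -/
theorem isCompatible_restrict_sub (hs : IsSubFamily F.𝒰 W 𝒰') :
    IsCompatible (restrict 𝒰 W) 𝒰' (MonoidHom.id W) := by
  intro U' hU'
  obtain ⟨U, hU, -, -, rfl⟩ := hs U' hU'
  obtain ⟨U₀, hU₀, hle₀⟩ := h𝒰' U hU
  exact ⟨U₀.comap W.subtype, comap_mem_comap_levels W.subtype hU₀, fun x hx => hle₀ hx⟩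

/-- The invariant map of the class formation `F` on `T²(𝒰, F.C)`, for a level family `𝒰` refined
by `F.𝒰`. -/
noncomputable def invG (p : ℕ) [Fact p.Prime] : T 𝒰 p F.C 2 →+ ZMod p :=
  (invT F.toFormation p).comp (TMutual p h𝒰 F.C 2).toAddMonoidHom

@[simp] theorem invG_apply (p : ℕ) [Fact p.Prime] (t : T 𝒰 p F.C 2) :
    invG F 𝒰 h𝒰 p t = invT F.toFormation p (TMutual p h𝒰 F.C 2 t) := rfl

include h𝒰' in
/-- The formation module is discrete for every level family refining `F.𝒰`. -/
theorem isDiscrete_of_formation : 𝒰.IsDiscrete F.C :=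
  isDiscrete_of_isCompatible_id h𝒰' F.C F.discrete

include h𝒰' in
/-- The transported invariant map is injective (`H¹(F.C) = 0`). -/
theorem invG_injective (p : ℕ) [Fact p.Prime] : Function.Injective (invG F 𝒰 h𝒰 p) :=
  (invT_injective F.toFormation p (ClassFormationCor.subsingleton_H1 F)).comp
    (TMutual_bijective p h𝒰 h𝒰' F.C 2).1

include h𝒰' in
/-- The transported invariant map is surjective as soon as `p` divides the index of a normal
level. -/
theorem invG_surjective (p : ℕ) [Fact p.Prime]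
    (hp : ∃ U ∈ F.𝒰.levels, U.Normal ∧ p ∣ U.index) : Function.Surjective (invG F 𝒰 h𝒰 p) :=
  (invT_surjective F.toFormation p hp).comp (TMutual_bijective p h𝒰 h𝒰' F.C 2).2

include h𝒰' in
/-- **The four `P`-form fields for one open subgroup `W`** from the `V`-form package of the
restricted class formation `F.restrictOn W 𝒰'`. -/
theorem wfields_of_restrictOn (p : ℕ) [Fact p.Prime] [W.FiniteIndex] (hW : IsOpenSubgroup 𝒰 W)
    (hs : IsSubFamily F.𝒰 W 𝒰') (hcof : IsCofinalSub F.𝒰 W 𝒰')
    {htf : ∀ a : ℤ, ((p : ℕ) : ℤ) * a = 0 → a = 0}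
    (I : VForm 𝒰' (Rep.res W.subtype F.C) p (scalarPairing (Rep.res W.subtype F.C)) htf
      (BocksteinPV.isReduction_redTriv W p))
    (hI : ∀ t, I.invT t = invT (F.restrictOn W 𝒰' hs hcof).toFormation p t) :
    WFields 𝒰 p F.C (invG F 𝒰 h𝒰 p) W :=
  WFields.of_VForm (invG F 𝒰 h𝒰 p) hW (isDiscrete_of_formation F 𝒰 h𝒰')
    (VForm.ofMutual (isCompatible_restrict_sub F 𝒰 h𝒰' hs)
      (isCompatible_sub_restrict F 𝒰 h𝒰 hcof) I)
    (fun s => by
      rw [VForm.ofMutual_invT_apply, hI, invG_apply]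
      exact invT_TMap_coindTrace_restrictOn F 𝒰 h𝒰 p W 𝒰' hs hcof hW
        (isCompatible_sub_restrict F 𝒰 h𝒰 hcof) s)

include h𝒰' in
/-- **The four `P`-form fields for one open subgroup `W`** from the hypotheses of the existence
theorem modulo `p` for the restricted class formation `F.restrictOn W 𝒰'` (Hilbert 90 at the
layers is automatic for a class formation). -/
theorem wfields_of_existence (p : ℕ) [Fact p.Prime] [W.FiniteIndex] (hW : IsOpenSubgroup 𝒰 W)
    (hs : IsSubFamily F.𝒰 W 𝒰') (hcof : IsCofinalSub F.𝒰 W 𝒰')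
    (hp : ∃ U ∈ 𝒰'.levels, U.Normal ∧ p ∣ U.index)
    (U₀ : Subgroup W) [U₀.Normal] (U : Subgroup W) [U.Normal] (hU : U ∈ 𝒰'.levels)
    (hUU₀ : U ≤ U₀) (hexp : ∀ g : W ⧸ U₀, g ^ p = 1) (hcomm : ∀ g h : W ⧸ U₀, g * h = h * g)
    (hN0 : (pMul (F.restrictOn W 𝒰' hs hcof).toFormation p).index ≠ 0)
    (hcard : (pMul (F.restrictOn W 𝒰' hs hcof).toFormation p).index ≤ Nat.card (W ⧸ U₀)) :
    WFields 𝒰 p F.C (invG F 𝒰 h𝒰 p) W :=
  wfields_of_restrictOn F 𝒰 h𝒰 h𝒰' p hW hs hcof
    (VForm.ofExistenceInt (F.restrictOn W 𝒰' hs hcof).toFormation p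
      (scalarPairing (Rep.res W.subtype F.C)) (fun _ _ => rfl)
      (BocksteinPV.isReduction_redTriv W p)
      (fun U' _ hU' => ClassFormationCor.subsingleton_H1_layer (F.restrictOn W 𝒰' hs hcof) U' hU')
      hp U₀ U hU hUU₀ hexp hcomm hN0 hcard)
    (fun _ => rfl)

end WFieldsOfFormation

end Fermat.Agent.Lib.CFT.Duality.FormationT
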