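import Fermat.Agent.Lib.CFT.Duality.BaseCase.PFormOfVForm
import Fermat.Agent.Lib.CFT.Duality.BaseCase.ArithH90
import Fermat.Agent.Lib.CFT.Global.ExistenceArith
import Fermat.Agent.Lib.CFT.Global.SVersion.FormationMain

/-!
# The arithmetic `P`-form contract, final packaging (P-CFT, L4 base cases)

`arithPFormOfH`: the `P`-form contract `PForm (arithDatum S) χ (arithKDatum S p hpS)` with the
invariant map `invArith S hdata p` of the `S`-class formation, from

* `hdata` : the cardinality data of the layers of `C_S` (the `S`-class formation),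
* `hex` : the existence theorem modulo `p` over the level fields below `ker χ`,
* `semi₀`, `semi` : the semilocal statements,
* `hH` : the `H`-level local-global statement (for every `q ∈ S` a `p`-torsion class of
  `H²(G_S, J_S)` locally trivial away from `q` with nonzero image in `H²(G_S, C_S)`).

The injectivity of `invArith` and the local Hilbert 90 needed by `ArithLG.arith_hLG` are
discharged here.

`invMain S p` and `arithPFormMain`: the same with `hdata := FormationMain.layerData_CS S`,
`χ := cycloChar p` and `hex := ExistenceOpen.arithExistence_cycloChar`: the `P`-form contract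
consumed by `PForm.s55_of_pform`, from `semi₀`, `semi` and `hH` only.
-/

set_option autoImplicit false
set_option linter.unusedSectionVars false

open CategoryTheory Fermat.Agent.Lib.CFT.Profinite

namespace Fermat.Agent.Lib.CFT.Duality.GlobalBase.PFormOfVForm

open KCalc KCalcCup DevissageRep PVCalc LES LevelFamily
open Fermat.Agent.Lib.CFT.Coh.ClassFormation Fermat.Agent.Lib.CFT.Duality.FormationT
open Fermat.Agent.Lib.CFT.Profinite.Bridge Fermat.Agent.Lib.CFT.Global
  Fermat.Agent.Lib.CFT.Global.SVersion Fermat.Agent.Lib.CFT.Duality.ArithKDatum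
  Fermat.Agent.Lib.CFT.Global.SVersion.Formation
  Fermat.Agent.Lib.CFT.Global.SVersion.FormationOfLayers

local notation "Qbar" => AlgebraicClosure ℚ
local notation "Γℚ" => (AlgebraicClosure ℚ ≃ₐ[ℚ] AlgebraicClosure ℚ)

variable {S : Finset Nat.Primes} (hdata : LayerData (galFamily S) (CS S))
  (p : ℕ) [hp : Fact p.Prime]

/-- The arithmetic invariant map is injective (`H¹(G_S, C_S) = 0`). -/
theorem invArith_injective : Function.Injective (invArith S hdata p) :=
  invG_injective (formationQOf S hdata) (levelsS S) (isCompatible_galFamily_levelsS S)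
    (isCompatible_levelsS_galFamily S) p

/-- The arithmetic invariant map is surjective, for `p ∈ S`. -/
theorem invArith_surjective (hpS : (⟨p, hp.out⟩ : Nat.Primes) ∈ S) :
    Function.Surjective (invArith S hdata p) := by
  refine invG_surjective (formationQOf S hdata) (levelsS S) (isCompatible_galFamily_levelsS S)
    (isCompatible_levelsS_galFamily S) p ?_
  obtain ⟨U, hU⟩ := (galFamily S).nonempty
  obtain ⟨U', hn', hU', -, hdvd⟩ := galFamily_tower hpS U (galFamily_normal S hU) hU
  exact ⟨U', hU', hn', dvd_of_mul_right_dvd hdvd⟩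

theorem invArith_bijective (hpS : (⟨p, hp.out⟩ : Nat.Primes) ∈ S) :
    Function.Bijective (invArith S hdata p) :=
  ⟨invArith_injective hdata p, invArith_surjective hdata p hpS⟩

variable (χ : Γℚ →* (ZMod p)ˣ)

/-- The argument `hLG` of `PFormBridge.arithPForm` for `invT := invArith S hdata p`, from the
`H`-level local-global statement. -/
theorem arith_hLG_invArith (hpS : (⟨p, hp.out⟩ : Nat.Primes) ∈ S)
    (hH : ∀ q : (arithDatum S).ι,
      ∃ y : (arithDatum S).𝒰.levelCohomology (arithKDatum S p hpS).J 2, p • y = 0 ∧
        (∀ v, v ≠ q → (LES.map ((arithDatum S).φ v) ((arithDatum S).compat v)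
          ((arithKDatum S p hpS).ρ v) 2).hom y = 0) ∧
        ((arithDatum S).𝒰.levelCohomologyMap
          ((arithKDatum S p hpS).π ≫ PFormBridge.cs'ToCSHom S) 2).hom y ≠ 0) :
    ∀ q : (arithDatum S).ι, ∃ y : T (arithDatum S).𝒰 p (arithKDatum S p hpS).J 2,
      (∀ v, v ≠ q → (arithKDatum S p hpS).lamT 2 y v = 0) ∧
        invArith S hdata p
          (TMap (arithDatum S).𝒰 p ((arithKDatum S p hpS).π ≫ PFormBridge.cs'ToCSHom S) 2 y) ≠ 0 :=
  ArithLG.arith_hLG S p hpS (invArith S hdata p) (invArith_injective hdata p)
    (ArithLG.arith_h90 S p hpS) hH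

/-- **The arithmetic `P`-form contract** from the `S`-class formation, the existence theorem
modulo `p`, the semilocal statements and the `H`-level local-global statement. -/
noncomputable def arithPFormOfH (hpS : (⟨p, hp.out⟩ : Nat.Primes) ∈ S)
    (hex : ArithExistence S hdata p χ)
    (semi₀ : Function.Bijective ((arithKDatum S p hpS).lamT 2) ∧
      Function.Injective ((arithKDatum S p hpS).lamT 3))
    (semi : ∀ (W : Subgroup Γℚ) (hW : LES.IsOpenSubgroup (arithDatum S).𝒰 W), W ≤ χ.ker →
      Function.Bijective ((KDatumPV.pv (arithKDatum S p hpS) W hW).lamT 1) ∧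
        Function.Bijective ((KDatumPV.pv (arithKDatum S p hpS) W hW).lamT 2) ∧
          Function.Injective ((KDatumPV.pv (arithKDatum S p hpS) W hW).lamT 3))
    (hH : ∀ q : (arithDatum S).ι,
      ∃ y : (arithDatum S).𝒰.levelCohomology (arithKDatum S p hpS).J 2, p • y = 0 ∧
        (∀ v, v ≠ q → (LES.map ((arithDatum S).φ v) ((arithDatum S).compat v)
          ((arithKDatum S p hpS).ρ v) 2).hom y = 0) ∧
        ((arithDatum S).𝒰.levelCohomologyMap
          ((arithKDatum S p hpS).π ≫ PFormBridge.cs'ToCSHom S) 2).hom y ≠ 0) :
    PForm (arithDatum S) χ (arithKDatum S p hpS) :=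
  arithPFormOfFormation hdata p χ hpS hex semi₀ (arith_hLG_invArith hdata p hpS hH) semi

/-! ### The unconditional instance for the mod `p` cyclotomic character -/

section Main

open ExtCitation Fermat.Agent.Lib.CFT.Global.SVersion.FormationMain
  Fermat.Agent.Lib.CFT.Global.ExistenceOpen

variable (S)

/-- **The invariant map** `T²(Γℚ, C_S) →+ ZMod p` of the `S`-class formation `formationQ S`. -/
noncomputable def invMain : T (arithDatum S).𝒰 p (CS S) 2 →+ ZMod p :=
  invArith S (layerData_CS S) p

theorem invMain_eq : invMain S p = invArith S (layerData_CS S) p := rfl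

theorem invMain_injective : Function.Injective (invMain S p) :=
  invArith_injective (layerData_CS S) p

theorem invMain_bijective (hpS : (⟨p, hp.out⟩ : Nat.Primes) ∈ S) :
    Function.Bijective (invMain S p) :=
  invArith_bijective (layerData_CS S) p hpS

/-- **The arithmetic `P`-form contract for `χ = cycloChar p`**, from the semilocal statements and
the `H`-level local-global statement only. -/
noncomputable def arithPFormMain (hpS : (⟨p, hp.out⟩ : Nat.Primes) ∈ S)
    (semi₀ : Function.Bijective ((arithKDatum S p hpS).lamT 2) ∧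
      Function.Injective ((arithKDatum S p hpS).lamT 3))
    (semi : ∀ (W : Subgroup Γℚ) (hW : LES.IsOpenSubgroup (arithDatum S).𝒰 W),
      W ≤ (cycloChar p).ker →
      Function.Bijective ((KDatumPV.pv (arithKDatum S p hpS) W hW).lamT 1) ∧
        Function.Bijective ((KDatumPV.pv (arithKDatum S p hpS) W hW).lamT 2) ∧
          Function.Injective ((KDatumPV.pv (arithKDatum S p hpS) W hW).lamT 3))
    (hH : ∀ q : (arithDatum S).ι,
      ∃ y : (arithDatum S).𝒰.levelCohomology (arithKDatum S p hpS).J 2, p • y = 0 ∧
        (∀ v, v ≠ q → (LES.map ((arithDatum S).φ v) ((arithDatum S).compat v)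
          ((arithKDatum S p hpS).ρ v) 2).hom y = 0) ∧
        ((arithDatum S).𝒰.levelCohomologyMap
          ((arithKDatum S p hpS).π ≫ PFormBridge.cs'ToCSHom S) 2).hom y ≠ 0) :
    PForm (arithDatum S) (cycloChar p) (arithKDatum S p hpS) :=
  arithPFormOfH (layerData_CS S) p (cycloChar p) hpS
    (arithExistence_cycloChar S (layerData_CS S) p hpS) semi₀ semi hH

end Main

end Fermat.Agent.Lib.CFT.Duality.GlobalBase.PFormOfVForm
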