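import Fermat.Agent.Lib.CFT.Duality.BaseCase.Bockstein
import Fermat.Agent.Lib.CFT.Duality.BaseCase.ChangeRing
import Fermat.Agent.Lib.CFT.Duality.CoindDual

/-!
# The standard reductions modulo `p` (P-CFT, L4 base cases, helper77)

For a subgroup `V` of `G` and a natural number `p ≠ 0` we consider
`Rt V = Coind_V^G ℤ` (`DevissageRep.P V (Rep.trivial ℤ G ℤ)`) and the underlying `ℤ`-linear
representation `R V p` of `Coind_V^G (ℤ/p)` (`ChangeRing.intRep` of `DevissageRep.P V` of the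
trivial representation on `ZMod p`), and the reduction of values `red V p : Rt V ⟶ R V p`.
We show that it is a reduction modulo `p` in the sense of `Bockstein.IsReduction`, and that `Rt V`
is discrete if `V` contains a level.  The case `V = ⊤` (trivial coefficients) is `redTriv`.
-/

set_option autoImplicit false

open CategoryTheory

namespace Fermat.Agent.Lib.CFT.Duality.BocksteinPV

open Fermat.Agent.Lib.CFT.Profinite Fermat.Agent.Lib.CFT.Profinite.LevelFamily
open Fermat.Agent.Lib.CFT.Duality.ChangeRing Fermat.Agent.Lib.CFT.Duality.DevissageRep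
open Fermat.Agent.Lib.CFT.Duality.CoindDual Fermat.Agent.Lib.CFT.Duality.Bockstein

variable {G : Type} [Group G]

/-! ### Trivial coefficients -/

section Triv

variable (G) (p : ℕ)

/-- The trivial representation on `ℤ`. -/
noncomputable abbrev RtTriv : Rep.{0} ℤ G := Rep.trivial ℤ G ℤ

/-- The underlying `ℤ`-linear representation of the trivial representation on `ZMod p`. -/
noncomputable abbrev RTriv : Rep.{0} ℤ G := intRep (Rep.trivial (ZMod p) G (ZMod p))

/-- Reduction modulo `p`, `ℤ ⟶ ℤ/p`, as a morphism of representations. -/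
noncomputable def redTriv : RtTriv G ⟶ RTriv G p :=
  Rep.ofHom ⟨(Int.castAddHom (ZMod p)).toIntLinearMap, fun g => by
    ext
    rfl⟩

@[simp]
theorem redTriv_hom_apply (x : ℤ) : (redTriv G p).hom x = (x : ZMod p) := rfl

theorem isReduction_redTriv [NeZero p] : IsReduction (p : ℤ) (redTriv G p) where
  surjective := fun y => ⟨ZMod.cast y, ZMod.intCast_zmod_cast y⟩
  ker_eq x := by
    rw [redTriv_hom_apply]
    show ((x : ZMod p) = 0) ↔ _
    rw [ZMod.intCast_zmod_eq_zero_iff_dvd]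
    constructor
    · rintro ⟨y, rfl⟩
      exact ⟨y, rfl⟩
    · rintro ⟨y, rfl⟩
      exact ⟨y, rfl⟩
  torsionFree x hx := by
    have hp : (p : ℤ) ≠ 0 := Int.natCast_ne_zero.mpr (NeZero.ne p)
    exact (mul_eq_zero.mp hx).resolve_left hp

theorem isDiscrete_RtTriv (𝒰 : LevelFamily G) : 𝒰.IsDiscrete (RtTriv G) := by
  intro m
  obtain ⟨U, hU⟩ := 𝒰.nonempty
  exact ⟨U, hU, fun s _ => rfl⟩

theorem isDiscrete_RTriv (𝒰 : LevelFamily G) : 𝒰.IsDiscrete (RTriv G p) := by
  intro m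
  obtain ⟨U, hU⟩ := 𝒰.nonempty
  exact ⟨U, hU, fun s _ => rfl⟩

end Triv

/-! ### Coinduced coefficients -/

variable (V : Subgroup G) (p : ℕ)

/-- `Coind_V^G ℤ`. -/
noncomputable abbrev Rt : Rep.{0} ℤ G := P V (Rep.trivial ℤ G ℤ)

/-- The underlying `ℤ`-linear representation of `Coind_V^G (ℤ/p)`. -/
noncomputable abbrev R : Rep.{0} ℤ G := intRep (P V (Rep.trivial (ZMod p) G (ZMod p)))

theorem Rt_prop (f : Rt V) (v : G) (hv : v ∈ V) (g : G) : f.1 (v * g) = f.1 g :=
  P_prop V _ f v hv g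

theorem R_prop (f : R V p) (v : G) (hv : v ∈ V) (g : G) : f.1 (v * g) = f.1 g :=
  P_prop V (Rep.trivial (ZMod p) G (ZMod p)) f v hv g

/-- Reduction of the values modulo `p`, on elements. -/
def redFun (f : Rt V) : R V p :=
  ⟨fun g => ((f.1 g : ℤ) : ZMod p), by
    intro v g
    show ((f.1 (v.1 * g) : ℤ) : ZMod p) = ((f.1 g : ℤ) : ZMod p)
    rw [Rt_prop V f v.1 v.2 g]⟩

theorem redFun_apply (f : Rt V) (g : G) : (redFun V p f).1 g = ((f.1 g : ℤ) : ZMod p) := rfl

/-- Reduction of the values modulo `p`: `Coind_V^G ℤ ⟶ Coind_V^G (ℤ/p)`. -/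
noncomputable def red : Rt V ⟶ R V p :=
  Rep.ofHom ⟨(AddMonoidHom.mk' (redFun V p) (fun f f' => by
      apply Subtype.ext
      funext g
      show (((f + f').1 g : ℤ) : ZMod p) = ((f.1 g : ℤ) : ZMod p) + ((f'.1 g : ℤ) : ZMod p)
      rw [← Int.cast_add]
      rfl)).toIntLinearMap, fun s => by
    ext f
    rfl⟩

@[simp]
theorem red_hom_apply (f : Rt V) (g : G) : ((red V p).hom f).1 g = ((f.1 g : ℤ) : ZMod p) := rfl

theorem red_surjective : Function.Surjective (red V p).hom := by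
  intro F
  refine ⟨uncoord V (Rep.trivial ℤ G ℤ)
    (fun x => ZMod.cast (coord V (Rep.trivial (ZMod p) G (ZMod p)) F x)), ?_⟩
  apply Subtype.ext
  funext g
  rw [red_hom_apply, uncoord_apply]
  show ((ZMod.cast (coord V (Rep.trivial (ZMod p) G (ZMod p)) F ((g⁻¹ : G) : G ⧸ V)) : ℤ) :
    ZMod p) = F.1 g
  rw [ZMod.intCast_zmod_cast, coord_mk, inv_inv]
  rfl

theorem red_eq_zero_iff (f : Rt V) : (red V p).hom f = 0 ↔ ∃ y : Rt V, (p : ℤ) • y = f := by
  constructor
  · intro h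
    have hdvd : ∀ g, (p : ℤ) ∣ f.1 g := fun g => by
      rw [← ZMod.intCast_zmod_eq_zero_iff_dvd, ← red_hom_apply, h]
      rfl
    refine ⟨⟨fun g => f.1 g / (p : ℤ), ?_⟩, ?_⟩
    · intro v g
      show f.1 (v.1 * g) / (p : ℤ) = f.1 g / (p : ℤ)
      rw [Rt_prop V f v.1 v.2 g]
    · apply Subtype.ext
      funext g
      show (p : ℤ) • (f.1 g / (p : ℤ)) = f.1 g
      rw [smul_eq_mul, Int.mul_ediv_cancel' (hdvd g)]
  · rintro ⟨y, rfl⟩
    apply Subtype.ext
    funext g
    rw [red_hom_apply]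
    show ((((p : ℤ) • y.1 g : ℤ)) : ZMod p) = 0
    rw [smul_eq_mul, Int.cast_mul, Int.cast_natCast, ZMod.natCast_self, zero_mul]

theorem Rt_torsionFree [NeZero p] (f : Rt V) (h : (p : ℤ) • f = 0) : f = 0 := by
  have hp : (p : ℤ) ≠ 0 := Int.natCast_ne_zero.mpr (NeZero.ne p)
  apply Subtype.ext
  funext g
  have hg : (p : ℤ) • f.1 g = 0 := congrFun (congrArg Subtype.val h) g
  exact (mul_eq_zero.mp hg).resolve_left hp

/-- `red V p` is a reduction modulo `p`. -/
theorem isReduction_red [NeZero p] : IsReduction (p : ℤ) (red V p) where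
  surjective := red_surjective V p
  ker_eq := red_eq_zero_iff V p
  torsionFree := Rt_torsionFree V p

/-- `Coind_V^G ℤ` is discrete if `V` contains a level. -/
theorem isDiscrete_Rt [V.FiniteIndex] (𝒰 : LevelFamily G) (hV : ∃ U ∈ 𝒰.levels, U ≤ V) :
    𝒰.IsDiscrete (Rt V) :=
  isDiscrete_P V _ 𝒰 hV (isDiscrete_RtTriv G 𝒰)

/-- The underlying `ℤ`-representation of `Coind_V^G (ℤ/p)` is discrete if `V` contains a level. -/
theorem isDiscrete_R [V.FiniteIndex] (𝒰 : LevelFamily G) (hV : ∃ U ∈ 𝒰.levels, U ≤ V) :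
    𝒰.IsDiscrete (R V p) :=
  (isDiscrete_intRep_iff 𝒰 _).2
    (isDiscrete_P V _ 𝒰 hV (fun m => by
      obtain ⟨U, hU⟩ := 𝒰.nonempty
      exact ⟨U, hU, fun s _ => rfl⟩))

end Fermat.Agent.Lib.CFT.Duality.BocksteinPV
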