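import Fermat.Agent.Lib.CFT.Duality.BaseCase.ChangeRing
import Fermat.Agent.Lib.CFT.Duality.ConeLES

/-!
# Change of coefficient ring for products, cones and compactly supported cohomology

Additive chain maps between products and cones of complexes over different rings, and the
comparison `HcInt D M n : D.Hc M n ≃+ D.Hc (intRep M) n` with its compatibilities.
-/

set_option autoImplicit false

open CategoryTheory groupCohomology

namespace Fermat.Agent.Lib.CFT.Duality.ChangeRing

open Fermat.Agent.Lib.CFT.Profinite Fermat.Agent.Lib.CFT.Profinite.LevelFamily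
open Fermat.Agent.Lib.CFT.ConcreteHomology

namespace AddChainMap

variable {k l : Type} [CommRing k] [CommRing l]

/-! ### Products -/

section Pi

variable {ι : Type} {K : ι → CochainComplex (ModuleCat.{0} k) ℕ}
  {K' : ι → CochainComplex (ModuleCat.{0} l) ℕ} (e : ∀ i, AddChainMap (K i) (K' i))

/-- The product of a family of additive chain maps. -/
noncomputable def pi : AddChainMap (PiComplex.piComplex K) (PiComplex.piComplex K') where
  toFun n :=
    { toFun := fun (x : ∀ i, (K i).X n) => (fun i => (e i).toFun n (x i) : ∀ i, (K' i).X n)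
      map_zero' := funext fun i => map_zero ((e i).toFun n)
      map_add' := fun x y => funext fun i => map_add ((e i).toFun n) (x i) (y i) }
  comm n x := by
    funext i
    refine Eq.trans ?_ (PiComplex.piComplex_d_apply K' n _ i).symm
    exact (congrArg ((e i).toFun (n + 1)) (PiComplex.piComplex_d_apply K n x i)).trans
      ((e i).comm n _)

@[simp]
theorem pi_toFun_apply (n : ℕ) (x : ∀ i, (K i).X n) (i : ι) :
    (show ∀ i, (K' i).X n from (pi e).toFun n x) i = (e i).toFun n (x i) := rfl

theorem pi_bijective (h : ∀ i n, Function.Bijective ((e i).toFun n)) (n : ℕ) :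
    Function.Bijective ((pi e).toFun n) := by
  constructor
  · intro (x : ∀ i, (K i).X n) (y : ∀ i, (K i).X n) hxy
    funext i
    exact (h i n).1 (congrFun hxy i)
  · intro (y : ∀ i, (K' i).X n)
    choose x hx using fun i => (h i n).2 (y i)
    exact ⟨x, funext hx⟩

/-- Compatibility with the comparison between the homology of a product and the product of the
homologies. -/
theorem homologyPiEquiv_homAdd_pi (n : ℕ) (x : (PiComplex.piComplex K).homology n) (i : ι) :
    PiComplex.homologyPiEquiv K' n ((pi e).homAdd n x) i =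
      (e i).homAdd n (PiComplex.homologyPiEquiv K n x i) := by
  rw [PiComplex.homologyPiEquiv_apply, PiComplex.homologyPiEquiv_apply]
  exact ((pi e).homAdd_naturality (e i) (PiComplex.proj K i) (PiComplex.proj K' i)
    (fun _ _ => rfl) n x).symm

end Pi

/-! ### Cones -/

section Cone

open natCone

variable {K L : CochainComplex (ModuleCat.{0} k) ℕ} {K' L' : CochainComplex (ModuleCat.{0} l) ℕ}
  (φ : K ⟶ L) (φ' : K' ⟶ L') (eK : AddChainMap K K') (eL : AddChainMap L L')

/-- The additive map induced on the shifted objects. -/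
def shiftAdd : ∀ n, NatCone.shiftObj L n →+ NatCone.shiftObj L' n
  | 0 => 0
  | n + 1 => eL.toFun n

/-- The degreewise map `(a, b) ↦ (eK a, eL b)` between cones. -/
noncomputable def coneL (n : ℕ) : (natCone φ).X n →+ (natCone φ').X n :=
  AddMonoidHom.prodMap (eK.toFun n) (shiftAdd eL n)

@[simp] theorem fstL_coneL (n : ℕ) (x : (natCone φ).X n) :
    fstL φ' n (coneL φ φ' eK eL n x) = eK.toFun n (fstL φ n x) := rfl

@[simp] theorem sndL_coneL (n : ℕ) (x : (natCone φ).X (n + 1)) :
    sndL φ' n (coneL φ φ' eK eL (n + 1) x) = eL.toFun n (sndL φ n x) := rfl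

variable (h : ∀ n (x : K.X n), eL.toFun n ((φ.f n).hom x) = (φ'.f n).hom (eK.toFun n x))

include h in
theorem coneL_d (n : ℕ) (x : (natCone φ).X n) :
    coneL φ φ' eK eL (n + 1) (((natCone φ).d n (n + 1)).hom x) =
      ((natCone φ').d n (n + 1)).hom (coneL φ φ' eK eL n x) := by
  refine ext_succ φ' ?_ ?_
  · rw [fstL_coneL, fstL_d, fstL_d, fstL_coneL, eK.comm]
  · cases n with
    | zero =>
      rw [sndL_coneL, sndL_d_zero, sndL_d_zero, fstL_coneL, h]
    | succ m =>
      rw [sndL_coneL, sndL_d_succ, sndL_d_succ, fstL_coneL, sndL_coneL, map_sub, h, eL.comm]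

/-- The additive chain map between cones induced by a commutative square of additive chain
maps. -/
noncomputable def cone : AddChainMap (natCone φ) (natCone φ') where
  toFun n := coneL φ φ' eK eL n
  comm n x := coneL_d φ φ' eK eL h n x

@[simp] theorem cone_toFun (n : ℕ) (x : (natCone φ).X n) :
    (cone φ φ' eK eL h).toFun n x = coneL φ φ' eK eL n x := rfl

theorem coneL_mk (n : ℕ) (a : K.X (n + 1)) (b : L.X n) :
    coneL φ φ' eK eL (n + 1) (natCone.mk φ a b) =
      natCone.mk φ' (eK.toFun (n + 1) a) (eL.toFun n b) := rfl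

theorem coneL_inrL (n : ℕ) (b : L.X n) :
    coneL φ φ' eK eL (n + 1) (inrL φ n b) = inrL φ' n (eL.toFun n b) :=
  ext_succ φ' (by rw [fstL_coneL, fstL_inrL, fstL_inrL, map_zero])
    (by rw [sndL_coneL, sndL_inrL, sndL_inrL])

theorem coneL_inlL (n : ℕ) (a : K.X n) :
    coneL φ φ' eK eL n (inlL φ n a) = inlL φ' n (eK.toFun n a) := by
  cases n with
  | zero => exact ext_zero φ' rfl
  | succ m => exact ext_succ φ' rfl (by rw [sndL_coneL, sndL_inlL, sndL_inlL, map_zero])

theorem cone_bijective (hK : ∀ n, Function.Bijective (eK.toFun n))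
    (hL : ∀ n, Function.Bijective (eL.toFun n)) (n : ℕ) :
    Function.Bijective ((cone φ φ' eK eL h).toFun n) := by
  constructor
  · intro x y hxy
    change coneL φ φ' eK eL n x = coneL φ φ' eK eL n y at hxy
    have h1 : fstL φ n x = fstL φ n y := (hK n).1 (congrArg (fstL φ' n) hxy)
    cases n with
    | zero => exact ext_zero φ h1
    | succ m => exact ext_succ φ h1 ((hL m).1 (congrArg (sndL φ' m) hxy))
  · intro y
    obtain ⟨a, ha⟩ := (hK n).2 (fstL φ' n y)
    cases n with
    | zero =>
      refine ⟨inlL φ 0 a, ext_zero φ' ?_⟩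
      rw [cone_toFun, fstL_coneL, fstL_inlL, ha]
    | succ m =>
      obtain ⟨b, hb⟩ := (hL m).2 (sndL φ' m y)
      refine ⟨natCone.mk φ a b, ext_succ φ' ?_ ?_⟩
      · rw [cone_toFun, fstL_coneL, fstL_mk, ha]
      · rw [cone_toFun, sndL_coneL, sndL_mk, hb]

/-- Compatibility of the cone comparison with the projection to the source. -/
theorem homAdd_cone_fst (n : ℕ) (x : (natCone φ).homology n) :
    eK.homAdd n ((HomologicalComplex.homologyMap (fst φ) n).hom x) =
      (HomologicalComplex.homologyMap (fst φ') n).hom ((cone φ φ' eK eL h).homAdd n x) :=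
  (cone φ φ' eK eL h).homAdd_naturality eK (fst φ) (fst φ') (fun _ _ => rfl) n x

/-- Compatibility of the cone comparison with the boundary map. -/
theorem homAdd_cone_bdry (n : ℕ) (y : L.homology n) :
    (cone φ φ' eK eL h).homAdd (n + 1) (bdry φ n y) = bdry φ' n (eL.homAdd n y) := by
  obtain ⟨b, rfl⟩ := classOf_surjective L n y
  rw [bdry_classOf, homAdd_classOf, homAdd_classOf, bdry_classOf]
  congr 1
  apply Subtype.ext
  rw [mapZ_coe, inrZ_coe, inrZ_coe, mapZ_coe, cone_toFun, coneL_inrL]

end Cone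

section ConeMap

open natCone

variable {K₁ L₁ K₂ L₂ : CochainComplex (ModuleCat.{0} k) ℕ}
  {K₁' L₁' K₂' L₂' : CochainComplex (ModuleCat.{0} l) ℕ}
  (φ₁ : K₁ ⟶ L₁) (φ₂ : K₂ ⟶ L₂) (φ₁' : K₁' ⟶ L₁') (φ₂' : K₂' ⟶ L₂')
  (α : K₁ ⟶ K₂) (β : L₁ ⟶ L₂) (comm : φ₁ ≫ β = α ≫ φ₂)
  (α' : K₁' ⟶ K₂') (β' : L₁' ⟶ L₂') (comm' : φ₁' ≫ β' = α' ≫ φ₂')
  (eK₁ : AddChainMap K₁ K₁') (eL₁ : AddChainMap L₁ L₁')
  (eK₂ : AddChainMap K₂ K₂') (eL₂ : AddChainMap L₂ L₂')
  (h₁ : ∀ n (x : K₁.X n), eL₁.toFun n ((φ₁.f n).hom x) = (φ₁'.f n).hom (eK₁.toFun n x))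
  (h₂ : ∀ n (x : K₂.X n), eL₂.toFun n ((φ₂.f n).hom x) = (φ₂'.f n).hom (eK₂.toFun n x))
  (hα : ∀ n (x : K₁.X n), eK₂.toFun n ((α.f n).hom x) = (α'.f n).hom (eK₁.toFun n x))
  (hβ : ∀ n (x : L₁.X n), eL₂.toFun n ((β.f n).hom x) = (β'.f n).hom (eL₁.toFun n x))

include hα hβ in
/-- The cone comparison is compatible with the functoriality of cones in commutative squares
(cochain level). -/
theorem cone_map (n : ℕ) (x : (natCone φ₁).X n) :
    (cone φ₂ φ₂' eK₂ eL₂ h₂).toFun n (((natCone.map φ₁ φ₂ α β comm).f n).hom x) =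
      ((natCone.map φ₁' φ₂' α' β' comm').f n).hom ((cone φ₁ φ₁' eK₁ eL₁ h₁).toFun n x) := by
  cases n with
  | zero =>
    refine ext_zero φ₂' ?_
    rw [cone_toFun, fstL_coneL, fstL_map, fstL_map, cone_toFun, fstL_coneL, hα]
  | succ m =>
    refine ext_succ φ₂' ?_ ?_
    · rw [cone_toFun, fstL_coneL, fstL_map, fstL_map, cone_toFun, fstL_coneL, hα]
    · rw [cone_toFun, sndL_coneL, sndL_map, sndL_map, cone_toFun, sndL_coneL, hβ]

include hα hβ in
/-- The cone comparison is compatible with the functoriality of cones in commutative squares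
(homology level). -/
theorem homAdd_cone_map (n : ℕ) (x : (natCone φ₁).homology n) :
    (cone φ₂ φ₂' eK₂ eL₂ h₂).homAdd n
        ((HomologicalComplex.homologyMap (natCone.map φ₁ φ₂ α β comm) n).hom x) =
      (HomologicalComplex.homologyMap (natCone.map φ₁' φ₂' α' β' comm') n).hom
        ((cone φ₁ φ₁' eK₁ eL₁ h₁).homAdd n x) :=
  (cone φ₁ φ₁' eK₁ eL₁ h₁).homAdd_naturality (cone φ₂ φ₂' eK₂ eL₂ h₂) _ _
    (cone_map φ₁ φ₂ φ₁' φ₂' α β comm α' β' comm' eK₁ eL₁ eK₂ eL₂ h₁ h₂ hα hβ) n x

end ConeMap

end AddChainMap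

/-! ### Compactly supported cohomology of a localisation datum -/

section LocDatum

variable {k : Type} [CommRing k] {G : Type} [Group G] (D : LocDatum G) (M : Rep.{0} k G)

/-- The comparison of the product of the local complexes of `M` and of `intRep M`. -/
noncomputable def locInt : AddChainMap (D.locComplex M) (D.locComplex (intRep M)) :=
  AddChainMap.pi fun i => levelInt (D.𝒱 i) (D.resRep M i)

theorem locInt_bijective (n : ℕ) : Function.Bijective ((locInt D M).toFun n) :=
  AddChainMap.pi_bijective _ (fun i n => levelInt_bijective (D.𝒱 i) (D.resRep M i) n) n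

theorem locInt_locMap (n : ℕ) (x : (D.𝒰.levelComplex M).X n) :
    (locInt D M).toFun n (((D.locMap M).f n).hom x) =
      ((D.locMap (intRep M)).f n).hom ((levelInt D.𝒰 M).toFun n x) := rfl

/-- The comparison of the cone complexes of `M` and of `intRep M`. -/
noncomputable def coneInt : AddChainMap (D.coneComplex M) (D.coneComplex (intRep M)) :=
  AddChainMap.cone (D.locMap M) (D.locMap (intRep M)) (levelInt D.𝒰 M) (locInt D M)
    (locInt_locMap D M)

theorem coneInt_bijective (n : ℕ) : Function.Bijective ((coneInt D M).toFun n) :=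
  AddChainMap.cone_bijective _ _ _ _ _ (levelInt_bijective D.𝒰 M) (locInt_bijective D M) n

/-- Compactly supported cohomology of `M` and of `intRep M` coincide. -/
noncomputable def HcInt (n : ℕ) : D.Hc M n ≃+ D.Hc (intRep M) n :=
  (coneInt D M).homAddEquiv (coneInt_bijective D M) n

theorem HcInt_classOf (n : ℕ) (z : Z (D.coneComplex M) n) :
    HcInt D M n (classOf _ n z) =
      classOf (D.coneComplex (intRep M)) n ((coneInt D M).mapZ n z) :=
  (coneInt D M).homAdd_classOf n z

/-- The comparison of the products of the local cohomology groups. -/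
noncomputable def locHInt (n : ℕ) : D.locH M n ≃+ D.locH (intRep M) n :=
  AddEquiv.piCongrRight fun i => levelCohomologyInt (D.𝒱 i) (D.resRep M i) n

@[simp]
theorem locHInt_apply (n : ℕ) (x : D.locH M n) (i : D.ι) :
    locHInt D M n x i = levelCohomologyInt (D.𝒱 i) (D.resRep M i) n (x i) := rfl

theorem locHEquiv_homAdd_locInt (n : ℕ) (x : (D.locComplex M).homology n) :
    D.locHEquiv (intRep M) n ((locInt D M).homAdd n x) = locHInt D M n (D.locHEquiv M n x) := by
  funext i
  exact AddChainMap.homologyPiEquiv_homAdd_pi _ n x i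

/-- Compatibility with the forgetful map `Hⁿ_c → Hⁿ`. -/
theorem HcToGlobal_HcInt (n : ℕ) (x : D.Hc M n) :
    D.HcToGlobal (intRep M) n (HcInt D M n x) =
      levelCohomologyInt D.𝒰 M n (D.HcToGlobal M n x) :=
  (AddChainMap.homAdd_cone_fst (D.locMap M) (D.locMap (intRep M)) (levelInt D.𝒰 M) (locInt D M)
    (locInt_locMap D M) n x).symm

/-- Compatibility with the boundary map `Pⁿ → Hⁿ⁺¹_c`. -/
theorem HcInt_HcOfLocal (n : ℕ) (x : D.locH M n) :
    HcInt D M (n + 1) (D.HcOfLocal M n x) = D.HcOfLocal (intRep M) n (locHInt D M n x) := by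
  obtain ⟨y, rfl⟩ := (D.locHEquiv M n).surjective x
  rw [LocDatum.HcOfLocal_locHEquiv, ← locHEquiv_homAdd_locInt, LocDatum.HcOfLocal_locHEquiv]
  exact AddChainMap.homAdd_cone_bdry (D.locMap M) (D.locMap (intRep M)) (levelInt D.𝒰 M)
    (locInt D M) (locInt_locMap D M) n y

/-- Compatibility with the localisation maps. -/
theorem locHInt_locMapH (n : ℕ) (x : D.𝒰.levelCohomology M n) :
    locHInt D M n (D.locMapH M n x) = D.locMapH (intRep M) n (levelCohomologyInt D.𝒰 M n x) := by
  funext i
  exact levelCohomologyInt_map (D.φ i) (D.compat i) (𝟙 (D.resRep M i)) n x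

section Functoriality

variable {M} {N : Rep.{0} k G}

/-- Cochain level compatibility of `coneInt` with functoriality in the coefficient module. -/
theorem coneInt_coneMap (f : M ⟶ N) (n : ℕ) (x : (D.coneComplex M).X n) :
    (coneInt D N).toFun n (((D.coneMap f).f n).hom x) =
      ((D.coneMap (intMap f)).f n).hom ((coneInt D M).toFun n x) :=
  AddChainMap.cone_map (D.locMap M) (D.locMap N) (D.locMap (intRep M)) (D.locMap (intRep N))
    (D.𝒰.levelComplexFunctor.map f) (D.locComplexMap f) (D.locMap_naturality f).symm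
    (D.𝒰.levelComplexFunctor.map (intMap f)) (D.locComplexMap (intMap f))
    (D.locMap_naturality (intMap f)).symm
    (levelInt D.𝒰 M) (locInt D M) (levelInt D.𝒰 N) (locInt D N)
    (locInt_locMap D M) (locInt_locMap D N) (fun _ _ => rfl) (fun _ _ => rfl) n x

/-- `HcInt` is natural in the coefficient module. -/
theorem HcInt_HcMap (f : M ⟶ N) (n : ℕ) (x : D.Hc M n) :
    HcInt D N n (D.HcMap f n x) = D.HcMap (intMap f) n (HcInt D M n x) :=
  (coneInt D M).homAdd_naturality (coneInt D N) (D.coneMap f) (D.coneMap (intMap f))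
    (coneInt_coneMap D f) n x

/-- `locHInt` is natural in the coefficient module. -/
theorem locHInt_locHMap (f : M ⟶ N) (n : ℕ) (x : D.locH M n) :
    locHInt D N n (D.locHMap f n x) = D.locHMap (intMap f) n (locHInt D M n x) := by
  funext i
  exact levelCohomologyInt_levelCohomologyMap ((Rep.resFunctor (D.φ i)).map f) n (x i)

/-- `HcInt` is compatible with the connecting homomorphisms. -/
theorem HcInt_Hcδ {X : ShortComplex (Rep.{0} k G)} (hX : X.ShortExact)
    (hd : D.𝒰.IsDiscrete X.X₂) (i j : ℕ) (hij : i + 1 = j) (x : D.Hc X.X₃ i) :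
    HcInt D X.X₁ j (D.Hcδ hX hd i j hij x) =
      D.Hcδ (X := X.map (intFunctor k G)) ((intFunctor_map_shortExact_iff X).2 hX) hd i j hij
        (HcInt D X.X₃ i x) := by
  subst hij
  exact AddChainMap.homAdd_δ (D.coneShortComplex_shortExact hX hd)
    (D.coneShortComplex_shortExact (X := X.map (intFunctor k G))
      ((intFunctor_map_shortExact_iff X).2 hX) hd)
    (coneInt D X.X₁) (coneInt D X.X₂) (coneInt D X.X₃)
    (coneInt_coneMap D X.f) (coneInt_coneMap D X.g) i x

end Functoriality

end LocDatum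

end Fermat.Agent.Lib.CFT.Duality.ChangeRing
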