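import Fermat.Agent.Lib.CFT.Duality.BaseCase.ChangeRingCone
import Fermat.Agent.Lib.CFT.Duality.ConeCup

/-!
# Change of coefficient ring and cup products

For a pairing `φ : A × B → C` of `k`-linear representations, the underlying `ℤ`-bilinear pairing
`intPairing φ` of the `ℤ`-linear representations, and the compatibility of the cup products on
level cochains, level cohomology, cone cochains and compactly supported cohomology with the
comparison maps `levelCohomologyInt`, `HcInt`.
-/

set_option autoImplicit false

open CategoryTheory groupCohomology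

namespace Fermat.Agent.Lib.CFT.Duality.ChangeRing

open Fermat.Agent.Lib.CFT.Profinite Fermat.Agent.Lib.CFT.Profinite.LevelFamily
open Fermat.Agent.Lib.CFT.ConcreteHomology Fermat.Agent.Lib.CFT.Coh.Cup

variable {k G : Type} [CommRing k] [Group G]

section Pairing

variable {A B C : Rep.{0} k G}

/-- The underlying `ℤ`-bilinear pairing of a `k`-bilinear pairing of representations. -/
noncomputable def intPairing (φ : Pairing A B C) : Pairing (intRep A) (intRep B) (intRep C) where
  toLin := LinearMap.mk₂ ℤ (fun (a : A) (b : B) => (φ.toLin a b : C))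
    (fun a a' b => by rw [map_add, LinearMap.add_apply])
    (fun n a b => by rw [map_zsmul, LinearMap.smul_apply])
    (fun a b b' => map_add _ _ _)
    (fun n a b => map_zsmul _ _ _)
  equivariant g a b := φ.equivariant g a b

@[simp]
theorem intPairing_toLin_apply (φ : Pairing A B C) (a : A) (b : B) :
    (intPairing φ).toLin a b = φ.toLin a b := rfl

theorem intPairing_res {G' : Type} [Group G'] (f : G' →* G) (φ : Pairing A B C) :
    intPairing (φ.res f) = (intPairing φ).res f := rfl

theorem intPairing_flip (φ : Pairing A B C) : intPairing φ.flip = (intPairing φ).flip := rfl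

/-- The cup product of cochains does not depend on the coefficient ring. -/
theorem cupTo_intPairing (φ : Pairing A B C) {m n l : ℕ} (h : m + n = l)
    (f : (Fin m → G) → A) (f' : (Fin n → G) → B) :
    cupTo (intPairing φ) h f f' = cupTo φ h f f' := rfl

end Pairing

/-! ### Level cochains and level cohomology -/

section Level

variable (𝒰 : LevelFamily G) {A B C : Rep.{0} k G} (φ : Pairing A B C) {m n l : ℕ} (h : m + n = l)

/-- The cup product on level cochains is compatible with the change of coefficient ring. -/
theorem levelCochainsInt_cupL (a : 𝒰.levelCochains A m) (b : 𝒰.levelCochains B n) :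
    levelCochainsInt 𝒰 C l (𝒰.cupL φ h a b) =
      𝒰.cupL (intPairing φ) h (levelCochainsInt 𝒰 A m a) (levelCochainsInt 𝒰 B n b) := rfl

/-- The cup product on level cohomology is compatible with the change of coefficient ring. -/
theorem levelCohomologyInt_cupH (a : 𝒰.levelCohomology A m) (b : 𝒰.levelCohomology B n) :
    levelCohomologyInt 𝒰 C l (𝒰.cupH φ h a b) =
      𝒰.cupH (intPairing φ) h (levelCohomologyInt 𝒰 A m a) (levelCohomologyInt 𝒰 B n b) := by
  obtain ⟨x, rfl⟩ := classOf_surjective (𝒰.levelComplex A) m a
  obtain ⟨y, rfl⟩ := classOf_surjective (𝒰.levelComplex B) n b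
  rw [cupH_classOf, levelCohomologyInt_classOf, levelCohomologyInt_classOf,
    levelCohomologyInt_classOf, cupH_classOf]
  rfl

end Level

/-! ### Cone cochains and compactly supported cohomology -/

section Cone

variable (D : LocDatum G) {A B C : Rep.{0} k G} (φ : Pairing A B C)

/-- The local cup product is compatible with the change of coefficient ring. -/
theorem locInt_locCup {i j l : ℕ} (h : i + j = l) (b : (D.locComplex A).X i)
    (c : (D.locComplex B).X j) :
    (locInt D C).toFun l (D.locCup φ h b c) =
      D.locCup (intPairing φ) h ((locInt D A).toFun i b) ((locInt D B).toFun j c) := rfl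

/-- The cup product of a cone cochain with a global cochain is compatible with the change of
coefficient ring. -/
theorem coneInt_coneCup {i j l : ℕ} (h : i + j = l) (x : (D.coneComplex A).X i)
    (c : D.𝒰.levelCochains B j) :
    (coneInt D C).toFun l (D.coneCup φ h x c) =
      D.coneCup (intPairing φ) h ((coneInt D A).toFun i x) (levelCochainsInt D.𝒰 B j c) := by
  cases l with
  | zero =>
    refine natCone.ext_zero _ ?_
    rw [LocDatum.fstL_coneCup]
    exact congrArg (levelCochainsInt D.𝒰 C 0) (D.fstL_coneCup φ h x c)
  | succ l' =>
    refine natCone.ext_succ _ ?_ ?_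
    · rw [LocDatum.fstL_coneCup]
      exact congrArg (levelCochainsInt D.𝒰 C (l' + 1)) (D.fstL_coneCup φ h x c)
    · cases i with
      | zero =>
        rw [LocDatum.sndL_coneCup_zero]
        exact (congrArg ((locInt D C).toFun l') (D.sndL_coneCup_zero φ h x c)).trans (map_zero _)
      | succ i' =>
        rw [LocDatum.sndL_coneCup_succ]
        exact congrArg ((locInt D C).toFun l') (D.sndL_coneCup_succ φ h x c)

/-- The cup product `Hⁱ_c(A) × Hʲ(B) → Hˡ_c(C)` is compatible with the change of coefficient
ring. -/
theorem HcInt_cupHc {i j l : ℕ} (h : i + j = l) (x : D.Hc A i) (y : D.𝒰.levelCohomology B j) :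
    HcInt D C l (D.cupHc φ h x y) =
      D.cupHc (intPairing φ) h (HcInt D A i x) (levelCohomologyInt D.𝒰 B j y) := by
  obtain ⟨x, rfl⟩ := classOf_surjective (D.coneComplex A) i x
  obtain ⟨c, rfl⟩ := classOf_surjective (D.𝒰.levelComplex B) j y
  rw [LocDatum.cupHc_classOf, HcInt_classOf, HcInt_classOf, levelCohomologyInt_classOf,
    LocDatum.cupHc_classOf]
  congr 1
  apply Subtype.ext
  exact coneInt_coneCup D φ h x.1 c.1

end Cone

end Fermat.Agent.Lib.CFT.Duality.ChangeRing
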