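import Mathlib

/-!
# Abstract perfectness lemmas for the base cases of global duality

Pure linear algebra: a pairing `B : X → Dual Y` which is computed, through an additive bijection
`θ : X ≃ Tc` and a surjective family of "representatives" `cls : P → Y`, by a family of additive
functionals `Φ P : Tc → k` that separates points on both sides, is bijective.
-/

set_option autoImplicit false

namespace Fermat.Agent.Lib.CFT.Duality.Perfect

variable {k : Type*} [Field k] {X Y : Type*} [AddCommGroup X] [Module k X] [AddCommGroup Y]
  [Module k Y]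

/-- Perfectness of a pairing computed through a zigzag `θ` and a family of functionals. -/
theorem bijective_of_zigzag [FiniteDimensional k Y] (B : X →ₗ[k] Module.Dual k Y)
    {Tc : Type*} [AddCommGroup Tc] (θ : X →+ Tc) (hθ : Function.Bijective θ)
    {P : Type*} (cls : P → Y) (hcls : Function.Surjective cls) (Φ : P → Tc → k)
    (hB : ∀ x q, B x (cls q) = Φ q (θ x))
    (hleft : ∀ c : Tc, (∀ q, Φ q c = 0) → c = 0)
    (hright : ∀ q, (∀ c, Φ q c = 0) → cls q = 0) : Function.Bijective B := by
  have hinj : Function.Injective B := by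
    rw [injective_iff_map_eq_zero]
    intro x hx
    have h1 : θ x = 0 := hleft _ fun q => by rw [← hB, hx, LinearMap.zero_apply]
    exact hθ.1 (h1.trans (map_zero θ).symm)
  refine ⟨hinj, ?_⟩
  rw [← LinearMap.flip_injective_iff₂, injective_iff_map_eq_zero]
  intro y hy
  obtain ⟨q, rfl⟩ := hcls y
  refine hright q fun c => ?_
  obtain ⟨x, rfl⟩ := hθ.2 c
  rw [← hB]
  exact congr($hy x)

/-- A linear map into the dual of a line spanned by `y₀` is bijective as soon as evaluation at
`y₀` is bijective. -/
theorem bijective_of_line (B : X →ₗ[k] Module.Dual k Y) (y₀ : Y)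
    (hspan : ∀ y : Y, ∃ a : k, y = a • y₀)
    (h : Function.Bijective fun x => B x y₀) : Function.Bijective B := by
  refine ⟨fun x x' hxx' => h.1 (by simp only [hxx']), fun f => ?_⟩
  obtain ⟨x, hx⟩ := h.2 (f y₀)
  refine ⟨x, LinearMap.ext fun y => ?_⟩
  obtain ⟨a, rfl⟩ := hspan y
  rw [map_smul, map_smul]
  exact congr_arg _ hx

end Fermat.Agent.Lib.CFT.Duality.Perfect
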