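import Fermat.Agent.Lib.CFT.Duality.BaseCase.GlobalTheta
import Fermat.Agent.Lib.CFT.Duality.BaseCase.Perfect
import Fermat.Agent.Lib.CFT.Duality.ConeCupZero
import Fermat.Agent.Lib.CFT.Duality.GlobalDuality

/-!
# The base cases of global duality, from the zigzag

* `TraceDatum` : a zigzag datum for `μ = ofChar χ` together with an invariant map
  `invT : T²(C) → ZMod p`; it defines the trace `tr : H³_c(μ) → ZMod p`.
* `tr_HcOfLocal` : the trace on the image of the local cohomology (local invariants, `(T1)`).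
* `beta1_bijective` : the base case in degrees `(3, 0)`.
* `beta0_bijective` : the base case in degrees `(2, 1)`, from a family of degree-one
  transformations (Bockstein-twisted cup products) compatible with the zigzags.
-/

set_option autoImplicit false

open CategoryTheory Fermat.Agent.Lib.CFT.Profinite

namespace Fermat.Agent.Lib.CFT.Duality.GlobalBase

open KCalc ChangeRing GlobalDuality DevissageStep

variable {p : ℕ} [Fact p.Prime] {G : Type} [Group G] (D : LocDatum G) (χ : G →* (ZMod p)ˣ)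

/-- The data defining the trace map: a zigzag for `μ = ofChar χ` and an invariant map on
`T²(C)`. -/
structure TraceDatum where
  c : Coeff D p (groupCohomology.ofChar (k := ZMod p) χ)
  good : c.K.zig.Good 2
  invT : T D.𝒰 p c.K.C 2 →+ ZMod p

namespace TraceDatum

variable {D χ} (𝔱 : TraceDatum D χ)

/-- The trace map `H³_c(μ) → ZMod p`. -/
noncomputable def tr : D.Hc (groupCohomology.ofChar (k := ZMod p) χ) 3 →ₗ[ZMod p] ZMod p :=
  (𝔱.invT.comp (𝔱.c.Theta 𝔱.good)).toZModLinearMap p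

theorem tr_apply (x : D.Hc (groupCohomology.ofChar (k := ZMod p) χ) 3) :
    𝔱.tr x = 𝔱.invT (𝔱.c.Theta 𝔱.good x) := rfl

/-- `(T1)`: the trace on the image of the local cohomology. -/
theorem tr_HcOfLocal (x : D.locH (groupCohomology.ofChar (k := ZMod p) χ) 2)
    (y : T D.𝒰 p 𝔱.c.K.J 2) (hxy : 𝔱.c.K.lamT 2 y = 𝔱.c.locT 2 x) :
    𝔱.tr (D.HcOfLocal _ 2 x) = 𝔱.invT (TMap D.𝒰 p 𝔱.c.K.π 2 y) := by
  rw [tr_apply, 𝔱.c.Theta_HcOfLocal 𝔱.good x y hxy]

variable {M : Rep.{0} (ZMod p) G} (c : Coeff D p M)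

/-- The base case in degrees `(3, 0)`: if `H⁰(M')` is a line spanned by an invariant `b₀`, the
evaluation `ev(·, b₀) : M ⟶ μ` lifts to a morphism of zigzag data and the invariant maps are
compatible, then `β³_M` is bijective. -/
theorem beta1_bijective (good : c.K.zig.Good 2) (b₀ : (M.dualTwist χ).ρ.invariants)
    (hspan : ∀ y : D.𝒰.levelCohomology (M.dualTwist χ) 0,
      ∃ a : ZMod p, y = a • (D.𝒰.H0Equiv (M.dualTwist χ)).symm b₀)
    (F : KDatum.Hom c.K 𝔱.c.K)
    (hF : intMap ((evPairing χ M).evalRight b₀) ≫ 𝔱.c.e.hom = c.e.hom ≫ F.fN)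
    (hinv : Function.Bijective fun t : T D.𝒰 p c.K.C 2 => 𝔱.invT (TMap D.𝒰 p F.fC 2 t)) :
    Function.Bijective (beta1 D χ 2 𝔱.tr M) := by
  refine Perfect.bijective_of_line _ ((D.𝒰.H0Equiv (M.dualTwist χ)).symm b₀) hspan ?_
  have h : (fun x => beta1 D χ 2 𝔱.tr M x ((D.𝒰.H0Equiv (M.dualTwist χ)).symm b₀)) =
      (fun t : T D.𝒰 p c.K.C 2 => 𝔱.invT (TMap D.𝒰 p F.fC 2 t)) ∘ c.Theta good := by
    funext x
    rw [beta1_apply, LocDatum.cupHc_H0, tr_apply, Function.comp_apply,
      c.Theta_comm 𝔱.c _ F hF good 𝔱.good]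
  rw [h]
  exact hinv.comp (c.Theta_bijective good)

/-- The base case in degrees `(2, 1)`: if the cup products with a surjective family of classes
`cls q ∈ H¹(M')` correspond under the zigzags to additive maps `Φ q : T¹(C_M) → T²(C_μ)` which,
after `invT`, separate points on both sides, then `β²_M` is bijective. -/
theorem beta0_bijective (good : c.K.zig.Good 1)
    [FiniteDimensional (ZMod p) (D.𝒰.levelCohomology (M.dualTwist χ) 1)]
    {P : Type*} (cls : P → D.𝒰.levelCohomology (M.dualTwist χ) 1)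
    (hcls : Function.Surjective cls)
    (Φ : P → T D.𝒰 p c.K.C 1 → T D.𝒰 p 𝔱.c.K.C 2)
    (hΦ : ∀ (q : P) (x : D.Hc M 2),
      𝔱.c.Theta 𝔱.good (D.cupHc (evPairing χ M) (rfl : 2 + 1 = 2 + 1) x (cls q)) =
        Φ q (c.Theta good x))
    (hleft : ∀ t : T D.𝒰 p c.K.C 1, (∀ q, 𝔱.invT (Φ q t) = 0) → t = 0)
    (hright : ∀ q, (∀ t, 𝔱.invT (Φ q t) = 0) → cls q = 0) :
    Function.Bijective (beta0 D χ 2 𝔱.tr M) :=
  Perfect.bijective_of_zigzag (beta0 D χ 2 𝔱.tr M) (c.Theta good) (c.Theta_bijective good) cls hcls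
    (fun q t => 𝔱.invT (Φ q t))
    (fun x q => by rw [beta0_apply, tr_apply, hΦ]) hleft hright

end TraceDatum

end Fermat.Agent.Lib.CFT.Duality.GlobalBase
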