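import Fermat.Agent.Lib.CFT.Duality.BaseCase.PVCalc
import Fermat.Agent.Lib.CFT.Duality.BaseCase.ChangeRing

/-!
# Two identifications for `P V X = Coind_V^G (X|_V)`  (P-CFT, L4)

* `pvIso V χ hχ : Additivity.PV V ≅ P V (ofChar χ)` if the character `χ` is trivial on `V`;
* `intPIso V M : intRep (P V M) ≅ P V (intRep M)`: passing to the underlying `ℤ`-linear
  representation commutes with `P V`;
* `pvIntIso V χ hχ : intRep (Additivity.PV V) ≅ P V (intRep (ofChar χ))`, their composite.

All of them are the identity on the underlying functions `G → M`; they are compatible with `PMap`,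
with the coordinates and with the trace map `sumMap`.
-/

set_option autoImplicit false

open CategoryTheory

namespace Fermat.Agent.Lib.CFT.Duality.PVIso

open Fermat.Agent.Lib.CFT.Duality.DevissageRep Fermat.Agent.Lib.CFT.Duality.CoindDual
open Fermat.Agent.Lib.CFT.Duality.PVCalc

section OfChar

universe u

variable {k G : Type u} [Field k] [Group G] (V : Subgroup G) (χ : G →* kˣ)

/-- The restriction of `k(χ)` to a subgroup on which `χ` is trivial is the trivial
representation. -/
noncomputable def trivResIso (hχ : ∀ s ∈ V, χ s = 1) :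
    Rep.trivial k V k ≅ Rep.res V.subtype (groupCohomology.ofChar χ) :=
  Rep.mkIso (Representation.Equiv.mk (LinearEquiv.refl k k) (fun s => by
    ext
    show (1 : k) = (groupCohomology.ofChar χ).ρ s.1 1
    rw [ofChar_ρ_apply, hχ s.1 s.2]
    simp))

/-- `Coind_V k ≅ Coind_V (k(χ)|_V)` if `χ` is trivial on `V`. -/
noncomputable def pvIso (hχ : ∀ s ∈ V, χ s = 1) :
    Additivity.PV (k := k) V ≅ P V (groupCohomology.ofChar χ) :=
  (Rep.coindFunctor k V.subtype).mapIso (trivResIso V χ hχ)

theorem pvIso_hom_apply (hχ : ∀ s ∈ V, χ s = 1) (F : Additivity.PV (k := k) V) (g : G) :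
    ((pvIso V χ hχ).hom.hom F).1 g = F.1 g := rfl

theorem pvIso_inv_apply (hχ : ∀ s ∈ V, χ s = 1) (F : P V (groupCohomology.ofChar χ)) (g : G) :
    ((pvIso V χ hχ).inv.hom F).1 g = F.1 g := rfl

/-- In coordinates, `pvIso` multiplies the coordinate at `h V` by `χ h`. -/
theorem coord_pvIso_hom (hχ : ∀ s ∈ V, χ s = 1) (F : R k V) (h : G) :
    coord V (groupCohomology.ofChar χ) ((pvIso V χ hχ).hom.hom F) (h : G ⧸ V) =
      (χ h : k) * rcoord V F (h : G ⧸ V) := by
  rw [coord_mk, rcoord_mk, ofChar_ρ_apply]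
  rfl

end OfChar

section Int

open ChangeRing

variable {k G : Type} [CommRing k] [Group G] (V : Subgroup G) (M : Rep.{0} k G)

/-- The additive equivalence underlying `intPIso`. -/
def intPEquiv : intRep (P V M) ≃ₗ[ℤ] P V (intRep M) where
  toFun F := ⟨F.1, F.2⟩
  invFun F := ⟨F.1, F.2⟩
  map_add' _ _ := rfl
  map_smul' _ _ := rfl
  left_inv _ := rfl
  right_inv _ := rfl

/-- Passing to the underlying `ℤ`-linear representation commutes with `Coind_V ∘ Res_V`. -/
noncomputable def intPIso : intRep (P V M) ≅ P V (intRep M) :=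
  Rep.mkIso (Representation.Equiv.mk (intPEquiv V M) (fun _ => rfl))

theorem intPIso_hom_apply (F : P V M) (g : G) : ((intPIso V M).hom.hom F).1 g = F.1 g := rfl

theorem intPIso_inv_apply (F : P V (intRep M)) (g : G) :
    ((intPIso V M).inv.hom F).1 g = F.1 g := rfl

theorem coord_intPIso_hom (F : P V M) (x : G ⧸ V) :
    coord V (intRep M) ((intPIso V M).hom.hom F) x = coord V M F x := by
  induction x using QuotientGroup.induction_on with
  | H h => rfl

theorem coord_intPIso_inv (F : P V (intRep M)) (x : G ⧸ V) :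
    coord V M ((intPIso V M).inv.hom F) x = coord V (intRep M) F x := by
  induction x using QuotientGroup.induction_on with
  | H h => rfl

variable {M} in
/-- `intPIso` is natural. -/
theorem intPIso_naturality {N : Rep.{0} k G} (f : M ⟶ N) :
    intMap (PMap V f) ≫ (intPIso V N).hom = (intPIso V M).hom ≫ PMap V (intMap f) := by
  ext F
  rfl

/-- `intPIso` is compatible with the trace maps. -/
theorem intPIso_hom_sumMap [V.FiniteIndex] :
    (intPIso V M).hom ≫ sumMap V (intRep M) = intMap (sumMap V M) := by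
  ext F
  show (sumMap V (intRep M)).hom ((intPIso V M).hom.hom F) = (sumMap V M).hom F
  rw [sumMap_hom_apply, sumMap_hom_apply]
  exact qsum_congr V fun x => coord_intPIso_hom V M F x

end Int

section Both

open ChangeRing

variable {k G : Type} [Field k] [Group G] (V : Subgroup G) (χ : G →* kˣ)

/-- `Coind_V k`, viewed over `ℤ`, is `Coind_V` of `k(χ)` viewed over `ℤ`, if `χ` is trivial on
`V`. -/
noncomputable def pvIntIso (hχ : ∀ s ∈ V, χ s = 1) :
    intRep (Additivity.PV (k := k) V) ≅ P V (intRep (groupCohomology.ofChar χ)) :=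
  (intFunctor k G).mapIso (pvIso V χ hχ) ≪≫ intPIso V (groupCohomology.ofChar χ)

theorem pvIntIso_hom (hχ : ∀ s ∈ V, χ s = 1) :
    (pvIntIso V χ hχ).hom =
      intMap (pvIso V χ hχ).hom ≫ (intPIso V (groupCohomology.ofChar χ)).hom := rfl

theorem pvIntIso_hom_apply (hχ : ∀ s ∈ V, χ s = 1) (F : Additivity.PV (k := k) V) (g : G) :
    ((pvIntIso V χ hχ).hom.hom F).1 g = F.1 g := rfl

theorem pvIntIso_inv_apply (hχ : ∀ s ∈ V, χ s = 1)
    (F : P V (intRep (groupCohomology.ofChar χ))) (g : G) :
    ((pvIntIso V χ hχ).inv.hom F).1 g = F.1 g := rfl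

end Both

end Fermat.Agent.Lib.CFT.Duality.PVIso
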