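import Fermat.Agent.Lib.CFT.Duality.BaseCase.KDatumPV
import Fermat.Agent.Lib.CFT.Duality.BaseCase.PVIso
import Fermat.Agent.Lib.CFT.Duality.BaseCase.GlobalBaseCase

/-!
# The zigzag coefficients of `Coind_V k` and the base case in degrees `(3, 0)`  (P-CFT, L4)

* `invariantOfHom χ φ`: a morphism `φ : M ⟶ k(χ)` as an invariant of `M.dualTwist χ`
  (inverse to `Pairing.evalRight` of the evaluation pairing).
* `exists_eq_smul_sumMap`: every morphism `P V k(χ) ⟶ k(χ)` is a multiple of the trace map.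
* `sumInvariant χ V hχ` (`= b₀`), `exists_eq_smul_sumInvariant`, `hspan`: `H⁰((Coind_V k)')` is the
  line spanned by the twisted sum.
* `coeffPV V c hV hχ : Coeff D p (Additivity.PV V)` with zigzag datum `KDatumPV.pv c.K V hV`.
* `beta1_bijective_PV`: the base case `β³` for `Coind_V k`, from `TraceDatum.beta1_bijective`
  and the sum morphism `KDatumPV.sumHom`.
-/

set_option autoImplicit false

open CategoryTheory Fermat.Agent.Lib.CFT.Profinite

namespace Fermat.Agent.Lib.CFT.Duality.CoeffPV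

open Fermat.Agent.Lib.CFT.Duality.DevissageRep Fermat.Agent.Lib.CFT.Duality.CoindDual
open Fermat.Agent.Lib.CFT.Duality.PVCalc Fermat.Agent.Lib.CFT.Duality.PVIso
open Fermat.Agent.Lib.CFT.Coh.Cup

/-! ### Morphisms to `k(χ)` and invariants of the twisted dual -/

section Invariants

universe u

variable {k G : Type u} [Field k] [Group G] (χ : G →* kˣ) {M : Rep.{u} k G}

/-- A morphism `φ : M ⟶ k(χ)`, as an invariant element of `M' = Hom(M, k(χ))`. -/
noncomputable def invariantOfHom (φ : M ⟶ groupCohomology.ofChar χ) :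
    (M.dualTwist χ).ρ.invariants :=
  ⟨φ.hom.toLinearMap, fun g => by
    rw [Rep.dualTwist_ρ_apply]
    refine LinearMap.ext fun m => ?_
    show (χ g : k) • φ.hom (M.ρ g⁻¹ m) = φ.hom m
    rw [Rep.hom_comm_apply, ofChar_ρ_apply, smul_eq_mul, ← mul_assoc, ← Units.val_mul,
      ← map_mul, mul_inv_cancel, map_one, Units.val_one, one_mul]⟩

theorem invariantOfHom_apply (φ : M ⟶ groupCohomology.ofChar χ) (m : M) :
    ((invariantOfHom χ φ).1 : Module.Dual k M) m = φ.hom m := rfl

theorem evalRight_invariantOfHom (φ : M ⟶ groupCohomology.ofChar χ) :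
    (evPairing χ M).evalRight (invariantOfHom χ φ) = φ := by
  ext m
  rfl

theorem invariantOfHom_evalRight (b : (M.dualTwist χ).ρ.invariants) :
    invariantOfHom χ ((evPairing χ M).evalRight b) = b := by
  apply Subtype.ext
  refine LinearMap.ext fun m => ?_
  rfl

end Invariants

/-! ### Morphisms `P V k(χ) ⟶ k(χ)` -/

section Line

universe u

variable {k G : Type u} [Field k] [Group G] (V : Subgroup G) [V.FiniteIndex] (χ : G →* kˣ)

open scoped Classical in
/-- The indicator function of a coset, as an element of `P V k(χ)`. -/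
noncomputable def delta (x : G ⧸ V) : P V (groupCohomology.ofChar χ) :=
  uncoord V (groupCohomology.ofChar χ) (fun j => if x = j then (1 : k) else 0)

omit [V.FiniteIndex] in
open scoped Classical in
theorem coord_delta (x y : G ⧸ V) :
    coord V (groupCohomology.ofChar χ) (delta V χ x) y = if x = y then (1 : k) else 0 :=
  congrFun (coord_uncoord V (groupCohomology.ofChar χ) _) y

omit [V.FiniteIndex] in
theorem ρ_delta (g : G) (x : G ⧸ V) :
    (P V (groupCohomology.ofChar χ)).ρ g (delta V χ x) = (χ g : k) • delta V χ (g • x) := by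
  classical
  apply coord_injective V (groupCohomology.ofChar χ)
  funext y
  rw [coord_ρ, coord_smul, Pi.smul_apply, coord_delta, coord_delta, ofChar_ρ_apply, smul_eq_mul]
  congr 1
  by_cases h : x = g⁻¹ • y
  · rw [if_pos h, if_pos (by rw [h, smul_inv_smul])]
  · rw [if_neg h, if_neg (fun h' => h (by rw [← h', inv_smul_smul]))]

/-- Every morphism `P V k(χ) ⟶ k(χ)` is a multiple of the trace map. -/
theorem exists_eq_smul_sumMap
    (ψ : P V (groupCohomology.ofChar χ) ⟶ groupCohomology.ofChar χ) :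
    ∃ c : k, ∀ f : P V (groupCohomology.ofChar χ),
      ψ.hom f = c * (sumMap V (groupCohomology.ofChar χ)).hom f := by
  classical
  let _ : Fintype (G ⧸ V) := Fintype.ofFinite _
  let w : G ⧸ V → k := fun x => ψ.hom (delta V χ x)
  have hw : ∀ (g : G) (x : G ⧸ V), w (g • x) = w x := by
    intro g x
    have h1 : ψ.hom ((P V (groupCohomology.ofChar χ)).ρ g (delta V χ x)) =
        (χ g : k) * w x := by
      rw [Rep.hom_comm_apply, ofChar_ρ_apply]
    rw [ρ_delta, map_smul, smul_eq_mul] at h1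
    exact mul_left_cancel₀ (Units.ne_zero (χ g)) h1
  have hw0 : ∀ x : G ⧸ V, w x = w ((1 : G) : G ⧸ V) := by
    intro x
    induction x using QuotientGroup.induction_on with
    | H g =>
      have : ((g : G) : G ⧸ V) = g • ((1 : G) : G ⧸ V) := by
        show _ = ((g * 1 : G) : G ⧸ V)
        rw [mul_one]
      rw [this, hw]
  refine ⟨w ((1 : G) : G ⧸ V), fun f => ?_⟩
  let L : (G ⧸ V → k) →ₗ[k] k :=
    ψ.hom.toLinearMap ∘ₗ (coordEquiv V (groupCohomology.ofChar χ)).symm.toLinearMap
  have h1 : ψ.hom f = L (coord V (groupCohomology.ofChar χ) f) := by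
    show ψ.hom f = ψ.hom ((coordEquiv V (groupCohomology.ofChar χ)).symm
      (coordEquiv V (groupCohomology.ofChar χ) f))
    rw [LinearEquiv.symm_apply_apply]
  rw [h1, LinearMap.pi_apply_eq_sum_univ L, sumMap_hom_apply]
  show _ = w ((1 : G) : G ⧸ V) * ∑ x : G ⧸ V, coord V (groupCohomology.ofChar χ) f x
  rw [Finset.mul_sum]
  refine Finset.sum_congr rfl fun x _ => ?_
  have h2 : L (fun j => if x = j then (1 : k) else 0) = w x := rfl
  rw [h2, hw0 x, smul_eq_mul, mul_comm]

end Line

/-! ### The base case `M = Coind_V k` in degrees `(3, 0)` -/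

section Base

open Fermat.Agent.Lib.CFT.Duality.GlobalBase Fermat.Agent.Lib.CFT.Duality.KCalc
open Fermat.Agent.Lib.CFT.Duality.ChangeRing Fermat.Agent.Lib.CFT.Duality.GlobalDuality

variable {p : ℕ} [Fact p.Prime] {G : Type} [Group G] (D : LocDatum G) (χ : G →* (ZMod p)ˣ)
  (V : Subgroup G)

/-- The morphism `Coind_V k ≅ Coind_V k(χ) ⟶ k(χ)`, the twisted sum. -/
noncomputable def sumHomχ [V.FiniteIndex] (hχ : ∀ s ∈ V, χ s = 1) :
    Additivity.PV (k := ZMod p) V ⟶ groupCohomology.ofChar χ :=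
  (pvIso V χ hχ).hom ≫ sumMap V (groupCohomology.ofChar χ)

/-- The invariant functional `b₀` of `(Coind_V k)'`: the twisted sum. -/
noncomputable def sumInvariant [V.FiniteIndex] (hχ : ∀ s ∈ V, χ s = 1) :
    ((Additivity.PV (k := ZMod p) V).dualTwist χ).ρ.invariants :=
  invariantOfHom χ (sumHomχ χ V hχ)

theorem evalRight_sumInvariant [V.FiniteIndex] (hχ : ∀ s ∈ V, χ s = 1) :
    (evPairing χ (Additivity.PV (k := ZMod p) V)).evalRight (sumInvariant χ V hχ) =
      sumHomχ χ V hχ :=
  evalRight_invariantOfHom χ _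

/-- The invariants of `(Coind_V k)'` form the line spanned by `b₀`. -/
theorem exists_eq_smul_sumInvariant [V.FiniteIndex] (hχ : ∀ s ∈ V, χ s = 1)
    (b : ((Additivity.PV (k := ZMod p) V).dualTwist χ).ρ.invariants) :
    ∃ a : ZMod p, b = a • sumInvariant χ V hχ := by
  obtain ⟨c, hc⟩ := exists_eq_smul_sumMap V χ
    ((pvIso V χ hχ).inv ≫ (evPairing χ (Additivity.PV (k := ZMod p) V)).evalRight b)
  refine ⟨c, ?_⟩
  rw [← invariantOfHom_evalRight χ b]
  apply Subtype.ext
  refine LinearMap.ext fun m => ?_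
  have h1 := hc ((pvIso V χ hχ).hom.hom m)
  have h2 : ((pvIso V χ hχ).inv ≫
      (evPairing χ (Additivity.PV (k := ZMod p) V)).evalRight b).hom
        ((pvIso V χ hχ).hom.hom m) =
      ((evPairing χ (Additivity.PV (k := ZMod p) V)).evalRight b).hom m := by
    show ((evPairing χ (Additivity.PV (k := ZMod p) V)).evalRight b).hom
      (((pvIso V χ hχ).hom ≫ (pvIso V χ hχ).inv).hom m) = _
    rw [Iso.hom_inv_id]
    rfl
  rw [h2] at h1
  exact h1

/-- `H⁰((Coind_V k)')` is the line spanned by the class of `b₀`. -/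
theorem hspan [V.FiniteIndex] (hχ : ∀ s ∈ V, χ s = 1) (𝒰 : LevelFamily G)
    (y : 𝒰.levelCohomology ((Additivity.PV (k := ZMod p) V).dualTwist χ) 0) :
    ∃ a : ZMod p, y = a • (𝒰.H0Equiv ((Additivity.PV (k := ZMod p) V).dualTwist χ)).symm
      (sumInvariant χ V hχ) := by
  obtain ⟨a, ha⟩ := exists_eq_smul_sumInvariant χ V hχ
    (𝒰.H0Equiv ((Additivity.PV (k := ZMod p) V).dualTwist χ) y)
  refine ⟨a, ?_⟩
  rw [← map_smul, ← ha, LinearEquiv.symm_apply_apply]

variable {D χ}

/-- The zigzag coefficients of `Coind_V k`, from those of `k(χ)`. -/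
noncomputable def coeffPV (c : Coeff D p (groupCohomology.ofChar (k := ZMod p) χ))
    (hV : LES.IsOpenSubgroup D.𝒰 V) (hχ : ∀ s ∈ V, χ s = 1) :
    Coeff D p (Additivity.PV (k := ZMod p) V) where
  K := KDatumPV.pv c.K V hV
  e := pvIntIso V χ hχ ≪≫ (PFunc ℤ V).mapIso c.e

theorem coeffPV_e_hom (c : Coeff D p (groupCohomology.ofChar (k := ZMod p) χ))
    (hV : LES.IsOpenSubgroup D.𝒰 V) (hχ : ∀ s ∈ V, χ s = 1) :
    (coeffPV V c hV hχ).e.hom = (pvIntIso V χ hχ).hom ≫ PMap V c.e.hom := rfl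

/-- The compatibility `hF` of `TraceDatum.beta1_bijective` for the sum morphism. -/
theorem intMap_evalRight_comp (c : Coeff D p (groupCohomology.ofChar (k := ZMod p) χ))
    (hV : LES.IsOpenSubgroup D.𝒰 V) [V.FiniteIndex] (hχ : ∀ s ∈ V, χ s = 1) :
    intMap ((evPairing χ (Additivity.PV (k := ZMod p) V)).evalRight (sumInvariant χ V hχ)) ≫
        c.e.hom =
      (coeffPV V c hV hχ).e.hom ≫ (KDatumPV.sumHom c.K V hV).fN := by
  rw [evalRight_sumInvariant, coeffPV_e_hom, pvIntIso_hom]
  show intMap (sumHomχ χ V hχ) ≫ c.e.hom =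
    ((intMap (pvIso V χ hχ).hom ≫ (intPIso V (groupCohomology.ofChar χ)).hom) ≫
      PMap V c.e.hom) ≫ sumMap V c.K.N
  rw [Category.assoc, Category.assoc, sumMap_naturality, ← Category.assoc (intPIso V _).hom,
    intPIso_hom_sumMap, sumHomχ, intMap_comp, Category.assoc]

/-- **The base case in degrees `(3, 0)` for `Coind_V k`**: `β³` is bijective as soon as the
zigzag of `P V` applied to the trace datum is defined in degree `2` and the invariant map composed
with the trace `T²(P V C) ⟶ T²(C)` is bijective. -/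
theorem beta1_bijective_PV (𝔱 : TraceDatum D χ) (hV : LES.IsOpenSubgroup D.𝒰 V)
    [V.FiniteIndex] (hχ : ∀ s ∈ V, χ s = 1) (good : (KDatumPV.pv 𝔱.c.K V hV).zig.Good 2)
    (hinv : Function.Bijective fun t : T D.𝒰 p (P V 𝔱.c.K.C) 2 =>
      𝔱.invT (TMap D.𝒰 p (sumMap V 𝔱.c.K.C) 2 t)) :
    Function.Bijective (beta1 D χ 2 𝔱.tr (Additivity.PV (k := ZMod p) V)) := by
  exact 𝔱.beta1_bijective (coeffPV V 𝔱.c hV hχ) good (sumInvariant χ V hχ)
    (hspan χ V hχ D.𝒰) (KDatumPV.sumHom 𝔱.c.K V hV) (intMap_evalRight_comp V 𝔱.c hV hχ) hinv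

end Base

end Fermat.Agent.Lib.CFT.Duality.CoeffPV
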