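/-
helper53 (P-CFT, L4 base cases, KCalc part 2).  The Bockstein-twisted cup product on cones of
multiplication by a scalar.

Let `X' × R → X` be a pairing of representations, `c` a scalar, `y` a level `1`-cochain and `β` a
level `2`-cochain of `R` with `d y = c • β` and `d β = 0`.  For chain endomorphisms `m'`, `m` of the
level complexes of `X'`, `X` acting as multiplication by `c`, the maps
`Φ n : (natCone m').X n → (natCone m).X (n + 1)`,
`(a, b) ↦ (a ∪ y + (-1)^(n-1) b ∪ β, b ∪ y)`, commute with the differentials (`d_Phi`), hence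
induce maps on homology (`PhiH`).  Formulas on `(a, 0)` and `(0, b)` (`Phi_inlL`, `Phi_inrL`) and
naturality under change of group and coefficients (`map_Phi`) are provided.
-/
import Fermat.Agent.Lib.CFT.Duality.NatCone
import Fermat.Agent.Lib.CFT.Profinite.Cup

set_option autoImplicit false
set_option linter.unusedSectionVars false

universe u

open CategoryTheory groupCohomology

namespace Fermat.Agent.Lib.CFT.Duality.KCalcCup

open Fermat.Agent.Lib.CFT Fermat.Agent.Lib.CFT.Profinite Fermat.Agent.Lib.CFT.Coh.Cup Fermat.Agent.Lib.CFT.Duality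

variable {k G : Type u} [CommRing k] [Group G] (𝒰 : LevelFamily G)
variable {X' R X : Rep.{u} k G} (ψ : Pairing X' R X)

/-- Cup product with a fixed level cochain on the right, as a linear map between modules of level
cochains. -/
noncomputable def cupR {m n l : ℕ} (h : m + n = l) (y : 𝒰.levelCochains R n) :
    𝒰.levelCochains X' m →ₗ[k] 𝒰.levelCochains X l where
  toFun a := ⟨cupTo ψ h a.1 y.1, LevelFamily.cupTo_mem_levelCochains ψ 𝒰 h a.2 y.2⟩
  map_add' a b := Subtype.ext (cupTo_add_left ψ h a.1 b.1 y.1)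
  map_smul' r a := Subtype.ext (cupTo_smul_left ψ h r a.1 y.1)

@[simp] theorem cupR_coe {m n l : ℕ} (h : m + n = l) (y : 𝒰.levelCochains R n)
    (a : 𝒰.levelCochains X' m) : (cupR 𝒰 ψ h y a : (Fin l → G) → X) = cupTo ψ h a.1 y.1 := rfl

/-- The differential of the level complex, on elements. -/
noncomputable def dL (M : Rep.{u} k G) (n : ℕ) :
    𝒰.levelCochains M n →ₗ[k] 𝒰.levelCochains M (n + 1) := (𝒰.levelD M n).hom

@[simp] theorem dL_coe (M : Rep.{u} k G) (n : ℕ) (a : 𝒰.levelCochains M n) :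
    (dL 𝒰 M n a : (Fin (n + 1) → G) → M) = (inhomogeneousCochains.d M n).hom a.1 := rfl

theorem levelComplex_d_apply (M : Rep.{u} k G) (n : ℕ) (a : 𝒰.levelCochains M n) :
    ((𝒰.levelComplex M).d n (n + 1)).hom a = dL 𝒰 M n a := by
  rw [LevelFamily.levelComplex_d]
  rfl

/-- Leibniz rule for `cupR`. -/
theorem dL_cupR {m n l : ℕ} (h : m + n = l) (y : 𝒰.levelCochains R n)
    (a : 𝒰.levelCochains X' m) :
    dL 𝒰 X l (cupR 𝒰 ψ h y a) =
      cupR 𝒰 ψ (show m + 1 + n = l + 1 by omega) y (dL 𝒰 X' m a) +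
        (-1 : k) ^ m • cupR 𝒰 ψ (show m + (n + 1) = l + 1 by omega) (dL 𝒰 R n y) a := by
  apply Subtype.ext
  exact d_cupTo ψ h a.1 y.1

/-! ### Degree-raising maps commuting with the differentials -/

section generic

open ConcreteHomology

variable {K L : CochainComplex (ModuleCat.{u} k) ℕ} (Φ : ∀ n, K.X n →ₗ[k] L.X (n + 1))
  (hΦ : ∀ (n : ℕ) (x : K.X n),
    (L.d (n + 1) (n + 1 + 1)).hom (Φ n x) = Φ (n + 1) ((K.d n (n + 1)).hom x))

/-- A degree-raising map commuting with the differentials sends cocycles to cocycles. -/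
def shiftZ (n : ℕ) : Z K n →ₗ[k] Z L (n + 1) :=
  (Φ n).restrict (fun x hx => by
    rw [mem_Z_iff] at hx ⊢
    rw [hΦ, hx, map_zero])

@[simp] theorem shiftZ_coe (n : ℕ) (x : Z K n) : (shiftZ Φ hΦ n x).1 = Φ n x.1 := rfl

/-- The map induced on homology by a degree-raising map commuting with the differentials. -/
noncomputable def shiftH (n : ℕ) : K.homology n →ₗ[k] L.homology (n + 1) :=
  descH (classOf L (n + 1) ∘ₗ shiftZ Φ hΦ n) (fun x hx => by
    rw [LinearMap.comp_apply, classOf_eq_zero_iff_succ]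
    cases n with
    | zero =>
      rw [classOf_eq_zero_iff_zero] at hx
      exact ⟨0, by rw [map_zero, hx, map_zero]; rfl⟩
    | succ n =>
      rw [classOf_eq_zero_iff_succ] at hx
      obtain ⟨y, hy⟩ := hx
      exact ⟨Φ n y, by rw [hΦ, hy]; rfl⟩)

@[simp] theorem shiftH_classOf (n : ℕ) (x : Z K n) :
    shiftH Φ hΦ n (classOf K n x) = classOf L (n + 1) (shiftZ Φ hΦ n x) := by
  unfold shiftH
  rw [descH_classOf]
  rfl

end generic

section Phi

variable (y : 𝒰.levelCochains R 1) (β : 𝒰.levelCochains R 2) {c : k}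

theorem cupR_dL_one (hy : dL 𝒰 R 1 y = c • β) {m l : ℕ} (h : m + (1 + 1) = l)
    (a : 𝒰.levelCochains X' m) :
    cupR 𝒰 ψ h (dL 𝒰 R 1 y) a = c • cupR 𝒰 ψ (show m + 2 = l from h) β a := by
  rw [hy]
  apply Subtype.ext
  exact cupTo_smul_right ψ h c a.1 β.1

theorem cupR_dL_two (hβ : dL 𝒰 R 2 β = 0) {m l : ℕ} (h : m + (2 + 1) = l)
    (a : 𝒰.levelCochains X' m) :
    cupR 𝒰 ψ h (dL 𝒰 R 2 β) a = 0 := by
  rw [hβ]
  apply Subtype.ext
  exact cupTo_zero_right ψ h a.1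

include ψ in
theorem key_fst (hy : dL 𝒰 R 1 y = c • β) (hβ : dL 𝒰 R 2 β = 0) (n : ℕ)
    (a : 𝒰.levelCochains X' (n + 1)) (b : 𝒰.levelCochains X' n) :
    dL 𝒰 X (n + 1 + 1) (cupR 𝒰 ψ (show n + 1 + 1 = n + 1 + 1 from rfl) y a +
        (-1 : k) ^ n • cupR 𝒰 ψ (show n + 2 = n + 1 + 1 from rfl) β b) =
      cupR 𝒰 ψ (show n + 1 + 1 + 1 = n + 1 + 1 + 1 from rfl) y (dL 𝒰 X' (n + 1) a) +
        (-1 : k) ^ (n + 1) • cupR 𝒰 ψ (show n + 1 + 2 = n + 1 + 1 + 1 from rfl) β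
          (c • a - dL 𝒰 X' n b) := by
  rw [map_add, map_smul, dL_cupR, dL_cupR, cupR_dL_one 𝒰 ψ y β hy, cupR_dL_two 𝒰 ψ β hβ,
    map_sub, map_smul, pow_succ]
  module

include ψ in
theorem key_snd (hy : dL 𝒰 R 1 y = c • β) (n : ℕ)
    (a : 𝒰.levelCochains X' (n + 1)) (b : 𝒰.levelCochains X' n) :
    c • (cupR 𝒰 ψ (show n + 1 + 1 = n + 1 + 1 from rfl) y a +
        (-1 : k) ^ n • cupR 𝒰 ψ (show n + 2 = n + 1 + 1 from rfl) β b) -
      dL 𝒰 X (n + 1) (cupR 𝒰 ψ (show n + 1 = n + 1 from rfl) y b) =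
      cupR 𝒰 ψ (show n + 1 + 1 = n + 1 + 1 from rfl) y (c • a - dL 𝒰 X' n b) := by
  rw [dL_cupR, cupR_dL_one 𝒰 ψ y β hy, map_sub, map_smul]
  module

include ψ in
theorem key_fst_zero (hy : dL 𝒰 R 1 y = c • β) (a : 𝒰.levelCochains X' 0) :
    dL 𝒰 X (0 + 1) (cupR 𝒰 ψ (show 0 + 1 = 0 + 1 from rfl) y a) =
      cupR 𝒰 ψ (show 0 + 1 + 1 = 0 + 1 + 1 from rfl) y (dL 𝒰 X' 0 a) +
        (-1 : k) ^ 0 • cupR 𝒰 ψ (show 0 + 2 = 0 + 1 + 1 from rfl) β (c • a) := by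
  rw [dL_cupR, cupR_dL_one 𝒰 ψ y β hy, map_smul]

end Phi

section cone

variable (m' : 𝒰.levelComplex X' ⟶ 𝒰.levelComplex X') (m : 𝒰.levelComplex X ⟶ 𝒰.levelComplex X)
  (y : 𝒰.levelCochains R 1) (β : 𝒰.levelCochains R 2) {c : k}

/-- The first projection of the cone, with values in level cochains. -/
noncomputable def fstC (n : ℕ) : (natCone m').X n →ₗ[k] 𝒰.levelCochains X' n :=
  natCone.fstL m' n

/-- The second projection of the cone, with values in level cochains. -/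
noncomputable def sndC (n : ℕ) : (natCone m').X (n + 1) →ₗ[k] 𝒰.levelCochains X' n :=
  natCone.sndL m' n

/-- The first inclusion into the cone, from level cochains. -/
noncomputable def inlC (n : ℕ) : 𝒰.levelCochains X n →ₗ[k] (natCone m).X n :=
  natCone.inlL m n

/-- The second inclusion into the cone, from level cochains. -/
noncomputable def inrC (n : ℕ) : 𝒰.levelCochains X n →ₗ[k] (natCone m).X (n + 1) :=
  natCone.inrL m n

/-- The degree-raising map `Φ_y : K(X') → K(X)[1]`,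
`(a, b) ↦ (a ∪ y + (-1)^(n-1) b ∪ β, b ∪ y)` in degree `n`. -/
noncomputable def Phi : ∀ n : ℕ, (natCone m').X n →ₗ[k] (natCone m).X (n + 1)
  | 0 => inlC 𝒰 m (0 + 1) ∘ₗ cupR 𝒰 ψ (show 0 + 1 = 0 + 1 from rfl) y ∘ₗ fstC 𝒰 m' 0
  | n + 1 =>
    inlC 𝒰 m (n + 1 + 1) ∘ₗ
        (cupR 𝒰 ψ (show n + 1 + 1 = n + 1 + 1 from rfl) y ∘ₗ fstC 𝒰 m' (n + 1) +
          (-1 : k) ^ n • (cupR 𝒰 ψ (show n + 2 = n + 1 + 1 from rfl) β ∘ₗ sndC 𝒰 m' n)) +
      inrC 𝒰 m (n + 1) ∘ₗ cupR 𝒰 ψ (show n + 1 = n + 1 from rfl) y ∘ₗ sndC 𝒰 m' n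

@[simp] theorem fstL_Phi_zero (x : (natCone m').X 0) :
    natCone.fstL m (0 + 1) (Phi 𝒰 ψ m' m y β 0 x) =
      cupR 𝒰 ψ (show 0 + 1 = 0 + 1 from rfl) y (fstC 𝒰 m' 0 x) :=
  rfl

@[simp] theorem sndL_Phi_zero (x : (natCone m').X 0) :
    natCone.sndL m 0 (Phi 𝒰 ψ m' m y β 0 x) = 0 := rfl

@[simp] theorem fstL_Phi_succ (n : ℕ) (x : (natCone m').X (n + 1)) :
    natCone.fstL m (n + 1 + 1) (Phi 𝒰 ψ m' m y β (n + 1) x) =
      cupR 𝒰 ψ (show n + 1 + 1 = n + 1 + 1 from rfl) y (fstC 𝒰 m' (n + 1) x) +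
        (-1 : k) ^ n • cupR 𝒰 ψ (show n + 2 = n + 1 + 1 from rfl) β (sndC 𝒰 m' n x) := by
  show (_ + 0 : 𝒰.levelCochains X (n + 1 + 1)) = _
  rw [add_zero]
  rfl

@[simp] theorem sndL_Phi_succ (n : ℕ) (x : (natCone m').X (n + 1)) :
    natCone.sndL m (n + 1) (Phi 𝒰 ψ m' m y β (n + 1) x) =
      cupR 𝒰 ψ (show n + 1 = n + 1 from rfl) y (sndC 𝒰 m' n x) := by
  show (0 + _ : 𝒰.levelCochains X (n + 1)) = _
  rw [zero_add]
  rfl

section chain

variable (hm' : ∀ (n : ℕ) (a : 𝒰.levelCochains X' n), (m'.f n).hom a = c • a)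
  (hm : ∀ (n : ℕ) (a : 𝒰.levelCochains X n), (m.f n).hom a = c • a)
  (hy : dL 𝒰 R 1 y = c • β) (hβ : dL 𝒰 R 2 β = 0)

theorem fstC_d (n : ℕ) (x : (natCone m').X n) :
    fstC 𝒰 m' (n + 1) (((natCone m').d n (n + 1)).hom x) = dL 𝒰 X' n (fstC 𝒰 m' n x) := by
  unfold fstC
  rw [natCone.fstL_d, levelComplex_d_apply]

include hm' in
theorem sndC_d_zero (x : (natCone m').X 0) :
    sndC 𝒰 m' 0 (((natCone m').d 0 (0 + 1)).hom x) = c • fstC 𝒰 m' 0 x := by
  unfold sndC fstC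
  rw [natCone.sndL_d_zero]
  exact hm' 0 _

include hm' in
theorem sndC_d_succ (n : ℕ) (x : (natCone m').X (n + 1)) :
    sndC 𝒰 m' (n + 1) (((natCone m').d (n + 1) (n + 1 + 1)).hom x) =
      c • fstC 𝒰 m' (n + 1) x - dL 𝒰 X' n (sndC 𝒰 m' n x) := by
  unfold sndC fstC
  rw [natCone.sndL_d_succ, levelComplex_d_apply]
  congr 1
  exact hm' (n + 1) _

include hm' hm hy hβ in
/-- `Φ_y` commutes with the differentials. -/
theorem d_Phi (n : ℕ) (x : (natCone m').X n) :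
    ((natCone m).d (n + 1) (n + 1 + 1)).hom (Phi 𝒰 ψ m' m y β n x) =
      Phi 𝒰 ψ m' m y β (n + 1) (((natCone m').d n (n + 1)).hom x) := by
  cases n with
  | zero =>
    refine natCone.ext_succ m ?_ ?_
    · rw [natCone.fstL_d, fstL_Phi_zero, fstL_Phi_succ, levelComplex_d_apply, fstC_d,
        sndC_d_zero 𝒰 m' hm']
      exact key_fst_zero 𝒰 ψ y β hy _
    · rw [natCone.sndL_d_succ, fstL_Phi_zero, sndL_Phi_zero, sndL_Phi_succ, map_zero, sub_zero,
        sndC_d_zero 𝒰 m' hm', map_smul]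
      exact hm (0 + 1) _
  | succ n =>
    refine natCone.ext_succ m ?_ ?_
    · rw [natCone.fstL_d, fstL_Phi_succ, fstL_Phi_succ, levelComplex_d_apply, fstC_d,
        sndC_d_succ 𝒰 m' hm']
      exact key_fst 𝒰 ψ y β hy hβ n _ _
    · rw [natCone.sndL_d_succ, fstL_Phi_succ, sndL_Phi_succ, sndL_Phi_succ, levelComplex_d_apply,
        sndC_d_succ 𝒰 m' hm']
      rw [← key_snd 𝒰 ψ y β hy n]
      congr 1
      exact hm (n + 1 + 1) _

/-- The map `T^n(X') → T^{n+1}(X)` induced by `Φ_y` on the homology of the cones. -/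
noncomputable def PhiH (n : ℕ) : (natCone m').homology n →ₗ[k] (natCone m).homology (n + 1) :=
  shiftH (Phi 𝒰 ψ m' m y β) (d_Phi 𝒰 ψ m' m y β hm' hm hy hβ) n

theorem PhiH_classOf (n : ℕ) (x : ConcreteHomology.Z (natCone m') n) :
    PhiH 𝒰 ψ m' m y β hm' hm hy hβ n (ConcreteHomology.classOf (natCone m') n x) =
      ConcreteHomology.classOf (natCone m) (n + 1)
        (shiftZ (Phi 𝒰 ψ m' m y β) (d_Phi 𝒰 ψ m' m y β hm' hm hy hβ) n x) :=
  shiftH_classOf _ _ n x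

end chain

/-- `Φ_y (a, 0) = (a ∪ y, 0)`. -/
theorem Phi_inlL (n : ℕ) (a : 𝒰.levelCochains X' n) :
    Phi 𝒰 ψ m' m y β n (natCone.inlL m' n a) =
      natCone.inlL m (n + 1) (cupR 𝒰 ψ (show n + 1 = n + 1 from rfl) y a) := by
  cases n with
  | zero => rfl
  | succ n =>
    refine natCone.ext_succ m ?_ ?_
    · rw [fstL_Phi_succ]
      show cupR 𝒰 ψ _ y a + (-1 : k) ^ n • cupR 𝒰 ψ _ β 0 = cupR 𝒰 ψ _ y a
      rw [map_zero, smul_zero, add_zero]
    · rw [sndL_Phi_succ]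
      show cupR 𝒰 ψ _ y 0 = 0
      rw [map_zero]

/-- `Φ_y (0, b) = ((-1)^n b ∪ β, b ∪ y)` for `b` of degree `n`. -/
theorem Phi_inrL (n : ℕ) (b : 𝒰.levelCochains X' n) :
    Phi 𝒰 ψ m' m y β (n + 1) (natCone.inrL m' n b) =
      natCone.mk m ((-1 : k) ^ n • cupR 𝒰 ψ (show n + 2 = n + 1 + 1 from rfl) β b)
        (cupR 𝒰 ψ (show n + 1 = n + 1 from rfl) y b) := by
  refine natCone.ext_succ m ?_ ?_
  · rw [fstL_Phi_succ, natCone.fstL_mk]
    show cupR 𝒰 ψ _ y 0 + (-1 : k) ^ n • cupR 𝒰 ψ _ β b = _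
    rw [map_zero, zero_add]
  · rw [sndL_Phi_succ, natCone.sndL_mk]
    rfl

end cone

/-! ### Naturality -/

section naturality

variable {𝒰} {G₁ : Type u} [Group G₁] {𝒰₁ : LevelFamily G₁}
  {X'₁ R₁ X₁ : Rep.{u} k G₁} (ψ₁ : Pairing X'₁ R₁ X₁)
  (f : G₁ →* G) (hf : LevelFamily.IsCompatible 𝒰₁ 𝒰 f)

/-- The map induced on level cochains by a compatible homomorphism of groups and a morphism of
coefficients, as a linear map. -/
noncomputable def lmap {M : Rep.{u} k G} {M₁ : Rep.{u} k G₁} (φ : Rep.res f M ⟶ M₁) (n : ℕ) :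
    𝒰.levelCochains M n →ₗ[k] 𝒰₁.levelCochains M₁ n :=
  ((LevelFamily.levelCochainsMap f hf φ).f n).hom

@[simp] theorem lmap_coe {M : Rep.{u} k G} {M₁ : Rep.{u} k G₁} (φ : Rep.res f M ⟶ M₁) (n : ℕ)
    (x : 𝒰.levelCochains M n) :
    (lmap f hf φ n x : (Fin n → G₁) → M₁) = ((cochainsMap f φ).f n).hom x.1 := rfl

variable (α : Rep.res f X' ⟶ X'₁) (ρ : Rep.res f R ⟶ R₁) (γ : Rep.res f X ⟶ X₁)
  (hγ : ∀ (a : X') (b : R), γ.hom (ψ.toLin a b) = ψ₁.toLin (α.hom a) (ρ.hom b))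

include hγ in
theorem lmap_cupR {i j l : ℕ} (h : i + j = l) (y : 𝒰.levelCochains R j)
    (a : 𝒰.levelCochains X' i) :
    lmap f hf γ l (cupR 𝒰 ψ h y a) = cupR 𝒰₁ ψ₁ h (lmap f hf ρ j y) (lmap f hf α i a) := by
  apply Subtype.ext
  exact cupTo_map f ψ ψ₁ α ρ γ hγ h a.1 y.1

variable (m' : 𝒰.levelComplex X' ⟶ 𝒰.levelComplex X') (m : 𝒰.levelComplex X ⟶ 𝒰.levelComplex X)
  (m'₁ : 𝒰₁.levelComplex X'₁ ⟶ 𝒰₁.levelComplex X'₁) (m₁ : 𝒰₁.levelComplex X₁ ⟶ 𝒰₁.levelComplex X₁)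
  (comm' : m' ≫ LevelFamily.levelCochainsMap f hf α = LevelFamily.levelCochainsMap f hf α ≫ m'₁)
  (comm : m ≫ LevelFamily.levelCochainsMap f hf γ = LevelFamily.levelCochainsMap f hf γ ≫ m₁)
  (y : 𝒰.levelCochains R 1) (β : 𝒰.levelCochains R 2)

include hγ in
/-- `Φ_y` is natural with respect to change of group and of coefficients. -/
theorem map_Phi (n : ℕ) (x : (natCone m').X n) :
    ((natCone.map m m₁ (LevelFamily.levelCochainsMap f hf γ)
        (LevelFamily.levelCochainsMap f hf γ) comm).f (n + 1)).hom (Phi 𝒰 ψ m' m y β n x) =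
      Phi 𝒰₁ ψ₁ m'₁ m₁ (lmap f hf ρ 1 y) (lmap f hf ρ 2 β) n
        (((natCone.map m' m'₁ (LevelFamily.levelCochainsMap f hf α)
          (LevelFamily.levelCochainsMap f hf α) comm').f n).hom x) := by
  cases n with
  | zero =>
    refine natCone.ext_succ m₁ ?_ ?_
    · rw [natCone.fstL_map, fstL_Phi_zero, fstL_Phi_zero]
      exact lmap_cupR ψ ψ₁ f hf α ρ γ hγ _ y _
    · rw [natCone.sndL_map, sndL_Phi_zero, sndL_Phi_zero, map_zero]
  | succ n =>
    refine natCone.ext_succ m₁ ?_ ?_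
    · rw [natCone.fstL_map, fstL_Phi_succ, fstL_Phi_succ]
      have h1 := lmap_cupR ψ ψ₁ f hf α ρ γ hγ (show n + 1 + 1 = n + 1 + 1 from rfl) y
        (fstC 𝒰 m' (n + 1) x)
      have h2 := lmap_cupR ψ ψ₁ f hf α ρ γ hγ (show n + 2 = n + 1 + 1 from rfl) β
        (sndC 𝒰 m' n x)
      show lmap f hf γ (n + 1 + 1) _ = _
      rw [map_add, map_smul, h1, h2]
      rfl
    · rw [natCone.sndL_map, sndL_Phi_succ, sndL_Phi_succ]
      exact lmap_cupR ψ ψ₁ f hf α ρ γ hγ _ y _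

end naturality

/-! ### The standard instance: multiplication by a scalar -/

section smul

/-- The chain map `c • 𝟙` acts as multiplication by `c` on level cochains: this discharges the
hypotheses `hm`, `hm'` of `d_Phi` for the cone of multiplication by `c`. -/
theorem smul_id_f_apply (c : k) (M : Rep.{u} k G) (n : ℕ) (a : 𝒰.levelCochains M n) :
    (((c • 𝟙 (𝒰.levelComplex M) : 𝒰.levelComplex M ⟶ 𝒰.levelComplex M)).f n).hom a = c • a := by
  rfl

end smul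

end Fermat.Agent.Lib.CFT.Duality.KCalcCup
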