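/-
helper53 (P-CFT, L4 base cases, KCalc part 2, continued).  The Bockstein-twisted cup product of
`KCalcCup.lean`, specialised to helper18's `K(X)`-calculus (`KCalc.mulP`, `KCalc.Kp`, `KCalc.T`):
the maps `PhiT n : T^n(X') → T^{n+1}(X)`, their value on the image of `ofH` (cup product with the
Bockstein class `[β]` of `y`, `toH_PhiT_ofH`) and on the image of the comparison map
`torsionToT : H^n(X'[p]) → T^n(X')` (cup product with the reduction of `y`, `PhiT_torsionToT`).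
-/
import Fermat.Agent.Lib.CFT.Duality.BaseCase.KCalcSeq
import Fermat.Agent.Lib.CFT.Duality.BaseCase.KCalcCup

set_option autoImplicit false
set_option linter.unusedSectionVars false

universe u

open CategoryTheory groupCohomology

namespace Fermat.Agent.Lib.CFT.Duality.KCalcCup

open Fermat.Agent.Lib.CFT Fermat.Agent.Lib.CFT.Profinite Fermat.Agent.Lib.CFT.Coh.Cup
  Fermat.Agent.Lib.CFT.Duality ConcreteHomology

variable {k G : Type u} [CommRing k] [Group G] (𝒰 : LevelFamily G) (p : ℕ)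
  {X' R X : Rep.{u} k G} (ψ : Pairing X' R X)
  (y : 𝒰.levelCochains R 1) (β : 𝒰.levelCochains R 2)
  (hy : dL 𝒰 R 1 y = (p : k) • β) (hβ : dL 𝒰 R 2 β = 0)

/-- helper18's `mulP` acts as multiplication by `(p : k)`. -/
theorem mulP_hom_apply (M : Rep.{u} k G) (n : ℕ) (a : 𝒰.levelCochains M n) :
    ((KCalc.mulP 𝒰 p M).f n).hom a = (p : k) • a := by
  rw [KCalc.mulP_f_apply']
  exact (Nat.cast_smul_eq_nsmul k p a).symm

/-- The map `T^n(X') → T^{n+1}(X)` induced by the Bockstein-twisted cup product with `y`. -/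
noncomputable def PhiT (n : ℕ) : KCalc.T 𝒰 p X' n →ₗ[k] KCalc.T 𝒰 p X (n + 1) :=
  PhiH 𝒰 ψ (KCalc.mulP 𝒰 p X') (KCalc.mulP 𝒰 p X) y β (mulP_hom_apply 𝒰 p X')
    (mulP_hom_apply 𝒰 p X) hy hβ n

theorem PhiT_classOf (n : ℕ) (x : Z (KCalc.Kp 𝒰 p X') n) :
    PhiT 𝒰 p ψ y β hy hβ n (classOf (KCalc.Kp 𝒰 p X') n x) =
      classOf (KCalc.Kp 𝒰 p X) (n + 1)
        (shiftZ (Phi 𝒰 ψ (KCalc.mulP 𝒰 p X') (KCalc.mulP 𝒰 p X) y β)
          (d_Phi 𝒰 ψ (KCalc.mulP 𝒰 p X') (KCalc.mulP 𝒰 p X) y β (mulP_hom_apply 𝒰 p X')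
            (mulP_hom_apply 𝒰 p X) hy hβ) n x) :=
  PhiH_classOf 𝒰 ψ _ _ y β _ _ hy hβ n x

include hβ in
/-- Cup product of a level cocycle with the cocycle `β` is a cocycle. -/
theorem cupR_beta_mem_Z {n l : ℕ} (h : n + 2 = l) (b : Z (𝒰.levelComplex X') n) :
    (show (𝒰.levelComplex X).X l from cupR 𝒰 ψ h β b.1) ∈ Z (𝒰.levelComplex X) l := by
  rw [mem_Z_iff, levelComplex_d_apply, dL_cupR, cupR_dL_two 𝒰 ψ β hβ, smul_zero, add_zero]
  have hb : dL 𝒰 X' n b.1 = 0 := by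
    rw [← levelComplex_d_apply]
    exact b.2
  rw [hb, map_zero]

/-- `ofH` on the class of a cocycle. -/
theorem ofH_classOf (M : Rep.{u} k G) (n : ℕ) (b : Z (𝒰.levelComplex M) n) :
    KCalc.ofH 𝒰 p M n (classOf (𝒰.levelComplex M) n b) =
      classOf (KCalc.Kp 𝒰 p M) (n + 1) (natCone.inrZ (KCalc.mulP 𝒰 p M) n b) :=
  natCone.bdry_classOf (KCalc.mulP 𝒰 p M) n b

/-- **Formula on the image of `ofH`.**  For a level cocycle `b` of degree `n`,
`Φ_y [(0, b)] = [((-1)^n b ∪ β, b ∪ y)]`, hence its image under `toH` is `(-1)^n [b ∪ β]`: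
on the image of `H^n(X')` the map `Φ_y` is the cup product with the Bockstein class `[β]` of `y`. -/
theorem toH_PhiT_ofH (n : ℕ) (b : Z (𝒰.levelComplex X') n) :
    KCalc.toH 𝒰 p X (n + 1 + 1) (PhiT 𝒰 p ψ y β hy hβ (n + 1)
        (KCalc.ofH 𝒰 p X' n (classOf (𝒰.levelComplex X') n b))) =
      (-1 : k) ^ n • classOf (𝒰.levelComplex X) (n + 1 + 1)
        ⟨cupR 𝒰 ψ (show n + 2 = n + 1 + 1 from rfl) β b.1, cupR_beta_mem_Z 𝒰 ψ β hβ _ b⟩ := by
  rw [ofH_classOf, PhiT_classOf, KCalc.toH_classOf, ← map_smul]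
  refine congr_arg _ (Subtype.ext ?_)
  rw [mapZ_coe, shiftZ_coe, natCone.inrZ_coe, Phi_inrL]
  rfl

/-! ### Compatibility with the comparison `H^r(X[p]) → T^r(X)` -/

section torsion

/-- The map induced on level cochains by a morphism of coefficients. -/
noncomputable def cmap {M N : Rep.{u} k G} (f : M ⟶ N) (n : ℕ) :
    𝒰.levelCochains M n →ₗ[k] 𝒰.levelCochains N n :=
  (((𝒰.levelComplexFunctor (k := k)).map f).f n).hom

@[simp] theorem cmap_coe_apply {M N : Rep.{u} k G} (f : M ⟶ N) (n : ℕ)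
    (x : 𝒰.levelCochains M n) (g : Fin n → G) : (cmap 𝒰 f n x).1 g = f.hom (x.1 g) := rfl

/-- Naturality of `cupR` in the coefficients. -/
theorem cmap_cupR {A B C A₁ B₁ C₁ : Rep.{u} k G} (φ : Pairing A B C) (φ₁ : Pairing A₁ B₁ C₁)
    (α : A ⟶ A₁) (ρ : B ⟶ B₁) (γ : C ⟶ C₁)
    (hγ : ∀ (a : A) (b : B), γ.hom (φ.toLin a b) = φ₁.toLin (α.hom a) (ρ.hom b))
    {i j l : ℕ} (h : i + j = l) (z : 𝒰.levelCochains B j) (a : 𝒰.levelCochains A i) :
    cmap 𝒰 γ l (cupR 𝒰 φ h z a) = cupR 𝒰 φ₁ h (cmap 𝒰 ρ j z) (cmap 𝒰 α i a) := by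
  apply Subtype.ext
  funext g
  rw [cmap_coe_apply, cupR_coe, cupR_coe, cupTo_apply, cupTo_apply, hγ, cmap_coe_apply,
    cmap_coe_apply]
  congr 1
  exact Rep.hom_comm_apply ρ _ _

variable {Rb : Rep.{u} k G}
  (ψp : Pairing (KCalc.torsionRep p X') Rb (KCalc.torsionRep p X)) (red : R ⟶ Rb)
  (hred : ∀ (a : KCalc.torsionRep p X') (r : R),
    (KCalc.torsionι p X).hom (ψp.toLin a (red.hom r)) = ψ.toLin ((KCalc.torsionι p X').hom a) r)

include hred in
/-- `ι (a ∪ red z) = ι a ∪ z` for a cochain `a` with values in the `p`-torsion. -/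
theorem cmap_torsionι_cupR {i j l : ℕ} (h : i + j = l) (z : 𝒰.levelCochains R j)
    (a : 𝒰.levelCochains (KCalc.torsionRep p X') i) :
    cmap 𝒰 (KCalc.torsionι p X) l (cupR 𝒰 ψp h (cmap 𝒰 red j z) a) =
      cupR 𝒰 ψ h z (cmap 𝒰 (KCalc.torsionι p X') i a) := by
  apply Subtype.ext
  funext g
  rw [cmap_coe_apply, cupR_coe, cupR_coe, cupTo_apply, cupTo_apply, cmap_coe_apply,
    cmap_coe_apply]
  rw [← Rep.hom_comm_apply red, hred]

/-- Element form of the comparison chain map `a ↦ (ι a, 0)`. -/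
theorem torsionToKp_f_apply (M : Rep.{u} k G) (n : ℕ)
    (a : 𝒰.levelCochains (KCalc.torsionRep p M) n) :
    ((KCalc.torsionToKp 𝒰 p M).f n).hom a =
      natCone.inlL (KCalc.mulP 𝒰 p M) n (cmap 𝒰 (KCalc.torsionι p M) n a) := rfl

variable (hyb : dL 𝒰 Rb 1 (cmap 𝒰 red 1 y) = 0)

include hyb in
/-- The cup product of a level cocycle with the cocycle `red ∘ y` is a cocycle. -/
theorem cupR_red_mem_Z {n l : ℕ} (h : n + 1 = l)
    (a : Z (𝒰.levelComplex (KCalc.torsionRep p X')) n) :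
    (show (𝒰.levelComplex (KCalc.torsionRep p X)).X l from
      cupR 𝒰 ψp h (cmap 𝒰 red 1 y) a.1) ∈ Z (𝒰.levelComplex (KCalc.torsionRep p X)) l := by
  rw [mem_Z_iff, levelComplex_d_apply, dL_cupR, hyb]
  have ha : dL 𝒰 (KCalc.torsionRep p X') n a.1 = 0 := by
    rw [← levelComplex_d_apply]
    exact a.2
  rw [ha, map_zero, zero_add]
  have : cupR 𝒰 ψp (show n + (1 + 1) = l + 1 by omega) (0 : 𝒰.levelCochains Rb (1 + 1)) a.1 = 0 :=
    Subtype.ext (cupTo_zero_right ψp _ a.1.1)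
  rw [this, smul_zero]

include hred in
/-- **Compatibility with the comparison map** `H^n(X'[p]) → T^n(X')`: on classes coming from the
`p`-torsion, `Φ_y` is the cup product with the class of `y` reduced along `red`. -/
theorem PhiT_torsionToT (n : ℕ) (a : Z (𝒰.levelComplex (KCalc.torsionRep p X')) n) :
    PhiT 𝒰 p ψ y β hy hβ n (KCalc.torsionToT 𝒰 p X' n
        (classOf (𝒰.levelComplex (KCalc.torsionRep p X')) n a)) =
      KCalc.torsionToT 𝒰 p X (n + 1)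
        (classOf (𝒰.levelComplex (KCalc.torsionRep p X)) (n + 1)
          ⟨cupR 𝒰 ψp (show n + 1 = n + 1 from rfl) (cmap 𝒰 red 1 y) a.1,
            cupR_red_mem_Z 𝒰 p y ψp red hyb _ a⟩) := by
  rw [KCalc.torsionToT_classOf, PhiT_classOf, KCalc.torsionToT_classOf]
  refine congr_arg _ (Subtype.ext ?_)
  rw [shiftZ_coe, mapZ_coe, mapZ_coe, torsionToKp_f_apply, torsionToKp_f_apply]
  have h1 := Phi_inlL 𝒰 ψ (KCalc.mulP 𝒰 p X') (KCalc.mulP 𝒰 p X) y β n
    (cmap 𝒰 (KCalc.torsionι p X') n a.1)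
  have h2 := cmap_torsionι_cupR 𝒰 p ψ ψp red hred (show n + 1 = n + 1 from rfl) y a.1
  refine h1.trans ?_
  rw [← h2]

/-- `cmap` commutes with the differentials. -/
theorem dL_cmap {M N : Rep.{u} k G} (f : M ⟶ N) (n : ℕ) (x : 𝒰.levelCochains M n) :
    dL 𝒰 N n (cmap 𝒰 f n x) = cmap 𝒰 f (n + 1) (dL 𝒰 M n x) := by
  have h := congr($(((𝒰.levelComplexFunctor (k := k)).map f).comm n (n + 1)) x)
  simp only [ModuleCat.hom_comp, LinearMap.coe_comp, Function.comp_apply] at h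
  rw [← levelComplex_d_apply, ← levelComplex_d_apply]
  exact h

include hy in
/-- If `p` kills `Rb`, the reduction of `y` is a cocycle. -/
theorem dL_cmap_red_eq_zero (hRb : ∀ r : Rb, (p : k) • r = 0) :
    dL 𝒰 Rb 1 (cmap 𝒰 red 1 y) = 0 := by
  rw [dL_cmap, hy, map_smul]
  apply Subtype.ext
  funext g
  exact hRb _

end torsion

end Fermat.Agent.Lib.CFT.Duality.KCalcCup
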