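import Fermat.Agent.Lib.CFT.Duality.BaseCase.KDatum
import Fermat.Agent.Lib.CFT.Duality.BaseCase.KCalcCupT
import Fermat.Agent.Lib.CFT.Duality.ConeCup
import Fermat.Agent.Lib.CFT.Duality.BaseCase.Bockstein

/-!
# Cup products with a Bockstein pair and the zigzag of the base case

A pairing of `KDatum`s `K₁ × Rt → K₂` and a Bockstein pair `(y, β)` of `Rt` (`d y = p • β`) give a
degree-one morphism of zigzag data `K₁.zig → K₂.zig`, hence the compatibility of `theta` with the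
cup product with `y` on `H_c(N)` and with `PhiT` on `T(C)`.
-/

set_option autoImplicit false
set_option linter.unusedSectionVars false

open CategoryTheory Fermat.Agent.Lib.CFT.Profinite

namespace Fermat.Agent.Lib.CFT.Duality.KCalc

open ConcreteHomology Fermat.Agent.Lib.CFT.Duality.Zigzag Fermat.Agent.Lib.CFT.Coh.Cup
  Fermat.Agent.Lib.CFT.Duality.KCalcCup

/-! ### Generic degree-one maps -/

section generic

universe u

variable {k : Type u} [CommRing k]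

/-- A degree-raising family commuting with the differentials, as a `Deg1Map`. -/
def deg1OfShift {K L : CochainComplex (ModuleCat.{u} k) ℕ} (Φ : ∀ n, K.X n →ₗ[k] L.X (n + 1))
    (hΦ : ∀ (n : ℕ) (x : K.X n),
      (L.d (n + 1) (n + 1 + 1)).hom (Φ n x) = Φ (n + 1) ((K.d n (n + 1)).hom x)) :
    Deg1Map K L where
  f := Φ
  comm n a := (hΦ n a).symm

theorem deg1OfShift_homologyMap {K L : CochainComplex (ModuleCat.{u} k) ℕ}
    (Φ : ∀ n, K.X n →ₗ[k] L.X (n + 1))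
    (hΦ : ∀ (n : ℕ) (x : K.X n),
      (L.d (n + 1) (n + 1 + 1)).hom (Φ n x) = Φ (n + 1) ((K.d n (n + 1)).hom x))
    (n : ℕ) (x : K.homology n) :
    (deg1OfShift Φ hΦ).homologyMap n x = shiftH Φ hΦ n x := by
  obtain ⟨z, rfl⟩ := classOf_surjective K n x
  rw [Deg1Map.homologyMap_classOf, shiftH_classOf]
  rfl

/-- The product of a family of degree-one maps. -/
noncomputable def piDeg1 {ι : Type u} {K K' : ι → CochainComplex (ModuleCat.{u} k) ℕ}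
    (F : ∀ v, Deg1Map (K v) (K' v)) :
    Deg1Map (PiComplex.piComplex K) (PiComplex.piComplex K') where
  f n := LinearMap.pi fun v => (F v).f n ∘ₗ LinearMap.proj v
  comm n a := by
    funext v
    rw [PiComplex.piComplex_d_apply]
    show (F v).f (n + 1) (((PiComplex.piComplex K).d n (n + 1)).hom a v) = _
    rw [PiComplex.piComplex_d_apply]
    exact (F v).comm n (a v)

@[simp] theorem piDeg1_f_apply {ι : Type u} {K K' : ι → CochainComplex (ModuleCat.{u} k) ℕ}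
    (F : ∀ v, Deg1Map (K v) (K' v)) (n : ℕ) (a : ∀ v, (K v).X n) (v : ι) :
    (piDeg1 F).f n a v = (F v).f n (a v) := rfl

end generic

/-! ### Cup product with a Bockstein pair, on level complexes and on cones -/

section cupDeg1

universe u

variable {k G : Type u} [CommRing k] [Group G] (𝒰 : LevelFamily G) (p : ℕ)
  {X' R X : Rep.{u} k G} (ψ : Pairing X' R X)
  (y : 𝒰.levelCochains R 1) (β : 𝒰.levelCochains R 2)
  (hy : dL 𝒰 R 1 y = (p : k) • β) (hβ : dL 𝒰 R 2 β = 0)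

theorem natCast_smul_levelCochain_eq_zero (hX : ∀ x : X, p • x = 0) {n : ℕ}
    (a : 𝒰.levelCochains X n) : (p : k) • a = 0 := by
  apply Subtype.ext
  funext g
  show (p : k) • a.1 g = 0
  rw [Nat.cast_smul_eq_nsmul k p (a.1 g)]
  exact hX _

/-- Cup product with `y` on the right, as a degree-one map of level complexes, for a target
module killed by `p`. -/
noncomputable def cupDeg1 (hX : ∀ x : X, p • x = 0) :
    Deg1Map (𝒰.levelComplex X') (𝒰.levelComplex X) where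
  f n := cupR 𝒰 ψ (show n + 1 = n + 1 from rfl) y
  comm n a := by
    rw [levelComplex_d_apply, levelComplex_d_apply, dL_cupR, cupR_dL_one 𝒰 ψ y β hy,
      natCast_smul_levelCochain_eq_zero 𝒰 p hX, smul_zero, add_zero]

@[simp] theorem cupDeg1_f_apply (hX : ∀ x : X, p • x = 0) (n : ℕ) (a : 𝒰.levelCochains X' n) :
    (cupDeg1 𝒰 p ψ y β hy hX).f n a = cupR 𝒰 ψ (show n + 1 = n + 1 from rfl) y a := rfl

/-- The Bockstein-twisted cup product `Φ_y` as a degree-one map of cones. -/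
noncomputable def PhiDeg1 : Deg1Map (Kp 𝒰 p X') (Kp 𝒰 p X) :=
  deg1OfShift (Phi 𝒰 ψ (mulP 𝒰 p X') (mulP 𝒰 p X) y β)
    (d_Phi 𝒰 ψ (mulP 𝒰 p X') (mulP 𝒰 p X) y β (mulP_hom_apply 𝒰 p X') (mulP_hom_apply 𝒰 p X)
      hy hβ)

@[simp] theorem PhiDeg1_f_apply (n : ℕ) (x : (Kp 𝒰 p X').X n) :
    (PhiDeg1 𝒰 p ψ y β hy hβ).f n x = Phi 𝒰 ψ (mulP 𝒰 p X') (mulP 𝒰 p X) y β n x := rfl

theorem PhiDeg1_homologyMap (n : ℕ) (t : T 𝒰 p X' n) :
    (PhiDeg1 𝒰 p ψ y β hy hβ).homologyMap n t = PhiT 𝒰 p ψ y β hy hβ n t :=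
  deg1OfShift_homologyMap _ _ n t

end cupDeg1

/-! ### Naturality of `Φ_y` for the maps of the `K(X)`-calculus -/

section naturality

universe u

variable {k G : Type u} [CommRing k] [Group G] (𝒰 : LevelFamily G) (p : ℕ)
  {R : Rep.{u} k G} (y : 𝒰.levelCochains R 1) (β : 𝒰.levelCochains R 2)

theorem cmap_id {M : Rep.{u} k G} (n : ℕ) (z : 𝒰.levelCochains M n) :
    cmap 𝒰 (𝟙 M) n z = z := rfl

/-- `kerToKp` intertwines the cup product with `y` and `Φ_y`. -/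
theorem kerToKp_cupR {N₁ E₁ N₂ E₂ : Rep.{u} k G} (ψN : Pairing N₁ R N₂) (ψE : Pairing E₁ R E₂)
    (ι₁ : N₁ ⟶ E₁) (h₁ : ∀ a : N₁, p • ι₁.hom a = 0) (ι₂ : N₂ ⟶ E₂)
    (h₂ : ∀ a : N₂, p • ι₂.hom a = 0)
    (hc : ∀ (a : N₁) (r : R), ι₂.hom (ψN.toLin a r) = ψE.toLin (ι₁.hom a) r)
    (n : ℕ) (a : 𝒰.levelCochains N₁ n) :
    ((kerToKp 𝒰 p ι₂ h₂).f (n + 1)).hom (cupR 𝒰 ψN (show n + 1 = n + 1 from rfl) y a) =
      Phi 𝒰 ψE (mulP 𝒰 p E₁) (mulP 𝒰 p E₂) y β n (((kerToKp 𝒰 p ι₁ h₁).f n).hom a) := by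
  have h1 : ((kerToKp 𝒰 p ι₁ h₁).f n).hom a =
      natCone.inlL (mulP 𝒰 p E₁) n (cmap 𝒰 ι₁ n a) := rfl
  have h2 : ((kerToKp 𝒰 p ι₂ h₂).f (n + 1)).hom (cupR 𝒰 ψN (show n + 1 = n + 1 from rfl) y a) =
      natCone.inlL (mulP 𝒰 p E₂) (n + 1)
        (cmap 𝒰 ι₂ (n + 1) (cupR 𝒰 ψN (show n + 1 = n + 1 from rfl) y a)) := rfl
  rw [h1, h2, Phi_inlL, cmap_cupR 𝒰 ψN ψE ι₁ (𝟙 R) ι₂ (fun a r => hc a r), cmap_id]

/-- `Φ_y` is natural in the coefficient modules. -/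
theorem KpMap_Phi {X' X X'₁ X₁ : Rep.{u} k G} (ψ : Pairing X' R X) (ψ₁ : Pairing X'₁ R X₁)
    (α : X' ⟶ X'₁) (γ : X ⟶ X₁)
    (hγ : ∀ (a : X') (r : R), γ.hom (ψ.toLin a r) = ψ₁.toLin (α.hom a) r)
    (n : ℕ) (x : (Kp 𝒰 p X').X n) :
    ((KpMap 𝒰 p γ).f (n + 1)).hom (Phi 𝒰 ψ (mulP 𝒰 p X') (mulP 𝒰 p X) y β n x) =
      Phi 𝒰 ψ₁ (mulP 𝒰 p X'₁) (mulP 𝒰 p X₁) y β n (((KpMap 𝒰 p α).f n).hom x) := by
  have hc : ∀ {i j l : ℕ} (h : i + j = l) (z : 𝒰.levelCochains R j) (a : 𝒰.levelCochains X' i),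
      cmap 𝒰 γ l (cupR 𝒰 ψ h z a) = cupR 𝒰 ψ₁ h z (cmap 𝒰 α i a) := fun h z a => by
    rw [cmap_cupR 𝒰 ψ ψ₁ α (𝟙 R) γ (fun a r => hγ a r), cmap_id]
  cases n with
  | zero =>
    refine natCone.ext_succ (mulP 𝒰 p X₁) ?_ ?_
    · rw [fstL_Phi_zero]
      show cmap 𝒰 γ (0 + 1) (natCone.fstL (mulP 𝒰 p X) (0 + 1)
        (Phi 𝒰 ψ (mulP 𝒰 p X') (mulP 𝒰 p X) y β 0 x)) = _
      rw [fstL_Phi_zero, hc]
      rfl
    · rw [sndL_Phi_zero]
      show cmap 𝒰 γ 0 (natCone.sndL (mulP 𝒰 p X) 0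
        (Phi 𝒰 ψ (mulP 𝒰 p X') (mulP 𝒰 p X) y β 0 x)) = _
      rw [sndL_Phi_zero, map_zero]
  | succ n =>
    refine natCone.ext_succ (mulP 𝒰 p X₁) ?_ ?_
    · rw [fstL_Phi_succ]
      show cmap 𝒰 γ (n + 1 + 1) (natCone.fstL (mulP 𝒰 p X) (n + 1 + 1)
        (Phi 𝒰 ψ (mulP 𝒰 p X') (mulP 𝒰 p X) y β (n + 1) x)) = _
      rw [fstL_Phi_succ, map_add, map_smul, hc, hc]
      rfl
    · rw [sndL_Phi_succ]
      show cmap 𝒰 γ (n + 1) (natCone.sndL (mulP 𝒰 p X) (n + 1)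
        (Phi 𝒰 ψ (mulP 𝒰 p X') (mulP 𝒰 p X) y β (n + 1) x)) = _
      rw [sndL_Phi_succ, hc]
      rfl

section changeOfGroup

variable {H : Type u} [Group H] (𝒱 : LevelFamily H) (φ : H →* G)
  (hφ : LevelFamily.IsCompatible 𝒱 𝒰 φ)

/-- The restriction of a level cochain of `R` to a local group. -/
noncomputable abbrev resCochain (n : ℕ) (z : 𝒰.levelCochains R n) :
    𝒱.levelCochains (Rep.res φ R) n :=
  lmap φ hφ (𝟙 (Rep.res φ R)) n z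

theorem dL_resCochain (n : ℕ) (z : 𝒰.levelCochains R n) :
    dL 𝒱 (Rep.res φ R) n (resCochain 𝒰 𝒱 φ hφ n z) =
      resCochain 𝒰 𝒱 φ hφ (n + 1) (dL 𝒰 R n z) := by
  rw [← levelComplex_d_apply, ← levelComplex_d_apply]
  exact (comm_apply (LevelFamily.levelCochainsMap φ hφ (𝟙 (Rep.res φ R))) n z).symm

include y β in
theorem dL_resCochain_one {c : k} (hy : dL 𝒰 R 1 y = c • β) :
    dL 𝒱 (Rep.res φ R) 1 (resCochain 𝒰 𝒱 φ hφ 1 y) = c • resCochain 𝒰 𝒱 φ hφ 2 β := by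
  rw [dL_resCochain, hy]
  exact map_smul (lmap φ hφ (𝟙 (Rep.res φ R)) 2) c β

include β in
theorem dL_resCochain_two (hβ : dL 𝒰 R 2 β = 0) :
    dL 𝒱 (Rep.res φ R) 2 (resCochain 𝒰 𝒱 φ hφ 2 β) = 0 := by
  rw [dL_resCochain, hβ]
  exact map_zero (lmap φ hφ (𝟙 (Rep.res φ R)) 3)

/-- `Φ_y` is natural for change of group. -/
theorem KpMapOfHom_Phi {X' X : Rep.{u} k G} {X'₁ X₁ : Rep.{u} k H} (ψ : Pairing X' R X)
    (ψ₁ : Pairing X'₁ (Rep.res φ R) X₁) (α : Rep.res φ X' ⟶ X'₁) (γ : Rep.res φ X ⟶ X₁)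
    (hγ : ∀ (a : X') (r : R), γ.hom (ψ.toLin a r) = ψ₁.toLin (α.hom a) r)
    (n : ℕ) (x : (Kp 𝒰 p X').X n) :
    ((KpMapOfHom 𝒰 p 𝒱 φ hφ γ).f (n + 1)).hom
        (Phi 𝒰 ψ (mulP 𝒰 p X') (mulP 𝒰 p X) y β n x) =
      Phi 𝒱 ψ₁ (mulP 𝒱 p X'₁) (mulP 𝒱 p X₁) (resCochain 𝒰 𝒱 φ hφ 1 y)
        (resCochain 𝒰 𝒱 φ hφ 2 β) n (((KpMapOfHom 𝒰 p 𝒱 φ hφ α).f n).hom x) :=
  map_Phi ψ ψ₁ φ hφ α (𝟙 (Rep.res φ R)) γ (fun a r => hγ a r) (mulP 𝒰 p X') (mulP 𝒰 p X)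
    (mulP 𝒱 p X'₁) (mulP 𝒱 p X₁) (mulP_comp_levelCochainsMap 𝒰 p 𝒱 φ hφ α)
    (mulP_comp_levelCochainsMap 𝒰 p 𝒱 φ hφ γ) y β n x

/-- Restriction to a local group commutes with the cup product with `y`. -/
theorem resMap_cupR {X' X : Rep.{u} k G} (ψ : Pairing X' R X) {i j l : ℕ} (h : i + j = l)
    (z : 𝒰.levelCochains R j) (a : 𝒰.levelCochains X' i) :
    lmap φ hφ (𝟙 (Rep.res φ X)) l (cupR 𝒰 ψ h z a) =
      cupR 𝒱 (ψ.res φ) h (resCochain 𝒰 𝒱 φ hφ j z) (lmap φ hφ (𝟙 (Rep.res φ X')) i a) :=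
  lmap_cupR ψ (ψ.res φ) φ hφ (𝟙 _) (𝟙 _) (𝟙 _) (fun _ _ => rfl) h z a

end changeOfGroup

end naturality

/-! ### Cup product with the reduction of a cochain -/

section reduction

universe u

variable {k G : Type u} [CommRing k] [Group G] (𝒰 : LevelFamily G)
  {X' Rt R X : Rep.{u} k G} (ψ : Pairing X' Rt X) (ψb : Pairing X' R X) (red : Rt ⟶ R)
  (hψ : ∀ (a : X') (r : Rt), ψb.toLin a (red.hom r) = ψ.toLin a r)

include hψ in
/-- `a ∪ (red ∘ z) = a ∪ z` if the pairing with `Rt` factors through `red`. -/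
theorem cupL_cmap_red {i j l : ℕ} (h : i + j = l) (z : 𝒰.levelCochains Rt j)
    (a : 𝒰.levelCochains X' i) :
    𝒰.cupL ψb h a (cmap 𝒰 red j z) = cupR 𝒰 ψ h z a := by
  apply Subtype.ext
  funext g
  rw [LevelFamily.cupL_coe, cupR_coe, cupTo_apply, cupTo_apply, cmap_coe_apply,
    ← Rep.hom_comm_apply red, hψ]

end reduction

/-! ### Pairings of `KDatum`s -/

namespace KDatum

variable {k : Type} [CommRing k] {G : Type} [Group G] {D : LocDatum G} {p : ℕ}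

/-- `N` is killed by `p`. -/
theorem smul_N (K : KDatum k D p) (a : K.N) : p • a = 0 := by
  apply K.hι_inj
  rw [map_nsmul, K.hι_tors, map_zero]

/-- A pairing of `KDatum`s `K₁ × Rt → K₂`: pairings on all the modules, compatible with all the
structure maps. -/
structure KPairing (K₁ K₂ : KDatum k D p) (Rt : Rep k G) where
  ψN : Pairing K₁.N Rt K₂.N
  ψE : Pairing K₁.E Rt K₂.E
  ψJ : Pairing K₁.J Rt K₂.J
  ψC : Pairing K₁.C Rt K₂.C
  ψL : ∀ v, Pairing (K₁.L v) (D.resRep Rt v) (K₂.L v)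
  hι : ∀ (a : K₁.N) (r : Rt), K₂.ι.hom (ψN.toLin a r) = ψE.toLin (K₁.ι.hom a) r
  hi : ∀ (e : K₁.E) (r : Rt), K₂.i.hom (ψE.toLin e r) = ψJ.toLin (K₁.i.hom e) r
  hπ : ∀ (j : K₁.J) (r : Rt), K₂.π.hom (ψJ.toLin j r) = ψC.toLin (K₁.π.hom j) r
  hρ : ∀ v (j : K₁.J) (r : Rt),
    (K₂.ρ v).hom (ψJ.toLin j r) = (ψL v).toLin ((K₁.ρ v).hom j) r

namespace KPairing

variable {K₁ K₂ : KDatum k D p} {Rt : Rep k G} (P : KPairing K₁ K₂ Rt)
  (y : D.𝒰.levelCochains Rt 1) (β : D.𝒰.levelCochains Rt 2)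
  (hy : dL D.𝒰 Rt 1 y = (p : k) • β) (hβ : dL D.𝒰 Rt 2 β = 0)

theorem hκ (v : D.ι) (a : K₁.N) (r : Rt) :
    (K₂.κ v).hom ((P.ψN.res (D.φ v)).toLin a r) = (P.ψL v).toLin ((K₁.κ v).hom a) r := by
  rw [κ_hom_apply, κ_hom_apply, Pairing.res_toLin_apply, P.hι, P.hi, P.hρ]

/-- The restriction of `y` to the `v`-th local group. -/
noncomputable abbrev yAt (v : D.ι) : (D.𝒱 v).levelCochains (D.resRep Rt v) 1 :=
  resCochain D.𝒰 (D.𝒱 v) (D.φ v) (D.compat v) 1 y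

/-- The restriction of `β` to the `v`-th local group. -/
noncomputable abbrev βAt (v : D.ι) : (D.𝒱 v).levelCochains (D.resRep Rt v) 2 :=
  resCochain D.𝒰 (D.𝒱 v) (D.φ v) (D.compat v) 2 β

include hy in
theorem hyAt (v : D.ι) :
    dL (D.𝒱 v) (D.resRep Rt v) 1 (yAt y v) = (p : k) • βAt β v :=
  dL_resCochain_one D.𝒰 y β (D.𝒱 v) (D.φ v) (D.compat v) hy

include hβ in
theorem hβAt (v : D.ι) : dL (D.𝒱 v) (D.resRep Rt v) 2 (βAt β v) = 0 :=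
  dL_resCochain_two D.𝒰 β (D.𝒱 v) (D.φ v) (D.compat v) hβ

/-- The degree-one morphism of zigzag data attached to a pairing of `KDatum`s and a Bockstein
pair. -/
noncomputable def hom1 : Zigzag.Hom1 K₁.zig K₂.zig where
  fA := cupDeg1 D.𝒰 p P.ψN y β hy K₂.smul_N
  fB := piDeg1 fun v => cupDeg1 (D.𝒱 v) p (P.ψN.res (D.φ v)) (yAt y v) (βAt β v)
    (hyAt y β hy v) K₂.smul_N
  fKE := PhiDeg1 D.𝒰 p P.ψE y β hy hβ
  fKJ := PhiDeg1 D.𝒰 p P.ψJ y β hy hβ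
  fKC := PhiDeg1 D.𝒰 p P.ψC y β hy hβ
  fKL := piDeg1 fun v => PhiDeg1 (D.𝒱 v) p (P.ψL v) (yAt y v) (βAt β v) (hyAt y β hy v)
    (hβAt β hβ v)
  loc_comm n a := by
    funext v
    exact resMap_cupR D.𝒰 (D.𝒱 v) (D.φ v) (D.compat v) P.ψN _ y a
  u_comm n a := kerToKp_cupR D.𝒰 p y β P.ψN P.ψE K₁.ι K₁.hι_tors K₂.ι K₂.hι_tors P.hι n a
  uL_comm n b := by
    funext v
    exact kerToKp_cupR (D.𝒱 v) p (yAt y v) (βAt β v) (P.ψN.res (D.φ v)) (P.ψL v) (K₁.κ v)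
      (K₁.κ_tors v) (K₂.κ v) (K₂.κ_tors v) (P.hκ v) n (b v)
  i_comm n x := KpMap_Phi D.𝒰 p y β P.ψE P.ψJ K₁.i K₂.i P.hi n x
  π_comm n x := KpMap_Phi D.𝒰 p y β P.ψJ P.ψC K₁.π K₂.π P.hπ n x
  lam_comm n x := by
    funext v
    exact KpMapOfHom_Phi D.𝒰 p y β (D.𝒱 v) (D.φ v) (D.compat v) P.ψJ (P.ψL v) (K₁.ρ v) (K₂.ρ v)
      (P.hρ v) n x

/-- **Compatibility of `theta` with cup products**: the zigzag intertwines the degree-one map
`(a, b) ↦ (a ∪ y, b ∪ loc y)` on `H_c(N)` with `PhiT` on `T(C)`. -/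
theorem theta_hom1 {n : ℕ} (hg : K₁.zig.Good n) (hg' : K₂.zig.Good (n + 1))
    (x : D.Hc K₁.N (n + 1)) :
    K₂.theta hg' ((P.hom1 y β hy hβ).coneLoc.homologyMap (n + 1) x) =
      PhiT D.𝒰 p P.ψC y β hy hβ n (K₁.theta hg x) := by
  rw [← PhiDeg1_homologyMap]
  exact Zigzag.Hom1.theta_comm (P.hom1 y β hy hβ) hg hg' x

/-! ### Identification with the cup product on compactly supported cohomology -/

section cupHc

variable {R : Rep k G} (red : Rt ⟶ R) (ψNb : Pairing K₁.N R K₂.N)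
  (hψ : ∀ (a : K₁.N) (r : Rt), ψNb.toLin a (red.hom r) = P.ψN.toLin a r)

include hψ in
/-- On cochains, the degree-one map of cones of `hom1` is the cone cup product with `red ∘ y`. -/
theorem coneLoc_f_eq_coneCup (m : ℕ) (x : (D.coneComplex K₁.N).X m) :
    (P.hom1 y β hy hβ).coneLoc.f m x =
      D.coneCup ψNb (show m + 1 = m + 1 from rfl) x (cmap D.𝒰 red 1 y) := by
  have e : (P.hom1 y β hy hβ).coneLoc.f m x =
      cone1L (D.locMap K₁.N) (D.locMap K₂.N) (P.hom1 y β hy hβ).fA (P.hom1 y β hy hβ).fB m x :=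
    rfl
  rw [e]
  refine natCone.ext_succ (D.locMap K₂.N) ?_ ?_
  · rw [LocDatum.fstL_coneCup, cupL_cmap_red D.𝒰 P.ψN ψNb red hψ, fstL_cone1L]
    rfl
  · cases m with
    | zero =>
      rw [LocDatum.sndL_coneCup_zero, sndL_cone1L_zero]
    | succ m =>
      rw [LocDatum.sndL_coneCup_succ, sndL_cone1L_succ]
      funext v
      rw [LocDatum.locCup_apply]
      exact (cupL_cmap_red (D.𝒱 v) (P.ψN.res (D.φ v)) (ψNb.res (D.φ v))
        ((Rep.resFunctor (D.φ v)).map red) (fun a r => hψ a r) _ (yAt y v) _).symm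

include hψ in
/-- The degree-one map of `hom1` on `H_c(N)` is the cup product with the class of `red ∘ y`. -/
theorem coneLoc_homologyMap_eq_cupHc (m : ℕ) (z : Z (D.𝒰.levelComplex R) 1)
    (hz : z.1 = cmap D.𝒰 red 1 y) (x : D.Hc K₁.N m) :
    (P.hom1 y β hy hβ).coneLoc.homologyMap m x =
      D.cupHc ψNb (show m + 1 = m + 1 from rfl) x (classOf (D.𝒰.levelComplex R) 1 z) := by
  obtain ⟨x₀, rfl⟩ := classOf_surjective (D.coneComplex K₁.N) m x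
  refine (Deg1Map.homologyMap_classOf (P.hom1 y β hy hβ).coneLoc m x₀).trans ?_
  rw [LocDatum.cupHc_classOf]
  refine congr_arg _ (Subtype.ext ?_)
  rw [Deg1Map.mapZ1_coe, LocDatum.coneCupZ_coe, hz]
  exact coneLoc_f_eq_coneCup P y β hy hβ red ψNb hψ m x₀.1

include hψ in
/-- **Main compatibility**: `theta (x ∪ [red ∘ y]) = PhiT_y (theta x)`. -/
theorem theta_cupHc {n : ℕ} (hg : K₁.zig.Good n) (hg' : K₂.zig.Good (n + 1))
    (z : Z (D.𝒰.levelComplex R) 1) (hz : z.1 = cmap D.𝒰 red 1 y) (x : D.Hc K₁.N (n + 1)) :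
    K₂.theta hg' (D.cupHc ψNb (show n + 1 + 1 = n + 1 + 1 from rfl) x
        (classOf (D.𝒰.levelComplex R) 1 z)) =
      PhiT D.𝒰 p P.ψC y β hy hβ n (K₁.theta hg x) := by
  rw [← coneLoc_homologyMap_eq_cupHc P y β hy hβ red ψNb hψ (n + 1) z hz x]
  exact theta_hom1 P y β hy hβ hg hg' x

include hψ in
/-- The main compatibility, for a Bockstein pair in the sense of `Bockstein.BockPair`:
`theta (x ∪ redClass b) = PhiT_b (theta x)`. -/
theorem theta_cupHc_bockPair (hred : Bockstein.IsReduction (p : k) red)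
    (b : Bockstein.BockPair D.𝒰 (p : k) Rt 1) {n : ℕ} (hg : K₁.zig.Good n)
    (hg' : K₂.zig.Good (n + 1)) (x : D.Hc K₁.N (n + 1)) :
    K₂.theta hg' (D.cupHc ψNb (show n + 1 + 1 = n + 1 + 1 from rfl) x
        (Bockstein.redClass D.𝒰 hred 1 b)) =
      PhiT D.𝒰 p P.ψC b.1.1 b.1.2 b.2 (Bockstein.BockPair.d_snd hred.torsionFree b) n
        (K₁.theta hg x) :=
  theta_cupHc P b.1.1 b.1.2 b.2 (Bockstein.BockPair.d_snd hred.torsionFree b) red ψNb hψ hg hg'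
    (D.𝒰.levelCocyclesEquiv R 1 (Bockstein.redCocycle D.𝒰 hred 1 b)) rfl x

end cupHc

end KPairing

end KDatum

end Fermat.Agent.Lib.CFT.Duality.KCalc
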