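import Fermat.Agent.Lib.CFT.Duality.BaseCase.GlobalBaseCase
import Fermat.Agent.Lib.CFT.Duality.BaseCase.KDatumCup

/-!
# The base case in degrees `(2, 1)` from a pairing of zigzag data

Given a pairing of zigzag data `K_M × Rt → K_μ`, a reduction `red : Rt ⟶ R` modulo `p` and an
identification `R ≅ M'` compatible with the evaluation pairing, the hypothesis `hΦ` of
`TraceDatum.beta0_bijective` holds with `P` the Bockstein pairs of `Rt` and `Φ` the
Bockstein-twisted cup products `PhiT` on `T(C)`.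
-/

set_option autoImplicit false

open CategoryTheory Fermat.Agent.Lib.CFT.Profinite

namespace Fermat.Agent.Lib.CFT.Duality.GlobalBase

open KCalc KCalcCup ChangeRing GlobalDuality DevissageStep Fermat.Agent.Lib.CFT.Coh.Cup

variable {p : ℕ} [Fact p.Prime] {G : Type} [Group G] {D : LocDatum G} {χ : G →* (ZMod p)ˣ}

namespace TraceDatum

variable (𝔱 : TraceDatum D χ) {M : Rep.{0} (ZMod p) G} (c : Coeff D p M)
  {Rt R : Rep.{0} ℤ G} (P : KDatum.KPairing c.K 𝔱.c.K Rt) (red : Rt ⟶ R)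
  (hred : Bockstein.IsReduction ((p : ℕ) : ℤ) red)
  (ψNb : Pairing c.K.N R 𝔱.c.K.N)
  (hψ : ∀ (a : c.K.N) (r : Rt), ψNb.toLin a (red.hom r) = P.ψN.toLin a r)
  (eR : intRep (M.dualTwist χ) ≅ R)
  (hev : ∀ (a : intRep M) (r : R), ψNb.toLin (c.e.hom.hom a) r =
    𝔱.c.e.hom.hom ((intPairing (evPairing χ M)).toLin a (eR.inv.hom r)))

/-- The class of `H¹(M')` attached to a Bockstein pair of `Rt`. -/
noncomputable def bockCls (b : Bockstein.BockPair D.𝒰 ((p : ℕ) : ℤ) Rt 1) :
    D.𝒰.levelCohomology (M.dualTwist χ) 1 :=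
  (levelCohomologyInt D.𝒰 (M.dualTwist χ) 1).symm
    ((D.𝒰.levelCohomologyMap eR.inv 1).hom (Bockstein.redClass D.𝒰 hred 1 b))

theorem levelCohomologyMap_iso_bijective {A B : Rep.{0} ℤ G} (e : A ≅ B) (n : ℕ) :
    Function.Bijective (D.𝒰.levelCohomologyMap e.hom n).hom := by
  have h1 := DevissageStep.levelCohomologyMap_comp D.𝒰 e.hom e.inv n
  rw [e.hom_inv_id, DevissageStep.levelCohomologyMap_id] at h1
  have h2 := DevissageStep.levelCohomologyMap_comp D.𝒰 e.inv e.hom n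
  rw [e.inv_hom_id, DevissageStep.levelCohomologyMap_id] at h2
  refine Function.bijective_iff_has_inverse.2 ⟨(D.𝒰.levelCohomologyMap e.inv n).hom, fun x => ?_,
    fun x => ?_⟩
  · exact (congr($h1 x)).symm
  · exact (congr($h2 x)).symm

theorem bockCls_surjective (hd : D.𝒰.IsDiscrete Rt) :
    Function.Surjective (bockCls (D := D) (M := M) (χ := χ) red hred eR) := by
  intro y
  obtain ⟨z, hz⟩ := (levelCohomologyMap_iso_bijective (D := D) eR.symm 1).2
    (levelCohomologyInt D.𝒰 (M.dualTwist χ) 1 y)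
  obtain ⟨b, rfl⟩ := Bockstein.redClass_surjective D.𝒰 hred hd 1 z
  refine ⟨b, ?_⟩
  unfold bockCls
  rw [← Iso.symm_hom, hz, AddEquiv.symm_apply_apply]

theorem bockCls_eq_zero_iff (b : Bockstein.BockPair D.𝒰 ((p : ℕ) : ℤ) Rt 1) :
    bockCls (D := D) (M := M) (χ := χ) red hred eR b = 0 ↔
      Bockstein.redClass D.𝒰 hred 1 b = 0 := by
  unfold bockCls
  rw [AddEquiv.map_eq_zero_iff]
  have hinj := (levelCohomologyMap_iso_bijective (D := D) eR.symm 1).1
  rw [Iso.symm_hom] at hinj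
  exact ⟨fun h => hinj (h.trans (map_zero _).symm), fun h => by rw [h, map_zero]⟩

include hψ hev in
/-- The cup product with the class of a Bockstein pair corresponds under the zigzags to the
Bockstein-twisted cup product `PhiT` on `T(C)`. -/
theorem Theta_cupHc_bockCls (good : c.K.zig.Good 1)
    (b : Bockstein.BockPair D.𝒰 ((p : ℕ) : ℤ) Rt 1) (x : D.Hc M 2) :
    𝔱.c.Theta 𝔱.good (D.cupHc (evPairing χ M) (rfl : 2 + 1 = 2 + 1) x
        (bockCls (M := M) (χ := χ) red hred eR b)) =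
      PhiT D.𝒰 p P.ψC b.1.1 b.1.2 b.2 (Bockstein.BockPair.d_snd hred.torsionFree b) 1
        (c.Theta good x) := by
  rw [Coeff.Theta_apply, Coeff.Theta_apply, HcInt_cupHc]
  unfold bockCls
  rw [AddEquiv.apply_symm_apply,
    ← LocDatum.HcMap_cupHc D (intPairing (evPairing χ M)) ψNb c.e.hom eR.inv 𝔱.c.e.hom hev]
  exact P.theta_cupHc_bockPair red ψNb hψ hred b good 𝔱.good _

include hψ hev in
/-- The base case in degrees `(2, 1)` from a pairing of zigzag data and a reduction modulo `p`: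
`β²_M` is bijective as soon as the pairings `invT ∘ PhiT_b` separate points on both sides. -/
theorem beta0_bijective_of_pairing (good : c.K.zig.Good 1)
    [FiniteDimensional (ZMod p) (D.𝒰.levelCohomology (M.dualTwist χ) 1)]
    (hd : D.𝒰.IsDiscrete Rt)
    (hleft : ∀ t : T D.𝒰 p c.K.C 1,
      (∀ b : Bockstein.BockPair D.𝒰 ((p : ℕ) : ℤ) Rt 1,
        𝔱.invT (PhiT D.𝒰 p P.ψC b.1.1 b.1.2 b.2
          (Bockstein.BockPair.d_snd hred.torsionFree b) 1 t) = 0) → t = 0)
    (hright : ∀ b : Bockstein.BockPair D.𝒰 ((p : ℕ) : ℤ) Rt 1,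
      (∀ t : T D.𝒰 p c.K.C 1, 𝔱.invT (PhiT D.𝒰 p P.ψC b.1.1 b.1.2 b.2
          (Bockstein.BockPair.d_snd hred.torsionFree b) 1 t) = 0) →
        Bockstein.redClass D.𝒰 hred 1 b = 0) :
    Function.Bijective (beta0 D χ 2 𝔱.tr M) :=
  𝔱.beta0_bijective c good (bockCls (M := M) (χ := χ) red hred eR)
    (bockCls_surjective red hred eR hd)
    (fun b t => PhiT D.𝒰 p P.ψC b.1.1 b.1.2 b.2 (Bockstein.BockPair.d_snd hred.torsionFree b) 1 t)
    (fun b x => 𝔱.Theta_cupHc_bockCls c P red hred ψNb hψ eR hev good b x)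
    hleft
    (fun b h => (bockCls_eq_zero_iff red hred eR b).2 (hright b h))

end TraceDatum

end Fermat.Agent.Lib.CFT.Duality.GlobalBase
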