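/-
helper1 (P-CFT, L4 duality layer).  Construction of the input `GlobalInput` of the final assembly
(`Duality/PoitouTate.lean`) from the raw base-case data: a trace datum (zigzag for `μ_p` + invariant
map on `T²(C)`), the local-global nonvanishing of the invariant at every place, the mod `p` local
inputs, the zigzag inputs for the modules `Coind_V 𝔽_p`, and vanishing/finiteness with trivial
coefficients.
-/
import Fermat.Agent.Lib.CFT.Duality.BaseCase.GlobalBaseCase
import Fermat.Agent.Lib.CFT.Duality.BaseCase.LocalBase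
import Fermat.Agent.Lib.CFT.Duality.PoitouTate

set_option autoImplicit false

open CategoryTheory Fermat.Agent.Lib.CFT.Profinite

namespace Fermat.Agent.Lib.CFT.Duality.GlobalBase

open KCalc ChangeRing GlobalDuality DevissageStep
open Fermat.Agent.Lib.CFT.Profinite.LevelFamily Fermat.Agent.Lib.CFT.Profinite.LES

/-! ### The local comparison maps are componentwise -/

namespace Coeff

variable {k : Type} [CommRing k] {G : Type} [Group G] {D : LocDatum G} {p : ℕ}
  {M : Rep.{0} k G} (c : Coeff D p M)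

/-- The `v`-component of `locT n x` only depends on the `v`-component of `x`. -/
theorem locT_congr (n : ℕ) {x x' : D.locH M n} {v : D.ι} (h : x v = x' v) :
    c.locT n x v = c.locT n x' v := by
  rw [locT_apply, locT_apply, KDatum.uLT_apply, KDatum.uLT_apply, LocDatum.locHMap_apply,
    LocDatum.locHMap_apply, locHInt_apply, locHInt_apply, h]

open Classical in
/-- A family in `∏ᵥ Tⁿ(L v)` supported at the single place `q` comes from `Hⁿ(H_q, M)`. -/
theorem exists_locT_single (n : ℕ) (q : D.ι) (z : ∀ v, T (D.𝒱 v) p (c.K.L v) n)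
    (hz : ∀ v, v ≠ q → z v = 0) :
    ∃ a : (D.𝒱 q).levelCohomology (D.resRep M q) n,
      c.locT n (Pi.single (M := fun v => (D.𝒱 v).levelCohomology (D.resRep M v) n) q a) = z := by
  obtain ⟨x, hx⟩ := (c.locT_bijective n).2 z
  refine ⟨x q, ?_⟩
  rw [← hx]
  funext v
  by_cases hv : v = q
  · subst hv
    exact c.locT_congr n (Pi.single_eq_same _ _)
  · have h0 : c.locT n (Pi.single (M := fun v => (D.𝒱 v).levelCohomology (D.resRep M v) n)
        q (x q)) v = c.locT n (0 : D.locH M n) v :=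
      c.locT_congr n (Pi.single_eq_of_ne hv _)
    rw [h0, map_zero, hx, hz v hv]
    rfl

end Coeff

/-! ### The local invariant maps defined by a trace datum -/

section Trace

variable {p : ℕ} [Fact p.Prime] {G : Type} [Group G] {D : LocDatum G} {χ : G →* (ZMod p)ˣ}

namespace TraceDatum

variable (𝔱 : TraceDatum D χ)

open Classical in
/-- The local invariant map at the place `v` defined by the global trace:
`H²(H_v, μ) → H³_c(μ) → ZMod p`. -/
noncomputable def invAt (v : D.ι) :
    (D.𝒱 v).levelCohomology (groupCohomology.ofChar (k := ZMod p) (χ.comp (D.φ v))) (1 + 1)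
      →ₗ[ZMod p] ZMod p :=
  𝔱.tr ∘ₗ D.HcOfLocal (groupCohomology.ofChar (k := ZMod p) χ) 2 ∘ₗ
    (LinearMap.single (ZMod p)
      (fun v => (D.𝒱 v).levelCohomology (D.resRep (groupCohomology.ofChar (k := ZMod p) χ) v) 2) v)

open Classical in
theorem invAt_apply (v : D.ι)
    (x : (D.𝒱 v).levelCohomology (D.resRep (groupCohomology.ofChar (k := ZMod p) χ) v) 2) :
    𝔱.invAt v x = 𝔱.tr (D.HcOfLocal (groupCohomology.ofChar (k := ZMod p) χ) 2
      (Pi.single (M := fun v => (D.𝒱 v).levelCohomology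
        (D.resRep (groupCohomology.ofChar (k := ZMod p) χ) v) 2) v x)) := rfl

/-- `(T1)` holds by construction for the local invariant maps defined by the trace. -/
theorem traceCompat_invAt : PoitouTate.TraceCompat D χ 𝔱.tr 𝔱.invAt :=
  PoitouTate.traceCompat_of_single D χ 𝔱.tr 𝔱.invAt fun _ _ => rfl

/-- The local invariant map at `q` is surjective as soon as some class of `T²(J)` supported at `q`
has nonzero invariant. -/
theorem invAt_surjective (q : D.ι)
    (h : ∃ y : T D.𝒰 p 𝔱.c.K.J 2, (∀ v, v ≠ q → 𝔱.c.K.lamT 2 y v = 0) ∧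
      𝔱.invT (TMap D.𝒰 p 𝔱.c.K.π 2 y) ≠ 0) :
    Function.Surjective (𝔱.invAt q) := by
  classical
  obtain ⟨y, hy0, hy⟩ := h
  obtain ⟨a, ha⟩ := 𝔱.c.exists_locT_single 2 q (𝔱.c.K.lamT 2 y) hy0
  obtain ⟨a', ha'⟩ : ∃ a' : (D.𝒱 q).levelCohomology
      (groupCohomology.ofChar (k := ZMod p) (χ.comp (D.φ q))) (1 + 1), 𝔱.invAt q a' ≠ 0 := by
    refine ⟨a, ?_⟩
    have h1 := 𝔱.tr_HcOfLocal _ y ha.symm
    intro h0
    exact hy (h1.symm.trans h0)
  intro t
  refine ⟨(t * (𝔱.invAt q a')⁻¹) • a', ?_⟩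
  rw [map_smul, smul_eq_mul, mul_assoc, inv_mul_cancel₀ ha', mul_one]

end TraceDatum

/-! ### The zigzag inputs for one coefficient module -/

/-- The hypotheses of the two base cases `TraceDatum.beta1_bijective`, `TraceDatum.beta0_bijective`
for a coefficient module `M`. -/
structure ModInput (𝔱 : TraceDatum D χ) (M : Rep.{0} (ZMod p) G) where
  /-- the zigzag datum of `M` -/
  c : Coeff D p M
  good1 : c.K.zig.Good 1
  good2 : c.K.zig.Good 2
  /-- a generator of `H⁰(M')` -/
  b₀ : (M.dualTwist χ).ρ.invariants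
  hspan : ∀ y : D.𝒰.levelCohomology (M.dualTwist χ) 0,
    ∃ a : ZMod p, y = a • (D.𝒰.H0Equiv (M.dualTwist χ)).symm b₀
  /-- the morphism of zigzag data lifting `ev(·, b₀) : M ⟶ μ` -/
  F : KDatum.Hom c.K 𝔱.c.K
  hF : intMap ((evPairing χ M).evalRight b₀) ≫ 𝔱.c.e.hom = c.e.hom ≫ F.fN
  hinv : Function.Bijective fun t : T D.𝒰 p c.K.C 2 => 𝔱.invT (TMap D.𝒰 p F.fC 2 t)
  /-- a parametrisation of `H¹(M')` -/
  P : Type
  cls : P → D.𝒰.levelCohomology (M.dualTwist χ) 1
  hcls : Function.Surjective cls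
  /-- the (Bockstein-twisted) cup products on the `T`-side -/
  Φ : P → T D.𝒰 p c.K.C 1 → T D.𝒰 p 𝔱.c.K.C 2
  hΦ : ∀ (q : P) (x : D.Hc M 2),
    𝔱.c.Theta 𝔱.good (D.cupHc (evPairing χ M) (rfl : 2 + 1 = 2 + 1) x (cls q)) =
      Φ q (c.Theta good1 x)
  hleft : ∀ t : T D.𝒰 p c.K.C 1, (∀ q, 𝔱.invT (Φ q t) = 0) → t = 0
  hright : ∀ q, (∀ t, 𝔱.invT (Φ q t) = 0) → cls q = 0

/-- The two base cases of global duality for a module with zigzag inputs. -/
theorem ModInput.bijective {𝔱 : TraceDatum D χ} {M : Rep.{0} (ZMod p) G} (I : ModInput 𝔱 M)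
    [FiniteDimensional (ZMod p) (D.𝒰.levelCohomology (M.dualTwist χ) 1)] :
    Function.Bijective (beta0 D χ 2 𝔱.tr M) ∧ Function.Bijective (beta1 D χ 2 𝔱.tr M) :=
  ⟨𝔱.beta0_bijective I.c I.good1 I.cls I.hcls I.Φ I.hΦ I.hleft I.hright,
    𝔱.beta1_bijective I.c I.good2 I.b₀ I.hspan I.F I.hF I.hinv⟩

/-- The zigzag inputs for the module `Coind_V 𝔽_p`. -/
abbrev PVInput (𝔱 : TraceDatum D χ) (V : Subgroup G) : Type 1 :=
  ModInput 𝔱 (Additivity.PV (k := ZMod p) V)

end Trace

/-! ### The arithmetic datum -/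

section Arith

open ExtCitation Fermat.Agent.Lib.CFT.Profinite.Bridge
open Fermat.Agent.Lib.CFT.Duality.LocalTate Fermat.Agent.Lib.CFT.Duality.LocalBase
open Fermat.Agent.Lib.CFT.Duality.GlobalVanishing Fermat.Agent.Lib.CFT.Duality.PoitouTate

local notation "Qbar" => AlgebraicClosure ℚ
local notation "Γℚ" => (AlgebraicClosure ℚ ≃ₐ[ℚ] AlgebraicClosure ℚ)

variable (p : ℕ) [Fact p.Prime] (S : Finset Nat.Primes)

/-- **The raw base-case input** of the duality layer. -/
structure BaseInput where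
  /-- the trace datum: a zigzag for `μ_p` and an invariant map on `T²(C)` -/
  𝔱 : TraceDatum (arithDatum S) (cycloChar p)
  /-- local-global compatibility: at every place of `S` some class of `T²(J)` supported at this
  place has nonzero invariant -/
  hLG : ∀ q : (arithDatum S).ι, ∃ y : T (arithDatum S).𝒰 p 𝔱.c.K.J 2,
    (∀ v, v ≠ q → 𝔱.c.K.lamT 2 y v = 0) ∧ 𝔱.invT (TMap (arithDatum S).𝒰 p 𝔱.c.K.π 2 y) ≠ 0
  /-- the mod `p` local inputs on the open subgroups of the local Galois groups -/
  modP : ∀ (q : S) (W : Subgroup (primeLocalGaloisGroup q.1)),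
    W ≤ (localCycloChar p q.1).ker → IsOpenSubgroup (primeLocalLevels q.1) W →
    ModPLocal (restrict (primeLocalLevels q.1) W) p
  /-- the zigzag inputs for `Coind_V 𝔽_p`, `V` a normal level on which `χ` is trivial -/
  pv : ∀ V : Subgroup Γℚ, V.Normal → V ∈ (arithDatum S).𝒰.levels →
    (∀ s ∈ V, cycloChar p s = 1) → PVInput 𝔱 V
  /-- `H³(Γ, Coind_W 𝔽_p) = 0` for the open subgroups `W` of `ker χ` -/
  van : GlobalVanCoind p S 3
  /-- `H¹(W, 𝔽_p)` is finite for the open subgroups `W` of `ker χ` -/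
  fin : GlobalFin p S 1

variable {p S}

namespace BaseInput

variable (I : BaseInput p S)

/-- The local invariant map at `q ∈ S` defined by the global trace. -/
noncomputable def inv (q : S) :
    (primeLocalLevels q.1).levelCohomology
      (groupCohomology.ofChar (k := ZMod p) (localCycloChar p q.1)) 2 →ₗ[ZMod p] ZMod p :=
  I.𝔱.invAt q

theorem inv_surjective (q : S) : Function.Surjective (I.inv q) :=
  I.𝔱.invAt_surjective q (I.hLG q)

/-- The inputs of local Tate duality at the primes of `S`. -/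
noncomputable def loc (q : S) : LocalBase p q.1 :=
  (localBaseFor_of_modP (I.inv q) (I.inv_surjective q) (I.modP q)).toLocalBase

theorem arithInv_loc : arithInv S I.loc = I.𝔱.invAt := rfl

/-- **The input of the final assembly from the raw base-case input.** -/
noncomputable def toGlobalInput (hpS : pPrime p ∈ S) : GlobalInput p S :=
  GlobalInput.ofTrivial hpS I.𝔱.tr I.loc I.𝔱.traceCompat_invAt
    ((globalVan_iff_coind p S 3).2 I.van) I.fin
    (fun V hVn hV hχ => by
      have : NeZero p := ⟨(Fact.out : p.Prime).ne_zero⟩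
      have hop : IsOpenSubgroup (levelsS S) V := ⟨V, hV, le_refl V⟩
      have := hop.finiteIndex
      have hd : (levelsS S).IsDiscrete (Additivity.PV (k := ZMod p) V) :=
        DevissageStep.isDiscrete_PV (levelsS S) V hop
      have : Finite (Additivity.PV (k := ZMod p) V) := DevissageStep.finite_PV V
      have hd' : (levelsS S).IsDiscrete
          ((Additivity.PV (k := ZMod p) V).dualTwist (cycloChar p)) :=
        DualTwist.isDiscrete_dualTwist (cycloChar p) (levelsS S) _ hd
          (exists_level_cycloChar_eq_one hpS)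
      have : Finite ((Additivity.PV (k := ZMod p) V).dualTwist (cycloChar p)) :=
        DualTwist.finite_dualTwist (cycloChar p) _
      have : Module.Finite (ZMod p) ((arithDatum S).𝒰.levelCohomology
          ((Additivity.PV (k := ZMod p) V).dualTwist (cycloChar p)) 1) :=
        GlobalVanishing.finite_levelCohomology hpS I.fin _ hd'
      exact (I.pv V hVn hV hχ).bijective)

end BaseInput

/-- **The frozen statement S55 from the raw base-case input.** -/
theorem s55_of_baseInput (hp2 : p ≠ 2) (hpS : pPrime p ∈ S) (I : BaseInput p S)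
    (M : Rep (ZMod p) Γℚ) [FiniteDimensional (ZMod p) M]
    (hsm : ∀ m : M, ∃ F : IntermediateField ℚ Qbar, FiniteDimensional ℚ F ∧
      ∀ s ∈ F.fixingSubgroup, M.ρ s m = m)
    (hMur : ∀ q : Nat.Primes, q ∉ S → ∀ A : ValuationSubring Qbar,
      A.LiesOverPrime (q : ℕ) → ∀ g ∈ A.inertiaSubgroupIn ℚ, M.ρ g = 1) :
    ∃ B : groupCohomology.sha₁ S (M.dualTwist (cycloChar p)) →ₗ[ZMod p]
        groupCohomology.sha₂ S M →ₗ[ZMod p] ZMod p,
      (∀ y, (∀ x, B y x = 0) → y = 0) ∧ (∀ x, (∀ y, B y x = 0) → x = 0) :=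
  s55_of_globalInput hp2 hpS (I.toGlobalInput hpS) M hsm hMur

end Arith

end Fermat.Agent.Lib.CFT.Duality.GlobalBase
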