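import Fermat.Agent.Lib.CFT.Duality.BaseCase.CoeffPV
import Fermat.Agent.Lib.CFT.Duality.BaseCase.GlobalBaseCup
import Fermat.Agent.Lib.CFT.Duality.BaseCase.BocksteinPV
import Fermat.Agent.Lib.CFT.Duality.BaseCase.GlobalInputOfBase

/-!
# The base case in degrees `(2, 1)` for `Coind_V k`, and the zigzag inputs `PVInput`  (P-CFT, L4)

* `toDualTwist χ φ : B ⟶ A.dualTwist χ` for a pairing `φ : A × B → k(χ)`.
* `dotPairing`, `dotHom`, `dotIso V χ hχ : R k V ≅ (Coind_V k).dualTwist χ`: the twisted dot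
  product on `Coind_V k` is perfect.
* `ψNb V c`: the trace pairing modulo `p`, `P V N × Coind_V (ℤ/p) → N`; `ψNb_red` (`hψ`);
  `eR V hχ : intRep ((Coind_V k)') ≅ BocksteinPV.R V p`; `ψNb_eq_evPairing` (`hev`).
* `beta0_bijective_PV`: the base case `β²` for `Coind_V k`.
* `pvInput`: the structure `GlobalBase.PVInput 𝔱 V` from `good1 good2 hinv hleft hright`.
-/

set_option autoImplicit false

open CategoryTheory Fermat.Agent.Lib.CFT.Profinite

namespace Fermat.Agent.Lib.CFT.Duality.CoeffPVCup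

open Fermat.Agent.Lib.CFT.Duality.DevissageRep Fermat.Agent.Lib.CFT.Duality.CoindDual
open Fermat.Agent.Lib.CFT.Duality.PVCalc Fermat.Agent.Lib.CFT.Duality.PVIso
open Fermat.Agent.Lib.CFT.Duality.CoeffPV Fermat.Agent.Lib.CFT.Coh.Cup

/-! ### A pairing with values in `k(χ)` as a morphism to the twisted dual -/

section ToDual

universe u

variable {k G : Type u} [Field k] [Group G] (χ : G →* kˣ) {A B : Rep.{u} k G}

/-- A pairing `A × B → k(χ)` as a morphism `B ⟶ A' = Hom(A, k(χ))`, `b ↦ φ(·, b)`. -/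
noncomputable def toDualLin (φ : Pairing A B (groupCohomology.ofChar χ)) :
    B →ₗ[k] (A.dualTwist χ) :=
  (φ.toLin.flip : B →ₗ[k] A →ₗ[k] k)

theorem toDualLin_apply (φ : Pairing A B (groupCohomology.ofChar χ)) (b : B) (a : A) :
    (toDualLin χ φ b : Module.Dual k A) a = φ.toLin a b := rfl

/-- A pairing `A × B → k(χ)` as a morphism `B ⟶ A' = Hom(A, k(χ))`, `b ↦ φ(·, b)`. -/
noncomputable def toDualTwist (φ : Pairing A B (groupCohomology.ofChar χ)) :
    B ⟶ A.dualTwist χ :=
  Rep.ofHom (ρ := B.ρ) (σ := (A.dualTwist χ).ρ) ⟨toDualLin χ φ, fun g => by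
    refine LinearMap.ext fun b => ?_
    refine LinearMap.ext fun a => ?_
    show φ.toLin a (B.ρ g b) = ((A.dualTwist χ).ρ g (toDualLin χ φ b)) a
    rw [Rep.dualTwist_ρ_apply]
    show φ.toLin a (B.ρ g b) = (χ g : k) • φ.toLin (A.ρ g⁻¹ a) b
    have h := φ.equivariant g (A.ρ g⁻¹ a) b
    rw [← Module.End.mul_apply, ← map_mul, mul_inv_cancel, map_one, Module.End.one_apply,
      ofChar_ρ_apply] at h
    rw [h, smul_eq_mul]⟩

theorem toDualTwist_hom_apply (φ : Pairing A B (groupCohomology.ofChar χ)) (b : B) (a : A) :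
    ((toDualTwist χ φ).hom b : Module.Dual k A) a = φ.toLin a b := rfl

theorem evPairing_toDualTwist (φ : Pairing A B (groupCohomology.ofChar χ)) (a : A) (b : B) :
    (evPairing χ A).toLin a ((toDualTwist χ φ).hom b) = φ.toLin a b := rfl

end ToDual

/-! ### The twisted dot product on `Coind_V k` is perfect -/

section Dot

universe u

variable {k G : Type u} [Field k] [Group G] (V : Subgroup G) [V.FiniteIndex] (χ : G →* kˣ)
  (hχ : ∀ s ∈ V, χ s = 1)

/-- The pairing `Coind_V k × Coind_V k → k(χ)`, `(a, r) ↦ ∑ x, r x • (pvIso a) x`. -/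
noncomputable def dotPairing :
    Pairing (Additivity.PV (k := k) V) (R k V) (groupCohomology.ofChar χ) :=
  (tracePairing V (groupCohomology.ofChar χ)).comp (pvIso V χ hχ).hom (𝟙 _) (𝟙 _)

theorem dotPairing_toLin_apply (a : Additivity.PV (k := k) V) (r : R k V) :
    (dotPairing V χ hχ).toLin a r =
      (tracePairing V (groupCohomology.ofChar χ)).toLin ((pvIso V χ hχ).hom.hom a) r := rfl

/-- The morphism `Coind_V k ⟶ (Coind_V k)'` given by the twisted dot product. -/
noncomputable def dotHom : R k V ⟶ (Additivity.PV (k := k) V).dualTwist χ :=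
  toDualTwist χ (dotPairing V χ hχ)

theorem dotHom_hom_apply (r : R k V) (a : Additivity.PV (k := k) V) :
    ((dotHom V χ hχ).hom r : Module.Dual k (Additivity.PV (k := k) V)) a =
      (tracePairing V (groupCohomology.ofChar χ)).toLin ((pvIso V χ hχ).hom.hom a) r := rfl

theorem dotHom_injective : Function.Injective (dotHom V χ hχ).hom := by
  classical
  rw [injective_iff_map_eq_zero]
  intro r hr
  apply rcoord_injective V
  funext x
  have h1 := congrArg (fun f : Module.Dual k (Additivity.PV (k := k) V) =>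
    f ((pvIso V χ hχ).inv.hom (delta V χ x))) hr
  simp only at h1
  rw [dotHom_hom_apply] at h1
  have h2 : (pvIso V χ hχ).hom.hom ((pvIso V χ hχ).inv.hom (delta V χ x)) = delta V χ x := by
    show ((pvIso V χ hχ).inv ≫ (pvIso V χ hχ).hom).hom (delta V χ x) = _
    rw [Iso.inv_hom_id]
    rfl
  rw [h2, tracePairing_toLin_apply] at h1
  let _ : Fintype (G ⧸ V) := Fintype.ofFinite _
  have h3 : (qsum V fun y => rcoord V r y • coord V (groupCohomology.ofChar χ) (delta V χ x) y) =
      rcoord V r x := by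
    show (∑ y : G ⧸ V, rcoord V r y • coord V (groupCohomology.ofChar χ) (delta V χ x) y) = _
    rw [Finset.sum_eq_single x]
    · rw [coord_delta, if_pos rfl, smul_eq_mul, mul_one]
    · intro y _ hy
      rw [coord_delta, if_neg (Ne.symm hy), smul_zero]
    · intro h
      exact absurd (Finset.mem_univ x) h
  rw [h3] at h1
  refine h1.trans ?_
  have h0 : rcoord V (0 : R k V) x = 0 := congrFun (coord_zero V (Rep.trivial k G k)) x
  rw [h0]
  rfl

instance finiteDimensional_P (M : Rep.{u} k G) [FiniteDimensional k M] :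
    FiniteDimensional k (P V M) := by
  have : Finite (G ⧸ V) := Subgroup.finite_quotient_of_finiteIndex
  exact Module.Finite.equiv (coordEquiv V M).symm

theorem dotHom_bijective : Function.Bijective (dotHom V χ hχ).hom := by
  have hfd : FiniteDimensional k (R k V) := finiteDimensional_P V (Rep.trivial k G k)
  have hfd' : FiniteDimensional k (Additivity.PV (k := k) V) := hfd
  have hrank : Module.finrank k (R k V) =
      Module.finrank k (Module.Dual k (Additivity.PV (k := k) V)) :=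
    (Subspace.dual_finrank_eq (K := k) (V := Additivity.PV (k := k) V)).symm
  refine ⟨dotHom_injective V χ hχ, ?_⟩
  exact (LinearMap.injective_iff_surjective_of_finrank_eq_finrank
    (f := (dotHom V χ hχ).hom.toLinearMap) hrank).1 (dotHom_injective V χ hχ)

/-- `Coind_V k ≅ (Coind_V k)'` through the twisted dot product. -/
noncomputable def dotIso : R k V ≅ (Additivity.PV (k := k) V).dualTwist χ :=
  Rep.mkIso (Representation.Equiv.mk
    (LinearEquiv.ofBijective (dotHom V χ hχ).hom.toLinearMap (dotHom_bijective V χ hχ))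
    (fun g => by
      refine LinearMap.ext fun r => ?_
      exact Rep.hom_comm_apply (dotHom V χ hχ) g r))

theorem dotIso_hom : (dotIso V χ hχ).hom = dotHom V χ hχ := by
  ext r
  rfl

end Dot

/-! ### The inputs of `TraceDatum.beta0_bijective_of_pairing` for `M = Coind_V k` -/

section Generic

variable {k' G : Type} [CommRing k'] [Group G] {X Y : Rep.{0} k' G}

theorem iso_hom_smul_inv (e : X ≅ Y) (n : k') (m : Y) :
    e.hom.hom (n • e.inv.hom m) = n • m := by
  have h1 : e.hom.hom (n • e.inv.hom m) = n • e.hom.hom (e.inv.hom m) :=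
    map_smul e.hom.hom.toLinearMap n _
  have h2 : e.hom.hom (e.inv.hom m) = m := by
    show (e.inv ≫ e.hom).hom m = _
    rw [Iso.inv_hom_id]
    rfl
  rw [h1, h2]

end Generic

section Base

open Fermat.Agent.Lib.CFT.Duality.GlobalBase Fermat.Agent.Lib.CFT.Duality.KCalc
open Fermat.Agent.Lib.CFT.Duality.ChangeRing

variable {p : ℕ} [Fact p.Prime] {G : Type} [Group G] {D : LocDatum G} {χ : G →* (ZMod p)ˣ}
  (V : Subgroup G) [V.FiniteIndex] (hχ : ∀ s ∈ V, χ s = 1)
  (c : Coeff D p (groupCohomology.ofChar (k := ZMod p) χ))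

/-- The trace pairing modulo `p`: `P V N × Coind_V (ℤ/p) → N`, `(φ, r) ↦ ∑ x, r x • φ x`
(transported from the `ZMod p`-bilinear trace pairing of `k(χ)`). -/
noncomputable def ψNb : Pairing (P V c.K.N) (BocksteinPV.R V p) c.K.N :=
  (intPairing (tracePairing V (groupCohomology.ofChar (k := ZMod p) χ))).comp
    (PMap V c.e.inv ≫ (intPIso V (groupCohomology.ofChar (k := ZMod p) χ)).inv) (𝟙 _) c.e.hom

theorem ψNb_toLin_apply (a : P V c.K.N) (r : BocksteinPV.R V p) :
    (ψNb V c).toLin a r = c.e.hom.hom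
      ((tracePairing V (groupCohomology.ofChar (k := ZMod p) χ)).toLin
        ((intPIso V (groupCohomology.ofChar (k := ZMod p) χ)).inv.hom ((PMap V c.e.inv).hom a))
        r) := rfl

omit [V.FiniteIndex] in
theorem rcoord_red (r : BocksteinPV.Rt V) (x : G ⧸ V) :
    rcoord V ((BocksteinPV.red V p).hom r : R (ZMod p) V) x =
      ((rcoord V (r : R ℤ V) x : ℤ) : ZMod p) := by
  induction x using QuotientGroup.induction_on with
  | H h => rfl

/-- `hψ`: the trace pairing modulo `p` lifts the integral trace pairing. -/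
theorem ψNb_red (a : P V c.K.N) (r : BocksteinPV.Rt V) :
    (ψNb V c).toLin a ((BocksteinPV.red V p).hom r) = (tracePairing V c.K.N).toLin a r := by
  rw [ψNb_toLin_apply, tracePairing_toLin_apply, tracePairing_toLin_apply,
    map_qsum V c.e.hom.hom]
  refine qsum_congr V fun x => ?_
  rw [coord_intPIso_inv, coord_PMap, rcoord_red]
  have h1 : ((rcoord V (r : R ℤ V) x : ℤ) : ZMod p) •
      (c.e.inv.hom (coord V c.K.N a x) : groupCohomology.ofChar (k := ZMod p) χ) =
      (rcoord V (r : R ℤ V) x : ℤ) •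
        (c.e.inv.hom (coord V c.K.N a x) : intRep (groupCohomology.ofChar (k := ZMod p) χ)) :=
    Int.cast_smul_eq_zsmul (ZMod p) _ _
  exact (congrArg c.e.hom.hom h1).trans
    (iso_hom_smul_inv c.e (rcoord V (r : R ℤ V) x) (coord V c.K.N a x))

/-- The identification `(Coind_V k)' ≅ Coind_V (ℤ/p)` over `ℤ`. -/
noncomputable def eR :
    intRep ((Additivity.PV (k := ZMod p) V).dualTwist χ) ≅ BocksteinPV.R V p :=
  ((intFunctor (ZMod p) G).mapIso (dotIso V χ hχ)).symm

theorem eR_inv_hom_apply (r : BocksteinPV.R V p) (a : Additivity.PV (k := ZMod p) V) :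
    (((eR V hχ).inv.hom r : (Additivity.PV (k := ZMod p) V).dualTwist χ) :
      Module.Dual (ZMod p) (Additivity.PV (k := ZMod p) V)) a =
      (tracePairing V (groupCohomology.ofChar (k := ZMod p) χ)).toLin
        ((pvIso V χ hχ).hom.hom a) r := rfl

/-- `hev`: the trace pairing modulo `p` corresponds to the evaluation pairing of `Coind_V k`. -/
theorem ψNb_eq_evPairing (hV : LES.IsOpenSubgroup D.𝒰 V)
    (a : intRep (Additivity.PV (k := ZMod p) V)) (r : BocksteinPV.R V p) :
    (ψNb V c).toLin ((coeffPV V c hV hχ).e.hom.hom a) r =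
      c.e.hom.hom ((intPairing (evPairing χ (Additivity.PV (k := ZMod p) V))).toLin a
        ((eR V hχ).inv.hom r)) := by
  refine (ψNb_toLin_apply V c ((PMap V c.e.hom).hom ((pvIntIso V χ hχ).hom.hom a)) r).trans ?_
  congr 1
  rw [intPairing_toLin_apply, evPairing_toLin_apply, eR_inv_hom_apply]
  have h : (intPIso V (groupCohomology.ofChar (k := ZMod p) χ)).inv.hom
      ((PMap V c.e.inv).hom ((PMap V c.e.hom).hom ((pvIntIso V χ hχ).hom.hom a))) =
      (pvIso V χ hχ).hom.hom a := by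
    apply Subtype.ext
    funext g
    show (c.e.hom ≫ c.e.inv).hom (((pvIso V χ hχ).hom.hom a).1 g) = _
    rw [Iso.hom_inv_id]
    rfl
  rw [h]

include hχ in
open Fermat.Agent.Lib.CFT.Duality.GlobalDuality in
/-- **The base case in degrees `(2, 1)` for `Coind_V k`**: `β²` is bijective as soon as the
zigzag of `P V` applied to the trace datum is defined in degree `1` and the pairings
`invT ∘ PhiT_b` (Bockstein-twisted cup products with the trace pairing on `C`) separate points
on both sides. -/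
theorem beta0_bijective_PV (𝔱 : TraceDatum D χ) (hV : LES.IsOpenSubgroup D.𝒰 V)
    (good : (KDatumPV.pv 𝔱.c.K V hV).zig.Good 1)
    [FiniteDimensional (ZMod p)
      (D.𝒰.levelCohomology ((Additivity.PV (k := ZMod p) V).dualTwist χ) 1)]
    (hleft : ∀ t : T D.𝒰 p (P V 𝔱.c.K.C) 1,
      (∀ b : Bockstein.BockPair D.𝒰 ((p : ℕ) : ℤ) (BocksteinPV.Rt V) 1,
        𝔱.invT (KCalcCup.PhiT D.𝒰 p (tracePairing V 𝔱.c.K.C) b.1.1 b.1.2 b.2
          (Bockstein.BockPair.d_snd (BocksteinPV.isReduction_red V p).torsionFree b) 1 t) = 0) →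
        t = 0)
    (hright : ∀ b : Bockstein.BockPair D.𝒰 ((p : ℕ) : ℤ) (BocksteinPV.Rt V) 1,
      (∀ t : T D.𝒰 p (P V 𝔱.c.K.C) 1,
        𝔱.invT (KCalcCup.PhiT D.𝒰 p (tracePairing V 𝔱.c.K.C) b.1.1 b.1.2 b.2
          (Bockstein.BockPair.d_snd (BocksteinPV.isReduction_red V p).torsionFree b) 1 t) = 0) →
        Bockstein.redClass D.𝒰 (BocksteinPV.isReduction_red V p) 1 b = 0) :
    Function.Bijective (beta0 D χ 2 𝔱.tr (Additivity.PV (k := ZMod p) V)) :=
  𝔱.beta0_bijective_of_pairing (coeffPV V 𝔱.c hV hχ) (KDatumPV.tracePairingK 𝔱.c.K V hV)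
    (BocksteinPV.red V p) (BocksteinPV.isReduction_red V p) (ψNb V 𝔱.c) (ψNb_red V 𝔱.c)
    (eR V hχ) (ψNb_eq_evPairing V hχ 𝔱.c hV) good (BocksteinPV.isDiscrete_Rt V D.𝒰 hV)
    hleft hright

/-- **The zigzag inputs for `Coind_V k`** (`GlobalBase.PVInput`), from the semilocal conditions
`good1`, `good2`, the compatibility of the invariant maps `hinv` and the perfectness of the
Bockstein-twisted trace pairing `hleft`, `hright`. -/
noncomputable def pvInput (𝔱 : TraceDatum D χ) (hV : LES.IsOpenSubgroup D.𝒰 V)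
    (good1 : (KDatumPV.pv 𝔱.c.K V hV).zig.Good 1) (good2 : (KDatumPV.pv 𝔱.c.K V hV).zig.Good 2)
    (hinv : Function.Bijective fun t : T D.𝒰 p (P V 𝔱.c.K.C) 2 =>
      𝔱.invT (TMap D.𝒰 p (sumMap V 𝔱.c.K.C) 2 t))
    (hleft : ∀ t : T D.𝒰 p (P V 𝔱.c.K.C) 1,
      (∀ b : Bockstein.BockPair D.𝒰 ((p : ℕ) : ℤ) (BocksteinPV.Rt V) 1,
        𝔱.invT (KCalcCup.PhiT D.𝒰 p (tracePairing V 𝔱.c.K.C) b.1.1 b.1.2 b.2
          (Bockstein.BockPair.d_snd (BocksteinPV.isReduction_red V p).torsionFree b) 1 t) = 0) →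
        t = 0)
    (hright : ∀ b : Bockstein.BockPair D.𝒰 ((p : ℕ) : ℤ) (BocksteinPV.Rt V) 1,
      (∀ t : T D.𝒰 p (P V 𝔱.c.K.C) 1,
        𝔱.invT (KCalcCup.PhiT D.𝒰 p (tracePairing V 𝔱.c.K.C) b.1.1 b.1.2 b.2
          (Bockstein.BockPair.d_snd (BocksteinPV.isReduction_red V p).torsionFree b) 1 t) = 0) →
        Bockstein.redClass D.𝒰 (BocksteinPV.isReduction_red V p) 1 b = 0) :
    PVInput 𝔱 V where
  c := coeffPV V 𝔱.c hV hχ
  good1 := good1
  good2 := good2
  b₀ := sumInvariant χ V hχ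
  hspan := hspan χ V hχ D.𝒰
  F := KDatumPV.sumHom 𝔱.c.K V hV
  hF := intMap_evalRight_comp V 𝔱.c hV hχ
  hinv := hinv
  P := Bockstein.BockPair D.𝒰 ((p : ℕ) : ℤ) (BocksteinPV.Rt V) 1
  cls := TraceDatum.bockCls (D := D) (χ := χ) (M := Additivity.PV (k := ZMod p) V)
    (BocksteinPV.red V p) (BocksteinPV.isReduction_red V p) (eR V hχ)
  hcls := TraceDatum.bockCls_surjective (BocksteinPV.red V p) (BocksteinPV.isReduction_red V p)
    (eR V hχ) (BocksteinPV.isDiscrete_Rt V D.𝒰 hV)
  Φ := fun b t => KCalcCup.PhiT D.𝒰 p (tracePairing V 𝔱.c.K.C) b.1.1 b.1.2 b.2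
    (Bockstein.BockPair.d_snd (BocksteinPV.isReduction_red V p).torsionFree b) 1 t
  hΦ := fun b x => 𝔱.Theta_cupHc_bockCls (coeffPV V 𝔱.c hV hχ)
    (KDatumPV.tracePairingK 𝔱.c.K V hV) (BocksteinPV.red V p) (BocksteinPV.isReduction_red V p)
    (ψNb V 𝔱.c) (ψNb_red V 𝔱.c) (eR V hχ) (ψNb_eq_evPairing V hχ 𝔱.c hV) good1 b x
  hleft := hleft
  hright := fun b h => (TraceDatum.bockCls_eq_zero_iff (BocksteinPV.red V p)
    (BocksteinPV.isReduction_red V p) (eR V hχ) b).2 (hright b h)

end Base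

end Fermat.Agent.Lib.CFT.Duality.CoeffPVCup
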