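import Fermat.Agent.Lib.CFT.Duality.BaseCase.KDatum

/-!
# Vanishing and finiteness consequences of a `KDatum`

Generic consequences of the `T`-calculus for a `KDatum` (no cone, no zigzag):

* `(V1)` `T³(J) = 0` if the semilocal map is injective in degree `3` and the local `H³` vanish;
* `(V2)` if moreover `T²(J) ⟶ T²(C)` is surjective then `T³(E) = 0` and `H³(G, N) = 0`;
* `(V3)` a criterion for the surjectivity of `T²(J) ⟶ T²(C)` when `T²(C) ≃+ ZMod p`;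
* `(V4')` finiteness of `Hʳ⁺¹(G, N)` from that of `Tʳ(C)` and `Tʳ⁺¹(J)`;
* `(V5)` the equivalence `Tʳ(C') ≃ Tʳ(C)` for `0 ⟶ C' ⟶ C ⟶ Q ⟶ 0` with `p` bijective on `Q`.
-/

set_option autoImplicit false

open CategoryTheory Fermat.Agent.Lib.CFT.Profinite

namespace Fermat.Agent.Lib.CFT.Duality.KCalc

open ConcreteHomology

/-! ### Generic lemmas -/

section generic

/-- In an exact sequence `A ⟶ B ⟶ C` of additive groups with `A` and `C` finite, `B` is finite. -/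
theorem finite_of_exact {A B C : Type*} [AddCommGroup A] [AddCommGroup B] [AddCommGroup C]
    (f : A →+ B) (g : B →+ C) (h : Function.Exact f g) [Finite A] [Finite C] : Finite B := by
  classical
  have hs : ∀ c : Set.range g, ∃ b : B, g b = c.1 := fun c => c.2
  choose s hs using hs
  refine Finite.of_surjective (fun x : A × Set.range g => f x.1 + s x.2) ?_
  intro b
  have hb : g b ∈ Set.range g := ⟨b, rfl⟩
  have h1 : g (b - s ⟨g b, hb⟩) = 0 := by rw [map_sub, hs, sub_self]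
  obtain ⟨a, ha⟩ := (h _).1 h1
  refine ⟨(a, ⟨g b, hb⟩), ?_⟩
  show f a + s ⟨g b, hb⟩ = b
  rw [ha]
  abel

end generic

/-! ### (V5) `T` of a submodule with uniquely `p`-divisible quotient -/

section V5

universe u

variable {k G : Type u} [CommRing k] [Group G] (𝒰 : LevelFamily G) (p : ℕ)
  {S : ShortComplex (Rep.{u} k G)} (hS : S.ShortExact) (hd : 𝒰.IsDiscrete S.X₂)
  (hbij : Function.Bijective fun x : S.X₃ => p • x)

/-- `(V5)`: for `0 ⟶ X₁ ⟶ X₂ ⟶ X₃ ⟶ 0` with `X₂` discrete and `p` bijective on `X₃`, the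
equivalence `Tʳ(X₁) ≃ Tʳ(X₂)`. -/
noncomputable def TEquivOfBijective (r : ℕ) : T 𝒰 p S.X₁ r ≃ₗ[k] T 𝒰 p S.X₂ r :=
  LinearEquiv.ofBijective (TMap 𝒰 p S.f r) (TMap_f_bijective 𝒰 p hS hd hbij r)

@[simp] theorem TEquivOfBijective_apply (r : ℕ) (t : T 𝒰 p S.X₁ r) :
    TEquivOfBijective 𝒰 p hS hd hbij r t = TMap 𝒰 p S.f r t := rfl

theorem toH_TEquivOfBijective (r : ℕ) (t : T 𝒰 p S.X₁ r) :
    toH 𝒰 p S.X₂ r (TEquivOfBijective 𝒰 p hS hd hbij r t) =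
      (𝒰.levelCohomologyMap S.f r).hom (toH 𝒰 p S.X₁ r t) :=
  toH_TMap 𝒰 p S.f r t

theorem TEquivOfBijective_ofH (r : ℕ) (y : 𝒰.levelCohomology S.X₁ r) :
    TEquivOfBijective 𝒰 p hS hd hbij (r + 1) (ofH 𝒰 p S.X₁ r y) =
      ofH 𝒰 p S.X₂ r ((𝒰.levelCohomologyMap S.f r).hom y) :=
  TMap_ofH 𝒰 p S.f r y

/-- `TEquivOfBijective` is natural for morphisms out of the middle term. -/
theorem TMap_TEquivOfBijective_symm {Y : Rep.{u} k G} (g : S.X₂ ⟶ Y) (r : ℕ)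
    (t : T 𝒰 p S.X₂ r) :
    TMap 𝒰 p (S.f ≫ g) r ((TEquivOfBijective 𝒰 p hS hd hbij r).symm t) = TMap 𝒰 p g r t := by
  rw [TMap_comp, ← TEquivOfBijective_apply 𝒰 p hS hd hbij, LinearEquiv.apply_symm_apply]

end V5

/-! ### (V1)–(V4') for a `KDatum` -/

namespace KDatum

variable {k : Type} [CommRing k] {G : Type} [Group G] {D : LocDatum G} {p : ℕ}
  (K : KDatum k D p)

/-- The comparison `Hʳ(G, N) ⟶ Tʳ(E)`. -/
noncomputable def NToTE (r : ℕ) : D.𝒰.levelCohomology K.N r →ₗ[k] T D.𝒰 p K.E r :=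
  kerToT D.𝒰 p K.ι K.hι_tors r

theorem NToTE_bijective (r : ℕ) : Function.Bijective (K.NToTE r) :=
  kerToT_bijective D.𝒰 p K.ι K.hι_tors K.hι_inj K.hι_surj K.hE K.hdivE r

/-- The equivalence `Hʳ(G, N) ≃ Tʳ(E)` (`K3`). -/
noncomputable def NEquivTE (r : ℕ) : D.𝒰.levelCohomology K.N r ≃ₗ[k] T D.𝒰 p K.E r :=
  LinearEquiv.ofBijective (K.NToTE r) (K.NToTE_bijective r)

/-- The local comparison `Hʳ(H_v, N) ⟶ Tʳ(L v)`. -/
noncomputable def NToTLAt (v : D.ι) (r : ℕ) :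
    (D.𝒱 v).levelCohomology (D.resRep K.N v) r →ₗ[k] T (D.𝒱 v) p (K.L v) r :=
  kerToT (D.𝒱 v) p (K.κ v) (K.κ_tors v) r

theorem NToTLAt_bijective (v : D.ι) (r : ℕ) : Function.Bijective (K.NToTLAt v r) :=
  K.uLAt_bijective v r

/-- The local equivalence `Hʳ(H_v, N) ≃ Tʳ(L v)` (`K3`). -/
noncomputable def NEquivTLAt (v : D.ι) (r : ℕ) :
    (D.𝒱 v).levelCohomology (D.resRep K.N v) r ≃ₗ[k] T (D.𝒱 v) p (K.L v) r :=
  LinearEquiv.ofBijective (K.NToTLAt v r) (K.NToTLAt_bijective v r)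

/-- If the local cohomology of `N` vanishes in degree `r`, so does `Tʳ(L v)`. -/
theorem TL_eq_zero (v : D.ι) (r : ℕ)
    (h : ∀ x : (D.𝒱 v).levelCohomology (D.resRep K.N v) r, x = 0) (t : T (D.𝒱 v) p (K.L v) r) :
    t = 0 := by
  obtain ⟨x, rfl⟩ := (K.NToTLAt_bijective v r).2 t
  rw [h x, map_zero]

/-- `(V1)`: if the semilocal map is injective in degree `r` and the local cohomology of `N`
vanishes in degree `r`, then `Tʳ(J) = 0`. -/
theorem TJ_eq_zero (r : ℕ) (hinj : Function.Injective (K.lamT r))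
    (hloc : ∀ v (x : (D.𝒱 v).levelCohomology (D.resRep K.N v) r), x = 0)
    (t : T D.𝒰 p K.J r) : t = 0 := by
  apply hinj
  rw [map_zero]
  funext v
  exact K.TL_eq_zero v r (hloc v) _

/-- The connecting homomorphism `Tʳ(C) ⟶ Tʳ⁺¹(E)`. -/
noncomputable def Tδ (r : ℕ) : T D.𝒰 p K.C r →ₗ[k] T D.𝒰 p K.E (r + 1) :=
  KCalc.Tδ D.𝒰 p (S := K.S) K.hses K.hJ r (r + 1) rfl

theorem exact_TMap_π_Tδ (r : ℕ) : Function.Exact (TMap D.𝒰 p K.π r) (K.Tδ r) :=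
  exact_TMap_g_Tδ D.𝒰 p (S := K.S) K.hses K.hJ r (r + 1) rfl

theorem exact_Tδ_TMap_i (r : ℕ) : Function.Exact (K.Tδ r) (TMap D.𝒰 p K.i (r + 1)) :=
  exact_Tδ_TMap_f D.𝒰 p (S := K.S) K.hses K.hJ r (r + 1) rfl

theorem exact_TMap_i_TMap_π (r : ℕ) : Function.Exact (TMap D.𝒰 p K.i r) (TMap D.𝒰 p K.π r) :=
  exact_TMap_f_TMap_g D.𝒰 p (S := K.S) K.hses K.hJ r

/-- `(V2)`, first part: if `Tʳ⁺¹(J) = 0` and `Tʳ(J) ⟶ Tʳ(C)` is surjective then `Tʳ⁺¹(E) = 0`. -/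
theorem TE_eq_zero (r : ℕ) (hJ0 : ∀ t : T D.𝒰 p K.J (r + 1), t = 0)
    (hsurj : Function.Surjective (TMap D.𝒰 p K.π r)) (t : T D.𝒰 p K.E (r + 1)) : t = 0 := by
  obtain ⟨c, rfl⟩ := (K.exact_Tδ_TMap_i r t).1 (hJ0 _)
  obtain ⟨y, rfl⟩ := hsurj c
  exact (K.exact_TMap_π_Tδ r _).2 ⟨y, rfl⟩

/-- `(V2)`: if `Tʳ⁺¹(J) = 0` and `Tʳ(J) ⟶ Tʳ(C)` is surjective then `Hʳ⁺¹(G, N) = 0`. -/
theorem HN_eq_zero (r : ℕ) (hJ0 : ∀ t : T D.𝒰 p K.J (r + 1), t = 0)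
    (hsurj : Function.Surjective (TMap D.𝒰 p K.π r)) (x : D.𝒰.levelCohomology K.N (r + 1)) :
    x = 0 := by
  apply (K.NToTE_bijective (r + 1)).1
  rw [map_zero]
  exact K.TE_eq_zero r hJ0 hsurj _

/-- `(V1) + (V2)`: the vanishing of `Hʳ⁺¹(G, N)` from the semilocal injectivity, the local
vanishing and the surjectivity of `Tʳ(J) ⟶ Tʳ(C)`. -/
theorem HN_eq_zero_of_semilocal (r : ℕ) (hinj : Function.Injective (K.lamT (r + 1)))
    (hloc : ∀ v (x : (D.𝒱 v).levelCohomology (D.resRep K.N v) (r + 1)), x = 0)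
    (hsurj : Function.Surjective (TMap D.𝒰 p K.π r)) (x : D.𝒰.levelCohomology K.N (r + 1)) :
    x = 0 :=
  K.HN_eq_zero r (K.TJ_eq_zero (r + 1) hinj hloc) hsurj x

/-- `(V3)`: if `Tʳ(C)` is (additively) isomorphic to `ZMod p` with `p` prime, then
`Tʳ(J) ⟶ Tʳ(C)` is surjective as soon as it is non-zero. -/
theorem TMap_π_surjective_of_ne_zero [Fact p.Prime] (r : ℕ) (invT : T D.𝒰 p K.C r ≃+ ZMod p)
    (y : T D.𝒰 p K.J r) (hy : invT (TMap D.𝒰 p K.π r y) ≠ 0) :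
    Function.Surjective (TMap D.𝒰 p K.π r) := by
  intro c
  set a : ZMod p := invT (TMap D.𝒰 p K.π r y) with ha
  have h1 : invT c = (invT c * a⁻¹).val • a := by
    rw [nsmul_eq_mul, ZMod.natCast_zmod_val, mul_assoc, inv_mul_cancel₀ hy, mul_one]
  refine ⟨(invT c * a⁻¹).val • y, invT.injective ?_⟩
  rw [map_nsmul, map_nsmul, ← ha, ← h1]

/-- `(V4')`: `Hʳ⁺¹(G, N)` is finite if `Tʳ(C)` and `Tʳ⁺¹(J)` are finite. -/
theorem finite_HN (r : ℕ) [Finite (T D.𝒰 p K.C r)] [Finite (T D.𝒰 p K.J (r + 1))] :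
    Finite (D.𝒰.levelCohomology K.N (r + 1)) := by
  have h : Finite (T D.𝒰 p K.E (r + 1)) :=
    finite_of_exact (K.Tδ r).toAddMonoidHom (TMap D.𝒰 p K.i (r + 1)).toAddMonoidHom
      (K.exact_Tδ_TMap_i r)
  exact Finite.of_injective _ (K.NToTE_bijective (r + 1)).1

end KDatum

end Fermat.Agent.Lib.CFT.Duality.KCalc
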