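import Fermat.Agent.Lib.CFT.Duality.BaseCase.GlobalTheta
import Fermat.Agent.Lib.CFT.Duality.BaseCase.KDatumVan

/-!
# Vanishing and finiteness for `ZMod p`-coefficients, from a `Coeff`

For `c : Coeff D p M` (a zigzag datum over `ℤ` whose torsion module is `intRep M`):

* `(CV1)` `Coeff.subsingleton_H`: vanishing of `Hʳ⁺¹(G, M)`;
* `(CV2)` `Coeff.finite_H`, `Coeff.finite_H'`: finiteness of `Hʳ⁺¹(G, M)`;
* `(CV3)` `KDatum.Hom.exists_invT_ne_zero`: transport of a class of `T²(J)` concentrated at one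
  place with non-zero invariant along a morphism of `KDatum`s.
-/

set_option autoImplicit false

open CategoryTheory Fermat.Agent.Lib.CFT.Profinite

namespace Fermat.Agent.Lib.CFT.Duality.KCalc

/-! ### Naturality of the comparison maps of a `KDatum` -/

section iso

universe u

variable {k G : Type u} [CommRing k] [Group G] (𝒰 : LevelFamily G)

/-- An isomorphism of representations induces a bijection on level cohomology. -/
theorem levelCohomologyMap_iso_bijective {A B : Rep.{u} k G} (e : A ≅ B) (n : ℕ) :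
    Function.Bijective (𝒰.levelCohomologyMap e.hom n).hom := by
  have h1 : 𝒰.levelCohomologyMap e.hom n ≫ 𝒰.levelCohomologyMap e.inv n = 𝟙 _ := by
    rw [← DevissageStep.levelCohomologyMap_comp, e.hom_inv_id,
      DevissageStep.levelCohomologyMap_id]
  have h2 : 𝒰.levelCohomologyMap e.inv n ≫ 𝒰.levelCohomologyMap e.hom n = 𝟙 _ := by
    rw [← DevissageStep.levelCohomologyMap_comp, e.inv_hom_id,
      DevissageStep.levelCohomologyMap_id]
  refine Function.bijective_iff_has_inverse.2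
    ⟨(𝒰.levelCohomologyMap e.inv n).hom, fun x => ?_, fun x => ?_⟩
  · exact congr($h1 x)
  · exact congr($h2 x)

end iso

namespace KDatum.Hom

variable {k : Type} [CommRing k] {G : Type} [Group G] {D : LocDatum G} {p : ℕ}
  {K K' : KDatum k D p} (f : KDatum.Hom K K')

/-- The semilocal maps commute with a morphism of `KDatum`s. -/
theorem TMap_fL_lamT (n : ℕ) (y : T D.𝒰 p K.J n) (v : D.ι) :
    TMap (D.𝒱 v) p (f.fL v) n (K.lamT n y v) = K'.lamT n (TMap D.𝒰 p f.fJ n y) v :=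
  natCone.homologyMap_sq _ _ _ _ (f.lamAt_comm v) n y

/-- The local comparison maps `Hⁿ(H_v, N) ⟶ Tⁿ(L v)` commute with a morphism of `KDatum`s. -/
theorem TMap_fL_NToTLAt (v : D.ι) (n : ℕ)
    (x : (D.𝒱 v).levelCohomology (D.resRep K.N v) n) :
    TMap (D.𝒱 v) p (f.fL v) n (K.NToTLAt v n x) =
      K'.NToTLAt v n (((D.𝒱 v).levelCohomologyMap ((Rep.resFunctor (D.φ v)).map f.fN) n).hom x) :=
  natCone.homologyMap_sq _ _ _ _ (f.uLAt_comm v) n x

/-- The comparison maps `Hⁿ(G, N) ⟶ Tⁿ(E)` commute with a morphism of `KDatum`s. -/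
theorem TMap_fE_NToTE (n : ℕ) (x : D.𝒰.levelCohomology K.N n) :
    TMap D.𝒰 p f.fE n (K.NToTE n x) = K'.NToTE n ((D.𝒰.levelCohomologyMap f.fN n).hom x) :=
  TMap_kerToT D.𝒰 p K.ι K.hι_tors K'.ι K'.hι_tors f.fN f.fE f.ι_comm n x

theorem TMap_fC_TMap_π (n : ℕ) (y : T D.𝒰 p K.J n) :
    TMap D.𝒰 p f.fC n (TMap D.𝒰 p K.π n y) = TMap D.𝒰 p K'.π n (TMap D.𝒰 p f.fJ n y) := by
  rw [← TMap_comp, ← TMap_comp, f.π_comm]

/-- If `H²(H_v, res N) ⟶ H²(H_v, res N')` is surjective, so is `Tⁿ(L v) ⟶ Tⁿ(L' v)`. -/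
theorem TMap_fL_surjective (v : D.ι) (n : ℕ)
    (h : Function.Surjective
      ((D.𝒱 v).levelCohomologyMap ((Rep.resFunctor (D.φ v)).map f.fN) n).hom) :
    Function.Surjective (TMap (D.𝒱 v) p (f.fL v) n) := by
  intro t
  obtain ⟨x', rfl⟩ := (K'.NToTLAt_bijective v n).2 t
  obtain ⟨x, rfl⟩ := h x'
  exact ⟨K.NToTLAt v n x, f.TMap_fL_NToTLAt v n x⟩

/-- `(CV3)`: transport of a class of `Tⁿ(J')` concentrated at the place `q` with non-zero
invariant along a morphism of `KDatum`s whose local component at `q` is surjective on `Hⁿ`. -/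
theorem exists_invT_ne_zero (q : D.ι) (n : ℕ) (hsurj : Function.Surjective (K.lamT n))
    (hinj : Function.Injective (K'.lamT n)) {A : Type*} [AddCommGroup A]
    (invT : T D.𝒰 p K'.C n →+ A) (y₀ : T D.𝒰 p K'.J n)
    (hy₀ : ∀ v, v ≠ q → K'.lamT n y₀ v = 0) (hne : invT (TMap D.𝒰 p K'.π n y₀) ≠ 0)
    (hq : Function.Surjective
      ((D.𝒱 q).levelCohomologyMap ((Rep.resFunctor (D.φ q)).map f.fN) n).hom) :
    ∃ y : T D.𝒰 p K.J n, TMap D.𝒰 p f.fJ n y = y₀ ∧
      invT (TMap D.𝒰 p f.fC n (TMap D.𝒰 p K.π n y)) ≠ 0 := by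
  classical
  obtain ⟨t₁, ht₁⟩ := f.TMap_fL_surjective q n hq (K'.lamT n y₀ q)
  obtain ⟨y, hy⟩ := hsurj (Pi.single q t₁)
  have hy' : TMap D.𝒰 p f.fJ n y = y₀ := by
    apply hinj
    funext v
    rw [← f.TMap_fL_lamT, hy]
    by_cases hv : v = q
    · subst hv
      rw [Pi.single_eq_same, ht₁]
    · rw [Pi.single_eq_of_ne hv, map_zero, hy₀ v hv]
  refine ⟨y, hy', ?_⟩
  rw [f.TMap_fC_TMap_π, hy']
  exact hne

/-- `(CV3)` combined with `(V3)`: if moreover `invT ∘ Tⁿ(f.fC) : Tⁿ(C) → ZMod p` is bijective,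
then `Tⁿ(J) ⟶ Tⁿ(C)` is surjective. -/
theorem TMap_π_surjective_of_hom [Fact p.Prime] (q : D.ι) (n : ℕ)
    (hsurj : Function.Surjective (K.lamT n)) (hinj : Function.Injective (K'.lamT n))
    (invT : T D.𝒰 p K'.C n →+ ZMod p)
    (hinv : Function.Bijective fun t : T D.𝒰 p K.C n => invT (TMap D.𝒰 p f.fC n t))
    (y₀ : T D.𝒰 p K'.J n) (hy₀ : ∀ v, v ≠ q → K'.lamT n y₀ v = 0)
    (hne : invT (TMap D.𝒰 p K'.π n y₀) ≠ 0)
    (hq : Function.Surjective
      ((D.𝒱 q).levelCohomologyMap ((Rep.resFunctor (D.φ q)).map f.fN) n).hom) :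
    Function.Surjective (TMap D.𝒰 p K.π n) := by
  obtain ⟨y, -, hy⟩ := f.exists_invT_ne_zero q n hsurj hinj invT y₀ hy₀ hne hq
  exact K.TMap_π_surjective_of_ne_zero n
    (AddEquiv.ofBijective (invT.comp (TMap D.𝒰 p f.fC n).toAddMonoidHom) hinv) y hy

end KDatum.Hom

end Fermat.Agent.Lib.CFT.Duality.KCalc

namespace Fermat.Agent.Lib.CFT.Duality.GlobalBase

open KCalc ChangeRing

namespace Coeff

variable {k : Type} [CommRing k] {G : Type} [Group G] {D : LocDatum G} {p : ℕ}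
  {M : Rep.{0} k G} (c : Coeff D p M)

/-- The comparison `Hⁿ(G, M) ≃+ Hⁿ(G, K.N)`. -/
noncomputable def HEquivN (n : ℕ) :
    D.𝒰.levelCohomology M n ≃+ D.𝒰.levelCohomology c.K.N n :=
  (levelCohomologyInt D.𝒰 M n).trans
    (LinearEquiv.ofBijective (D.𝒰.levelCohomologyMap c.e.hom n).hom
      (levelCohomologyMap_iso_bijective D.𝒰 c.e n)).toAddEquiv

theorem HEquivN_apply (n : ℕ) (x : D.𝒰.levelCohomology M n) :
    c.HEquivN n x = (D.𝒰.levelCohomologyMap c.e.hom n).hom (levelCohomologyInt D.𝒰 M n x) := rfl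

/-- The local comparison `Hⁿ(H_v, res M) ≃+ Hⁿ(H_v, res K.N)`. -/
noncomputable def HEquivNAt (v : D.ι) (n : ℕ) :
    (D.𝒱 v).levelCohomology (D.resRep M v) n ≃+ (D.𝒱 v).levelCohomology (D.resRep c.K.N v) n :=
  (levelCohomologyInt (D.𝒱 v) (D.resRep M v) n).trans
    (LinearEquiv.ofBijective
      ((D.𝒱 v).levelCohomologyMap ((Rep.resFunctor (D.φ v)).map c.e.hom) n).hom
      (levelCohomologyMap_iso_bijective (D.𝒱 v) ((Rep.resFunctor (D.φ v)).mapIso c.e)
        n)).toAddEquiv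

/-- `(CV1)`: vanishing of `Hʳ⁺¹(G, M)` from the semilocal injectivity, the local vanishing and
the surjectivity of `Tʳ(J) ⟶ Tʳ(C)`. -/
theorem subsingleton_H (r : ℕ) (hinj : Function.Injective (c.K.lamT (r + 1)))
    (hloc : ∀ v, Subsingleton ((D.𝒱 v).levelCohomology (D.resRep M v) (r + 1)))
    (hsurj : Function.Surjective (TMap D.𝒰 p c.K.π r)) :
    Subsingleton (D.𝒰.levelCohomology M (r + 1)) := by
  have hloc' : ∀ v (x : (D.𝒱 v).levelCohomology (D.resRep c.K.N v) (r + 1)), x = 0 := by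
    intro v x
    have := hloc v
    obtain ⟨x', rfl⟩ := (c.HEquivNAt v (r + 1)).surjective x
    rw [Subsingleton.elim x' 0, map_zero]
  refine ⟨fun x y => (c.HEquivN (r + 1)).injective ?_⟩
  rw [c.K.HN_eq_zero_of_semilocal r hinj hloc' hsurj (c.HEquivN (r + 1) x),
    c.K.HN_eq_zero_of_semilocal r hinj hloc' hsurj (c.HEquivN (r + 1) y)]

/-- `(CV2)`: `Hʳ⁺¹(G, M)` is finite if `Tʳ(C)` and `Tʳ⁺¹(J)` are finite. -/
theorem finite_H (r : ℕ) [Finite (T D.𝒰 p c.K.C r)] [Finite (T D.𝒰 p c.K.J (r + 1))] :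
    Finite (D.𝒰.levelCohomology M (r + 1)) := by
  have := c.K.finite_HN r
  exact Finite.of_injective _ (c.HEquivN (r + 1)).injective

/-- `Tⁿ(J)` is finite if the semilocal map is injective and the local cohomology groups of `M`
are finite. -/
theorem finite_TJ (n : ℕ) (hinj : Function.Injective (c.K.lamT n))
    [∀ v, Finite ((D.𝒱 v).levelCohomology (D.resRep M v) n)] :
    Finite (T D.𝒰 p c.K.J n) := by
  have h1 : ∀ v, Finite (T (D.𝒱 v) p (c.K.L v) n) := fun v =>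
    Finite.of_surjective (fun x => c.K.NToTLAt v n (c.HEquivNAt v n x))
      ((c.K.NToTLAt_bijective v n).2.comp (c.HEquivNAt v n).surjective)
  exact Finite.of_injective _ hinj

/-- `(CV2)`, variant: `Hʳ⁺¹(G, M)` is finite if `Tʳ(C)` is finite, the semilocal map is injective
in degree `r + 1` and the local cohomology groups of `M` in degree `r + 1` are finite. -/
theorem finite_H' (r : ℕ) [Finite (T D.𝒰 p c.K.C r)]
    (hinj : Function.Injective (c.K.lamT (r + 1)))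
    [∀ v, Finite ((D.𝒱 v).levelCohomology (D.resRep M v) (r + 1))] :
    Finite (D.𝒰.levelCohomology M (r + 1)) := by
  have := c.finite_TJ (r + 1) hinj
  exact c.finite_H r

end Coeff

end Fermat.Agent.Lib.CFT.Duality.GlobalBase
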