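import Fermat.Agent.Lib.CFT.Duality.NatCone

/-!
# Two generic facts on `natCone`

* `kerToCone`: for a termwise short exact sequence `0 ⟶ N ⟶ K ⟶ L ⟶ 0` of cochain complexes the
  chain map `N ⟶ natCone φ`, `a ↦ (ι a, 0)`, is bijective on homology in every degree.
* `natCone_homology_eq_zero`: if `φ` is termwise bijective, `natCone φ` is acyclic.
-/

set_option autoImplicit false

universe u

open CategoryTheory

namespace Fermat.Agent.Lib.CFT.Duality.KCalc

open ConcreteHomology

variable {k : Type u} [CommRing k] {N K L : CochainComplex (ModuleCat.{u} k) ℕ}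
  (ι : N ⟶ K) (φ : K ⟶ L)

theorem comm_apply {A B : CochainComplex (ModuleCat.{u} k) ℕ} (f : A ⟶ B) (n : ℕ) (x : A.X n) :
    (f.f (n + 1)).hom ((A.d n (n + 1)).hom x) = (B.d n (n + 1)).hom ((f.f n).hom x) := by
  have h := congr($(f.comm n (n + 1)) x)
  simp only [ModuleCat.hom_comp, LinearMap.coe_comp, Function.comp_apply] at h
  exact h.symm

theorem d_d_apply (A : CochainComplex (ModuleCat.{u} k) ℕ) (n : ℕ) (x : A.X n) :
    (A.d (n + 1) (n + 1 + 1)).hom ((A.d n (n + 1)).hom x) = 0 :=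
  congr($(A.d_comp_d n (n + 1) (n + 1 + 1)) x)

theorem mk_zero_eq_inlL (n : ℕ) (a : K.X (n + 1)) :
    natCone.mk φ a 0 = natCone.inlL φ (n + 1) a := by
  rw [natCone.mk_eq, map_zero, add_zero]

/-- The chain map `N ⟶ natCone φ`, `a ↦ (ι a, 0)`, for `ι ≫ φ = 0`. -/
noncomputable def kerToCone (h : ι ≫ φ = 0) : N ⟶ natCone φ where
  f n := ModuleCat.ofHom (natCone.inlL φ n ∘ₗ (ι.f n).hom)
  comm' i j hij := by
    obtain rfl : i + 1 = j := hij
    refine ModuleCat.hom_ext (LinearMap.ext fun a => ?_)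
    show ((natCone φ).d i (i + 1)).hom (natCone.inlL φ i ((ι.f i).hom a)) =
      natCone.inlL φ (i + 1) ((ι.f (i + 1)).hom ((N.d i (i + 1)).hom a))
    rw [natCone.d_inlL, comm_apply ι i a]
    have h0 : (φ.f i).hom ((ι.f i).hom a) = 0 := by
      have h1 : (ι ≫ φ).f i = 0 := by rw [h]; rfl
      have := congr($h1 a)
      simpa using this
    rw [h0, mk_zero_eq_inlL]

@[simp]
theorem kerToCone_f_apply (h : ι ≫ φ = 0) (n : ℕ) (a : N.X n) :
    ((kerToCone ι φ h).f n).hom a = natCone.inlL φ n ((ι.f n).hom a) := rfl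

section qis

variable (h : ι ≫ φ = 0) (hι : ∀ n, Function.Injective (ι.f n).hom)
  (hφ : ∀ n, Function.Surjective (φ.f n).hom)
  (hex : ∀ n (a : K.X n), (φ.f n).hom a = 0 → ∃ c : N.X n, (ι.f n).hom c = a)

include hι hex in
/-- A cochain of `K` killed by `φ` whose differential is `ι z` comes from a primitive of `z`. -/
theorem exists_primitive {n : ℕ} (z : N.X (n + 1)) (c : K.X n)
    (hc : (K.d n (n + 1)).hom c = (ι.f (n + 1)).hom z) (h0 : (φ.f n).hom c = 0) :
    ∃ c₀ : N.X n, (N.d n (n + 1)).hom c₀ = z := by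
  obtain ⟨c₀, rfl⟩ := hex n c h0
  refine ⟨c₀, hι (n + 1) ?_⟩
  rw [comm_apply ι n c₀, hc]

include hι hφ hex in
theorem kerToCone_homologyMap_injective (n : ℕ) :
    Function.Injective (HomologicalComplex.homologyMap (kerToCone ι φ h) n).hom := by
  rw [injective_iff_map_eq_zero]
  intro y hy
  obtain ⟨z, rfl⟩ := classOf_surjective N n y
  rw [homologyMap_classOf] at hy
  cases n with
  | zero =>
    rw [classOf_eq_zero_iff_zero] at hy ⊢
    have h1 : (mapZ (kerToCone ι φ h) 0 z).1 = 0 := by rw [hy]; rfl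
    rw [mapZ_coe, kerToCone_f_apply] at h1
    have h2 : (ι.f 0).hom z.1 = 0 := by
      rw [← natCone.fstL_inlL φ 0 ((ι.f 0).hom z.1), h1, map_zero]
    apply Subtype.ext
    apply hι 0
    rw [h2]
    exact (map_zero _).symm
  | succ m =>
    rw [classOf_eq_zero_iff_succ] at hy ⊢
    obtain ⟨w, hw⟩ := hy
    rw [mapZ_coe, kerToCone_f_apply] at hw
    have hw1 : (K.d m (m + 1)).hom (natCone.fstL φ m w) = (ι.f (m + 1)).hom z.1 := by
      rw [← natCone.fstL_d, hw, natCone.fstL_inlL]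
    have hw2 := congr_arg (natCone.sndL φ m) hw
    rw [natCone.sndL_inlL] at hw2
    cases m with
    | zero =>
      rw [natCone.sndL_d_zero] at hw2
      exact exists_primitive ι φ hι hex z.1 _ hw1 hw2
    | succ m' =>
      rw [natCone.sndL_d_succ, sub_eq_zero] at hw2
      obtain ⟨c', hc'⟩ := hφ m' (natCone.sndL φ m' w)
      refine exists_primitive ι φ hι hex z.1
        (natCone.fstL φ (m' + 1) w - (K.d m' (m' + 1)).hom c') ?_ ?_
      · rw [map_sub, d_d_apply, sub_zero, hw1]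
      · rw [map_sub, comm_apply φ m' c', hc', hw2, sub_self]

include hι hφ hex in
theorem kerToCone_homologyMap_surjective (n : ℕ) :
    Function.Surjective (HomologicalComplex.homologyMap (kerToCone ι φ h) n).hom := by
  intro y
  obtain ⟨x, rfl⟩ := classOf_surjective (natCone φ) n y
  have hx := (mem_Z_iff _ x.1).1 x.2
  cases n with
  | zero =>
    have h1 : (K.d 0 1).hom (natCone.fstL φ 0 x.1) = 0 := by
      rw [← natCone.fstL_d, hx, map_zero]
    have h2 : (φ.f 0).hom (natCone.fstL φ 0 x.1) = 0 := by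
      rw [← natCone.sndL_d_zero, hx, map_zero]
    obtain ⟨a₀, ha₀⟩ := hex 0 _ h2
    have ha₀Z : a₀ ∈ Z N 0 := by
      rw [mem_Z_iff]
      apply hι 1
      rw [comm_apply ι 0 a₀, ha₀, h1, map_zero]
    refine ⟨classOf N 0 ⟨a₀, ha₀Z⟩, ?_⟩
    rw [homologyMap_classOf]
    congr 1
    apply Subtype.ext
    rw [mapZ_coe, kerToCone_f_apply, ha₀]
    exact natCone.inlL_fstL_zero φ x.1
  | succ m =>
    have h1 : (K.d (m + 1) (m + 1 + 1)).hom (natCone.fstL φ (m + 1) x.1) = 0 := by
      rw [← natCone.fstL_d, hx, map_zero]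
    have h2 : (φ.f (m + 1)).hom (natCone.fstL φ (m + 1) x.1) =
        (L.d m (m + 1)).hom (natCone.sndL φ m x.1) := by
      have := congr_arg (natCone.sndL φ (m + 1)) hx
      rw [natCone.sndL_d_succ] at this
      have h0 : natCone.sndL φ (m + 1) (0 : (natCone φ).X (m + 1 + 1)) = 0 := map_zero _
      rw [h0, sub_eq_zero] at this
      exact this
    obtain ⟨c, hc⟩ := hφ m (natCone.sndL φ m x.1)
    -- a' := a - d c is killed by φ
    have h3 : (φ.f (m + 1)).hom (natCone.fstL φ (m + 1) x.1 - (K.d m (m + 1)).hom c) = 0 := by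
      rw [map_sub, comm_apply φ m c, hc, h2, sub_self]
    obtain ⟨a₀, ha₀⟩ := hex (m + 1) _ h3
    have ha₀Z : a₀ ∈ Z N (m + 1) := by
      rw [mem_Z_iff]
      apply hι (m + 1 + 1)
      rw [comm_apply ι (m + 1) a₀, ha₀, map_sub, h1, d_d_apply, sub_zero, map_zero]
    refine ⟨classOf N (m + 1) ⟨a₀, ha₀Z⟩, ?_⟩
    rw [homologyMap_classOf, ← sub_eq_zero, ← map_sub, classOf_eq_zero_iff_succ]
    refine ⟨-natCone.inlL φ m c, ?_⟩
    rw [map_neg, natCone.d_inlL]
    refine natCone.ext_succ φ ?_ ?_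
    · show _ = natCone.fstL φ (m + 1) ((mapZ (kerToCone ι φ h) (m + 1) ⟨a₀, ha₀Z⟩).1 - x.1)
      rw [mapZ_coe, kerToCone_f_apply, ha₀]
      simp
    · show _ = natCone.sndL φ m ((mapZ (kerToCone ι φ h) (m + 1) ⟨a₀, ha₀Z⟩).1 - x.1)
      rw [mapZ_coe, kerToCone_f_apply, ha₀]
      simp [hc]

include hι hφ hex in
/-- For a termwise short exact sequence `0 ⟶ N ⟶ K ⟶ L ⟶ 0`, the map `N ⟶ natCone φ` is
bijective on homology. -/
theorem kerToCone_homologyMap_bijective (n : ℕ) :
    Function.Bijective (HomologicalComplex.homologyMap (kerToCone ι φ h) n).hom :=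
  ⟨kerToCone_homologyMap_injective ι φ h hι hφ hex n,
    kerToCone_homologyMap_surjective ι φ h hι hφ hex n⟩

end qis

/-- The cone of a termwise bijective map is acyclic. -/
theorem natCone_homology_eq_zero (hφ : ∀ n, Function.Bijective (φ.f n).hom) (n : ℕ)
    (y : (natCone φ).homology n) : y = 0 := by
  obtain ⟨x, rfl⟩ := classOf_surjective (natCone φ) n y
  have hx := (mem_Z_iff _ x.1).1 x.2
  cases n with
  | zero =>
    rw [classOf_eq_zero_iff_zero]
    have h2 : (φ.f 0).hom (natCone.fstL φ 0 x.1) = 0 := by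
      rw [← natCone.sndL_d_zero, hx, map_zero]
    have h3 : natCone.fstL φ 0 x.1 = 0 := (hφ 0).1 (by rw [h2, map_zero])
    apply Subtype.ext
    apply natCone.ext_zero φ
    rw [h3]
    rfl
  | succ m =>
    rw [classOf_eq_zero_iff_succ]
    have h2 : (φ.f (m + 1)).hom (natCone.fstL φ (m + 1) x.1) =
        (L.d m (m + 1)).hom (natCone.sndL φ m x.1) := by
      have := congr_arg (natCone.sndL φ (m + 1)) hx
      rw [natCone.sndL_d_succ] at this
      have h0 : natCone.sndL φ (m + 1) (0 : (natCone φ).X (m + 1 + 1)) = 0 := map_zero _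
      rw [h0, sub_eq_zero] at this
      exact this
    obtain ⟨c, hc⟩ := (hφ m).2 (natCone.sndL φ m x.1)
    have h3 : natCone.fstL φ (m + 1) x.1 = (K.d m (m + 1)).hom c := by
      apply (hφ (m + 1)).1
      rw [h2, comm_apply φ m c, hc]
    refine ⟨natCone.inlL φ m c, ?_⟩
    rw [natCone.d_inlL]
    refine natCone.ext_succ φ ?_ ?_
    · simp [h3]
    · simp [hc]

end Fermat.Agent.Lib.CFT.Duality.KCalc
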