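import Fermat.Agent.Lib.CFT.Duality.BaseCase.KCalcRep
import Fermat.Agent.Lib.CFT.Duality.BaseCase.KCalcCone

/-!
# The `K(X)`-calculus: cone of multiplication by `p` on level cochains

For a level family `𝒰` on `G`, a representation `X` and a natural number `p`:
`mulP 𝒰 p X` is multiplication by `p` on the level complex, `Kp 𝒰 p X` its cone (shifted by `-1`)
and `T 𝒰 p X r` the cohomology of the cone.
-/

set_option autoImplicit false

universe u

open CategoryTheory Fermat.Agent.Lib.CFT.Profinite

namespace Fermat.Agent.Lib.CFT.Duality.KCalc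

open ConcreteHomology

variable {k G : Type u} [CommRing k] [Group G] (𝒰 : LevelFamily G) (p : ℕ) (X : Rep.{u} k G)

/-- Element form of the functoriality of the level complex in the module. -/
theorem levelMap_f_apply {X Y : Rep.{u} k G} (f : X ⟶ Y) (n : ℕ) (x : 𝒰.levelCochains X n)
    (g : Fin n → G) :
    (show 𝒰.levelCochains Y n from
      (((𝒰.levelComplexFunctor (k := k)).map f).f n).hom x).1 g = f.hom (x.1 g) := rfl

/-- Multiplication by `p` on the level complex. -/
noncomputable def mulP : 𝒰.levelComplex X ⟶ 𝒰.levelComplex X :=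
  (𝒰.levelComplexFunctor (k := k)).map (mulRep p X)

theorem mulP_f_apply (n : ℕ) (x : 𝒰.levelCochains X n) (g : Fin n → G) :
    (show 𝒰.levelCochains X n from ((mulP 𝒰 p X).f n).hom x).1 g = p • x.1 g := rfl

theorem mulP_f_apply' (n : ℕ) (x : (𝒰.levelComplex X).X n) :
    ((mulP 𝒰 p X).f n).hom x = p • x := by
  apply Subtype.ext
  funext g
  exact mulP_f_apply 𝒰 p X n x g

theorem mulP_eq : mulP 𝒰 p X = p • 𝟙 (𝒰.levelComplex X) := by
  ext n x : 3
  rw [mulP_f_apply']
  simp

/-- The map induced by `mulP` on level cohomology is multiplication by `p`. -/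
theorem homologyMap_mulP_apply (n : ℕ) (y : 𝒰.levelCohomology X n) :
    (HomologicalComplex.homologyMap (mulP 𝒰 p X) n).hom y = p • y := by
  obtain ⟨z, rfl⟩ := classOf_surjective (𝒰.levelComplex X) n y
  rw [homologyMap_classOf, ← map_nsmul]
  refine congr_arg _ (Subtype.ext ?_)
  rw [mapZ_coe, mulP_f_apply']
  rfl

/-- The cone (shifted by `-1`) of multiplication by `p` on the level complex. -/
noncomputable def Kp : CochainComplex (ModuleCat.{u} k) ℕ := natCone (mulP 𝒰 p X)

/-- The cohomology of the cone of multiplication by `p`. -/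
noncomputable abbrev T (r : ℕ) : ModuleCat.{u} k := (Kp 𝒰 p X).homology r

/-- The chain map from the level complex of the `p`-torsion to the cone, `a ↦ (a, 0)`. -/
noncomputable def torsionToKp : 𝒰.levelComplex (torsionRep p X) ⟶ Kp 𝒰 p X :=
  kerToCone ((𝒰.levelComplexFunctor (k := k)).map (torsionι p X)) (mulP 𝒰 p X) (by
    ext n x : 3
    apply Subtype.ext
    funext g
    exact (x.1 g).2)

/-- `(K3)`: for a `p`-divisible discrete module the level complex of the `p`-torsion computes the
cohomology of the cone. -/
theorem torsionToKp_homologyMap_bijective (hd : 𝒰.IsDiscrete X)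
    (hdiv : ∀ x : X, ∃ y : X, p • y = x) (n : ℕ) :
    Function.Bijective (HomologicalComplex.homologyMap (torsionToKp 𝒰 p X) n).hom := by
  have hX := torsionSeq_shortExact p X hdiv
  refine kerToCone_homologyMap_bijective _ _ _ ?_ ?_ ?_ n
  · intro m a b hab
    apply Subtype.ext
    funext g
    apply torsionι_injective p X
    have := congr_arg Subtype.val hab
    exact congr_fun this g
  · intro m z
    obtain ⟨y, hy, hyz⟩ := 𝒰.exists_levelCochain_lift hX hd z.2
    exact ⟨⟨y, hy⟩, Subtype.ext (funext hyz)⟩
  · intro m a ha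
    obtain ⟨x, hx, hxa⟩ := 𝒰.exists_levelCochain_of_comp_eq_zero hX a.2 (fun g => by
      have := congr_arg Subtype.val ha
      exact congr_fun this g)
    exact ⟨⟨x, hx⟩, Subtype.ext (funext hxa)⟩

/-- `(K4)`: if `p` is bijective on `X`, the cone of multiplication by `p` is acyclic. -/
theorem T_eq_zero_of_bijective (hbij : Function.Bijective fun x : X => p • x) (r : ℕ)
    (y : T 𝒰 p X r) : y = 0 := by
  refine natCone_homology_eq_zero (mulP 𝒰 p X) (fun n => ⟨?_, ?_⟩) r y
  · intro a b hab
    apply Subtype.ext
    funext g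
    apply hbij.1
    have := congr_arg Subtype.val hab
    exact congr_fun this g
  · intro z
    have hsurj : Function.Surjective fun x : X => p • x := hbij.2
    have hinv : ∀ x : X, p • Function.surjInv hsurj x = x := Function.surjInv_eq hsurj
    obtain ⟨U, hU, hc, hfix⟩ := z.2
    refine ⟨⟨Function.surjInv hsurj ∘ z.1, U, hU, hc.comp _, fun g s hs => ?_⟩,
      Subtype.ext (funext fun g => ?_)⟩
    · apply hbij.1
      show p • X.ρ s (Function.surjInv hsurj (z.1 g)) = p • Function.surjInv hsurj (z.1 g)
      rw [← map_nsmul, hinv]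
      exact hfix g s hs
    · exact hinv (z.1 g)

end Fermat.Agent.Lib.CFT.Duality.KCalc
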