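/-
helper95 (P-CFT, L4 duality layer, base cases).  The cone of multiplication by a scalar `c` on an
`ℕ`-indexed cochain complex of modules (the abstract `K(X)`-calculus): its cohomology is killed by
`c` (the null-homotopy `(a, b) ↦ (b, 0)` in element form), and sits in the exact sequences
`0 → Hⁿ(C)/c → Hⁿ⁺¹(K) → Hⁿ⁺¹(C)[c] → 0`.  Specialisation: `T^r(X)` of `KCalc.lean` is killed by `p`.
-/
import Fermat.Agent.Lib.CFT.Duality.NatCone
import Fermat.Agent.Lib.CFT.Duality.BaseCase.KCalc

set_option autoImplicit false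

universe u

open CategoryTheory

namespace Fermat.Agent.Lib.CFT.Duality.ConeMulP

open ConcreteHomology HomologicalComplex Fermat.Agent.Lib.CFT.Duality
  Fermat.Agent.Lib.CFT.Duality.natCone

variable {k : Type u} [CommRing k] (C : CochainComplex (ModuleCat.{u} k) ℕ) (c : k)

/-- Multiplication by the scalar `c` as an endomorphism of the complex `C`. -/
noncomputable def mulHom : C ⟶ C := c • 𝟙 C

@[simp] theorem mulHom_f_apply (n : ℕ) (x : C.X n) : ((mulHom C c).f n).hom x = c • x := by
  unfold mulHom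
  rw [HomologicalComplex.smul_f_apply, HomologicalComplex.id_f]
  rfl

/-- The cone of multiplication by `c`. -/
noncomputable abbrev coneMul : CochainComplex (ModuleCat.{u} k) ℕ := natCone (mulHom C c)

/-- Multiplication by `c` acts as `c` on cohomology. -/
theorem homologyMap_mulHom_apply (n : ℕ) (x : C.homology n) :
    (homologyMap (mulHom C c) n).hom x = c • x := by
  obtain ⟨a, rfl⟩ := classOf_surjective C n x
  rw [homologyMap_classOf, ← map_smul]
  congr 1

/-- The cohomology of the cone of multiplication by `c` is killed by `c`. -/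
theorem smul_homology_eq_zero (n : ℕ) (x : (coneMul C c).homology n) : c • x = 0 := by
  obtain ⟨z, rfl⟩ := classOf_surjective (coneMul C c) n x
  rw [← map_smul]
  cases n with
  | zero =>
    have hz := (mem_Z_zero_iff (mulHom C c) z.1).1 z.2
    rw [mulHom_f_apply] at hz
    have : c • z = 0 := by
      apply Subtype.ext
      apply ext_zero (mulHom C c)
      show fstL (mulHom C c) 0 (c • z.1) = fstL (mulHom C c) 0 0
      rw [map_smul, hz.2, map_zero]
    rw [this, map_zero]
  | succ m =>
    have hz := (mem_Z_succ_iff (mulHom C c) z.1).1 z.2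
    rw [mulHom_f_apply] at hz
    rw [classOf_eq_zero_iff_succ]
    refine ⟨inlL (mulHom C c) m (sndL (mulHom C c) m z.1), ?_⟩
    rw [d_inlL, mulHom_f_apply]
    refine ext_succ (mulHom C c) ?_ ?_
    · rw [fstL_mk, ← hz.2]
      show _ = fstL (mulHom C c) (m + 1) (c • z.1)
      rw [map_smul]
    · rw [sndL_mk]
      show _ = sndL (mulHom C c) m (c • z.1)
      rw [map_smul]

/-- `∂ x = 0` iff `x` is divisible by `c`. -/
theorem bdry_eq_zero_iff' (n : ℕ) (x : C.homology n) :
    bdry (mulHom C c) n x = 0 ↔ ∃ y : C.homology n, c • y = x := by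
  rw [bdry_eq_zero_iff]
  simp only [homologyMap_mulHom_apply]

/-- The image of `Hⁿ⁺¹(K) → Hⁿ⁺¹(C)` is the `c`-torsion (positive degrees and degree zero). -/
theorem smul_eq_zero_iff (n : ℕ) (x : C.homology n) :
    c • x = 0 ↔ ∃ y : (coneMul C c).homology n, (homologyMap (fst (mulHom C c)) n).hom y = x := by
  rw [← homologyMap_mulHom_apply, homologyMap_eq_zero_iff]

/-- The kernel of `Hⁿ⁺¹(K) → Hⁿ⁺¹(C)` is the image of `∂`. -/
theorem homologyMap_fst_eq_zero_iff' (n : ℕ) (x : (coneMul C c).homology (n + 1)) :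
    (homologyMap (fst (mulHom C c)) (n + 1)).hom x = 0 ↔
      ∃ y : C.homology n, bdry (mulHom C c) n y = x :=
  homologyMap_fst_eq_zero_iff (mulHom C c) n x

/-! ### Specialisation to the `K(X)`-calculus of `KCalc.lean` -/

section KCalc

open Fermat.Agent.Lib.CFT.Profinite Fermat.Agent.Lib.CFT.Duality.KCalc

variable {G : Type u} [Group G] (𝒰 : LevelFamily G) (p : ℕ) (X : Rep.{u} k G)

theorem mulP_eq_mulHom : mulP 𝒰 p X = mulHom (𝒰.levelComplex X) (p : k) := by
  rw [mulP_eq]
  unfold mulHom
  rw [Nat.cast_smul_eq_nsmul]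

/-- The groups `T^r(X)` are killed by `p` (so they are `k/p`-modules). -/
theorem smul_T_eq_zero (r : ℕ) (t : T 𝒰 p X r) : p • t = 0 := by
  have h : ∀ (φ : 𝒰.levelComplex X ⟶ 𝒰.levelComplex X)
      (_ : φ = mulHom (𝒰.levelComplex X) (p : k)) (t : (natCone φ).homology r), p • t = 0 := by
    intro φ hφ t
    subst hφ
    rw [← Nat.cast_smul_eq_nsmul k]
    exact smul_homology_eq_zero _ _ r t
  exact h _ (mulP_eq_mulHom 𝒰 p X) t

end KCalc

end Fermat.Agent.Lib.CFT.Duality.ConeMulP
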