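import Fermat.Agent.Lib.CFT.Coh.ClassFormation.Formation
import Fermat.Agent.Lib.CFT.Duality.BaseCase.KCalcSeq
import Fermat.Agent.Lib.CFT.Profinite.LevelLowDegree
import Fermat.Agent.Lib.CFT.Profinite.LevelFinite

/-!
# From class formations to the `p`-primary `T`-groups (part 1)

For a class formation `F` over a level family of `Γ` (`Coh/ClassFormation/Formation.lean`) and a
prime `p` we translate the invariant map `F.inv : H²(F.C) →+ ℚ/ℤ` into statements about the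
groups `Tʳ(F.C)` of the `K(X)`-calculus (`Duality/BaseCase/KCalc.lean`):

* `divP p : ZMod p →+ ℚ/ℤ`, `a ↦ a / p`, is injective with image the `p`-torsion;
* `subsingleton_H1` : `H¹(F.C) = 0` if `H¹` vanishes at all finite layers;
* `exists_inv_eq_divP`, `exists_nsmul_eq` : the image of `F.inv` contains `(1/p)ℤ/ℤ`; `H²(F.C)` is
  `p`-divisible under the hypothesis `(DIV)`;
* `invT : T²(F.C) →+ ZMod p` with `divP (invT t) = F.inv (toH t)`, bijective if `H¹(F.C) = 0` and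
  `p` divides the index of some normal level;
* `ofInv : C^Γ →+ T¹(F.C)`, surjective if `H¹(F.C) = 0`, with kernel `p • C^Γ`.
-/

set_option autoImplicit false
set_option linter.unusedSectionVars false

open CategoryTheory

universe u

namespace Fermat.Agent.Lib.CFT.Duality.FormationT

open Fermat.Agent.Lib.CFT.Profinite Fermat.Agent.Lib.CFT.Profinite.LevelFamily
open Fermat.Agent.Lib.CFT.Coh.ClassFormation Fermat.Agent.Lib.CFT.Duality.KCalc

/-! ### The embedding of `ZMod p` into `ℚ/ℤ` -/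

section DivP

variable (p : ℕ) [Fact p.Prime]

/-- The embedding `ZMod p → ℚ/ℤ`, `a ↦ a / p`. -/
noncomputable def divP : ZMod p →+ AddCircle (1 : ℚ) :=
  ZMod.lift p ⟨zmultiplesHom (AddCircle (1 : ℚ)) (((1 : ℚ) / (p : ℚ) : ℚ) : AddCircle (1 : ℚ)), by
    have hp : (p : ℚ) ≠ 0 := by exact_mod_cast (Fact.out : p.Prime).ne_zero
    show ((p : ℕ) : ℤ) • (((1 : ℚ) / (p : ℚ) : ℚ) : AddCircle (1 : ℚ)) = 0
    rw [← AddCircle.coe_zsmul, AddCircle.coe_eq_zero_iff]
    refine ⟨1, ?_⟩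
    simp only [one_smul, zsmul_eq_mul, Int.cast_natCast]
    field_simp⟩

theorem divP_intCast (m : ℤ) :
    divP p (m : ZMod p) = (((m : ℚ) / (p : ℚ) : ℚ) : AddCircle (1 : ℚ)) := by
  unfold divP
  rw [ZMod.lift_coe]
  show m • (((1 : ℚ) / (p : ℚ) : ℚ) : AddCircle (1 : ℚ)) = _
  rw [← AddCircle.coe_zsmul]
  congr 1
  rw [zsmul_eq_mul]
  ring

theorem divP_apply (a : ZMod p) :
    divP p a = ((((a.val : ℕ) : ℚ) / (p : ℚ) : ℚ) : AddCircle (1 : ℚ)) := by
  have h := divP_intCast p (a.val : ℤ)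
  have : ((a.val : ℤ) : ZMod p) = a := by
    rw [Int.cast_natCast, ZMod.natCast_zmod_val]
  rw [this] at h
  rw [h]
  push_cast
  rfl

theorem divP_injective : Function.Injective (divP p) := by
  have hp : p.Prime := Fact.out
  rw [injective_iff_map_eq_zero]
  intro a ha
  rw [divP_apply, AddCircle.coe_eq_zero_iff] at ha
  obtain ⟨n, hn⟩ := ha
  have hp0 : (p : ℚ) ≠ 0 := by exact_mod_cast hp.ne_zero
  have h1 : ((a.val : ℤ) : ℚ) = ((n * p : ℤ) : ℚ) := by
    push_cast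
    rw [zsmul_eq_mul, mul_one] at hn
    field_simp at hn
    linarith
  have h2 : (a.val : ℤ) = n * p := by exact_mod_cast h1
  have h3 : a.val < p := ZMod.val_lt a
  have h4 : n = 0 := by
    by_contra hne
    rcases lt_or_gt_of_ne hne with h | h
    · have : n * (p : ℤ) < 0 := mul_neg_of_neg_of_pos h (by exact_mod_cast hp.pos)
      omega
    · have : (p : ℤ) ≤ n * p := le_mul_of_one_le_left (by positivity) h
      omega
  rw [h4, zero_mul] at h2
  have : a.val = 0 := by exact_mod_cast h2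
  exact (ZMod.val_eq_zero a).1 this

/-- The image of `divP` is the `p`-torsion of `ℚ/ℤ`. -/
theorem exists_divP_eq (z : AddCircle (1 : ℚ)) (hz : p • z = 0) : ∃ a : ZMod p, divP p a = z := by
  have hp : p.Prime := Fact.out
  have hp0 : (p : ℚ) ≠ 0 := by exact_mod_cast hp.ne_zero
  obtain ⟨q, rfl⟩ := QuotientAddGroup.mk_surjective z
  have h1 : ((p • q : ℚ) : AddCircle (1 : ℚ)) = 0 := by
    rw [AddCircle.coe_nsmul]
    exact hz
  rw [AddCircle.coe_eq_zero_iff] at h1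
  obtain ⟨n, hn⟩ := h1
  refine ⟨(n : ZMod p), ?_⟩
  rw [divP_intCast]
  congr 1
  rw [zsmul_eq_mul, mul_one, nsmul_eq_mul] at hn
  field_simp
  linarith

theorem nsmul_divP (a : ZMod p) : p • divP p a = 0 := by
  rw [← map_nsmul]
  have : p • a = 0 := by
    rw [nsmul_eq_mul, ZMod.natCast_self, zero_mul]
  rw [this, map_zero]

end DivP

/-! ### Consequences of the axioms of a class formation -/

section Formation

variable {k Γ : Type u} [CommRing k] [Group Γ] (F : Formation k Γ) (p : ℕ) [Fact p.Prime]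

/-- `H¹(F.C) = 0` as soon as `H¹` vanishes at all finite layers. -/
theorem subsingleton_H1
    (h : ∀ (U : Subgroup Γ) [U.Normal], U ∈ F.𝒰.levels →
      Subsingleton (groupCohomology (F.C.quotientToInvariants U) 1)) :
    Subsingleton (F.𝒰.levelCohomology F.C 1) := by
  obtain ⟨U₀, hU₀⟩ := F.𝒰.nonempty
  refine ⟨fun x y => ?_⟩
  have key : ∀ z : F.𝒰.levelCohomology F.C 1, z = 0 := by
    intro z
    obtain ⟨V, hV, hn, -, y, rfl⟩ := exists_inflH_eq 1 z hU₀
    have := hn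
    have := h V hV
    rw [Subsingleton.elim y 0, map_zero]
  rw [key x, key y]

/-- The image of `F.inv` contains `(1/p)ℤ/ℤ` if `p` divides the index of a normal level. -/
theorem exists_inv_eq_divP (hp : ∃ U ∈ F.𝒰.levels, U.Normal ∧ p ∣ U.index) (a : ZMod p) :
    ∃ x : F.𝒰.levelCohomology F.C 2, F.inv x = divP p a := by
  obtain ⟨U, hU, hn, hdvd⟩ := hp
  have := hn
  obtain ⟨x, hx⟩ := F.exists_inv_eq U hU p hdvd (a.val : ℤ)
  refine ⟨x, hx.trans ?_⟩
  rw [divP_apply]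
  push_cast
  rfl

/-- The hypothesis `(DIV)`: every normal level contains a normal level of relative index
divisible by `p`. -/
def HasDiv : Prop :=
  ∀ U ∈ F.𝒰.levels, U.Normal → ∃ U' ∈ F.𝒰.levels, U'.Normal ∧ U' ≤ U ∧ p * U.index ∣ U'.index

theorem HasDiv.exists_dvd_index (h : HasDiv F p) : ∃ U ∈ F.𝒰.levels, U.Normal ∧ p ∣ U.index := by
  obtain ⟨U, hU, hn⟩ := F.𝒰.exists_normal
  obtain ⟨U', hU', hn', -, hdvd⟩ := h U hU hn
  exact ⟨U', hU', hn', (dvd_mul_right p _).trans hdvd⟩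

/-- The invariant of a class is of the form `m / [Γ : V]` for a normal level `V`, which can be
taken inside any prescribed level. -/
theorem exists_inv_eq_div_index (y : F.𝒰.levelCohomology F.C 2) {U₀ : Subgroup Γ}
    (hU₀ : U₀ ∈ F.𝒰.levels) :
    ∃ (V : Subgroup Γ) (_ : V ∈ F.𝒰.levels) (_ : V.Normal) (_ : V ≤ U₀) (m : ℤ),
      F.inv y = (((m : ℚ) / (V.index : ℚ) : ℚ) : AddCircle (1 : ℚ)) := by
  obtain ⟨V, hV, hn, hle, y₀, rfl⟩ := exists_inflH_eq 2 y hU₀
  have := hn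
  let _ := levelFintype F.𝒰 V hV
  refine ⟨V, hV, hn, hle, ?_⟩
  obtain ⟨x, rfl⟩ := H2π_surjective (F.C.quotientToInvariants V) y₀
  obtain ⟨m, b, hmb⟩ := (F.isLayer V hV).gen x.1 (isCoc2_of_mem_cocycles₂ x.2)
  refine ⟨m, ?_⟩
  rw [F.inv_inflH V hV]
  have h1 : F.invLevel V hV ((groupCohomology.H2π (F.C.quotientToInvariants V)).hom x) =
      (F.isLayer V hV).invCocycles x := (F.isLayer V hV).invH2_H2π x
  rw [h1]
  refine ((F.isLayer V hV).inv_eq (isCoc2_of_mem_cocycles₂ x.2) m b hmb).trans ?_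
  rw [Subgroup.index_eq_card, Nat.card_eq_fintype_card]

/-- Under `(DIV)` the group `H²(F.C)` is `p`-divisible. -/
theorem exists_nsmul_eq (hdiv : HasDiv F p) (y : F.𝒰.levelCohomology F.C 2) :
    ∃ z : F.𝒰.levelCohomology F.C 2, p • z = y := by
  have hp : p.Prime := Fact.out
  obtain ⟨U₀, hU₀⟩ := F.𝒰.nonempty
  obtain ⟨V, hV, hn, -, m, hm⟩ := exists_inv_eq_div_index F y hU₀
  obtain ⟨V', hV', hn', -, hdvd⟩ := hdiv V hV hn
  have := hn'
  obtain ⟨z, hz⟩ := F.exists_inv_eq V' hV' (p * V.index) hdvd m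
  refine ⟨z, F.inv_injective ?_⟩
  rw [map_nsmul, hz, hm, ← AddCircle.coe_nsmul]
  congr 1
  have := F.𝒰.finiteIndex V hV
  have hV0 : (V.index : ℚ) ≠ 0 := by exact_mod_cast Subgroup.FiniteIndex.index_ne_zero
  have hp0 : (p : ℚ) ≠ 0 := by exact_mod_cast hp.ne_zero
  push_cast
  rw [nsmul_eq_mul]
  field_simp

/-! ### The invariant map on `T²` -/

/-- `F.inv ∘ toH` takes values in the image of `divP`. -/
theorem inv_toH_mem_range (t : T F.𝒰 p F.C 2) :
    F.inv (toH F.𝒰 p F.C 2 t) ∈ (divP p).range := by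
  obtain ⟨a, ha⟩ := exists_divP_eq p (F.inv (toH F.𝒰 p F.C 2 t))
    (by rw [← map_nsmul, smul_toH, map_zero])
  exact ⟨a, ha⟩

/-- **The invariant map** `T²(F.C) →+ ZMod p`, characterised by
`(invT t) / p = F.inv (toH t)` in `ℚ/ℤ`. -/
noncomputable def invT : T F.𝒰 p F.C 2 →+ ZMod p :=
  (AddMonoidHom.ofInjective (divP_injective p)).symm.toAddMonoidHom.comp
    ((F.inv.comp (toH F.𝒰 p F.C 2).toAddMonoidHom).codRestrict (divP p).range
      (fun t => inv_toH_mem_range F p t))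

theorem divP_invT (t : T F.𝒰 p F.C 2) : divP p (invT F p t) = F.inv (toH F.𝒰 p F.C 2 t) := by
  have h := (AddMonoidHom.ofInjective (divP_injective p)).apply_symm_apply
    ⟨F.inv (toH F.𝒰 p F.C 2 t), inv_toH_mem_range F p t⟩
  exact congrArg Subtype.val h

/-- `invT t` is determined by `F.inv (toH t)`. -/
theorem invT_eq_iff (t : T F.𝒰 p F.C 2) (a : ZMod p) :
    invT F p t = a ↔ F.inv (toH F.𝒰 p F.C 2 t) = divP p a := by
  rw [← divP_invT F p t]
  exact ⟨fun h => by rw [h], fun h => divP_injective p h⟩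

theorem invT_injective (hH1 : Subsingleton (F.𝒰.levelCohomology F.C 1)) :
    Function.Injective (invT F p) := by
  rw [injective_iff_map_eq_zero]
  intro t ht
  have h1 : F.inv (toH F.𝒰 p F.C 2 t) = 0 := by
    rw [← divP_invT F p t, ht, map_zero]
  have h2 : toH F.𝒰 p F.C (1 + 1) t = 0 := F.inv_injective (h1.trans (map_zero F.inv).symm)
  obtain ⟨y, rfl⟩ := (toH_eq_zero_iff F.𝒰 p F.C 1 t).1 h2
  rw [Subsingleton.elim y 0, map_zero]

theorem invT_surjective (hp : ∃ U ∈ F.𝒰.levels, U.Normal ∧ p ∣ U.index) :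
    Function.Surjective (invT F p) := by
  intro a
  obtain ⟨x, hx⟩ := exists_inv_eq_divP F p hp a
  have hx0 : p • x = 0 := by
    apply F.inv_injective
    rw [map_nsmul, hx, nsmul_divP, map_zero]
  obtain ⟨t, rfl⟩ := (exists_toH_eq_iff F.𝒰 p F.C 2 x).2 hx0
  exact ⟨t, (invT_eq_iff F p t a).2 hx⟩

/-- The invariant map `T²(F.C) ≃+ ZMod p`. -/
noncomputable def invTEquiv (hH1 : Subsingleton (F.𝒰.levelCohomology F.C 1))
    (hp : ∃ U ∈ F.𝒰.levels, U.Normal ∧ p ∣ U.index) : T F.𝒰 p F.C 2 ≃+ ZMod p :=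
  AddEquiv.ofBijective (invT F p) ⟨invT_injective F p hH1, invT_surjective F p hp⟩

@[simp]
theorem invTEquiv_apply (hH1 : Subsingleton (F.𝒰.levelCohomology F.C 1))
    (hp : ∃ U ∈ F.𝒰.levels, U.Normal ∧ p ∣ U.index) (t : T F.𝒰 p F.C 2) :
    invTEquiv F p hH1 hp t = invT F p t := rfl

/-! ### The invariants modulo `p` and `T¹` -/

/-- The map `C^Γ →+ T¹(F.C)`, `c ↦ ofH [c]`. -/
noncomputable def ofInv : F.C.ρ.invariants →+ T F.𝒰 p F.C 1 :=
  (ofH F.𝒰 p F.C 0).toAddMonoidHom.comp (F.𝒰.H0Equiv F.C).symm.toLinearMap.toAddMonoidHom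

theorem ofInv_apply (c : F.C.ρ.invariants) :
    ofInv F p c = ofH F.𝒰 p F.C 0 ((F.𝒰.H0Equiv F.C).symm c) := rfl

theorem ofInv_surjective (hH1 : Subsingleton (F.𝒰.levelCohomology F.C 1)) :
    Function.Surjective (ofInv F p) := by
  intro t
  have h0 : toH F.𝒰 p F.C (0 + 1) t = 0 := Subsingleton.elim _ _
  obtain ⟨y, rfl⟩ := (toH_eq_zero_iff F.𝒰 p F.C 0 t).1 h0
  exact ⟨F.𝒰.H0Equiv F.C y, by rw [ofInv_apply, LinearEquiv.symm_apply_apply]⟩

/-- The kernel of `ofInv` is `p • C^Γ`. -/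
theorem ofInv_eq_zero_iff (c : F.C.ρ.invariants) :
    ofInv F p c = 0 ↔ ∃ c' : F.C.ρ.invariants, p • c' = c := by
  rw [ofInv_apply, ofH_eq_zero_iff]
  constructor
  · rintro ⟨z, hz⟩
    refine ⟨F.𝒰.H0Equiv F.C z, ?_⟩
    rw [← map_nsmul, hz, LinearEquiv.apply_symm_apply]
  · rintro ⟨c', rfl⟩
    exact ⟨(F.𝒰.H0Equiv F.C).symm c', by rw [map_nsmul]⟩

/-- `T¹(F.C)` is finite if `C^Γ / p` is. -/
theorem finite_T_one (hH1 : Subsingleton (F.𝒰.levelCohomology F.C 1))
    (hfin : Finite (F.C.ρ.invariants ⧸ (nsmulAddMonoidHom (α := F.C.ρ.invariants) p).range)) :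
    Finite (T F.𝒰 p F.C 1) := by
  have hker : (nsmulAddMonoidHom (α := F.C.ρ.invariants) p).range ≤ (ofInv F p).ker := by
    rintro _ ⟨c', rfl⟩
    rw [AddMonoidHom.mem_ker]
    exact (ofInv_eq_zero_iff F p _).2 ⟨c', rfl⟩
  have hsurj : Function.Surjective (QuotientAddGroup.lift _ (ofInv F p) hker) := by
    intro t
    obtain ⟨c, rfl⟩ := ofInv_surjective F p hH1 t
    exact ⟨(c : F.C.ρ.invariants ⧸ _), rfl⟩
  exact Finite.of_surjective _ hsurj

end Formation

end Fermat.Agent.Lib.CFT.Duality.FormationT
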