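import Fermat.Agent.Lib.CFT.Duality.BaseCase.FormationT
import Fermat.Agent.Lib.CFT.Coh.ClassFormation.Restrict
import Fermat.Agent.Lib.CFT.Profinite.CoresT

/-!
# From class formations to the `p`-primary `T`-groups (part 3: corestriction)

(`coresT` = corestriction `Tʳ(V, res M) → Tʳ(G, M)` of `Profinite/CoresT.lean`.)

* `invT_coresT` : for a class formation `F` on `Γ` and a compatible formation `F'` on an open
  subgroup `V` (`IsResCompat`, i.e. `inv_V (res x) = [Γ : V] • inv x`),
  `invT F (coresT t) = invT F' t`;
* `invT_TMap_coindTrace` : the same through the Shapiro isomorphism,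
  `invT F (T²(trace) t) = invT F' (shapiroT t)`.
-/

set_option autoImplicit false
set_option linter.unusedSectionVars false

open CategoryTheory

universe u

namespace Fermat.Agent.Lib.CFT.Duality.FormationT

open Fermat.Agent.Lib.CFT.Profinite Fermat.Agent.Lib.CFT.Profinite.LevelFamily
open Fermat.Agent.Lib.CFT.Profinite.LES
open Fermat.Agent.Lib.CFT.Coh.ClassFormation Fermat.Agent.Lib.CFT.Duality.KCalc

/-! ### Compatibility of the invariant maps -/

section Formation

variable {k Γ : Type u} [CommRing k] [Group Γ] (F : Formation k Γ) (p : ℕ) [Fact p.Prime]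
  (V : Subgroup Γ) (F' : FormationOn (restrict F.𝒰 V) (Rep.res V.subtype F.C))

/-- **Corestriction preserves the invariant on `T²`**: `invT (coresT t) = invT_V t`. -/
theorem invT_coresT (h : IsResCompat F F'.toFormation V.subtype (𝟙 _) V.index)
    (hV : IsOpenSubgroup F.𝒰 V) (t : T (restrict F.𝒰 V) p (Rep.res V.subtype F.C) 2) :
    invT F p (coresT p hV F.discrete 2 t) = invT F'.toFormation p t := by
  rw [invT_eq_iff, toH_coresT, Formation.inv_cores F V F' h hV]
  exact (divP_invT F'.toFormation p t).symm

/-- The same through the Shapiro isomorphism: `invT (T²(trace) s) = invT_V (shapiroT s)`. -/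
theorem invT_TMap_coindTrace (h : IsResCompat F F'.toFormation V.subtype (𝟙 _) V.index)
    (hV : IsOpenSubgroup F.𝒰 V)
    (s : T F.𝒰 p (Rep.coind V.subtype (Rep.res V.subtype F.C)) 2) :
    haveI := hV.finiteIndex
    invT F p (TMap F.𝒰 p (coindTrace V F.C) 2 s) =
      invT F'.toFormation p (shapiroT F.𝒰 p V (Rep.res V.subtype F.C) 2 s) := by
  have := hV.finiteIndex
  rw [← coresT_shapiroT p hV F.discrete 2 s, invT_coresT F p V F' h hV]

end Formation

end Fermat.Agent.Lib.CFT.Duality.FormationT
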