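import Fermat.Agent.Lib.CFT.Duality.BaseCase.FormationTRec
import Fermat.Agent.Lib.CFT.Profinite.LevelH1Trivial
import Fermat.Agent.Lib.CFT.Global.ExistenceFormationSub

/-!
# From class formations to the `p`-primary `T`-groups (part 4: finiteness of `H¹(Γ, 𝔽_p)` and the
`V`-form package)

* `finite_H1_trivial`, `moduleFinite_H1_trivial` : if every level character `Γ → ZMod p` is trivial
  on a fixed subgroup `U₀` of finite index (last conjunct of the existence theorem modulo `p`), then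
  `H¹(𝒰, 𝔽_p)` is a finite `𝔽_p`-module;
* `resChar_eq_of_redClass_eq`, `invT_PhiB_congr` : the reciprocity pairing only depends on the
  reduction class of the Bockstein pair;
* `VForm` : the record of all facts on one group `Γ` consumed by the transfer to coinduced modules;
  `VForm.ofFormation`, `VForm.ofExistence`, `VForm.ofExistenceInt` : its construction from a class
  formation and the existence theorem modulo `p`.
-/

set_option autoImplicit false
set_option linter.unusedSectionVars false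

open CategoryTheory

namespace Fermat.Agent.Lib.CFT.Duality.FormationT

open Fermat.Agent.Lib.CFT.Profinite Fermat.Agent.Lib.CFT.Profinite.LevelFamily

section Fin

variable {Γ : Type} [Group Γ] (𝒰 : LevelFamily Γ) (p : ℕ) [Fact p.Prime]

/-- The multiplicative character attached to a level character. -/
def levelCharToMul (χ : Additive Γ →+ ZMod p) : Γ →* Multiplicative (ZMod p) :=
  AddMonoidHom.toMultiplicativeRight χ

theorem levelCharToMul_apply (χ : Additive Γ →+ ZMod p) (g : Γ) :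
    levelCharToMul p χ g = Multiplicative.ofAdd (χ (Additive.ofMul g)) := rfl

/-- **Finiteness of `H¹(Γ, 𝔽_p)`**: if every level character `Γ → ZMod p` is trivial on a fixed
subgroup `U₀` of finite index, then `H¹(𝒰, 𝔽_p)` is finite. -/
theorem finite_H1_trivial (U₀ : Subgroup Γ) [U₀.FiniteIndex]
    (hfac : ∀ (W : Subgroup Γ) (_ : W ∈ 𝒰.levels) (χ : Γ →* Multiplicative (ZMod p)),
      W ≤ χ.ker → U₀ ≤ χ.ker) :
    Finite (𝒰.levelCohomology (Rep.trivial (ZMod p) Γ (ZMod p)) 1) := by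
  have hvan : ∀ χ : 𝒰.levelChars (Rep.trivial (ZMod p) Γ (ZMod p)), ∀ u ∈ U₀,
      (χ : Additive Γ →+ ZMod p) (Additive.ofMul u) = 0 := by
    intro χ u hu
    obtain ⟨W, hW, hχ⟩ := χ.2
    have h1 : U₀ ≤ (levelCharToMul p χ.1).ker := hfac W hW (levelCharToMul p χ.1) (fun s hs => by
      rw [MonoidHom.mem_ker, levelCharToMul_apply, hχ s hs]
      rfl)
    have h2 := MonoidHom.mem_ker.1 (h1 hu)
    rw [levelCharToMul_apply] at h2
    exact Multiplicative.ofAdd.injective h2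
  have hfin : Finite (𝒰.levelChars (Rep.trivial (ZMod p) Γ (ZMod p))) := by
    refine Finite.of_injective
      (fun (χ : 𝒰.levelChars (Rep.trivial (ZMod p) Γ (ZMod p))) (q : Γ ⧸ U₀) =>
        (χ : Additive Γ →+ ZMod p) (Additive.ofMul q.out)) (fun χ χ' h => ?_)
    apply Subtype.ext
    ext g
    obtain ⟨u, hu⟩ := QuotientGroup.mk_out_eq_mul U₀ g
    have h1 : g = (g : Γ ⧸ U₀).out * (u : Γ)⁻¹ := by
      rw [hu, mul_inv_cancel_right]
    have h2 := congrFun h (g : Γ ⧸ U₀)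
    simp only at h2
    have h3 : ∀ χ'' : 𝒰.levelChars (Rep.trivial (ZMod p) Γ (ZMod p)),
        (χ'' : Additive Γ →+ ZMod p) (Additive.ofMul g) =
          (χ'' : Additive Γ →+ ZMod p) (Additive.ofMul (g : Γ ⧸ U₀).out) := by
      intro χ''
      conv_lhs => rw [h1]
      rw [ofMul_mul, map_add, hvan χ'' _ (U₀.inv_mem u.2), add_zero]
    exact (h3 χ).trans (h2.trans (h3 χ').symm)
  exact Finite.of_equiv _ (𝒰.H1TrivEquiv (Rep.trivial (ZMod p) Γ (ZMod p))).symm.toEquiv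

theorem moduleFinite_H1_trivial (U₀ : Subgroup Γ) [U₀.FiniteIndex]
    (hfac : ∀ (W : Subgroup Γ) (_ : W ∈ 𝒰.levels) (χ : Γ →* Multiplicative (ZMod p)),
      W ≤ χ.ker → U₀ ≤ χ.ker) :
    Module.Finite (ZMod p) (𝒰.levelCohomology (Rep.trivial (ZMod p) Γ (ZMod p)) 1) := by
  have := finite_H1_trivial 𝒰 p U₀ hfac
  exact Module.Finite.of_finite

end Fin

/-! ### The reciprocity pairing only depends on the reduction class -/

section Congr

open Fermat.Agent.Lib.CFT.Coh.ClassFormation Fermat.Agent.Lib.CFT.Duality.KCalc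
open Fermat.Agent.Lib.CFT.Duality.KCalcCup Fermat.Agent.Lib.CFT.Duality.Bockstein
open Fermat.Agent.Lib.CFT.Coh.Cup Fermat.Agent.Lib.CFT.Global.ExistenceFormation

universe u

variable {k Γ : Type u} [CommRing k] [Group Γ] (𝒰 : LevelFamily Γ) (p : ℕ) [Fact p.Prime]
  (π : k →+* ZMod p)

/-- For a reduction `red` modulo `p` of the trivial representation `k`, `red a = 0 ↔ π a = 0`. -/
theorem red_eq_zero_iff (hπ : ∀ a : k, π a = 0 → ∃ b : k, a = (p : k) * b) {R : Rep.{u} k Γ}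
    {red : Rep.trivial k Γ k ⟶ R} (hred : IsReduction (p : k) red) (a : k) :
    red.hom a = 0 ↔ π a = 0 := by
  constructor
  · intro h
    obtain ⟨b, hb⟩ := (hred.ker_eq a).1 h
    rw [← hb]
    show π ((p : k) * b) = 0
    rw [map_mul, map_natCast, ZMod.natCast_self, zero_mul]
  · intro h
    obtain ⟨b, rfl⟩ := hπ a h
    exact hred.red_smul b

/-- Bockstein pairs with the same reduction class have the same residue character. -/
theorem resChar_eq_of_redClass_eq (hπ : ∀ a : k, π a = 0 → ∃ b : k, a = (p : k) * b)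
    {R : Rep.{u} k Γ} {red : Rep.trivial k Γ k ⟶ R} (hred : IsReduction (p : k) red)
    (x x' : BockPair 𝒰 (p : k) (Rep.trivial k Γ k) 1)
    (h : redClass 𝒰 hred 1 x = redClass 𝒰 hred 1 x') :
    resChar 𝒰 p π x = resChar 𝒰 p π x' := by
  have htriv : ∀ (g : Γ) (r : R), R.ρ g r = r := by
    intro g r
    obtain ⟨a, rfl⟩ := hred.surjective r
    have h1 := Rep.hom_comm_apply red g a
    exact h1.symm
  rw [redClass_apply, redClass_apply, ← sub_eq_zero, ← map_sub, classMk_eq_zero_iff_succ] at h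
  obtain ⟨m, -, hm⟩ := h
  have hm0 : (inhomogeneousCochains.d R 0).hom m = 0 := by
    funext g
    rw [d_zero_apply, htriv, sub_self]
    rfl
  rw [hm0] at hm
  ext g
  apply Multiplicative.toAdd.injective
  show π (x.1.1.1 fun _ => g) = π (x'.1.1.1 fun _ => g)
  rw [← sub_eq_zero, ← map_sub, ← red_eq_zero_iff p π hπ hred, map_sub]
  have h2 := congrFun hm.symm (fun _ => g)
  exact h2

variable (F : Formation k Γ) (ψ : Pairing F.C (Rep.trivial k Γ k) F.C)

/-- The reciprocity pairing only depends on the residue character of the Bockstein pair. -/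
theorem invT_PhiB_congr_of_resChar (hψ : ∀ (v : F.C) (r : k), ψ.toLin v r = r • v)
    (hπ : ∀ a : k, π a = 0 → ∃ b : k, a = (p : k) * b) (htf : ∀ a : k, (p : k) * a = 0 → a = 0)
    (hH1 : Subsingleton (F.𝒰.levelCohomology F.C 1))
    (x x' : BockPair F.𝒰 (p : k) (Rep.trivial k Γ k) 1)
    (h : resChar F.𝒰 p π x = resChar F.𝒰 p π x') (t : T F.𝒰 p F.C 1) :
    invT F p (PhiB F p ψ htf x 1 t) = invT F p (PhiB F p ψ htf x' 1 t) := by
  obtain ⟨c, rfl⟩ := ofInv_surjective F p hH1 t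
  obtain ⟨U, hU, hn, hle⟩ := exists_le_ker_resChar F.𝒰 p π x
  have := hn
  rw [invT_PhiB_ofInv F p ψ hψ π hπ htf x c U hU hle,
    invT_PhiB_ofInv F p ψ hψ π hπ htf x' c U hU (h ▸ hle)]
  exact congrArg _ (evalRec_congr F p U hU h hle (h ▸ hle) c)

/-- **The reciprocity pairing only depends on the reduction class** of the Bockstein pair. -/
theorem invT_PhiB_congr (hψ : ∀ (v : F.C) (r : k), ψ.toLin v r = r • v)
    (hπ : ∀ a : k, π a = 0 → ∃ b : k, a = (p : k) * b) (htf : ∀ a : k, (p : k) * a = 0 → a = 0)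
    (hH1 : Subsingleton (F.𝒰.levelCohomology F.C 1)) {R : Rep.{u} k Γ}
    {red : Rep.trivial k Γ k ⟶ R} (hred : IsReduction (p : k) red)
    (x x' : BockPair F.𝒰 (p : k) (Rep.trivial k Γ k) 1)
    (h : redClass F.𝒰 hred 1 x = redClass F.𝒰 hred 1 x') (t : T F.𝒰 p F.C 1) :
    invT F p (PhiB F p ψ htf x 1 t) = invT F p (PhiB F p ψ htf x' 1 t) :=
  invT_PhiB_congr_of_resChar p π F ψ hψ hπ htf hH1 x x'
    (resChar_eq_of_redClass_eq F.𝒰 p π hπ hred x x' h) t

end Congr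

/-! ### The `V`-form package -/

section VForm

open Fermat.Agent.Lib.CFT.Coh.ClassFormation Fermat.Agent.Lib.CFT.Duality.KCalc
open Fermat.Agent.Lib.CFT.Duality.KCalcCup Fermat.Agent.Lib.CFT.Duality.Bockstein
open Fermat.Agent.Lib.CFT.Coh.Cup Fermat.Agent.Lib.CFT.Global.ExistenceFormation

variable {k Γ : Type} [CommRing k] [Group Γ]

/-- `ψ` is the scalar multiplication pairing `(v, r) ↦ r • v`.  (Stated as a definition over a
general ring so that it can be used for `k = ℤ` without meeting the `ℤ`-module diamond.) -/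
def IsScalarPairing {C : Rep.{0} k Γ} (ψ : Pairing C (Rep.trivial k Γ k) C) : Prop :=
  ∀ (v : C) (r : k), ψ.toLin v r = r • v

/-- **The `V`-form package**: everything the transfer to coinduced modules consumes about ONE
group `Γ` (an open subgroup of the big Galois group) with its level family `𝒰` and its formation
module `C`: the invariant isomorphism `T²(C) ≃ ZMod p`, the nondegeneracy of the reciprocity
pairing `T¹(C) × {Bockstein pairs of k} → ZMod p`, its dependence on the reduction class only, and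
the finiteness of `H¹(Γ, 𝔽_p)`. -/
structure VForm (𝒰 : LevelFamily Γ) (C : Rep.{0} k Γ) (p : ℕ) [Fact p.Prime]
    (ψ : Pairing C (Rep.trivial k Γ k) C) (htf : ∀ a : k, (p : k) * a = 0 → a = 0)
    {R : Rep.{0} k Γ} {red : Rep.trivial k Γ k ⟶ R} (hred : IsReduction (p : k) red) where
  /-- the invariant isomorphism -/
  invT : T 𝒰 p C 2 ≃+ ZMod p
  /-- left nondegeneracy -/
  hleft : ∀ t : T 𝒰 p C 1,
    (∀ x : BockPair 𝒰 (p : k) (Rep.trivial k Γ k) 1,
      invT (PhiT 𝒰 p ψ x.1.1 x.1.2 (BockPair.d_fst x) (BockPair.d_snd htf x) 1 t) = 0) → t = 0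
  /-- right nondegeneracy -/
  hright : ∀ x : BockPair 𝒰 (p : k) (Rep.trivial k Γ k) 1,
    (∀ t : T 𝒰 p C 1,
      invT (PhiT 𝒰 p ψ x.1.1 x.1.2 (BockPair.d_fst x) (BockPair.d_snd htf x) 1 t) = 0) →
    redClass 𝒰 hred 1 x = 0
  /-- the pairing only depends on the reduction class -/
  hcongr : ∀ x x' : BockPair 𝒰 (p : k) (Rep.trivial k Γ k) 1,
    redClass 𝒰 hred 1 x = redClass 𝒰 hred 1 x' → ∀ t : T 𝒰 p C 1,
      invT (PhiT 𝒰 p ψ x.1.1 x.1.2 (BockPair.d_fst x) (BockPair.d_snd htf x) 1 t) =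
        invT (PhiT 𝒰 p ψ x'.1.1 x'.1.2 (BockPair.d_fst x') (BockPair.d_snd htf x') 1 t)
  /-- finiteness of `H¹(Γ, 𝔽_p)` -/
  fin : Module.Finite (ZMod p) (𝒰.levelCohomology (Rep.trivial (ZMod p) Γ (ZMod p)) 1)

/-- Left nondegeneracy in the FOR-SOME-representative form: it suffices that for every class `η`
of `H¹(Γ, R)` SOME Bockstein pair with reduction class `η` pairs trivially with `t`. -/
theorem VForm.hleft_forSome {𝒰 : LevelFamily Γ} {C : Rep.{0} k Γ} {p : ℕ} [Fact p.Prime]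
    {ψ : Pairing C (Rep.trivial k Γ k) C} {htf : ∀ a : k, (p : k) * a = 0 → a = 0}
    {R : Rep.{0} k Γ} {red : Rep.trivial k Γ k ⟶ R} {hred : IsReduction (p : k) red}
    (I : VForm 𝒰 C p ψ htf hred) (t : T 𝒰 p C 1)
    (ht : ∀ η : 𝒰.levelCohomology R 1, ∃ x : BockPair 𝒰 (p : k) (Rep.trivial k Γ k) 1,
      redClass 𝒰 hred 1 x = η ∧
        I.invT (PhiT 𝒰 p ψ x.1.1 x.1.2 (BockPair.d_fst x) (BockPair.d_snd htf x) 1 t) = 0) :
    t = 0 := by
  refine I.hleft t fun x => ?_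
  obtain ⟨x', hx', h0⟩ := ht (redClass 𝒰 hred 1 x)
  rw [I.hcongr x x' hx'.symm t]
  exact h0

/-- **The `V`-form package of a class formation**, from: Hilbert 90 at the layers (`hH1`), a
normal level of index divisible by `p` (`hp`), and the existence theorem modulo `p`
(`hA` = first conjunct, `hfac` = last conjunct of `existence_mod_p` / `existence_mod_p_of_le`). -/
noncomputable def VForm.ofFormation (F : Formation k Γ) (p : ℕ) [Fact p.Prime]
    (ψ : Pairing F.C (Rep.trivial k Γ k) F.C) (hψ : ∀ (v : F.C) (r : k), ψ.toLin v r = r • v)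
    (π : k →+* ZMod p) (hπ : ∀ a : k, π a = 0 → ∃ b : k, a = (p : k) * b)
    (htf : ∀ a : k, (p : k) * a = 0 → a = 0)
    {R : Rep.{0} k Γ} {red : Rep.trivial k Γ k ⟶ R} (hred : IsReduction (p : k) red)
    (hH1 : ∀ (U : Subgroup Γ) [U.Normal], U ∈ F.𝒰.levels →
      Subsingleton (groupCohomology (F.C.quotientToInvariants U) 1))
    (hp : ∃ U ∈ F.𝒰.levels, U.Normal ∧ p ∣ U.index)
    (hA : ∀ c : F.C.ρ.invariants,
      (∀ (U : Subgroup Γ) [U.Normal] (hU : U ∈ F.𝒰.levels) (χ : Γ →* Multiplicative (ZMod p))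
        (hχ : U ≤ χ.ker), evalRec F U hU χ hχ c = 1) → c ∈ pMul F p)
    (U₀ : Subgroup Γ) [U₀.FiniteIndex]
    (hfac : ∀ (W : Subgroup Γ) (_ : W ∈ F.𝒰.levels) (χ : Γ →* Multiplicative (ZMod p)),
      W ≤ χ.ker → U₀ ≤ χ.ker) :
    VForm F.𝒰 F.C p ψ htf hred where
  invT := invTEquiv F p (subsingleton_H1 F hH1) hp
  hleft t ht := recPair_left F p ψ hψ π hπ htf (subsingleton_H1 F hH1) hA t ht
  hright x hx := recPair_right F p ψ hψ π hπ htf hred x hx
  hcongr x x' h t := invT_PhiB_congr p π F ψ hψ hπ htf (subsingleton_H1 F hH1) hred x x' h t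
  fin := moduleFinite_H1_trivial F.𝒰 p U₀ hfac

@[simp]
theorem VForm.ofFormation_invT_apply (F : Formation k Γ) (p : ℕ) [Fact p.Prime]
    (ψ : Pairing F.C (Rep.trivial k Γ k) F.C) (hψ : ∀ (v : F.C) (r : k), ψ.toLin v r = r • v)
    (π : k →+* ZMod p) (hπ : ∀ a : k, π a = 0 → ∃ b : k, a = (p : k) * b)
    (htf : ∀ a : k, (p : k) * a = 0 → a = 0)
    {R : Rep.{0} k Γ} {red : Rep.trivial k Γ k ⟶ R} (hred : IsReduction (p : k) red)
    (hH1 : ∀ (U : Subgroup Γ) [U.Normal], U ∈ F.𝒰.levels →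
      Subsingleton (groupCohomology (F.C.quotientToInvariants U) 1))
    (hp : ∃ U ∈ F.𝒰.levels, U.Normal ∧ p ∣ U.index)
    (hA : ∀ c : F.C.ρ.invariants,
      (∀ (U : Subgroup Γ) [U.Normal] (hU : U ∈ F.𝒰.levels) (χ : Γ →* Multiplicative (ZMod p))
        (hχ : U ≤ χ.ker), evalRec F U hU χ hχ c = 1) → c ∈ pMul F p)
    (U₀ : Subgroup Γ) [U₀.FiniteIndex]
    (hfac : ∀ (W : Subgroup Γ) (_ : W ∈ F.𝒰.levels) (χ : Γ →* Multiplicative (ZMod p)),
      W ≤ χ.ker → U₀ ≤ χ.ker) (t : T F.𝒰 p F.C 2) :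
    (VForm.ofFormation F p ψ hψ π hπ htf hred hH1 hp hA U₀ hfac).invT t = FormationT.invT F p t :=
  rfl

/-- The hypothesis `hp` of `VForm.ofFormation` from the existence package: if `Γ ⧸ U₀` is a
nontrivial group of exponent `p` and `U₀` contains the normal level `U`, then `p ∣ [Γ : U]`. -/
theorem exists_dvd_index_of_exponent (𝒰 : LevelFamily Γ) (p : ℕ) [Fact p.Prime]
    (U₀ : Subgroup Γ) [U₀.Normal] (U : Subgroup Γ) [U.Normal] (hU : U ∈ 𝒰.levels)
    (hUU₀ : U ≤ U₀) (hexp : ∀ g : Γ ⧸ U₀, g ^ p = 1) (hne : Nat.card (Γ ⧸ U₀) ≠ 1) :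
    ∃ U ∈ 𝒰.levels, U.Normal ∧ p ∣ U.index := by
  refine ⟨U, hU, inferInstance, ?_⟩
  have hpg : IsPGroup p (Γ ⧸ U₀) := fun g => ⟨1, by rw [pow_one]; exact hexp g⟩
  have h1 : p ∣ Nat.card (Γ ⧸ U₀) := (hpg.card_eq_or_dvd).resolve_left hne
  have h2 : U₀.index ∣ U.index := Subgroup.index_dvd_of_le hUU₀
  exact (h1.trans (by rw [← Subgroup.index_eq_card])).trans h2

/-- **The `V`-form package from the existence theorem modulo `p`** (cofinal-level form of
`ExistenceFormationSub.existence_mod_p_of_le`): `U₀ ⊇ U` normal, `U` a level, `Γ ⧸ U₀` abelian of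
exponent `p` and of order `≥ [C^Γ : p C^Γ] ≠ 0`. -/
noncomputable def VForm.ofExistence (F : Formation k Γ) (p : ℕ) [Fact p.Prime]
    (ψ : Pairing F.C (Rep.trivial k Γ k) F.C) (hψ : ∀ (v : F.C) (r : k), ψ.toLin v r = r • v)
    (π : k →+* ZMod p) (hπ : ∀ a : k, π a = 0 → ∃ b : k, a = (p : k) * b)
    (htf : ∀ a : k, (p : k) * a = 0 → a = 0)
    {R : Rep.{0} k Γ} {red : Rep.trivial k Γ k ⟶ R} (hred : IsReduction (p : k) red)
    (hH1 : ∀ (U : Subgroup Γ) [U.Normal], U ∈ F.𝒰.levels →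
      Subsingleton (groupCohomology (F.C.quotientToInvariants U) 1))
    (hp : ∃ U ∈ F.𝒰.levels, U.Normal ∧ p ∣ U.index)
    (U₀ : Subgroup Γ) [U₀.Normal] (U : Subgroup Γ) [U.Normal] (hU : U ∈ F.𝒰.levels)
    (hUU₀ : U ≤ U₀) (hexp : ∀ g : Γ ⧸ U₀, g ^ p = 1) (hcomm : ∀ g h : Γ ⧸ U₀, g * h = h * g)
    (hN0 : (pMul F p).index ≠ 0) (hcard : (pMul F p).index ≤ Nat.card (Γ ⧸ U₀)) :
    VForm F.𝒰 F.C p ψ htf hred :=
  haveI : U.FiniteIndex := F.𝒰.finiteIndex U hU
  haveI : U₀.FiniteIndex := Subgroup.finiteIndex_of_le hUU₀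
  VForm.ofFormation F p ψ hψ π hπ htf hred hH1 hp
    (existence_mod_p_of_le F p U₀ U hU hUU₀ hexp hcomm hN0 hcard).1 U₀
    (existence_mod_p_of_le F p U₀ U hU hUU₀ hexp hcomm hN0 hcard).2.2.2.2

/-- The case `k = ℤ` of `VForm.ofExistence`. -/
noncomputable def VForm.ofExistenceInt (F : Formation ℤ Γ) (p : ℕ) [Fact p.Prime]
    (ψ : Pairing F.C (Rep.trivial ℤ Γ ℤ) F.C) (hψ : IsScalarPairing ψ)
    {R : Rep.{0} ℤ Γ} {red : Rep.trivial ℤ Γ ℤ ⟶ R} (hred : IsReduction ((p : ℕ) : ℤ) red)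
    (hH1 : ∀ (U : Subgroup Γ) [U.Normal], U ∈ F.𝒰.levels →
      Subsingleton (groupCohomology (F.C.quotientToInvariants U) 1))
    (hp : ∃ U ∈ F.𝒰.levels, U.Normal ∧ p ∣ U.index)
    (U₀ : Subgroup Γ) [U₀.Normal] (U : Subgroup Γ) [U.Normal] (hU : U ∈ F.𝒰.levels)
    (hUU₀ : U ≤ U₀) (hexp : ∀ g : Γ ⧸ U₀, g ^ p = 1) (hcomm : ∀ g h : Γ ⧸ U₀, g * h = h * g)
    (hN0 : (pMul F p).index ≠ 0) (hcard : (pMul F p).index ≤ Nat.card (Γ ⧸ U₀)) :
    VForm F.𝒰 F.C p ψ (intTf p) hred :=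
  VForm.ofExistence F p ψ hψ (Int.castRingHom (ZMod p)) (intKer p) (intTf p) hred hH1 hp U₀ U hU
    hUU₀ hexp hcomm hN0 hcard

end VForm

end Fermat.Agent.Lib.CFT.Duality.FormationT
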