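import Fermat.Agent.Lib.CFT.Duality.BaseCase.FormationT
import Fermat.Agent.Lib.CFT.Duality.BaseCase.KCalcCupT
import Fermat.Agent.Lib.CFT.Duality.BaseCase.Bockstein
import Fermat.Agent.Lib.CFT.Profinite.CupZero
import Fermat.Agent.Lib.CFT.Global.ExistenceFormationZMod

/-!
# From class formations to the `p`-primary `T`-groups (part 2: reciprocity)

Let `F` be a class formation over the ring `k`, `p` a prime and `π : k →+* ZMod p` a ring
homomorphism with kernel `p k`, where `k` has no `p`-torsion (for `k = ℤ`: `intKer`, `intTf`).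

* `resChar` : the residue character `Γ →* Multiplicative (ZMod p)`, `g ↦ π (y g)`, of a Bockstein
  pair `(y, β)` (`d y = p β`) of the trivial representation `k`;
* `charPair` : the canonical Bockstein pair of a level character;
* `invT_PhiB_ofInv` : **reciprocity in `T`-form**,
  `invT (Φ_{(y, β)} (ofInv c)) = resChar (y, β) (rec c)`;
* `recPair_left`, `recPair_right` : the left and right kernels of the pairing
  `T¹(F.C) × {Bockstein pairs} → ZMod p`, `(t, (y, β)) ↦ invT (Φ_{(y, β)} t)`, in the shape of the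
  hypotheses of `Perfect.bijective_of_zigzag`.
-/

set_option autoImplicit false
set_option linter.unusedSectionVars false

open CategoryTheory groupCohomology

universe u

namespace Fermat.Agent.Lib.CFT.Duality.FormationT

open Fermat.Agent.Lib.CFT.Profinite Fermat.Agent.Lib.CFT.Profinite.LevelFamily
open Fermat.Agent.Lib.CFT.Coh.ClassFormation Fermat.Agent.Lib.CFT.Duality.KCalc
open Fermat.Agent.Lib.CFT.Duality.KCalcCup Fermat.Agent.Lib.CFT.Duality.Bockstein
open Fermat.Agent.Lib.CFT.Coh.Cup Fermat.Agent.Lib.CFT.Global.ExistenceFormation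

/-! ### The case `k = ℤ` of the hypotheses on the reduction map -/

theorem intKer (p : ℕ) (a : ℤ) (h : Int.castRingHom (ZMod p) a = 0) : ∃ b : ℤ, a = (p : ℤ) * b :=
  (ZMod.intCast_zmod_eq_zero_iff_dvd a p).1 h

theorem intTf (p : ℕ) [Fact p.Prime] (a : ℤ) (h : (p : ℤ) * a = 0) : a = 0 :=
  (mul_eq_zero.1 h).resolve_left (by exact_mod_cast (Fact.out : p.Prime).ne_zero)

/-! ### Low degree differentials of the trivial representation -/

section Triv

variable {k Γ : Type u} [CommRing k] [Group Γ] (𝒰 : LevelFamily Γ)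

theorem dL_one_triv_apply (y : 𝒰.levelCochains (Rep.trivial k Γ k) 1) (g : Fin 2 → Γ) :
    (dL 𝒰 (Rep.trivial k Γ k) 1 y).1 g =
      y.1 (fun _ => g 1) - y.1 (fun _ => g 0 * g 1) + y.1 (fun _ => g 0) := by
  rw [dL_coe, inhomogeneousCochains.d_hom_apply, Fin.sum_univ_two]
  have e0 : (fun i : Fin 1 => g i.succ) = fun _ => g 1 := by
    funext i
    fin_cases i
    rfl
  have e1 : Fin.contractNth (0 : Fin 2) (· * ·) g = fun _ => g 0 * g 1 := by
    funext i
    fin_cases i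
    simp [Fin.contractNth]
  have e2 : Fin.contractNth (1 : Fin 2) (· * ·) g = fun _ => g 0 := by
    funext i
    fin_cases i
    simp [Fin.contractNth]
  rw [e0, e1, e2]
  simp
  ring

/-! ### The residue character of a Bockstein pair -/

section ResChar

variable (p : ℕ) [Fact p.Prime] (π : k →+* ZMod p)
  (x : BockPair 𝒰 (p : k) (Rep.trivial k Γ k) 1)

/-- The defining relation of a Bockstein pair of degree `1` of the trivial representation. -/
theorem bockPair_rel (g h : Γ) :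
    x.1.1.1 (fun _ => h) - x.1.1.1 (fun _ => g * h) + x.1.1.1 (fun _ => g) =
      (p : k) * x.1.2.1 ![g, h] := by
  have h1 := congrArg (fun z : 𝒰.levelCochains (Rep.trivial k Γ k) 2 => z.1 ![g, h])
    (BockPair.d_fst x)
  have h2 := dL_one_triv_apply 𝒰 x.1.1 ![g, h]
  simp only [Matrix.cons_val_zero, Matrix.cons_val_one] at h2
  rw [← h2]
  exact h1

/-- The residue character `g ↦ π (y g)` of a Bockstein pair `(y, β)`. -/
noncomputable def resChar : Γ →* Multiplicative (ZMod p) :=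
  MonoidHom.mk' (fun g => Multiplicative.ofAdd (π (x.1.1.1 fun _ => g))) (fun g h => by
    have h1 := congrArg π (bockPair_rel 𝒰 p x g h)
    rw [map_mul, map_natCast, ZMod.natCast_self, zero_mul, map_add, map_sub] at h1
    rw [← ofAdd_add]
    congr 1
    linear_combination -h1)

@[simp]
theorem toAdd_resChar (g : Γ) :
    Multiplicative.toAdd (resChar 𝒰 p π x g) = π (x.1.1.1 fun _ => g) := rfl

/-- The residue character is trivial on a normal level. -/
theorem exists_le_ker_resChar :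
    ∃ U ∈ 𝒰.levels, U.Normal ∧ U ≤ (resChar 𝒰 p π x).ker := by
  obtain ⟨U₁, hU₁, hc, -⟩ := x.1.1.2
  obtain ⟨U, hU, hle, hn⟩ := 𝒰.normal_le U₁ hU₁
  refine ⟨U, hU, hn, fun s hs => ?_⟩
  rw [MonoidHom.mem_ker]
  have h1 := hc (fun _ => 1) (fun _ => s) (fun _ => hle hs)
  have h2 : resChar 𝒰 p π x s = resChar 𝒰 p π x 1 := by
    apply Multiplicative.toAdd.injective
    rw [toAdd_resChar, toAdd_resChar]
    congr 1
    simpa using h1
  rw [h2, map_one]

end ResChar

/-! ### The canonical Bockstein pair of a level character -/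

section CharPair

variable (p : ℕ) [Fact p.Prime] (U : Subgroup Γ) [U.Normal]
  (χ : Γ →* Multiplicative (ZMod p))

/-- A character trivial on `U`, as an additive function on `Γ ⧸ U`. -/
def quotChar (hχ : U ≤ χ.ker) : Γ ⧸ U → ZMod p := fun q => Multiplicative.toAdd (QuotientGroup.lift U χ hχ q)

@[simp]
theorem quotChar_mk (hχ : U ≤ χ.ker) (g : Γ) : quotChar p U χ hχ (g : Γ ⧸ U) = Multiplicative.toAdd (χ g) := rfl

theorem quotChar_mul (hχ : U ≤ χ.ker) (q q' : Γ ⧸ U) :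
    quotChar p U χ hχ (q * q') = quotChar p U χ hχ q + quotChar p U χ hχ q' := by
  unfold quotChar
  rw [map_mul, toAdd_mul]

theorem χ_mul_of_mem (hχ : U ≤ χ.ker) (g s : Γ) (hs : s ∈ U) : χ (g * s) = χ g := by
  rw [map_mul, MonoidHom.mem_ker.1 (hχ hs), mul_one]

/-- The lift `g ↦ (χ g).val` of a level character. -/
def charLift (hχ : U ≤ χ.ker) (hU : U ∈ 𝒰.levels) : 𝒰.levelCochains (Rep.trivial k Γ k) 1 :=
  ⟨fun g => (((Multiplicative.toAdd (χ (g 0))).val : ℕ) : k), U, hU, fun g s hs => by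
    show (((Multiplicative.toAdd (χ (g 0 * s 0))).val : ℕ) : k) = _
    rw [χ_mul_of_mem p U χ hχ _ _ (hs 0)], fun g s hs => rfl⟩

/-- The integral `2`-cocycle `δχ` of a level character, as a level cochain. -/
def charBock (hχ : U ≤ χ.ker) (hU : U ∈ 𝒰.levels) : 𝒰.levelCochains (Rep.trivial k Γ k) 2 :=
  ⟨fun g => ((deltaChi p (quotChar p U χ hχ) ((g 0 : Γ ⧸ U), (g 1 : Γ ⧸ U)) : ℤ) : k), U, hU,
    fun g s hs => by
      show ((deltaChi p (quotChar p U χ hχ)
        (((g 0 * s 0 : Γ) : Γ ⧸ U), ((g 1 * s 1 : Γ) : Γ ⧸ U)) : ℤ) : k) = _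
      rw [QuotientGroup.mk_mul_of_mem _ (hs 0), QuotientGroup.mk_mul_of_mem _ (hs 1)],
    fun g s hs => rfl⟩

theorem charLift_apply (hχ : U ≤ χ.ker) (hU : U ∈ 𝒰.levels) (g : Fin 1 → Γ) :
    (charLift (k := k) 𝒰 p U χ hχ hU).1 g = (((Multiplicative.toAdd (χ (g 0))).val : ℕ) : k) :=
  rfl

theorem charBock_apply (hχ : U ≤ χ.ker) (hU : U ∈ 𝒰.levels) (g : Fin 2 → Γ) :
    (charBock (k := k) 𝒰 p U χ hχ hU).1 g =
      ((deltaChi p (quotChar p U χ hχ) ((g 0 : Γ ⧸ U), (g 1 : Γ ⧸ U)) : ℤ) : k) := rfl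

/-- `p δχ (g, h) = (χ g).val + (χ h).val - (χ (g h)).val` in `k`. -/
theorem natCast_mul_deltaChi (hχ : U ≤ χ.ker) (g h : Γ) :
    (p : k) * ((deltaChi p (quotChar p U χ hχ) ((g : Γ ⧸ U), (h : Γ ⧸ U)) : ℤ) : k) =
      (((Multiplicative.toAdd (χ g)).val : ℕ) : k) + (((Multiplicative.toAdd (χ h)).val : ℕ) : k) -
        (((Multiplicative.toAdd (χ (g * h))).val : ℕ) : k) := by
  have : NeZero p := ⟨(Fact.out : p.Prime).ne_zero⟩
  have h1 := isDeltaOf_deltaChi p (quotChar p U χ hχ) (quotChar_mul p U χ hχ) (g : Γ ⧸ U)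
    (h : Γ ⧸ U)
  have h2 := congrArg (Int.cast : ℤ → k) h1
  push_cast at h2
  rw [h2]
  rfl

/-- The canonical Bockstein pair `(g ↦ (χ g).val, δχ)` of a level character. -/
def charPair (hχ : U ≤ χ.ker) (hU : U ∈ 𝒰.levels) : BockPair 𝒰 (p : k) (Rep.trivial k Γ k) 1 :=
  ⟨(charLift 𝒰 p U χ hχ hU, charBock 𝒰 p U χ hχ hU), by
    rw [mem_BockPair_iff]
    apply Subtype.ext
    funext g
    have h1 := dL_one_triv_apply 𝒰 (charLift (k := k) 𝒰 p U χ hχ hU) g
    refine h1.trans ?_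
    show _ = (p : k) * ((deltaChi p (quotChar p U χ hχ) ((g 0 : Γ ⧸ U), (g 1 : Γ ⧸ U)) : ℤ) : k)
    rw [natCast_mul_deltaChi, charLift_apply, charLift_apply, charLift_apply]
    ring⟩

theorem charPair_fst (hχ : U ≤ χ.ker) (hU : U ∈ 𝒰.levels) :
    (charPair (k := k) 𝒰 p U χ hχ hU).1.1 = charLift 𝒰 p U χ hχ hU := rfl

theorem charPair_snd (hχ : U ≤ χ.ker) (hU : U ∈ 𝒰.levels) :
    (charPair (k := k) 𝒰 p U χ hχ hU).1.2 = charBock 𝒰 p U χ hχ hU := rfl

/-- The residue character of the canonical pair of `χ` is `χ`. -/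
theorem resChar_charPair (π : k →+* ZMod p) (hχ : U ≤ χ.ker) (hU : U ∈ 𝒰.levels) :
    resChar 𝒰 p π (charPair 𝒰 p U χ hχ hU) = χ := by
  have : NeZero p := ⟨(Fact.out : p.Prime).ne_zero⟩
  ext g
  apply Multiplicative.toAdd.injective
  rw [toAdd_resChar, charPair_fst, charLift_apply, map_natCast, ZMod.natCast_zmod_val]

end CharPair

/-! ### Comparison of a Bockstein pair with the canonical pair of its residue character -/

section Compare

variable (p : ℕ) [Fact p.Prime] (π : k →+* ZMod p)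
  (x : BockPair 𝒰 (p : k) (Rep.trivial k Γ k) 1)

/-- The defining relation of a Bockstein pair, evaluated at `g : Fin 2 → Γ`. -/
theorem bockPair_rel' (g : Fin 2 → Γ) :
    x.1.1.1 (fun _ => g 1) - x.1.1.1 (fun _ => g 0 * g 1) + x.1.1.1 (fun _ => g 0) =
      (p : k) * x.1.2.1 g := by
  have h1 := congrArg (fun z : 𝒰.levelCochains (Rep.trivial k Γ k) 2 => z.1 g) (BockPair.d_fst x)
  have h2 := dL_one_triv_apply 𝒰 x.1.1 g
  rw [← h2]
  exact h1

theorem resChar_mul_of_isConstOn {U₁ : Subgroup Γ} (hc : IsConstOn U₁ x.1.1.1) (g s : Γ)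
    (hs : s ∈ U₁) : resChar 𝒰 p π x (g * s) = resChar 𝒰 p π x g := by
  apply Multiplicative.toAdd.injective
  rw [toAdd_resChar, toAdd_resChar]
  congr 1
  exact hc (fun _ => g) (fun _ => s) (fun _ => hs)

/-- Division by `p` in `k` (with junk value `0` on elements not divisible by `p`). -/
noncomputable def divByP (a : k) : k :=
  open Classical in if h : ∃ b : k, a = (p : k) * b then h.choose else 0

theorem mul_divByP (a : k) (h : ∃ b : k, a = (p : k) * b) : (p : k) * divByP p a = a := by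
  unfold divByP
  rw [dif_pos h]
  exact h.choose_spec.symm

/-- The level cochain `w = (y - (π y).val) / p`. -/
noncomputable def diffCochain : 𝒰.levelCochains (Rep.trivial k Γ k) 1 :=
  ⟨fun g => divByP p
      (x.1.1.1 g - (((Multiplicative.toAdd (resChar 𝒰 p π x (g 0))).val : ℕ) : k)), by
    obtain ⟨U₁, hU₁, hc, -⟩ := x.1.1.2
    refine ⟨U₁, hU₁, fun g s hs => ?_, fun g s hs => rfl⟩
    show divByP p (x.1.1.1 (fun i => g i * s i) -
      (((Multiplicative.toAdd (resChar 𝒰 p π x (g 0 * s 0))).val : ℕ) : k)) = _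
    rw [hc g s hs, resChar_mul_of_isConstOn 𝒰 p π x hc _ _ (hs 0)]⟩

theorem mul_diffCochain (hπ : ∀ a : k, π a = 0 → ∃ b : k, a = (p : k) * b) (g : Γ) :
    (p : k) * (diffCochain 𝒰 p π x).1 (fun _ => g) =
      x.1.1.1 (fun _ => g) - (((Multiplicative.toAdd (resChar 𝒰 p π x g)).val : ℕ) : k) := by
  have : NeZero p := ⟨(Fact.out : p.Prime).ne_zero⟩
  refine mul_divByP p _ (hπ _ ?_)
  rw [map_sub, map_natCast, ZMod.natCast_zmod_val, toAdd_resChar, sub_self]

/-- **Comparison**: the second component of a Bockstein pair differs from the canonical cocycle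
`δχ` of its residue character `χ` by the coboundary of a level cochain. -/
theorem bock_sub_charBock (hπ : ∀ a : k, π a = 0 → ∃ b : k, a = (p : k) * b)
    (htf : ∀ a : k, (p : k) * a = 0 → a = 0) (U : Subgroup Γ) [U.Normal] (hU : U ∈ 𝒰.levels)
    (hle : U ≤ (resChar 𝒰 p π x).ker) :
    x.1.2 - charBock 𝒰 p U (resChar 𝒰 p π x) hle hU =
      dL 𝒰 (Rep.trivial k Γ k) 1 (diffCochain 𝒰 p π x) := by
  apply Subtype.ext
  funext g
  rw [dL_one_triv_apply]
  show x.1.2.1 g - (charBock (k := k) 𝒰 p U (resChar 𝒰 p π x) hle hU).1 g = _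
  rw [charBock_apply]
  rw [← sub_eq_zero]
  apply htf
  have h1 := bockPair_rel' 𝒰 p x g
  have h2 := natCast_mul_deltaChi (k := k) p U (resChar 𝒰 p π x) hle (g 0) (g 1)
  have h3 := mul_diffCochain 𝒰 p π x hπ (g 1)
  have h4 := mul_diffCochain 𝒰 p π x hπ (g 0 * g 1)
  have h5 := mul_diffCochain 𝒰 p π x hπ (g 0)
  linear_combination -h1 - h2 - h3 + h4 - h5

end Compare

end Triv

/-! ### Reciprocity in `T`-form -/

section Formation

open ConcreteHomology

variable {k Γ : Type u} [CommRing k] [Group Γ] (F : Formation k Γ) (p : ℕ) [Fact p.Prime]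
  (ψ : Pairing F.C (Rep.trivial k Γ k) F.C)

/-- The map `Φ_{(y, β)} : Tⁿ(F.C) → Tⁿ⁺¹(F.C)` attached to a Bockstein pair of the trivial
representation `k` (`k` without `p`-torsion). -/
noncomputable def PhiB (htf : ∀ a : k, (p : k) * a = 0 → a = 0)
    (x : BockPair F.𝒰 (p : k) (Rep.trivial k Γ k) 1) (n : ℕ) :
    T F.𝒰 p F.C n →ₗ[k] T F.𝒰 p F.C (n + 1) :=
  PhiT F.𝒰 p ψ x.1.1 x.1.2 (BockPair.d_fst x) (BockPair.d_snd htf x) n

theorem PhiB_eq (htf : ∀ a : k, (p : k) * a = 0 → a = 0)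
    (x : BockPair F.𝒰 (p : k) (Rep.trivial k Γ k) 1) (n : ℕ) :
    PhiB F p ψ htf x n =
      PhiT F.𝒰 p ψ x.1.1 x.1.2 (BockPair.d_fst x) (BockPair.d_snd htf x) n := rfl

/-- The constant `0`-cocycle of an invariant element. -/
noncomputable def constZ (c : F.C.ρ.invariants) : Z (F.𝒰.levelComplex F.C) 0 :=
  F.𝒰.levelCocyclesEquiv F.C 0
    ⟨fun _ => c.1, (F.𝒰.isLevelCocycle_const F.C c).mem_levelCocycles F.𝒰⟩

theorem ofInv_eq_classOf (c : F.C.ρ.invariants) :
    ofInv F p c = ofH F.𝒰 p F.C 0 (classOf (F.𝒰.levelComplex F.C) 0 (constZ F c)) := by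
  rw [ofInv_apply, H0Equiv_symm_apply, cls_eq_classMk]
  rfl

/-- Cup product of the constant cocycle of `c` with a cochain `b` of `k` is `g ↦ b g • c`. -/
theorem cupR_constZ (c : F.C.ρ.invariants)
    {n : ℕ} (h : 0 + n = n) (b : F.𝒰.levelCochains (Rep.trivial k Γ k) n) :
    cupR F.𝒰 ψ h b (constZ F c).1 = redL F.𝒰 (ψ.evalLeft c) n b := by
  apply Subtype.ext
  rw [cupR_coe]
  show cupTo ψ h (fun _ : Fin 0 → Γ => c.1) b.1 = _
  rw [cupTo_const_left]
  rfl

/-- The image of a level cocycle of `k` under `ψ(c, ·)` is a level cocycle of `F.C`. -/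
theorem redL_evalLeft_mem (c : F.C.ρ.invariants) {n : ℕ}
    (b : F.𝒰.levelCochains (Rep.trivial k Γ k) n)
    (hb : (F.𝒰.levelD (Rep.trivial k Γ k) n).hom b = 0) :
    (redL F.𝒰 (ψ.evalLeft c) n b).1 ∈ F.𝒰.levelCocycles F.C n := by
  refine Submodule.mem_inf.mpr ⟨(redL F.𝒰 (ψ.evalLeft c) n b).2, ?_⟩
  rw [LinearMap.mem_ker]
  have h1 := congrArg Subtype.val (levelD_redL F.𝒰 (red := ψ.evalLeft c) n b)
  rw [hb, map_zero] at h1
  exact h1

/-- The class of `ψ(c, b)` only depends on `b` modulo coboundaries of level cochains. -/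
theorem classMk_redL_evalLeft_congr (c : F.C.ρ.invariants) {n : ℕ}
    (b b' : F.𝒰.levelCochains (Rep.trivial k Γ k) (n + 1))
    (hb : (F.𝒰.levelD (Rep.trivial k Γ k) (n + 1)).hom b = 0)
    (hb' : (F.𝒰.levelD (Rep.trivial k Γ k) (n + 1)).hom b' = 0)
    (w : F.𝒰.levelCochains (Rep.trivial k Γ k) n)
    (hw : b - b' = (F.𝒰.levelD (Rep.trivial k Γ k) n).hom w) :
    F.𝒰.classMk F.C (n + 1) ⟨_, redL_evalLeft_mem F ψ c b hb⟩ =
      F.𝒰.classMk F.C (n + 1) ⟨_, redL_evalLeft_mem F ψ c b' hb'⟩ := by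
  rw [← sub_eq_zero, ← map_sub, classMk_eq_zero_iff_succ]
  refine ⟨(redL F.𝒰 (ψ.evalLeft c) n w).1, (redL F.𝒰 (ψ.evalLeft c) n w).2, ?_⟩
  have h1 := congrArg Subtype.val (levelD_redL F.𝒰 (red := ψ.evalLeft c) n w)
  rw [← hw, map_sub] at h1
  exact h1

/-- `ψ(c, δχ)` is helper7's cocycle `c ∪ δχ`. -/
theorem redL_charBock (hψ : ∀ (v : F.C) (r : k), ψ.toLin v r = r • v) (c : F.C.ρ.invariants)
    (U : Subgroup Γ) [U.Normal] (hU : U ∈ F.𝒰.levels) (χ : Γ →* Multiplicative (ZMod p))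
    (hχ : U ≤ χ.ker) :
    (redL F.𝒰 (ψ.evalLeft c) 2 (charBock F.𝒰 p U χ hχ hU)).1 =
      F.cupDeltaFun U p (quotChar p U χ hχ) c := by
  funext g
  rw [redL_apply_coe, Pairing.evalLeft_hom_apply, hψ]
  rfl

/-- **Reciprocity in `T`-form**, in terms of `F.inv`. -/
theorem inv_toH_PhiB_ofInv (hψ : ∀ (v : F.C) (r : k), ψ.toLin v r = r • v) (π : k →+* ZMod p)
    (hπ : ∀ a : k, π a = 0 → ∃ b : k, a = (p : k) * b)
    (htf : ∀ a : k, (p : k) * a = 0 → a = 0)
    (x : BockPair F.𝒰 (p : k) (Rep.trivial k Γ k) 1) (c : F.C.ρ.invariants)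
    (U : Subgroup Γ) [U.Normal] (hU : U ∈ F.𝒰.levels) (hle : U ≤ (resChar F.𝒰 p π x).ker) :
    F.inv (toH F.𝒰 p F.C 2 (PhiB F p ψ htf x 1 (ofInv F p c))) =
      divP p (Multiplicative.toAdd (evalRec F U hU (resChar F.𝒰 p π x) hle c)) := by
  have : NeZero p := ⟨(Fact.out : p.Prime).ne_zero⟩
  have hβ := BockPair.d_snd htf x
  have hδ := BockPair.d_snd htf (charPair F.𝒰 p U (resChar F.𝒰 p π x) hle hU)
  rw [charPair_snd] at hδ
  -- step 1: the formula of `toH_PhiT_ofH`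
  have h2 := toH_PhiT_ofH F.𝒰 p ψ x.1.1 x.1.2 (BockPair.d_fst x) hβ 0 (constZ F c)
  rw [pow_zero, one_smul] at h2
  have h3 : toH F.𝒰 p F.C 2 (PhiB F p ψ htf x 1 (ofInv F p c)) =
      F.𝒰.classMk F.C 2 ⟨_, redL_evalLeft_mem F ψ c x.1.2 hβ⟩ := by
    rw [ofInv_eq_classOf]
    refine h2.trans ?_
    show _ = classOf (F.𝒰.levelComplex F.C) 2 _
    refine congrArg _ (Subtype.ext ?_)
    exact cupR_constZ F ψ c _ x.1.2
  rw [h3]
  -- step 2: replace `β` by the canonical cocycle of the residue character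
  rw [classMk_redL_evalLeft_congr F ψ c x.1.2 (charBock F.𝒰 p U (resChar F.𝒰 p π x) hle hU) hβ hδ
    (diffCochain F.𝒰 p π x) (bock_sub_charBock F.𝒰 p π x hπ htf U hU hle)]
  -- step 3: helper7's character formula
  obtain ⟨s, hs⟩ := abOf_surjective (Γ ⧸ U) (Additive.toMul (F.recMap U hU c))
  have hs' : F.recMap U hU c = Additive.ofMul (Abelianization.of s) := by
    rw [hs]
    rfl
  have h4 := F.inv_cupDelta U hU p (quotChar p U (resChar F.𝒰 p π x) hle)
    (quotChar_mul p U (resChar F.𝒰 p π x) hle) c s hs'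
  have h5 : (⟨_, redL_evalLeft_mem F ψ c (charBock F.𝒰 p U (resChar F.𝒰 p π x) hle hU) hδ⟩ :
        F.𝒰.levelCocycles F.C 2) =
      ⟨F.cupDeltaFun U p (quotChar p U (resChar F.𝒰 p π x) hle) c,
        F.cupDeltaFun_mem U hU p (quotChar p U (resChar F.𝒰 p π x) hle)
          (quotChar_mul p U (resChar F.𝒰 p π x) hle) c⟩ :=
    Subtype.ext (redL_charBock F p ψ hψ c U hU _ hle)
  rw [h5, h4, divP_apply]
  have h6 : Multiplicative.toAdd (evalRec F U hU (resChar F.𝒰 p π x) hle c) =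
      quotChar p U (resChar F.𝒰 p π x) hle s := by
    unfold evalRec charLevel
    rw [← hs, Abelianization.lift_apply_of]
    rfl
  rw [h6]

/-- **Reciprocity in `T`-form**: `invT (Φ_{(y, β)} (ofInv c)) = χ (rec c)` for the residue
character `χ = π ∘ y` of the Bockstein pair `(y, β)`. -/
theorem invT_PhiB_ofInv (hψ : ∀ (v : F.C) (r : k), ψ.toLin v r = r • v) (π : k →+* ZMod p)
    (hπ : ∀ a : k, π a = 0 → ∃ b : k, a = (p : k) * b)
    (htf : ∀ a : k, (p : k) * a = 0 → a = 0)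
    (x : BockPair F.𝒰 (p : k) (Rep.trivial k Γ k) 1) (c : F.C.ρ.invariants)
    (U : Subgroup Γ) [U.Normal] (hU : U ∈ F.𝒰.levels) (hle : U ≤ (resChar F.𝒰 p π x).ker) :
    invT F p (PhiB F p ψ htf x 1 (ofInv F p c)) =
      Multiplicative.toAdd (evalRec F U hU (resChar F.𝒰 p π x) hle c) :=
  (invT_eq_iff F p _ _).2 (inv_toH_PhiB_ofInv F p ψ hψ π hπ htf x c U hU hle)

/-! ### The kernels of the reciprocity pairing -/

theorem evalRec_congr (U : Subgroup Γ) [U.Normal] (hU : U ∈ F.𝒰.levels)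
    {φ φ' : Γ →* Multiplicative (ZMod p)} (h : φ = φ') (hφ : U ≤ φ.ker) (hφ' : U ≤ φ'.ker)
    (c : F.C.ρ.invariants) : evalRec F U hU φ hφ c = evalRec F U hU φ' hφ' c := by
  subst h
  rfl

/-- **RIGHT kernel** (character form): a Bockstein pair with nontrivial residue character pairs
nontrivially with some invariant. -/
theorem exists_invT_PhiB_ne_zero (hψ : ∀ (v : F.C) (r : k), ψ.toLin v r = r • v)
    (π : k →+* ZMod p) (hπ : ∀ a : k, π a = 0 → ∃ b : k, a = (p : k) * b)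
    (htf : ∀ a : k, (p : k) * a = 0 → a = 0)
    (x : BockPair F.𝒰 (p : k) (Rep.trivial k Γ k) 1) (hx : resChar F.𝒰 p π x ≠ 1) :
    ∃ c : F.C.ρ.invariants, invT F p (PhiB F p ψ htf x 1 (ofInv F p c)) ≠ 0 := by
  obtain ⟨U, hU, hn, hle⟩ := exists_le_ker_resChar F.𝒰 p π x
  have := hn
  obtain ⟨c, hc⟩ := right_nondegenerate F U hU (resChar F.𝒰 p π x) hle hx
  refine ⟨c, fun h0 => hc ?_⟩
  rw [invT_PhiB_ofInv F p ψ hψ π hπ htf x c U hU hle] at h0
  exact Multiplicative.toAdd.injective h0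

/-- A Bockstein pair which pairs trivially with all of `T¹(F.C)` has trivial residue
character. -/
theorem resChar_eq_one_of_forall (hψ : ∀ (v : F.C) (r : k), ψ.toLin v r = r • v)
    (π : k →+* ZMod p) (hπ : ∀ a : k, π a = 0 → ∃ b : k, a = (p : k) * b)
    (htf : ∀ a : k, (p : k) * a = 0 → a = 0)
    (x : BockPair F.𝒰 (p : k) (Rep.trivial k Γ k) 1)
    (hx : ∀ t : T F.𝒰 p F.C 1, invT F p (PhiB F p ψ htf x 1 t) = 0) :
    resChar F.𝒰 p π x = 1 := by
  by_contra hne
  obtain ⟨c, hc⟩ := exists_invT_PhiB_ne_zero F p ψ hψ π hπ htf x hne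
  exact hc (hx _)

/-- **RIGHT kernel** in the shape of `Perfect.bijective_of_zigzag`: a Bockstein pair which pairs
trivially with all of `T¹(F.C)` has trivial reduction class, for every reduction `red` modulo
`p` of the trivial representation `k`. -/
theorem recPair_right (hψ : ∀ (v : F.C) (r : k), ψ.toLin v r = r • v)
    (π : k →+* ZMod p) (hπ : ∀ a : k, π a = 0 → ∃ b : k, a = (p : k) * b)
    (htf : ∀ a : k, (p : k) * a = 0 → a = 0) {R : Rep.{u} k Γ}
    {red : Rep.trivial k Γ k ⟶ R} (hred : IsReduction (p : k) red)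
    (x : BockPair F.𝒰 (p : k) (Rep.trivial k Γ k) 1)
    (hx : ∀ t : T F.𝒰 p F.C 1, invT F p (PhiB F p ψ htf x 1 t) = 0) :
    redClass F.𝒰 hred 1 x = 0 := by
  have h1 := resChar_eq_one_of_forall F p ψ hψ π hπ htf x hx
  have h2 : redCocycle F.𝒰 hred 1 x = 0 := by
    apply Subtype.ext
    funext g
    rw [redCocycle_coe_apply]
    have h3 : π (x.1.1.1 g) = 0 := by
      have h4 : g = fun _ => g 0 := by
        funext i
        rw [Subsingleton.elim i 0]
      rw [h4, ← toAdd_resChar F.𝒰 p π x (g 0), h1]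
      rfl
    obtain ⟨b, hb⟩ := hπ _ h3
    rw [hb]
    exact hred.red_smul b
  rw [redClass_apply, h2, map_zero]

/-- **LEFT kernel** in the shape of `Perfect.bijective_of_zigzag`: under `H¹(F.C) = 0` and the
existence theorem modulo `p` (hypothesis `(a)`), an element of `T¹(F.C)` which pairs trivially
with all Bockstein pairs vanishes. -/
theorem recPair_left (hψ : ∀ (v : F.C) (r : k), ψ.toLin v r = r • v)
    (π : k →+* ZMod p) (hπ : ∀ a : k, π a = 0 → ∃ b : k, a = (p : k) * b)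
    (htf : ∀ a : k, (p : k) * a = 0 → a = 0)
    (hH1 : Subsingleton (F.𝒰.levelCohomology F.C 1))
    (hA : ∀ c : F.C.ρ.invariants,
      (∀ (U : Subgroup Γ) [U.Normal] (hU : U ∈ F.𝒰.levels) (χ : Γ →* Multiplicative (ZMod p))
        (hχ : U ≤ χ.ker), evalRec F U hU χ hχ c = 1) → c ∈ pMul F p)
    (t : T F.𝒰 p F.C 1)
    (ht : ∀ x : BockPair F.𝒰 (p : k) (Rep.trivial k Γ k) 1,
      invT F p (PhiB F p ψ htf x 1 t) = 0) : t = 0 := by
  obtain ⟨c, rfl⟩ := ofInv_surjective F p hH1 t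
  rw [ofInv_eq_zero_iff]
  refine (mem_pMul F p).1 (hA c fun U _ hU χ hχ => ?_)
  have h1 := ht (charPair F.𝒰 p U χ hχ hU)
  have h2 := resChar_charPair F.𝒰 p U χ π hχ hU
  rw [invT_PhiB_ofInv F p ψ hψ π hπ htf _ c U hU (h2.symm ▸ hχ)] at h1
  rw [← evalRec_congr F p U hU h2 (h2.symm ▸ hχ) hχ c]
  exact Multiplicative.toAdd.injective h1

end Formation

end Fermat.Agent.Lib.CFT.Duality.FormationT
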