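import Fermat.Agent.Lib.CFT.Duality.BaseCase.FormationT
import Fermat.Agent.Lib.CFT.Coh.ClassFormation.RestrictFormation
import Fermat.Agent.Lib.CFT.Profinite.CoresT
import Fermat.Agent.Lib.CFT.Profinite.MutualT

/-!
# From class formations to the `p`-primary `T`-groups (part 5: restricted formations)

For a class formation `F` on `Γ` and its restriction `F.restrictOn W 𝒰' …` (helper7,
`Coh/ClassFormation/RestrictFormation.lean`) to an open subgroup `W`, with respect to a level
family `𝒰'` of `W` subordinate to and cofinal among the normal levels `≤ W` of `F` (in general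
different from `LES.restrict F.𝒰 W`):

* `invT_coresT_restrictOn_of_layer` : `invT F (coresT (κ t)) = invT_W t`, where
  `κ = TMutual : Tʳ(𝒰', res C) → Tʳ(restrict 𝒰 W, res C)` is the comparison map;
* `invT_TMap_coindTrace_restrictOn_of_layer` : the same through the Shapiro isomorphism.
-/

set_option autoImplicit false
set_option linter.unusedSectionVars false

open CategoryTheory

universe u

namespace Fermat.Agent.Lib.CFT.Duality.FormationT

open Fermat.Agent.Lib.CFT.Profinite Fermat.Agent.Lib.CFT.Profinite.LevelFamily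
open Fermat.Agent.Lib.CFT.Profinite.LES
open Fermat.Agent.Lib.CFT.Coh.ClassFormation Fermat.Agent.Lib.CFT.Duality.KCalc

variable {k Γ : Type u} [CommRing k] [Group Γ] (F : Formation k Γ) (p : ℕ) [Fact p.Prime]
  {W : Subgroup Γ} {𝒰' : LevelFamily W}

/-- **Corestriction preserves the invariant on `T²`**, for the restricted formation on an
arbitrary subordinate cofinal level family `𝒰'` of `W`. -/
theorem invT_coresT_restrictOn_of_layer (hs : IsSubFamily F.𝒰 W 𝒰') (hcof : IsCofinalSub F.𝒰 W 𝒰')
    (hlayer : ∀ (U' : Subgroup W) [U'.Normal] (hU' : U' ∈ 𝒰'.levels),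
      letI := levelFintype 𝒰' U' hU'
      IsRecLayer ((Rep.res W.subtype F.C).quotientToInvariants U').ρ (restrictU F.u hs U' hU'))
    (hW : IsOpenSubgroup F.𝒰 W) (t : T 𝒰' p (Rep.res W.subtype F.C) 2) :
    invT F p (coresT p hW F.discrete 2
        (TMutual p hs.isCompatible_restrict (Rep.res W.subtype F.C) 2 t)) =
      invT (F.restrictOn W 𝒰' hs hcof hlayer).toFormation p t := by
  rw [invT_eq_iff, toH_coresT, toH_TMutual, Formation.inv_cores_restrictOn F hs hcof hlayer hW]
  exact (divP_invT (F.restrictOn W 𝒰' hs hcof hlayer).toFormation p t).symm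

/-- The same through the Shapiro isomorphism: for `s ∈ T²(Γ, coind (res C))` and
`t ∈ T²(𝒰', res C)` with the same image in `T²(restrict 𝒰 W, res C)`,
`invT (T²(trace) s) = invT_W t`. -/
theorem invT_TMap_coindTrace_restrictOn_of_layer (hs : IsSubFamily F.𝒰 W 𝒰')
    (hcof : IsCofinalSub F.𝒰 W 𝒰')
    (hlayer : ∀ (U' : Subgroup W) [U'.Normal] (hU' : U' ∈ 𝒰'.levels),
      letI := levelFintype 𝒰' U' hU'
      IsRecLayer ((Rep.res W.subtype F.C).quotientToInvariants U').ρ (restrictU F.u hs U' hU'))
    (hW : IsOpenSubgroup F.𝒰 W)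
    (s : T F.𝒰 p (Rep.coind W.subtype (Rep.res W.subtype F.C)) 2)
    (t : T 𝒰' p (Rep.res W.subtype F.C) 2)
    (hst : shapiroT F.𝒰 p W (Rep.res W.subtype F.C) 2 s =
      TMutual p hs.isCompatible_restrict (Rep.res W.subtype F.C) 2 t) :
    haveI := hW.finiteIndex
    invT F p (TMap F.𝒰 p (coindTrace W F.C) 2 s) =
      invT (F.restrictOn W 𝒰' hs hcof hlayer).toFormation p t := by
  have := hW.finiteIndex
  rw [← coresT_shapiroT p hW F.discrete 2 s, hst, invT_coresT_restrictOn_of_layer F p hs hcof hlayer hW]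

end Fermat.Agent.Lib.CFT.Duality.FormationT
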