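import Fermat.Agent.Lib.CFT.Duality.BaseCase.KCalcSeq
import Fermat.Agent.Lib.CFT.Profinite.LevelLowDegree

/-!
# The group `T⁰` of the `K(X)`-calculus

For any representation `M`, `T⁰(M)` is the `p`-torsion of the invariants `M^G`:
`toInv : T⁰(M) →ₗ M^G` is injective with image `{c | p • c = 0}`; in particular `T⁰(M)` is finite
as soon as the `p`-torsion of `M^G` (or of `M`) is.
-/

set_option autoImplicit false
set_option linter.unusedSectionVars false

open CategoryTheory

universe u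

namespace Fermat.Agent.Lib.CFT.Duality.FormationT

open Fermat.Agent.Lib.CFT.Profinite Fermat.Agent.Lib.CFT.Profinite.LevelFamily
open Fermat.Agent.Lib.CFT.Duality.KCalc

variable {k G : Type u} [CommRing k] [Group G] (𝒰 : LevelFamily G) (p : ℕ) (M : Rep.{u} k G)

/-- The map `T⁰(M) → M^G`. -/
noncomputable def toInv : T 𝒰 p M 0 →ₗ[k] M.ρ.invariants :=
  (𝒰.H0Equiv M).toLinearMap ∘ₗ toH 𝒰 p M 0

theorem toInv_apply (t : T 𝒰 p M 0) : toInv 𝒰 p M t = 𝒰.H0Equiv M (toH 𝒰 p M 0 t) := rfl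

theorem toInv_injective : Function.Injective (toInv 𝒰 p M) :=
  (𝒰.H0Equiv M).injective.comp (toH_zero_injective 𝒰 p M)

theorem nsmul_toInv (t : T 𝒰 p M 0) : p • toInv 𝒰 p M t = 0 := by
  rw [toInv_apply, ← map_nsmul, smul_toH, map_zero]

/-- The image of `toInv` is the `p`-torsion of `M^G`. -/
theorem exists_toInv_eq_iff (c : M.ρ.invariants) : (∃ t, toInv 𝒰 p M t = c) ↔ p • c = 0 := by
  constructor
  · rintro ⟨t, rfl⟩
    exact nsmul_toInv 𝒰 p M t
  · intro hc
    have h1 : p • (𝒰.H0Equiv M).symm c = 0 := by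
      rw [← map_nsmul, hc, map_zero]
    obtain ⟨t, ht⟩ := (exists_toH_eq_iff 𝒰 p M 0 _).2 h1
    exact ⟨t, by rw [toInv_apply, ht, LinearEquiv.apply_symm_apply]⟩

/-- `T⁰(M)` is finite if the `p`-torsion of `M^G` is. -/
theorem finite_T_zero (h : Finite {c : M.ρ.invariants // p • c = 0}) : Finite (T 𝒰 p M 0) :=
  Finite.of_injective (fun t => (⟨toInv 𝒰 p M t, nsmul_toInv 𝒰 p M t⟩ :
    {c : M.ρ.invariants // p • c = 0})) (fun _ _ htt' =>
      toInv_injective 𝒰 p M (congrArg Subtype.val htt'))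

/-- `T⁰(M)` is finite if the `p`-torsion of `M` is. -/
theorem finite_T_zero' (h : Finite {m : M // p • m = 0}) : Finite (T 𝒰 p M 0) := by
  refine finite_T_zero 𝒰 p M (Finite.of_injective (fun c => (⟨c.1.1, ?_⟩ : {m : M // p • m = 0}))
    (fun c c' hcc' => Subtype.ext (Subtype.ext (by
      have h2 := hcc'
      simp only [Subtype.mk.injEq] at h2
      exact h2))))
  have h1 := congrArg Subtype.val c.2
  exact h1

end Fermat.Agent.Lib.CFT.Duality.FormationT
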