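import Fermat.Agent.Lib.CFT.Duality.BaseCase.KDatum
import Fermat.Agent.Lib.CFT.Duality.BaseCase.ChangeRingCup
import Fermat.Agent.Lib.CFT.Duality.DevissageStep

/-!
# The zigzag for `ZMod p`-coefficients

A `Coeff D p M` attaches to a module `M` over a ring `k` (in practice `ZMod p`) a zigzag datum over
`ℤ` whose torsion module is `intRep M`; it yields an additive bijection
`Theta : Hⁿ⁺¹_c(M) ≃ Tⁿ(C)` (for `n = 1, 2` under the semilocal hypothesis), natural for morphisms
of coefficients, with an explicit description on the image of the local cohomology.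
-/

set_option autoImplicit false

open CategoryTheory Fermat.Agent.Lib.CFT.Profinite

namespace Fermat.Agent.Lib.CFT.Duality.GlobalBase

open KCalc ChangeRing

variable {k : Type} [CommRing k] {G : Type} [Group G] (D : LocDatum G) (p : ℕ)

/-- A zigzag datum over `ℤ` computing the compactly supported cohomology of the `k`-module `M`. -/
structure Coeff (M : Rep.{0} k G) where
  K : KDatum ℤ D p
  e : intRep M ≅ K.N

namespace Coeff

variable {D p} {M : Rep.{0} k G} (c : Coeff D p M)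

/-- The transported zigzag map `Hⁿ⁺¹_c(M) → Tⁿ(C)`. -/
noncomputable def Theta {n : ℕ} (hg : c.K.zig.Good n) : D.Hc M (n + 1) →+ T D.𝒰 p c.K.C n :=
  (c.K.theta hg).toAddMonoidHom.comp
    ((D.HcMap c.e.hom (n + 1)).toAddMonoidHom.comp (HcInt D M (n + 1)).toAddMonoidHom)

theorem Theta_apply {n : ℕ} (hg : c.K.zig.Good n) (x : D.Hc M (n + 1)) :
    c.Theta hg x = c.K.theta hg (D.HcMap c.e.hom (n + 1) (HcInt D M (n + 1) x)) := rfl

theorem HcMap_iso_bijective {A B : Rep.{0} ℤ G} (e : A ≅ B) (n : ℕ) :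
    Function.Bijective (D.HcMap e.hom n) := by
  have h1 : D.HcMap e.inv n ∘ₗ D.HcMap e.hom n = LinearMap.id := by
    rw [← LocDatum.HcMap_comp, e.hom_inv_id, LocDatum.HcMap_id]
  have h2 : D.HcMap e.hom n ∘ₗ D.HcMap e.inv n = LinearMap.id := by
    rw [← LocDatum.HcMap_comp, e.inv_hom_id, LocDatum.HcMap_id]
  refine Function.bijective_iff_has_inverse.2 ⟨D.HcMap e.inv n, fun x => ?_, fun x => ?_⟩
  · exact congr($h1 x)
  · exact congr($h2 x)

theorem Theta_bijective {n : ℕ} (hg : c.K.zig.Good n) : Function.Bijective (c.Theta hg) :=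
  (c.K.theta_bijective hg).comp
    ((HcMap_iso_bijective c.e (n + 1)).comp (HcInt D M (n + 1)).bijective)

/-- Naturality of `Theta`. -/
theorem Theta_comm {M' : Rep.{0} k G} (c' : Coeff D p M') (f : M ⟶ M') (F : KDatum.Hom c.K c'.K)
    (hf : intMap f ≫ c'.e.hom = c.e.hom ≫ F.fN) {n : ℕ} (hg : c.K.zig.Good n)
    (hg' : c'.K.zig.Good n) (x : D.Hc M (n + 1)) :
    c'.Theta hg' (D.HcMap f (n + 1) x) = TMap D.𝒰 p F.fC n (c.Theta hg x) := by
  have h1 : D.HcMap c'.e.hom (n + 1) (D.HcMap (intMap f) (n + 1) (HcInt D M (n + 1) x)) =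
      D.HcMap F.fN (n + 1) (D.HcMap c.e.hom (n + 1) (HcInt D M (n + 1) x)) := by
    rw [← LinearMap.comp_apply, ← LocDatum.HcMap_comp, hf, LocDatum.HcMap_comp,
      LinearMap.comp_apply]
  rw [Theta_apply, Theta_apply, HcInt_HcMap, h1]
  exact F.theta_comm hg hg' _

/-- The local comparison `Pⁿ(M) → ∏ᵥ Tⁿ(L v)`. -/
noncomputable def locT (n : ℕ) : D.locH M n →+ ∀ v, T (D.𝒱 v) p (c.K.L v) n :=
  (c.K.uLT n).toAddMonoidHom.comp
    ((D.locHMap c.e.hom n).toAddMonoidHom.comp (locHInt D M n).toAddMonoidHom)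

theorem locT_apply (n : ℕ) (x : D.locH M n) :
    c.locT n x = c.K.uLT n (D.locHMap c.e.hom n (locHInt D M n x)) := rfl

theorem locHMap_iso_bijective {A B : Rep.{0} ℤ G} (e : A ≅ B) (n : ℕ) :
    Function.Bijective (D.locHMap e.hom n) := by
  have key : ∀ {A B : Rep.{0} ℤ G} (e : A ≅ B) (x : D.locH A n),
      D.locHMap e.inv n (D.locHMap e.hom n x) = x := by
    intro A B e x
    funext i
    rw [LocDatum.locHMap_apply, LocDatum.locHMap_apply]
    have h0 : (Rep.resFunctor (D.φ i)).map e.hom ≫ (Rep.resFunctor (D.φ i)).map e.inv = 𝟙 _ := by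
      rw [← Functor.map_comp, e.hom_inv_id]
      exact (Rep.resFunctor (D.φ i)).map_id A
    have h1 := DevissageStep.levelCohomologyMap_comp (D.𝒱 i)
      ((Rep.resFunctor (D.φ i)).map e.hom) ((Rep.resFunctor (D.φ i)).map e.inv) n
    rw [h0, DevissageStep.levelCohomologyMap_id] at h1
    exact (congr($h1 (x i))).symm
  exact Function.bijective_iff_has_inverse.2 ⟨D.locHMap e.inv n, key e, key e.symm⟩

theorem locT_bijective (n : ℕ) : Function.Bijective (c.locT n) :=
  (c.K.uLT_bijective n).comp ((locHMap_iso_bijective c.e n).comp (locHInt D M n).bijective)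

/-- `Theta` on the image of the local cohomology. -/
theorem Theta_HcOfLocal {n : ℕ} (hg : c.K.zig.Good n) (x : D.locH M n) (y : T D.𝒰 p c.K.J n)
    (hxy : c.K.lamT n y = c.locT n x) :
    c.Theta hg (D.HcOfLocal M n x) = TMap D.𝒰 p c.K.π n y := by
  rw [Theta_apply, HcInt_HcOfLocal, LocDatum.HcMap_HcOfLocal]
  exact c.K.theta_HcOfLocal hg _ y hxy

end Coeff

end Fermat.Agent.Lib.CFT.Duality.GlobalBase
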