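/-
helper53 (P-CFT, L4 base cases, KCalc part 2, degree-zero version).  Cup product with a level
`0`-cocycle `y` of `R` (an invariant element) is a chain map between level complexes, commuting
with multiplication by a scalar; hence it induces a chain map between the cones
`Phi0 : natCone m' ⟶ natCone m`, `(a, b) ↦ (a ∪ y, b ∪ y)`, and maps
`PhiT0 n : T^n(X') → T^n(X)` compatible with `ofH`, `toH` and the comparison map `torsionToT`.
-/
import Fermat.Agent.Lib.CFT.Duality.BaseCase.KCalcCupT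
import Fermat.Agent.Lib.CFT.Duality.NatConeMap

set_option autoImplicit false
set_option linter.unusedSectionVars false

universe u

open CategoryTheory groupCohomology

namespace Fermat.Agent.Lib.CFT.Duality.KCalcCup

open Fermat.Agent.Lib.CFT Fermat.Agent.Lib.CFT.Profinite Fermat.Agent.Lib.CFT.Coh.Cup
  Fermat.Agent.Lib.CFT.Duality ConcreteHomology

variable {k G : Type u} [CommRing k] [Group G] (𝒰 : LevelFamily G)
  {X' R X : Rep.{u} k G} (ψ : Pairing X' R X)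
  (y : 𝒰.levelCochains R 0) (hy : dL 𝒰 R 0 y = 0)

include hy in
/-- Cup product with a `0`-cocycle commutes with the differentials. -/
theorem dL_cupR_zero (n : ℕ) (a : 𝒰.levelCochains X' n) :
    dL 𝒰 X n (cupR 𝒰 ψ (add_zero n) y a) =
      cupR 𝒰 ψ (add_zero (n + 1)) y (dL 𝒰 X' n a) := by
  rw [dL_cupR, hy]
  have : cupR 𝒰 ψ (show n + (0 + 1) = n + 1 from rfl) (0 : 𝒰.levelCochains R (0 + 1)) a = 0 :=
    Subtype.ext (cupTo_zero_right ψ _ a.1)
  rw [this, smul_zero, add_zero]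

/-- Cup product with a level `0`-cocycle, as a chain map of level complexes. -/
noncomputable def cupZero : 𝒰.levelComplex X' ⟶ 𝒰.levelComplex X where
  f n := ModuleCat.ofHom (cupR 𝒰 ψ (add_zero n) y)
  comm' i j hij := by
    obtain rfl : i + 1 = j := hij
    refine ModuleCat.hom_ext (LinearMap.ext fun a => ?_)
    show ((𝒰.levelComplex X).d i (i + 1)).hom (cupR 𝒰 ψ (add_zero i) y a) =
      cupR 𝒰 ψ (add_zero (i + 1)) y (((𝒰.levelComplex X').d i (i + 1)).hom a)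
    rw [levelComplex_d_apply, levelComplex_d_apply]
    exact dL_cupR_zero 𝒰 ψ y hy i a

@[simp] theorem cupZero_f_apply (n : ℕ) (a : 𝒰.levelCochains X' n) :
    ((cupZero 𝒰 ψ y hy).f n).hom a = cupR 𝒰 ψ (add_zero n) y a := rfl

section cone

variable (m' : 𝒰.levelComplex X' ⟶ 𝒰.levelComplex X') (m : 𝒰.levelComplex X ⟶ 𝒰.levelComplex X)
  {c : k}
  (hm' : ∀ (n : ℕ) (a : 𝒰.levelCochains X' n), (m'.f n).hom a = c • a)
  (hm : ∀ (n : ℕ) (a : 𝒰.levelCochains X n), (m.f n).hom a = c • a)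

include hm' hm in
theorem cupZero_comm : m' ≫ cupZero 𝒰 ψ y hy = cupZero 𝒰 ψ y hy ≫ m := by
  refine HomologicalComplex.hom_ext _ _ fun n => ?_
  refine ModuleCat.hom_ext (LinearMap.ext fun a => ?_)
  show cupR 𝒰 ψ (add_zero n) y ((m'.f n).hom a) = (m.f n).hom (cupR 𝒰 ψ (add_zero n) y a)
  rw [hm', hm, map_smul]

/-- The chain map `(a, b) ↦ (a ∪ y, b ∪ y)` between cones of multiplication by `c`, for a level
`0`-cocycle `y`. -/
noncomputable def Phi0 : natCone m' ⟶ natCone m :=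
  natCone.map m' m (cupZero 𝒰 ψ y hy) (cupZero 𝒰 ψ y hy) (cupZero_comm 𝒰 ψ y hy m' m hm' hm)

theorem fstL_Phi0 (n : ℕ) (x : (natCone m').X n) :
    natCone.fstL m n (((Phi0 𝒰 ψ y hy m' m hm' hm).f n).hom x) =
      cupR 𝒰 ψ (add_zero n) y (natCone.fstL m' n x) := rfl

theorem sndL_Phi0 (n : ℕ) (x : (natCone m').X (n + 1)) :
    natCone.sndL m n (((Phi0 𝒰 ψ y hy m' m hm' hm).f (n + 1)).hom x) =
      cupR 𝒰 ψ (add_zero n) y (natCone.sndL m' n x) := rfl

theorem Phi0_inlL (n : ℕ) (a : 𝒰.levelCochains X' n) :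
    ((Phi0 𝒰 ψ y hy m' m hm' hm).f n).hom (natCone.inlL m' n a) =
      natCone.inlL m n (cupR 𝒰 ψ (add_zero n) y a) :=
  natCone.map_inlL m' m _ _ _ n a

theorem Phi0_inrL (n : ℕ) (b : 𝒰.levelCochains X' n) :
    ((Phi0 𝒰 ψ y hy m' m hm' hm).f (n + 1)).hom (natCone.inrL m' n b) =
      natCone.inrL m n (cupR 𝒰 ψ (add_zero n) y b) :=
  natCone.map_inrL m' m _ _ _ n b

/-- The map induced by `Phi0` on the homology of the cones. -/
noncomputable def PhiH0 (n : ℕ) : (natCone m').homology n →ₗ[k] (natCone m).homology n :=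
  (HomologicalComplex.homologyMap (Phi0 𝒰 ψ y hy m' m hm' hm) n).hom

theorem PhiH0_classOf (n : ℕ) (x : Z (natCone m') n) :
    PhiH0 𝒰 ψ y hy m' m hm' hm n (classOf (natCone m') n x) =
      classOf (natCone m) n (mapZ (Phi0 𝒰 ψ y hy m' m hm' hm) n x) :=
  homologyMap_classOf _ n x

/-- Compatibility of `PhiH0` with the boundary maps `Hⁿ → Hⁿ⁺¹(cone)`. -/
theorem PhiH0_bdry (n : ℕ) (x : (𝒰.levelComplex X').homology n) :
    PhiH0 𝒰 ψ y hy m' m hm' hm (n + 1) (natCone.bdry m' n x) =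
      natCone.bdry m n ((HomologicalComplex.homologyMap (cupZero 𝒰 ψ y hy) n).hom x) :=
  natCone.homologyMap_map_bdry m' m _ _ _ n x

/-- Compatibility of `PhiH0` with the projections `Hⁿ(cone) → Hⁿ`. -/
theorem homologyMap_fst_PhiH0 (n : ℕ) (x : (natCone m').homology n) :
    (HomologicalComplex.homologyMap (natCone.fst m) n).hom (PhiH0 𝒰 ψ y hy m' m hm' hm n x) =
      (HomologicalComplex.homologyMap (cupZero 𝒰 ψ y hy) n).hom
        ((HomologicalComplex.homologyMap (natCone.fst m') n).hom x) := by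
  have h := natCone.map_fst m' m (cupZero 𝒰 ψ y hy) (cupZero 𝒰 ψ y hy)
    (cupZero_comm 𝒰 ψ y hy m' m hm' hm)
  have h1 : HomologicalComplex.homologyMap (Phi0 𝒰 ψ y hy m' m hm' hm) n ≫
      HomologicalComplex.homologyMap (natCone.fst m) n =
      HomologicalComplex.homologyMap (natCone.fst m') n ≫
        HomologicalComplex.homologyMap (cupZero 𝒰 ψ y hy) n := by
    rw [← HomologicalComplex.homologyMap_comp, ← HomologicalComplex.homologyMap_comp]
    exact congr_arg (fun f => HomologicalComplex.homologyMap f n) h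
  exact congr($h1 x)

end cone

/-! ### The `K(X)`-calculus version -/

section T

variable (p : ℕ)

/-- The map `T^n(X') → T^n(X)` induced by the cup product with a level `0`-cocycle. -/
noncomputable def PhiT0 (n : ℕ) : KCalc.T 𝒰 p X' n →ₗ[k] KCalc.T 𝒰 p X n :=
  PhiH0 𝒰 ψ y hy (KCalc.mulP 𝒰 p X') (KCalc.mulP 𝒰 p X) (mulP_hom_apply 𝒰 p X')
    (mulP_hom_apply 𝒰 p X) n

theorem PhiT0_classOf (n : ℕ) (x : Z (KCalc.Kp 𝒰 p X') n) :
    PhiT0 𝒰 ψ y hy p n (classOf (KCalc.Kp 𝒰 p X') n x) =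
      classOf (KCalc.Kp 𝒰 p X) n
        (mapZ (Phi0 𝒰 ψ y hy (KCalc.mulP 𝒰 p X') (KCalc.mulP 𝒰 p X) (mulP_hom_apply 𝒰 p X')
          (mulP_hom_apply 𝒰 p X)) n x) :=
  PhiH0_classOf 𝒰 ψ y hy _ _ _ _ n x

/-- The map induced on level cohomology by the cup product with a level `0`-cocycle. -/
noncomputable def cupZeroH (n : ℕ) : 𝒰.levelCohomology X' n →ₗ[k] 𝒰.levelCohomology X n :=
  (HomologicalComplex.homologyMap (cupZero 𝒰 ψ y hy) n).hom

theorem cupZeroH_classOf (n : ℕ) (a : Z (𝒰.levelComplex X') n) :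
    cupZeroH 𝒰 ψ y hy n (classOf (𝒰.levelComplex X') n a) =
      classOf (𝒰.levelComplex X) n (mapZ (cupZero 𝒰 ψ y hy) n a) :=
  homologyMap_classOf _ n a

/-- `PhiT0 ∘ ofH = ofH ∘ (· ∪ y)`. -/
theorem PhiT0_ofH (n : ℕ) (x : 𝒰.levelCohomology X' n) :
    PhiT0 𝒰 ψ y hy p (n + 1) (KCalc.ofH 𝒰 p X' n x) =
      KCalc.ofH 𝒰 p X n (cupZeroH 𝒰 ψ y hy n x) :=
  PhiH0_bdry 𝒰 ψ y hy _ _ _ _ n x

/-- `toH ∘ PhiT0 = (· ∪ y) ∘ toH`. -/
theorem toH_PhiT0 (n : ℕ) (x : KCalc.T 𝒰 p X' n) :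
    KCalc.toH 𝒰 p X n (PhiT0 𝒰 ψ y hy p n x) =
      cupZeroH 𝒰 ψ y hy n (KCalc.toH 𝒰 p X' n x) :=
  homologyMap_fst_PhiH0 𝒰 ψ y hy _ _ _ _ n x

variable {Rb : Rep.{u} k G}
  (ψp : Pairing (KCalc.torsionRep p X') Rb (KCalc.torsionRep p X)) (red : R ⟶ Rb)
  (hred : ∀ (a : KCalc.torsionRep p X') (r : R),
    (KCalc.torsionι p X).hom (ψp.toLin a (red.hom r)) = ψ.toLin ((KCalc.torsionι p X').hom a) r)

include hy in
theorem dL_cmap_red_zero : dL 𝒰 Rb 0 (cmap 𝒰 red 0 y) = 0 := by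
  rw [dL_cmap, hy, map_zero]

include hred in
/-- **Compatibility with the comparison map** `H^n(X'[p]) → T^n(X')`: on classes coming from the
`p`-torsion, `PhiT0` is the cup product with the reduction of `y`. -/
theorem PhiT0_torsionToT (n : ℕ) (x : 𝒰.levelCohomology (KCalc.torsionRep p X') n) :
    PhiT0 𝒰 ψ y hy p n (KCalc.torsionToT 𝒰 p X' n x) =
      KCalc.torsionToT 𝒰 p X n
        (cupZeroH 𝒰 ψp (cmap 𝒰 red 0 y) (dL_cmap_red_zero 𝒰 y hy red) n x) := by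
  obtain ⟨a, rfl⟩ := classOf_surjective (𝒰.levelComplex (KCalc.torsionRep p X')) n x
  rw [KCalc.torsionToT_classOf, cupZeroH_classOf, KCalc.torsionToT_classOf, PhiT0_classOf]
  refine congr_arg _ (Subtype.ext ?_)
  rw [mapZ_coe, mapZ_coe, mapZ_coe, mapZ_coe, torsionToKp_f_apply, torsionToKp_f_apply, Phi0_inlL,
    cupZero_f_apply]
  congr 1
  exact (cmap_torsionι_cupR 𝒰 p ψ ψp red hred (add_zero n) y a.1).symm

end T

end Fermat.Agent.Lib.CFT.Duality.KCalcCup
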