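import Fermat.Agent.Lib.CFT.Duality.CoindDual
import Fermat.Agent.Lib.CFT.Duality.Additivity
import Fermat.Agent.Lib.CFT.Duality.EvPairing
import Fermat.Agent.Lib.CFT.Duality.BaseCase.KCalcRep
import Fermat.Agent.Lib.CFT.Coh.CupCochain

/-!
# The functor calculus of `P V X = Coind_V^G (X|_V)`  (P-CFT, L4, helper91)

`P V X := DevissageRep.P V X = Rep.coind V.subtype (Rep.res V.subtype X)` for a finite index
subgroup `V` of `G`; coordinates `CoindDual.coord : P V X → (G ⧸ V → X)`.

1. `PMap V f : P V X ⟶ P V Y`, functorial; injective / surjective / short exact preserved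
   (`PSeq`, `PSeq_shortExact`); `PFunc V`.
2. torsion and divisibility: `divisible_P`, `nsmul_eq_zero_iff`, `torsionIso`.
3. the trace map `sumMap V X : P V X ⟶ X`, `f ↦ ∑ x, coord f x`, natural in `X`.
4. the trace pairing `tracePairing V X : Pairing (P V X) (R V) X`,
   `(f, r) ↦ ∑ x, coord r x • coord f x`, with `R V := P V (Rep.trivial k G k)`.
5. compatibility of `CoindDual.dualIso` with the evaluation pairing.
-/

set_option autoImplicit false

universe u

open CategoryTheory CategoryTheory.Limits Fermat.Agent.Lib.CFT.Profinite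
open Fermat.Agent.Lib.CFT.Duality.DevissageRep Fermat.Agent.Lib.CFT.Duality.CoindDual
open Fermat.Agent.Lib.CFT.Coh.Cup

namespace Fermat.Agent.Lib.CFT.Duality.PVCalc

variable {k G : Type u} [CommRing k] [Group G] (V : Subgroup G)

/-! ### 0. Coordinates -/

theorem coord_uncoord (M : Rep.{u} k G) (a : G ⧸ V → M) : coord V M (uncoord V M a) = a :=
  (coordEquiv V M).apply_symm_apply a

theorem uncoord_coord (M : Rep.{u} k G) (f : P V M) : uncoord V M (coord V M f) = f :=
  (coordEquiv V M).symm_apply_apply f

theorem coord_injective (M : Rep.{u} k G) : Function.Injective (coord V M) :=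
  (coordEquiv V M).injective

theorem coord_add (M : Rep.{u} k G) (f f' : P V M) :
    coord V M (f + f') = coord V M f + coord V M f' := (coordEquiv V M).map_add f f'

theorem coord_smul (M : Rep.{u} k G) (c : k) (f : P V M) :
    coord V M (c • f) = c • coord V M f := (coordEquiv V M).map_smul c f

theorem coord_zero (M : Rep.{u} k G) : coord V M (0 : P V M) = 0 := (coordEquiv V M).map_zero

theorem coord_nsmul (M : Rep.{u} k G) (n : ℕ) (f : P V M) :
    coord V M (n • f) = n • coord V M f := map_nsmul (coordEquiv V M) n f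

/-! ### 1. Functoriality -/

section Functor

variable {X Y Z : Rep.{u} k G}

/-- `P V` on morphisms: post-composition. -/
noncomputable def PMap (f : X ⟶ Y) : P V X ⟶ P V Y :=
  Rep.coindMap V.subtype (Rep.resMap V.subtype f)

theorem PMap_apply (f : X ⟶ Y) (φ : P V X) (g : G) :
    ((PMap V f).hom φ).1 g = f.hom (φ.1 g) := rfl

theorem PMap_id : PMap V (𝟙 X) = 𝟙 (P V X) := by
  ext φ g
  rfl

theorem PMap_comp (f : X ⟶ Y) (f' : Y ⟶ Z) : PMap V (f ≫ f') = PMap V f ≫ PMap V f' := by
  ext φ g
  rfl

theorem PMap_zero : PMap V (0 : X ⟶ Y) = 0 := by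
  ext φ g
  rfl

theorem PMap_add (f f' : X ⟶ Y) : PMap V (f + f') = PMap V f + PMap V f' := by
  ext φ g
  rfl

variable (k) in
/-- The functor `X ↦ P V X`. -/
noncomputable def PFunc : Rep.{u} k G ⥤ Rep.{u} k G where
  obj X := P V X
  map f := PMap V f
  map_id _ := PMap_id V
  map_comp f f' := PMap_comp V f f'

@[simp] theorem PFunc_obj (X : Rep.{u} k G) : (PFunc k V).obj X = P V X := rfl
@[simp] theorem PFunc_map (f : X ⟶ Y) : (PFunc k V).map f = PMap V f := rfl

/-- `PMap` in coordinates. -/
theorem coord_PMap (f : X ⟶ Y) (φ : P V X) (x : G ⧸ V) :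
    coord V Y ((PMap V f).hom φ) x = f.hom (coord V X φ x) := by
  induction x using QuotientGroup.induction_on with
  | H h => rw [coord_mk, coord_mk, PMap_apply, Rep.hom_comm_apply]

theorem PMap_uncoord (f : X ⟶ Y) (a : G ⧸ V → X) :
    (PMap V f).hom (uncoord V X a) = uncoord V Y (fun x => f.hom (a x)) := by
  apply (coordEquiv V Y).injective
  funext x
  rw [coordEquiv_apply, coordEquiv_apply, coord_PMap, coord_uncoord, coord_uncoord]

theorem PMap_injective (f : X ⟶ Y) (hf : Function.Injective f.hom) :
    Function.Injective (PMap V f).hom := by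
  intro φ φ' h
  apply Subtype.ext
  funext g
  apply hf
  rw [← PMap_apply, ← PMap_apply, h]

theorem PMap_surjective (f : X ⟶ Y) (hf : Function.Surjective f.hom) :
    Function.Surjective (PMap V f).hom := by
  intro ψ
  choose s hs using hf
  refine ⟨uncoord V X (fun x => s (coord V Y ψ x)), ?_⟩
  rw [PMap_uncoord]
  simp only [hs]
  exact uncoord_coord V Y ψ

/-- Elementwise exactness of a short exact sequence of representations. -/
theorem exact_of_shortExact {S : ShortComplex (Rep.{u} k G)} (hS : S.ShortExact) :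
    Function.Exact S.f.hom S.g.hom := by
  have hrk : LinearMap.range S.f.hom.toLinearMap = LinearMap.ker S.g.hom.toLinearMap :=
    (hS.exact.map (forget₂ (Rep k G) (ModuleCat k))).moduleCat_range_eq_ker
  intro y
  constructor
  · intro hy
    have : y ∈ LinearMap.ker S.g.hom.toLinearMap := hy
    rw [← hrk] at this
    exact this
  · rintro ⟨x, rfl⟩
    have : S.f.hom.toLinearMap x ∈ LinearMap.ker S.g.hom.toLinearMap := by
      rw [← hrk]; exact ⟨x, rfl⟩
    exact this

/-- `P V` applied to a short complex. -/
noncomputable def PSeq (S : ShortComplex (Rep.{u} k G)) : ShortComplex (Rep.{u} k G) :=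
  ShortComplex.mk (PMap V S.f) (PMap V S.g) (by rw [← PMap_comp, S.zero, PMap_zero])

@[simp] theorem PSeq_X₁ (S : ShortComplex (Rep.{u} k G)) : (PSeq V S).X₁ = P V S.X₁ := rfl
@[simp] theorem PSeq_X₂ (S : ShortComplex (Rep.{u} k G)) : (PSeq V S).X₂ = P V S.X₂ := rfl
@[simp] theorem PSeq_X₃ (S : ShortComplex (Rep.{u} k G)) : (PSeq V S).X₃ = P V S.X₃ := rfl
@[simp] theorem PSeq_f (S : ShortComplex (Rep.{u} k G)) : (PSeq V S).f = PMap V S.f := rfl
@[simp] theorem PSeq_g (S : ShortComplex (Rep.{u} k G)) : (PSeq V S).g = PMap V S.g := rfl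

/-- Elementwise exactness of `P V` applied to a short exact sequence. -/
theorem PMap_exact {S : ShortComplex (Rep.{u} k G)} (hS : S.ShortExact) :
    Function.Exact (PMap V S.f).hom (PMap V S.g).hom := by
  have hex := exact_of_shortExact hS
  intro φ
  constructor
  · intro hφ
    have h1 : ∀ x : G ⧸ V, ∃ a : S.X₁, S.f.hom a = coord V S.X₂ φ x := by
      intro x
      apply (hex _).1
      rw [← coord_PMap, hφ, coord_zero]
      rfl
    choose a ha using h1
    refine ⟨uncoord V S.X₁ a, ?_⟩
    rw [PMap_uncoord]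
    simp only [ha]
    exact uncoord_coord V S.X₂ φ
  · rintro ⟨ψ, rfl⟩
    have : (PMap V S.g).hom ((PMap V S.f).hom ψ) = (PMap V S.f ≫ PMap V S.g).hom ψ := rfl
    rw [this, ← PMap_comp, S.zero, PMap_zero]
    rfl

/-- `P V` preserves short exact sequences. -/
theorem PSeq_shortExact {S : ShortComplex (Rep.{u} k G)} (hS : S.ShortExact) :
    (PSeq V S).ShortExact where
  exact := by
    rw [← ShortComplex.exact_map_iff_of_faithful (F := forget₂ (Rep k G) (ModuleCat k)),
      ShortComplex.moduleCat_exact_iff]
    intro φ hφ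
    exact (PMap_exact V hS φ).1 hφ
  mono_f := (Rep.mono_iff_injective _).2
    (PMap_injective V S.f ((Rep.mono_iff_injective _).1 hS.mono_f))
  epi_g := (Rep.epi_iff_surjective _).2
    (PMap_surjective V S.g ((Rep.epi_iff_surjective _).1 hS.epi_g))

end Functor

/-! ### 2. Torsion and divisibility -/

section Torsion

open Fermat.Agent.Lib.CFT.Duality.KCalc

variable (p : ℕ) (X : Rep.{u} k G)

theorem nsmul_apply (n : ℕ) (φ : P V X) (g : G) : (n • φ).1 g = n • φ.1 g := by
  induction n with
  | zero => simp only [zero_smul]; rfl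
  | succ n ih =>
    rw [succ_nsmul, succ_nsmul, ← ih]
    rfl

/-- An element of `P V X` is killed by `p` iff all its values are. -/
theorem nsmul_eq_zero_iff (φ : P V X) : p • φ = 0 ↔ ∀ g : G, p • φ.1 g = 0 := by
  constructor
  · intro h g
    rw [← nsmul_apply, h]
    rfl
  · intro h
    apply Subtype.ext
    funext g
    rw [nsmul_apply, h g]
    rfl

/-- An element of `P V X` is killed by `p` iff all its coordinates are. -/
theorem nsmul_eq_zero_iff_coord (φ : P V X) :
    p • φ = 0 ↔ ∀ x : G ⧸ V, p • coord V X φ x = 0 := by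
  rw [← (coord_injective V X).eq_iff, coord_nsmul, coord_zero]
  constructor
  · intro h x
    exact congrFun h x
  · intro h
    funext x
    exact h x

/-- If `X` is `p`-divisible, so is `P V X`. -/
theorem divisible_P (hdiv : ∀ x : X, ∃ y : X, p • y = x) (φ : P V X) :
    ∃ ψ : P V X, p • ψ = φ := by
  choose s hs using hdiv
  refine ⟨uncoord V X (fun x => s (coord V X φ x)), ?_⟩
  apply coord_injective V X
  rw [coord_nsmul, coord_uncoord]
  funext x
  exact hs _

/-- The values of a `p`-torsion element of `P V X`, as a function to `X[p]`. -/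
noncomputable def torsionToFun (φ : torsionRep p (P V X)) : P V (torsionRep p X) :=
  ⟨fun g => ⟨φ.1.1 g, (nsmul_eq_zero_iff V p X φ.1).1 φ.2 g⟩, fun v g =>
    Subtype.ext (φ.1.2 v g)⟩

theorem torsionToFun_apply (φ : torsionRep p (P V X)) (g : G) :
    ((torsionToFun V p X φ).1 g).1 = φ.1.1 g := rfl

/-- A function to `X[p]` as a `p`-torsion element of `P V X`. -/
noncomputable def torsionOfFun (ψ : P V (torsionRep p X)) : torsionRep p (P V X) :=
  ⟨(PMap V (torsionι p X)).hom ψ, (nsmul_eq_zero_iff V p X _).2 fun g => (ψ.1 g).2⟩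

theorem torsionOfFun_apply (ψ : P V (torsionRep p X)) (g : G) :
    (torsionOfFun V p X ψ).1.1 g = (ψ.1 g).1 := rfl

/-- `(P V X)[p] ≃ P V (X[p])`, linearly. -/
noncomputable def torsionLinearEquiv : torsionRep p (P V X) ≃ₗ[k] P V (torsionRep p X) where
  toFun := torsionToFun V p X
  map_add' _ _ := rfl
  map_smul' _ _ := rfl
  invFun := torsionOfFun V p X
  left_inv _ := rfl
  right_inv _ := rfl

/-- `(P V X)[p] ≅ P V (X[p])` as representations. -/
noncomputable def torsionIso : torsionRep p (P V X) ≅ P V (torsionRep p X) :=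
  Rep.mkIso (Representation.Equiv.mk (torsionLinearEquiv V p X) (fun _ => rfl))

theorem torsionIso_hom_apply (φ : torsionRep p (P V X)) (g : G) :
    (((torsionIso V p X).hom.hom φ).1 g).1 = φ.1.1 g := rfl

theorem torsionIso_inv_apply (ψ : P V (torsionRep p X)) (g : G) :
    ((torsionIso V p X).inv.hom ψ).1.1 g = (ψ.1 g).1 := rfl

/-- The isomorphism `(P V X)[p] ≅ P V (X[p])` is compatible with the inclusions into `P V X`. -/
theorem torsionIso_hom_comp :
    (torsionIso V p X).hom ≫ PMap V (torsionι p X) = torsionι p (P V X) := by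
  ext φ g
  rfl

theorem torsionIso_inv_comp :
    (torsionIso V p X).inv ≫ torsionι p (P V X) = PMap V (torsionι p X) := by
  rw [Iso.inv_comp_eq, torsionIso_hom_comp]

end Torsion

/-! ### 3. The trace map -/

section Trace

variable [V.FiniteIndex]

open scoped Classical in
/-- The sum over `G ⧸ V` (a finite set, as `V` has finite index). -/
noncomputable def qsum {A : Type*} [AddCommMonoid A] (a : G ⧸ V → A) : A :=
  letI : Fintype (G ⧸ V) := Fintype.ofFinite _
  ∑ x : G ⧸ V, a x

theorem qsum_add {A : Type*} [AddCommMonoid A] (a b : G ⧸ V → A) :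
    qsum V (fun x => a x + b x) = qsum V a + qsum V b := by
  classical
  exact Finset.sum_add_distrib

theorem qsum_zero {A : Type*} [AddCommMonoid A] : qsum V (fun _ => (0 : A)) = 0 := by
  classical
  exact Finset.sum_const_zero

theorem qsum_smul {A : Type*} [AddCommMonoid A] [Module k A] (c : k) (a : G ⧸ V → A) :
    qsum V (fun x => c • a x) = c • qsum V a := by
  classical
  exact Finset.smul_sum.symm

theorem map_qsum {A B : Type*} [AddCommMonoid A] [AddCommMonoid B] {F : Type*} [FunLike F A B]
    [AddMonoidHomClass F A B] (f : F) (a : G ⧸ V → A) :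
    f (qsum V a) = qsum V (fun x => f (a x)) := by
  classical
  exact map_sum f _ _

/-- Reindexing the sum over `G ⧸ V` by the translation by `γ`. -/
theorem qsum_smul_index {A : Type*} [AddCommMonoid A] (γ : G) (a : G ⧸ V → A) :
    qsum V (fun x => a (γ • x)) = qsum V a := by
  classical
  let _ : Fintype (G ⧸ V) := Fintype.ofFinite _
  exact Equiv.sum_comp (MulAction.toPerm γ : Equiv.Perm (G ⧸ V)) a

theorem qsum_congr {A : Type*} [AddCommMonoid A] {a b : G ⧸ V → A} (h : ∀ x, a x = b x) :
    qsum V a = qsum V b := by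
  rw [funext h]

variable (X : Rep.{u} k G)

/-- The trace map `P V X → X`, `f ↦ ∑ x, coord f x`, as a linear map. -/
noncomputable def sumLin : P V X →ₗ[k] X where
  toFun φ := qsum V (coord V X φ)
  map_add' φ φ' := by
    rw [coord_add]
    exact qsum_add V _ _
  map_smul' c φ := by
    rw [coord_smul]
    exact qsum_smul V c _

theorem sumLin_apply (φ : P V X) : sumLin V X φ = qsum V (coord V X φ) := rfl

/-- The trace map `P V X ⟶ X`, `f ↦ ∑ x, coord f x`. -/
noncomputable def sumMap : P V X ⟶ X :=
  Rep.ofHom ⟨sumLin V X, fun γ => by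
    ext φ
    show sumLin V X ((P V X).ρ γ φ) = X.ρ γ (sumLin V X φ)
    rw [sumLin_apply, sumLin_apply, map_qsum V (X.ρ γ),
      ← qsum_smul_index V γ⁻¹ (fun x => X.ρ γ (coord V X φ x))]
    exact qsum_congr V fun x => coord_ρ V X γ φ x⟩

theorem sumMap_hom_apply (φ : P V X) : (sumMap V X).hom φ = qsum V (coord V X φ) := rfl

variable {X} in
/-- The trace map is natural. -/
theorem sumMap_naturality {Y : Rep.{u} k G} (f : X ⟶ Y) :
    PMap V f ≫ sumMap V Y = sumMap V X ≫ f := by
  ext φ
  show (sumMap V Y).hom ((PMap V f).hom φ) = f.hom ((sumMap V X).hom φ)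
  rw [sumMap_hom_apply, sumMap_hom_apply, map_qsum V f.hom]
  exact qsum_congr V fun x => coord_PMap V f φ x

end Trace

/-! ### 4. The trace pairing -/

section TracePairing

variable (k) in
/-- The module coinduced from the trivial representation: `R V = P V k`. -/
noncomputable abbrev R : Rep.{u} k G := P V (Rep.trivial k G k)

/-- The coordinates of an element of `R V`, as elements of `k`. -/
def rcoord (r : R k V) (x : G ⧸ V) : k := coord V (Rep.trivial k G k) r x

theorem rcoord_mk (r : R k V) (h : G) : rcoord V r (h : G ⧸ V) = r.1 h⁻¹ := rfl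

theorem rcoord_add (r r' : R k V) (x : G ⧸ V) :
    rcoord V (r + r') x = rcoord V r x + rcoord V r' x :=
  congrFun (coord_add V (Rep.trivial k G k) r r') x

theorem rcoord_smul (c : k) (r : R k V) (x : G ⧸ V) : rcoord V (c • r) x = c * rcoord V r x :=
  congrFun (coord_smul V (Rep.trivial k G k) c r) x

theorem rcoord_ρ (γ : G) (r : R k V) (x : G ⧸ V) :
    rcoord V ((R k V).ρ γ r) x = rcoord V r (γ⁻¹ • x) :=
  coord_ρ V (Rep.trivial k G k) γ r x

theorem rcoord_injective : Function.Injective (rcoord (k := k) V) :=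
  coord_injective V (Rep.trivial k G k)

/-- The constant function `1` in `R V`. -/
noncomputable def oneR : R k V := uncoord V (Rep.trivial k G k) (fun _ => (1 : k))

theorem rcoord_oneR (x : G ⧸ V) : rcoord V (oneR (k := k) V) x = 1 :=
  congrFun (coord_uncoord V (Rep.trivial k G k) (fun _ => (1 : k))) x

theorem oneR_apply (g : G) : (oneR (k := k) V).1 g = (1 : k) := rfl

/-- `oneR` is invariant. -/
theorem ρ_oneR (γ : G) : (R k V).ρ γ (oneR V) = oneR V := by
  apply rcoord_injective V
  funext x
  rw [rcoord_ρ, rcoord_oneR, rcoord_oneR]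

variable [V.FiniteIndex] (X : Rep.{u} k G)

/-- The trace pairing as a bilinear map: `(f, r) ↦ ∑ x, coord r x • coord f x`. -/
noncomputable def traceLin : P V X →ₗ[k] R k V →ₗ[k] X :=
  LinearMap.mk₂ k (fun φ r => qsum V fun x => rcoord V r x • coord V X φ x)
    (fun φ φ' r => by
      rw [coord_add, ← qsum_add]
      exact qsum_congr V fun x => smul_add _ _ _)
    (fun c φ r => by
      rw [coord_smul, ← qsum_smul]
      exact qsum_congr V fun x => smul_comm _ _ _)
    (fun φ r r' => by
      rw [← qsum_add]
      exact qsum_congr V fun x => by rw [rcoord_add, add_smul])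
    (fun c φ r => by
      rw [← qsum_smul]
      exact qsum_congr V fun x => by rw [rcoord_smul, mul_smul])

theorem traceLin_apply (φ : P V X) (r : R k V) :
    traceLin V X φ r = qsum V fun x => rcoord V r x • coord V X φ x := rfl

/-- **The trace pairing** `P V X × R V → X`, `(f, r) ↦ ∑ x, coord r x • coord f x`. -/
noncomputable def tracePairing : Pairing (P V X) (R k V) X where
  toLin := traceLin V X
  equivariant γ φ r := by
    rw [traceLin_apply, traceLin_apply, map_qsum V (X.ρ γ),
      ← qsum_smul_index V γ⁻¹ (fun x => X.ρ γ (rcoord V r x • coord V X φ x))]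
    refine qsum_congr V fun x => ?_
    rw [rcoord_ρ, coord_ρ, map_smul]

theorem tracePairing_toLin_apply (φ : P V X) (r : R k V) :
    (tracePairing V X).toLin φ r = qsum V fun x => rcoord V r x • coord V X φ x := rfl

/-- Pairing with the constant function `1` is the trace map. -/
theorem tracePairing_oneR (φ : P V X) :
    (tracePairing V X).toLin φ (oneR V) = (sumMap V X).hom φ := by
  rw [tracePairing_toLin_apply, sumMap_hom_apply]
  exact qsum_congr V fun x => by rw [rcoord_oneR, one_smul]

variable {X} in
/-- The trace pairing is natural in `X`. -/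
theorem tracePairing_naturality {Y : Rep.{u} k G} (f : X ⟶ Y) (φ : P V X) (r : R k V) :
    f.hom ((tracePairing V X).toLin φ r) = (tracePairing V Y).toLin ((PMap V f).hom φ) r := by
  rw [tracePairing_toLin_apply, tracePairing_toLin_apply, map_qsum V f.hom]
  refine qsum_congr V fun x => ?_
  rw [coord_PMap]
  exact map_smul f.hom.toLinearMap _ _

/-- For an invariant `f`, the map `r ↦ ψ(f, r)` is a morphism of representations `R V ⟶ X`. -/
noncomputable def traceHom (φ : P V X) (hφ : ∀ γ : G, (P V X).ρ γ φ = φ) : R k V ⟶ X :=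
  Rep.ofHom ⟨traceLin V X φ, fun γ => by
    ext r
    show traceLin V X φ ((R k V).ρ γ r) = X.ρ γ (traceLin V X φ r)
    have h := (tracePairing V X).equivariant γ φ r
    rw [hφ γ] at h
    exact h⟩

theorem traceHom_hom_apply (φ : P V X) (hφ : ∀ γ : G, (P V X).ρ γ φ = φ) (r : R k V) :
    (traceHom V X φ hφ).hom r = (tracePairing V X).toLin φ r := rfl

omit [V.FiniteIndex] in
/-- `R V` is the module `PV V` of `Duality/Additivity.lean`. -/
theorem R_eq_PV : R k V = Additivity.PV V := rfl

end TracePairing

/-! ### 5. Compatibility with the evaluation pairing -/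

section Ev

variable {k G : Type u} [Field k] [Group G] (V : Subgroup G) [V.FiniteIndex] (M : Rep.{u} k G)
  (χ : G →* kˣ)

/-- `CoindDual.pairing` in terms of `qsum`. -/
theorem pairing_eq_qsum (F : P V (M.dualTwist χ)) (f : P V M) :
    CoindDual.pairing V M χ F f =
      qsum V fun x => (coord V (M.dualTwist χ) F x : Module.Dual k M) (coord V M f x) := rfl

/-- Under `dualIso : P V (M') ≅ (P V M)'`, the evaluation pairing of `P V M` is the sum over
`G ⧸ V` of the evaluation pairings of the coordinates. -/
theorem evPairing_dualIso (f : P V M) (F : P V (M.dualTwist χ)) :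
    (evPairing χ (P V M)).toLin f ((dualIso V M χ).hom.hom F) =
      qsum V fun x => (evPairing χ M).toLin (coord V M f x) (coord V (M.dualTwist χ) F x) := by
  rw [evPairing_toLin_apply]
  exact dualIso_hom_apply V M χ F f

theorem evPairing'_dualIso (F : P V (M.dualTwist χ)) (f : P V M) :
    (evPairing' χ (P V M)).toLin ((dualIso V M χ).hom.hom F) f =
      qsum V fun x => (evPairing' χ M).toLin (coord V (M.dualTwist χ) F x) (coord V M f x) :=
  evPairing_dualIso V M χ f F

end Ev

end Fermat.Agent.Lib.CFT.Duality.PVCalc
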