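import Fermat.Agent.Lib.CFT.Profinite.Mackey
import Fermat.Agent.Lib.CFT.Duality.CoindDual
import Fermat.Agent.Lib.CFT.Duality.BaseCase.KCalcRep

/-!
# The semilocal coefficient functor `Fun(X, ·)` and its orbit decomposition

For a group `H` acting on a set `X` (through `a : H →* Equiv.Perm X`) and a representation `Y`
of `H` we define the representation `funSet a Y` on the functions `X → Y`,
`(h • F) x = ρ h (F (h⁻¹ x))`.  For a finite `H`-set with open stabilisers and a discrete `Y`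
the level cohomology of `funSet a Y` is the product over the orbits of the level cohomologies of
the stabilisers (`funSet_bijective`).

The special case `X = G ⧸ V` with `H` acting through `φ : H →* G` is `funRep φ V Y`; it is
compared with the restriction of a coinduced module in `coindIso`, and the orbit decomposition
reads `funRep_bijective`.
-/

set_option autoImplicit false

universe u

open CategoryTheory Fermat.Agent.Lib.CFT.Profinite

namespace Fermat.Agent.Lib.CFT.Duality.Semilocal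

open LevelFamily LES

variable {k H : Type u} [CommRing k] [Group H]

/-! ### The representation on functions on an `H`-set -/

section FunSet

variable {X : Type u} (a : H →* Equiv.Perm X) (Y : Rep.{u} k H)

/-- The action of `H` on functions `X → Y`: `(h • F) x = ρ h (F (h⁻¹ x))`. -/
def funSetρ : Representation k H (X → Y) where
  toFun h :=
    { toFun := fun F x => Y.ρ h (F ((a h)⁻¹ x))
      map_add' := fun F F' => by
        funext x
        exact map_add _ _ _
      map_smul' := fun c F => by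
        funext x
        exact map_smul _ _ _ }
  map_one' := by
    ext F x
    simp
  map_mul' h h' := by
    ext F x
    simp [mul_inv_rev, Equiv.Perm.mul_apply]

/-- The representation of `H` on the functions `X → Y`. -/
noncomputable abbrev funSet : Rep.{u} k H := Rep.of (funSetρ a Y)

theorem funSet_ρ_apply (h : H) (F : funSet a Y) (x : X) :
    (funSet a Y).ρ h F x = Y.ρ h (F ((a h)⁻¹ x)) := rfl

variable {Y} in
/-- Functoriality of `funSet` in the module: postcomposition. -/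
noncomputable def funSetMap {Y' : Rep.{u} k H} (f : Y ⟶ Y') : funSet a Y ⟶ funSet a Y' :=
  Rep.ofHom ⟨f.hom.toLinearMap.compLeft X, fun h => by
    ext F x
    exact Rep.hom_comm_apply f h (F ((a h)⁻¹ x))⟩

variable {Y} in
@[simp]
theorem funSetMap_apply {Y' : Rep.{u} k H} (f : Y ⟶ Y') (F : funSet a Y) (x : X) :
    (funSetMap a f).hom F x = f.hom (F x) := rfl

theorem funSetMap_id : funSetMap a (𝟙 Y) = 𝟙 (funSet a Y) := by
  ext F x
  rfl

variable {Y} in
theorem funSetMap_comp {Y' Y'' : Rep.{u} k H} (f : Y ⟶ Y') (g : Y' ⟶ Y'') :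
    funSetMap a (f ≫ g) = funSetMap a f ≫ funSetMap a g := by
  ext F x
  rfl

end FunSet

/-! ### Exactness -/

section Exact

variable {X : Type u} (a : H →* Equiv.Perm X)

theorem funSetMap_injective {Y Y' : Rep.{u} k H} (f : Y ⟶ Y') (hf : Function.Injective f.hom) :
    Function.Injective (funSetMap a f).hom := by
  intro F F' h
  funext x
  exact hf (congr_fun h x)

theorem funSetMap_surjective {Y Y' : Rep.{u} k H} (f : Y ⟶ Y') (hf : Function.Surjective f.hom) :
    Function.Surjective (funSetMap a f).hom := by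
  intro F'
  choose F hF using fun x => hf (F' x)
  exact ⟨F, funext hF⟩

/-- The short complex obtained by applying `funSet a` termwise. -/
noncomputable def funSetShort (S : ShortComplex (Rep.{u} k H)) : ShortComplex (Rep.{u} k H) :=
  ShortComplex.mk (funSetMap a S.f) (funSetMap a S.g) (by
    rw [← funSetMap_comp, S.zero]
    ext F x
    rfl)

@[simp] theorem funSetShort_X₁ (S : ShortComplex (Rep.{u} k H)) :
    (funSetShort a S).X₁ = funSet a S.X₁ := rfl
@[simp] theorem funSetShort_X₂ (S : ShortComplex (Rep.{u} k H)) :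
    (funSetShort a S).X₂ = funSet a S.X₂ := rfl
@[simp] theorem funSetShort_X₃ (S : ShortComplex (Rep.{u} k H)) :
    (funSetShort a S).X₃ = funSet a S.X₃ := rfl
@[simp] theorem funSetShort_f (S : ShortComplex (Rep.{u} k H)) :
    (funSetShort a S).f = funSetMap a S.f := rfl
@[simp] theorem funSetShort_g (S : ShortComplex (Rep.{u} k H)) :
    (funSetShort a S).g = funSetMap a S.g := rfl

/-- `funSet a` preserves short exact sequences. -/
theorem funSetShort_shortExact {S : ShortComplex (Rep.{u} k H)} (hS : S.ShortExact) :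
    (funSetShort a S).ShortExact where
  exact := by
    have hex := hS.exact
    rw [← ShortComplex.exact_map_iff_of_faithful (F := forget₂ (Rep k H) (ModuleCat k)),
      ShortComplex.moduleCat_exact_iff] at hex ⊢
    intro (F : X → S.X₂) hF
    have hF' : ∀ x, S.g.hom (F x) = 0 := fun x => congr_fun hF x
    choose F₁ hF₁ using fun x => hex (F x) (hF' x)
    exact ⟨F₁, funext hF₁⟩
  mono_f := (Rep.mono_iff_injective _).2
    (funSetMap_injective a S.f ((Rep.mono_iff_injective _).1 hS.mono_f))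
  epi_g := (Rep.epi_iff_surjective _).2
    (funSetMap_surjective a S.g ((Rep.epi_iff_surjective _).1 hS.epi_g))

end Exact

/-! ### Projection to and extension by zero from an orbit -/

section Orbit

variable {X : Type u} (a : H →* Equiv.Perm X) (Y : Rep.{u} k H)
  (x₀ : X) (S : Subgroup H)

theorem inv_apply_of_fix {s : H} (hs : a s x₀ = x₀) : (a s)⁻¹ x₀ = x₀ := by
  rw [Equiv.Perm.inv_eq_iff_eq, hs]

/-- Evaluation at a point `x₀`, equivariant for a subgroup fixing `x₀`. -/
noncomputable def evalAt (hS : ∀ s ∈ S, a s x₀ = x₀) :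
    Rep.res S.subtype (funSet a Y) ⟶ Rep.res S.subtype Y :=
  Rep.ofHom ⟨LinearMap.proj x₀, fun s => by
    ext F
    show Y.ρ s (F ((a s)⁻¹ x₀)) = Y.ρ s (F x₀)
    rw [inv_apply_of_fix a x₀ (hS s s.2)]⟩

@[simp]
theorem evalAt_apply (hS : ∀ s ∈ S, a s x₀ = x₀) (F : funSet a Y) :
    (evalAt a Y x₀ S hS).hom F = F x₀ := rfl

/-- The projection of `funSet a Y` to the factor of the orbit of `x₀`:
`F ↦ (h ↦ ρ h (F (h⁻¹ x₀)))`. -/
noncomputable def projAt (hS : ∀ s ∈ S, a s x₀ = x₀) :
    funSet a Y ⟶ Rep.coind S.subtype (Rep.res S.subtype Y) :=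
  Rep.ofHom ⟨
    { toFun := fun F => ⟨fun h => Y.ρ h (F ((a h)⁻¹ x₀)), fun s h => by
        show Y.ρ (S.subtype s * h) (F ((a (S.subtype s * h))⁻¹ x₀)) =
          Y.ρ s (Y.ρ h (F ((a h)⁻¹ x₀)))
        rw [map_mul, Module.End.mul_apply, map_mul, mul_inv_rev, Equiv.Perm.mul_apply,
          Subgroup.subtype_apply, inv_apply_of_fix a x₀ (hS s s.2)]⟩
      map_add' := fun F F' => by
        apply Subtype.ext
        funext h
        exact map_add _ _ _
      map_smul' := fun c F => by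
        apply Subtype.ext
        funext h
        exact map_smul _ _ _ },
    fun h₀ => by
      ext F h
      show Y.ρ h (Y.ρ h₀ (F ((a h₀)⁻¹ ((a h)⁻¹ x₀)))) = Y.ρ (h * h₀) (F ((a (h * h₀))⁻¹ x₀))
      rw [map_mul, Module.End.mul_apply, map_mul, mul_inv_rev, Equiv.Perm.mul_apply]⟩

@[simp]
theorem projAt_apply_coe (hS : ∀ s ∈ S, a s x₀ = x₀) (F : funSet a Y) (h : H) :
    ((projAt a Y x₀ S hS).hom F).1 h = Y.ρ h (F ((a h)⁻¹ x₀)) := rfl

theorem projAt_comp_coindEval (hS : ∀ s ∈ S, a s x₀ = x₀) :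
    (Rep.resFunctor S.subtype).map (projAt a Y x₀ S hS) ≫
      coindEval S (Rep.res S.subtype Y) = evalAt a Y x₀ S hS := by
  ext F
  show Y.ρ 1 (F ((a 1)⁻¹ x₀)) = F x₀
  simp

end Orbit

/-! ### Extension by zero -/

section Ext

variable {X : Type u} (a : H →* Equiv.Perm X) (Y : Rep.{u} k H)
  (x₀ : X) (S : Subgroup H)

/-- `x` lies in the orbit of `x₀`. -/
def InOrbit (x : X) : Prop := ∃ h : H, a h x₀ = x

variable {a x₀} in
theorem inOrbit_apply {x : X} (h₀ : H) : InOrbit a x₀ (a h₀ x) ↔ InOrbit a x₀ x := by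
  constructor
  · rintro ⟨h, e⟩
    refine ⟨h₀⁻¹ * h, ?_⟩
    rw [map_mul, Equiv.Perm.mul_apply, e, map_inv, ← Equiv.Perm.mul_apply, inv_mul_cancel,
      Equiv.Perm.one_apply]
  · rintro ⟨h, rfl⟩
    exact ⟨h₀ * h, by rw [map_mul, Equiv.Perm.mul_apply]⟩

variable {a x₀} in
theorem inOrbit_inv_apply {x : X} (h₀ : H) : InOrbit a x₀ ((a h₀)⁻¹ x) ↔ InOrbit a x₀ x := by
  rw [← map_inv]
  exact inOrbit_apply h₀⁻¹

open Classical in
/-- Extension by zero of an element of `coind S (res Y)` to a function on `X` supported on the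
orbit of `x₀`: `h x₀ ↦ ρ h (f h⁻¹)`. -/
noncomputable def extFun (f : Rep.coind S.subtype (Rep.res S.subtype Y)) (x : X) : Y :=
  if hx : InOrbit a x₀ x then Y.ρ hx.choose (f.1 hx.choose⁻¹) else 0

theorem extFun_of_not (f : Rep.coind S.subtype (Rep.res S.subtype Y)) {x : X}
    (hx : ¬ InOrbit a x₀ x) : extFun a Y x₀ S f x = 0 := by
  unfold extFun
  rw [dif_neg hx]

variable (hS : ∀ h, a h x₀ = x₀ → h ∈ S)

include hS in
theorem extFun_apply (f : Rep.coind S.subtype (Rep.res S.subtype Y)) (h : H) :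
    extFun a Y x₀ S f (a h x₀) = Y.ρ h (f.1 h⁻¹) := by
  have key : ∀ h' : H, a h' x₀ = a h x₀ → Y.ρ h' (f.1 h'⁻¹) = Y.ρ h (f.1 h⁻¹) := by
    intro h' e
    have hmem : h'⁻¹ * h ∈ S := by
      apply hS
      rw [map_mul, Equiv.Perm.mul_apply, ← e, map_inv, ← Equiv.Perm.mul_apply, inv_mul_cancel,
        Equiv.Perm.one_apply]
    have h1 : f.1 h'⁻¹ = Y.ρ (h'⁻¹ * h) (f.1 h⁻¹) := by
      have := f.2 ⟨h'⁻¹ * h, hmem⟩ h⁻¹
      rw [Subgroup.subtype_apply] at this
      have e2 : h'⁻¹ * h * h⁻¹ = h'⁻¹ := by group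
      rw [e2] at this
      exact this
    rw [h1, ← Module.End.mul_apply, ← map_mul]
    congr 2
    group
  have hx : InOrbit a x₀ (a h x₀) := ⟨h, rfl⟩
  unfold extFun
  rw [dif_pos hx]
  exact key _ hx.choose_spec

include hS in
theorem extFun_ρ (f : Rep.coind S.subtype (Rep.res S.subtype Y)) (h₀ : H) (x : X) :
    extFun a Y x₀ S ((Rep.coind S.subtype (Rep.res S.subtype Y)).ρ h₀ f) x =
      Y.ρ h₀ (extFun a Y x₀ S f ((a h₀)⁻¹ x)) := by
  by_cases hx : InOrbit a x₀ x
  · obtain ⟨h, rfl⟩ := hx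
    have e : (a h₀)⁻¹ (a h x₀) = a (h₀⁻¹ * h) x₀ := by
      rw [map_mul, Equiv.Perm.mul_apply, map_inv]
    rw [e, extFun_apply a Y x₀ S hS, extFun_apply a Y x₀ S hS, ← Module.End.mul_apply, ← map_mul]
    have e1 : h₀ * (h₀⁻¹ * h) = h := by group
    have e2 : (h₀⁻¹ * h)⁻¹ = h⁻¹ * h₀ := by group
    rw [e1, e2]
    rfl
  · rw [extFun_of_not a Y x₀ S _ hx,
      extFun_of_not a Y x₀ S f (fun h => hx ((inOrbit_inv_apply h₀).1 h)), map_zero]

/-- Extension by zero from the orbit of `x₀`, as a morphism of representations of `H`. -/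
noncomputable def extAt : Rep.coind S.subtype (Rep.res S.subtype Y) ⟶ funSet a Y :=
  Rep.ofHom ⟨
    { toFun := fun f => extFun a Y x₀ S f
      map_add' := fun f f' => by
        funext x
        by_cases hx : InOrbit a x₀ x
        · obtain ⟨h, rfl⟩ := hx
          show extFun a Y x₀ S (f + f') _ = extFun a Y x₀ S f _ + extFun a Y x₀ S f' _
          rw [extFun_apply a Y x₀ S hS, extFun_apply a Y x₀ S hS, extFun_apply a Y x₀ S hS]
          exact map_add _ _ _
        · show extFun a Y x₀ S (f + f') _ = extFun a Y x₀ S f _ + extFun a Y x₀ S f' _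
          rw [extFun_of_not a Y x₀ S _ hx, extFun_of_not a Y x₀ S _ hx,
            extFun_of_not a Y x₀ S _ hx, add_zero]
      map_smul' := fun c f => by
        funext x
        by_cases hx : InOrbit a x₀ x
        · obtain ⟨h, rfl⟩ := hx
          show extFun a Y x₀ S (c • f) _ = c • extFun a Y x₀ S f _
          rw [extFun_apply a Y x₀ S hS, extFun_apply a Y x₀ S hS]
          exact map_smul _ _ _
        · show extFun a Y x₀ S (c • f) _ = c • extFun a Y x₀ S f _
          rw [extFun_of_not a Y x₀ S _ hx, extFun_of_not a Y x₀ S _ hx, smul_zero] },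
    fun h₀ => by
      ext f x
      exact extFun_ρ a Y x₀ S hS f h₀ x⟩

@[simp]
theorem extAt_apply (f : Rep.coind S.subtype (Rep.res S.subtype Y)) :
    (extAt a Y x₀ S hS).hom f = extFun a Y x₀ S f := rfl

theorem extAt_comp_projAt (hS' : ∀ s ∈ S, a s x₀ = x₀) :
    extAt a Y x₀ S hS ≫ projAt a Y x₀ S hS' = 𝟙 _ := by
  ext f h
  show Y.ρ h (extFun a Y x₀ S f ((a h)⁻¹ x₀)) = f.1 h
  rw [← map_inv, extFun_apply a Y x₀ S hS, inv_inv, ← Module.End.mul_apply, ← map_mul,
    mul_inv_cancel, map_one, Module.End.one_apply]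

theorem extAt_comp_projAt_of_not {x₁ : X} {S₁ : Subgroup H} (hS₁ : ∀ s ∈ S₁, a s x₁ = x₁)
    (hx : ¬ InOrbit a x₀ x₁) :
    extAt a Y x₀ S hS ≫ projAt a Y x₁ S₁ hS₁ = 0 := by
  ext f h
  show Y.ρ h (extFun a Y x₀ S f ((a h)⁻¹ x₁)) = 0
  rw [extFun_of_not a Y x₀ S f (fun hh => hx ((inOrbit_inv_apply h).1 hh)), map_zero]

end Ext

/-- The projections and extensions attached to a system of representatives of the orbits sum up
to the identity. -/
theorem sum_projAt_comp_extAt {X : Type u} (a : H →* Equiv.Perm X) (Y : Rep.{u} k H)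
    {ι : Type*} [Fintype ι] (r : ι → X) (S : ι → Subgroup H)
    (hS : ∀ i h, h ∈ S i ↔ a h (r i) = r i)
    (hcover : ∀ x : X, ∃ i, InOrbit a (r i) x)
    (hdisj : ∀ i j, InOrbit a (r i) (r j) → i = j) :
    ∑ i, projAt a Y (r i) (S i) (fun s hs => (hS i s).1 hs) ≫
      extAt a Y (r i) (S i) (fun h hh => (hS i h).2 hh) = 𝟙 (funSet a Y) := by
  classical
  ext F x
  rw [Rep.sum_hom]
  show ((∑ i, (projAt a Y (r i) (S i) (fun s hs => (hS i s).1 hs) ≫
      extAt a Y (r i) (S i) (fun h hh => (hS i h).2 hh)).hom) F) x = F x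
  rw [Representation.IntertwiningMap.sum_apply, Finset.sum_apply]
  obtain ⟨i₀, h, rfl⟩ := hcover x
  rw [Finset.sum_eq_single i₀]
  · show extFun a Y (r i₀) (S i₀) ((projAt a Y (r i₀) (S i₀) _).hom F) (a h (r i₀)) = _
    rw [extFun_apply a Y (r i₀) (S i₀) (fun h hh => (hS i₀ h).2 hh), projAt_apply_coe,
      ← Module.End.mul_apply, ← map_mul, mul_inv_cancel, map_one, Module.End.one_apply,
      map_inv, inv_inv]
  · intro i _ hi
    show extFun a Y (r i) (S i) ((projAt a Y (r i) (S i) _).hom F) (a h (r i₀)) = 0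
    apply extFun_of_not
    intro hin
    exact hi (hdisj i i₀ ((inOrbit_apply h).1 hin))
  · intro hi
    exact absurd (Finset.mem_univ i₀) hi



/-! ### Discreteness and the orbit decomposition on level cohomology -/

section Main

variable {X : Type u} (a : H →* Equiv.Perm X) (Y : Rep.{u} k H) (𝒱 : LevelFamily H)

variable {Y 𝒱} in
/-- `funSet a Y` is discrete if `X` is finite, some level acts trivially on `X`, and `Y` is
discrete. -/
theorem isDiscrete_funSet [Finite X] (hX : ∃ U ∈ 𝒱.levels, ∀ s ∈ U, ∀ x, a s x = x)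
    (hY : 𝒱.IsDiscrete Y) : 𝒱.IsDiscrete (funSet a Y) := by
  intro F
  choose U hU hfix using fun x : X => hY (F x)
  obtain ⟨U₀, hU₀, hU₀X⟩ := hX
  obtain ⟨W, hW, -, hle⟩ := 𝒱.exists_normal_le_of_finite U hU
  obtain ⟨W', hW', h1, h2, -⟩ := 𝒱.exists_normal_le_inf hW hU₀
  refine ⟨W', hW', fun s hs => ?_⟩
  funext x
  show Y.ρ s (F ((a s)⁻¹ x)) = F x
  have e : (a s)⁻¹ x = x := by
    rw [Equiv.Perm.inv_eq_iff_eq, hU₀X s (h2 hs) x]
  rw [e]
  exact hfix x s (hle x (h1 hs))

/-- The orbit map: restriction to the stabiliser `S` of `x₀` followed by evaluation at `x₀`. -/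
noncomputable def orbitMap (x₀ : X) (S : Subgroup H) (hS : ∀ s ∈ S, a s x₀ = x₀) (n : ℕ) :
    𝒱.levelCohomology (funSet a Y) n ⟶
      (restrict 𝒱 S).levelCohomology (Rep.res S.subtype Y) n :=
  map S.subtype (isCompatible_comap 𝒱 S.subtype) (evalAt a Y x₀ S hS) n

theorem orbitMap_eq (x₀ : X) (S : Subgroup H) (hS : ∀ s ∈ S, a s x₀ = x₀) (n : ℕ) :
    orbitMap a Y 𝒱 x₀ S hS n =
      𝒱.levelCohomologyMap (projAt a Y x₀ S hS) n ≫
        shapiro 𝒱 S (Rep.res S.subtype Y) n := by
  have h1 := map_comp (𝒰 := 𝒱) (𝒰' := 𝒱) (𝒰'' := restrict 𝒱 S)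
    (M := funSet a Y)
    (M' := Rep.coind S.subtype (Rep.res S.subtype Y))
    (M'' := Rep.res S.subtype Y)
    (MonoidHom.id H) 𝒱.isCompatible_id (projAt a Y x₀ S hS) S.subtype
    (isCompatible_comap 𝒱 S.subtype)
    (coindEval S (Rep.res S.subtype Y)) n
  rw [levelCohomologyMap_eq_map, shapiro, ← h1, orbitMap]
  exact map_congr rfl _ (by
    have := projAt_comp_coindEval a Y x₀ S hS
    exact congrArg (fun f => f.hom.toLinearMap) this.symm) n

variable {Y} in
/-- Naturality of the orbit maps in the module. -/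
theorem orbitMap_naturality {Y' : Rep.{u} k H} (f : Y ⟶ Y') (x₀ : X) (S : Subgroup H)
    (hS : ∀ s ∈ S, a s x₀ = x₀) (n : ℕ) :
    𝒱.levelCohomologyMap (funSetMap a f) n ≫ orbitMap a Y' 𝒱 x₀ S hS n =
      orbitMap a Y 𝒱 x₀ S hS n ≫
        (restrict 𝒱 S).levelCohomologyMap ((Rep.resFunctor S.subtype).map f) n := by
  have h1 := map_comp (𝒰 := 𝒱) (𝒰' := 𝒱) (𝒰'' := restrict 𝒱 S)
    (M := funSet a Y) (M' := funSet a Y') (M'' := Rep.res S.subtype Y') (MonoidHom.id H)
    𝒱.isCompatible_id (funSetMap a f) S.subtype (isCompatible_comap 𝒱 S.subtype)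
    (evalAt a Y' x₀ S hS) n
  have h2 := map_comp (𝒰 := 𝒱) (𝒰' := restrict 𝒱 S) (𝒰'' := restrict 𝒱 S)
    (M := funSet a Y) (M' := Rep.res S.subtype Y) (M'' := Rep.res S.subtype Y') S.subtype
    (isCompatible_comap 𝒱 S.subtype) (evalAt a Y x₀ S hS) (MonoidHom.id S)
    (restrict 𝒱 S).isCompatible_id ((Rep.resFunctor S.subtype).map f) n
  rw [levelCohomologyMap_eq_map, levelCohomologyMap_eq_map, orbitMap, orbitMap, ← h1, ← h2]
  exact map_congr rfl _ rfl n

variable {Y 𝒱} in
/-- **Orbit decomposition** for level cohomology: for a finite system of representatives `r` of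
the orbits of `H` on `X`, with open stabilisers `S i`, the orbit maps identify
`Hⁿ(H, Fun(X, Y))` with the product of the `Hⁿ(S i, Y)`. -/
theorem funSet_bijective (hY : 𝒱.IsDiscrete Y) {ι : Type*} [Finite ι] (r : ι → X)
    (S : ι → Subgroup H) (hS : ∀ i h, h ∈ S i ↔ a h (r i) = r i)
    (hopen : ∀ i, IsOpenSubgroup 𝒱 (S i))
    (hcover : ∀ x : X, ∃ i h, a h (r i) = x)
    (hdisj : ∀ i j h, a h (r i) = r j → i = j) (n : ℕ) :
    Function.Bijective (fun (x : 𝒱.levelCohomology (funSet a Y) n) (i : ι) =>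
      (orbitMap a Y 𝒱 (r i) (S i) (fun s hs => (hS i s).1 hs) n).hom x) := by
  classical
  have := Fintype.ofFinite ι
  have hdisj' : ∀ i j, InOrbit a (r i) (r j) → i = j := fun i j ⟨h, e⟩ => hdisj i j h e
  have hb1 := bijective_of_projectors (levelCohomologyFunctor (k := k) 𝒱 n)
    (fun i => projAt a Y (r i) (S i) (fun s hs => (hS i s).1 hs))
    (fun i => extAt a Y (r i) (S i) (fun h hh => (hS i h).2 hh))
    (fun i => extAt_comp_projAt a Y (r i) (S i) _ _)
    (fun i j hij => extAt_comp_projAt_of_not a Y (r i) (S i) _ _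
      (fun h => hij (hdisj' i j h)))
    (sum_projAt_comp_extAt a Y r S hS hcover hdisj')
  have hb2 : Function.Bijective (Pi.map (fun i =>
      (shapiro 𝒱 (S i) (Rep.res (S i).subtype Y) n).hom)) :=
    Function.Bijective.piMap (fun i => shapiro_bijective (hopen i) n _
      (isDiscrete_res 𝒱 (S i) Y hY))
  have hfun : (fun (x : 𝒱.levelCohomology (funSet a Y) n) (i : ι) =>
      (orbitMap a Y 𝒱 (r i) (S i) (fun s hs => (hS i s).1 hs) n).hom x) =
      (Pi.map (fun i => (shapiro 𝒱 (S i) (Rep.res (S i).subtype Y) n).hom)) ∘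
        (fun (x : 𝒱.levelCohomology (funSet a Y) n) (i : ι) =>
          ((levelCohomologyFunctor (k := k) 𝒱 n).map
            (projAt a Y (r i) (S i) (fun s hs => (hS i s).1 hs))).hom x) := by
    funext x i
    rw [orbitMap_eq]
    rfl
  rw [hfun]
  exact hb2.comp hb1

end Main

/-! ### The case `X = G ⧸ V` -/

section Coset

variable {G : Type u} [Group G] (φ : H →* G) (V : Subgroup G)

/-- `H` acts on `G ⧸ V` through `φ`. -/
def cosetPerm : H →* Equiv.Perm (G ⧸ V) := (MulAction.toPermHom G (G ⧸ V)).comp φ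

theorem cosetPerm_apply (h : H) (x : G ⧸ V) : cosetPerm φ V h x = φ h • x := rfl

theorem cosetPerm_inv_apply (h : H) (x : G ⧸ V) : (cosetPerm φ V h)⁻¹ x = (φ h)⁻¹ • x := rfl

theorem cosetPerm_apply_mk (h : H) (g : G) :
    cosetPerm φ V h (g : G ⧸ V) = ((φ h * g : G) : G ⧸ V) := rfl

/-- `g⁻¹ * φ h * r ∈ V` says that `φ h` moves the coset `r V` to the coset `g V`. -/
theorem cosetPerm_apply_mk_eq_iff (h : H) (r g : G) :
    cosetPerm φ V h (r : G ⧸ V) = (g : G ⧸ V) ↔ g⁻¹ * φ h * r ∈ V := by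
  rw [cosetPerm_apply_mk, eq_comm, QuotientGroup.eq, mul_assoc]

/-- The semilocal coefficient module `Fun(G ⧸ V, Y)`, with `H` acting on `G ⧸ V` through `φ`. -/
noncomputable abbrev funRep (Y : Rep.{u} k H) : Rep.{u} k H := funSet (cosetPerm φ V) Y

theorem funRep_ρ_apply (Y : Rep.{u} k H) (h : H) (F : funRep φ V Y) (x : G ⧸ V) :
    (funRep φ V Y).ρ h F x = Y.ρ h (F ((φ h)⁻¹ • x)) := rfl

/-- Functoriality of `funRep` in the module. -/
noncomputable abbrev funRepMap {Y Y' : Rep.{u} k H} (f : Y ⟶ Y') :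
    funRep φ V Y ⟶ funRep φ V Y' := funSetMap (cosetPerm φ V) f

theorem funRepMap_apply {Y Y' : Rep.{u} k H} (f : Y ⟶ Y') (F : funRep φ V Y) (x : G ⧸ V) :
    (funRepMap φ V f).hom F x = f.hom (F x) := rfl

/-- The stabiliser `{h | g⁻¹ * φ h * g ∈ V}` of the coset `g V`. -/
def funStab (g : G) : Subgroup H where
  carrier := {h | g⁻¹ * φ h * g ∈ V}
  one_mem' := by
    show g⁻¹ * φ 1 * g ∈ V
    rw [map_one, mul_one, inv_mul_cancel]
    exact V.one_mem
  mul_mem' := fun {x y} hx hy => by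
    show g⁻¹ * φ (x * y) * g ∈ V
    have e : g⁻¹ * φ (x * y) * g = (g⁻¹ * φ x * g) * (g⁻¹ * φ y * g) := by
      rw [map_mul]
      group
    rw [e]
    exact V.mul_mem hx hy
  inv_mem' := fun {x} hx => by
    show g⁻¹ * φ x⁻¹ * g ∈ V
    have e : g⁻¹ * φ x⁻¹ * g = (g⁻¹ * φ x * g)⁻¹ := by
      rw [map_inv]
      group
    rw [e]
    exact V.inv_mem hx

variable {φ V} in
theorem mem_funStab {g : G} {h : H} : h ∈ funStab φ V g ↔ g⁻¹ * φ h * g ∈ V := Iff.rfl

theorem funStab_eq_mackeyStab (g : G) : funStab φ V g = mackeyStab φ V g⁻¹ := by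
  ext h
  rw [mem_funStab, mem_mackeyStab, inv_inv]

theorem mem_funStab_iff_fix (g : G) (h : H) :
    h ∈ funStab φ V g ↔ cosetPerm φ V h (g : G ⧸ V) = (g : G ⧸ V) :=
  (cosetPerm_apply_mk_eq_iff φ V h g g).symm

/-- Evaluation at the coset `g V`, equivariant for its stabiliser. -/
noncomputable def funEval (Y : Rep.{u} k H) (g : G) :
    Rep.res (funStab φ V g).subtype (funRep φ V Y) ⟶ Rep.res (funStab φ V g).subtype Y :=
  evalAt (cosetPerm φ V) Y (g : G ⧸ V) (funStab φ V g)
    (fun s hs => (mem_funStab_iff_fix φ V g s).1 hs)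

@[simp]
theorem funEval_apply (Y : Rep.{u} k H) (g : G) (F : funRep φ V Y) :
    (funEval φ V Y g).hom F = F (g : G ⧸ V) := rfl

variable {𝒰 : LevelFamily G} {𝒱 : LevelFamily H}

variable {φ V} in
/-- Some level of `H` acts trivially on `G ⧸ V`. -/
theorem exists_level_cosetPerm_eq (hφ : IsCompatible 𝒱 𝒰 φ) (hV : IsOpenSubgroup 𝒰 V) :
    ∃ U ∈ 𝒱.levels, ∀ s ∈ U, ∀ x, cosetPerm φ V s x = x := by
  obtain ⟨U, hU, hUV⟩ := hV
  obtain ⟨W, hW, hWU, hn⟩ := 𝒰.normal_le U hU
  obtain ⟨W', hW', hle⟩ := hφ W hW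
  refine ⟨W', hW', fun s hs x => ?_⟩
  induction x using QuotientGroup.induction_on with
  | H g =>
    rw [cosetPerm_apply_mk_eq_iff]
    exact hUV (hWU (by simpa using hn.conj_mem _ (hle hs) g⁻¹))

variable {φ V} in
theorem isOpenSubgroup_funStab (hφ : IsCompatible 𝒱 𝒰 φ) (hV : IsOpenSubgroup 𝒰 V) (g : G) :
    IsOpenSubgroup 𝒱 (funStab φ V g) := by
  rw [funStab_eq_mackeyStab]
  exact isOpenSubgroup_mackeyStab hφ hV g⁻¹

variable {φ V} in
/-- `funRep φ V Y` is discrete if `V` is open, `φ` compatible and `Y` discrete. -/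
theorem isDiscrete_funRep (hφ : IsCompatible 𝒱 𝒰 φ) (hV : IsOpenSubgroup 𝒰 V)
    {Y : Rep.{u} k H} (hY : 𝒱.IsDiscrete Y) : 𝒱.IsDiscrete (funRep φ V Y) := by
  have := hV.finiteIndex
  have : Finite (G ⧸ V) := Subgroup.finite_quotient_of_finiteIndex
  exact isDiscrete_funSet (cosetPerm φ V) (exists_level_cosetPerm_eq hφ hV) hY

/-- The orbit map of `funRep`: restriction to the stabiliser of `g V` followed by evaluation
at `g V`. -/
noncomputable def funRepMapAt (𝒱 : LevelFamily H) (Y : Rep.{u} k H) (g : G) (n : ℕ) :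
    𝒱.levelCohomology (funRep φ V Y) n ⟶
      (restrict 𝒱 (funStab φ V g)).levelCohomology (Rep.res (funStab φ V g).subtype Y) n :=
  map (funStab φ V g).subtype (isCompatible_comap 𝒱 (funStab φ V g).subtype)
    (funEval φ V Y g) n

/-- Naturality of the orbit maps of `funRep` in the module. -/
theorem funRepMapAt_naturality (𝒱 : LevelFamily H) {Y Y' : Rep.{u} k H} (f : Y ⟶ Y') (g : G)
    (n : ℕ) :
    𝒱.levelCohomologyMap (funRepMap φ V f) n ≫ funRepMapAt φ V 𝒱 Y' g n =
      funRepMapAt φ V 𝒱 Y g n ≫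
        (restrict 𝒱 (funStab φ V g)).levelCohomologyMap
          ((Rep.resFunctor (funStab φ V g).subtype).map f) n :=
  orbitMap_naturality (cosetPerm φ V) 𝒱 f _ _ _ n

variable {φ V} in
/-- **Orbit decomposition** of the level cohomology of `Fun(G ⧸ V, Y)`: for a finite system `r`
of representatives of the `φ(H)`-orbits on `G ⧸ V`, restriction to the stabilisers followed by
evaluation identifies `Hⁿ(H, Fun(G ⧸ V, Y))` with the product of the `Hⁿ(funStab (r i), Y)`.
General form, for an arbitrary presentation `S i` of the stabilisers. -/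
theorem funRep_bijective' (hφ : IsCompatible 𝒱 𝒰 φ) (hV : IsOpenSubgroup 𝒰 V)
    {Y : Rep.{u} k H} (hY : 𝒱.IsDiscrete Y) {ι : Type*} [Finite ι] (r : ι → G)
    (S : ι → Subgroup H) (hS : ∀ i h, h ∈ S i ↔ (r i)⁻¹ * φ h * r i ∈ V)
    (hcover : ∀ g : G, ∃ i h, g⁻¹ * φ h * r i ∈ V)
    (hdisj : ∀ i j h, (r j)⁻¹ * φ h * r i ∈ V → i = j) (n : ℕ) :
    Function.Bijective (fun (x : 𝒱.levelCohomology (funRep φ V Y) n) (i : ι) =>
      (map (S i).subtype (isCompatible_comap 𝒱 (S i).subtype)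
        (evalAt (cosetPerm φ V) Y (r i : G ⧸ V) (S i)
          (fun s hs => (cosetPerm_apply_mk_eq_iff φ V s (r i) (r i)).2 ((hS i s).1 hs))) n).hom
        x) := by
  refine funSet_bijective (cosetPerm φ V) hY (fun i => (r i : G ⧸ V)) S
    (fun i h => (hS i h).trans (cosetPerm_apply_mk_eq_iff φ V h (r i) (r i)).symm)
    (fun i => ?_) (fun x => ?_) (fun i j h e => ?_) n
  · have e : S i = funStab φ V (r i) := by
      ext h
      exact hS i h
    rw [e]
    exact isOpenSubgroup_funStab hφ hV (r i)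
  · induction x using QuotientGroup.induction_on with
    | H g =>
      obtain ⟨i, h, hh⟩ := hcover g
      exact ⟨i, h, (cosetPerm_apply_mk_eq_iff φ V h (r i) g).2 hh⟩
  · exact hdisj i j h ((cosetPerm_apply_mk_eq_iff φ V h (r i) (r j)).1 e)

variable {φ V} in
/-- **Orbit decomposition** of the level cohomology of `Fun(G ⧸ V, Y)` with the standard
stabilisers `funStab φ V (r i) = {h | (r i)⁻¹ * φ h * r i ∈ V}`. -/
theorem funRep_bijective (hφ : IsCompatible 𝒱 𝒰 φ) (hV : IsOpenSubgroup 𝒰 V)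
    {Y : Rep.{u} k H} (hY : 𝒱.IsDiscrete Y) {ι : Type*} [Finite ι] (r : ι → G)
    (hcover : ∀ g : G, ∃ i h, g⁻¹ * φ h * r i ∈ V)
    (hdisj : ∀ i j h, (r j)⁻¹ * φ h * r i ∈ V → i = j) (n : ℕ) :
    Function.Bijective (fun (x : 𝒱.levelCohomology (funRep φ V Y) n) (i : ι) =>
      (funRepMapAt φ V 𝒱 Y (r i) n).hom x) :=
  funRep_bijective' hφ hV hY r (fun i => funStab φ V (r i)) (fun _ _ => Iff.rfl) hcover hdisj n

end Coset

/-! ### Comparison with coinduction -/

section Compare

variable {G : Type u} [Group G] (φ : H →* G) (V : Subgroup G) (M : Rep.{u} k G)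

/-- The restriction along `φ` of `Coind_V^G (M|_V)` is `Fun(G ⧸ V, M|_H)`, through the
coordinates `hV ↦ ρ(h) f(h⁻¹)`. -/
noncomputable def coindIso :
    Rep.res φ (DevissageRep.P V M) ≅ funRep φ V (Rep.res φ M) :=
  Rep.mkIso (Representation.Equiv.mk (CoindDual.coordEquiv V M) (fun h => by
    ext f x
    exact CoindDual.coord_ρ V M (φ h) f x))

theorem coindIso_hom_apply (f : DevissageRep.P V M) (x : G ⧸ V) :
    (coindIso φ V M).hom.hom f x = CoindDual.coord V M f x := rfl

theorem coindIso_hom_apply_mk (f : DevissageRep.P V M) (g : G) :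
    (coindIso φ V M).hom.hom f (g : G ⧸ V) = M.ρ g (f.1 g⁻¹) := rfl

theorem coindIso_inv_apply (F : G ⧸ V → M) (g : G) :
    ((coindIso φ V M).inv.hom F : DevissageRep.P V M).1 g = M.ρ g (F ((g⁻¹ : G) : G ⧸ V)) := rfl

variable {M} in
/-- Naturality of `coindIso` in the module. -/
theorem coindIso_naturality {M' : Rep.{u} k G} (f : M ⟶ M') :
    (Rep.resFunctor φ).map (Rep.coindMap V.subtype ((Rep.resFunctor V.subtype).map f)) ≫
      (coindIso φ V M').hom =
    (coindIso φ V M).hom ≫ funRepMap φ V ((Rep.resFunctor φ).map f) := by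
  ext F x
  induction x using QuotientGroup.induction_on with
  | H g =>
    show M'.ρ g (f.hom (F.1 g⁻¹)) = f.hom (M.ρ g (F.1 g⁻¹))
    exact (Rep.hom_comm_apply f g _).symm

/-- The case `φ = id`: `Coind_V^G (M|_V) ≅ Fun(G ⧸ V, M)`. -/
noncomputable def coindIsoId : DevissageRep.P V M ≅ funRep (MonoidHom.id G) V M :=
  coindIso (MonoidHom.id G) V M

/-- The map `f ↦ ρ(g) f(g⁻¹)` on `Coind_V^G (M|_V)`, equivariant for the stabiliser of `g V`. -/
noncomputable def coindEvalAt (g : G) :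
    Rep.res (funStab φ V g).subtype (Rep.res φ (DevissageRep.P V M)) ⟶
      Rep.res (funStab φ V g).subtype (Rep.res φ M) :=
  Rep.ofHom ⟨(M.ρ g).comp ((LinearMap.proj g⁻¹).comp
      ((Rep.res V.subtype M).ρ.coindV V.subtype).subtype), fun s => by
    ext f
    show M.ρ g (f.1 (g⁻¹ * φ s)) = M.ρ (φ s) (M.ρ g (f.1 g⁻¹))
    have hs : g⁻¹ * φ s * g ∈ V := s.2
    have e : g⁻¹ * φ s = (g⁻¹ * φ s * g) * g⁻¹ := by group
    rw [e, DevissageRep.P_prop V M f _ hs, ← Module.End.mul_apply, ← Module.End.mul_apply,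
      ← map_mul, ← map_mul]
    congr 2
    group⟩

@[simp]
theorem coindEvalAt_apply (g : G) (f : DevissageRep.P V M) :
    (coindEvalAt φ V M g).hom f = M.ρ g (f.1 g⁻¹) := rfl

/-- Under `coindIso`, evaluation at the coset `g V` is `f ↦ ρ(g) f(g⁻¹)`. -/
theorem coindIso_hom_comp_funEval (g : G) :
    (Rep.resFunctor (funStab φ V g).subtype).map (coindIso φ V M).hom ≫
      funEval φ V (Rep.res φ M) g = coindEvalAt φ V M g := by
  ext f
  rfl

end Compare

/-! ### Torsion and divisibility -/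

section Torsion

open KCalc

variable {X : Type u} (a : H →* Equiv.Perm X) (Y : Rep.{u} k H) (p : ℕ)

/-- `Fun(X, Y[p]) ≃ Fun(X, Y)[p]`, linearly. -/
def funSetTorsionEquiv : (X → torsionRep p Y) ≃ₗ[k] torsionRep p (funSet a Y) where
  toFun F := ⟨fun x => (F x).1, funext fun x => (F x).2⟩
  map_add' _ _ := rfl
  map_smul' _ _ := rfl
  invFun F x := ⟨F.1 x, congr_fun F.2 x⟩
  left_inv _ := rfl
  right_inv _ := rfl

/-- `Fun(X, Y[p]) ≅ Fun(X, Y)[p]`. -/
noncomputable def funSetTorsionIso :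
    funSet a (torsionRep p Y) ≅ torsionRep p (funSet a Y) :=
  Rep.mkIso (Representation.Equiv.mk (funSetTorsionEquiv a Y p) (fun h => by
    ext F
    rfl))

theorem funSetTorsionIso_hom_apply_coe (F : funSet a (torsionRep p Y)) (x : X) :
    ((funSetTorsionIso a Y p).hom.hom F).1 x = (F x).1 := rfl

theorem funSetTorsionIso_hom_comp_torsionι :
    (funSetTorsionIso a Y p).hom ≫ torsionι p (funSet a Y) = funSetMap a (torsionι p Y) := by
  ext F x
  rfl

variable {Y p} in
/-- Divisibility passes to `Fun(X, Y)`. -/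
theorem funSet_divisible (hdiv : ∀ y : Y, ∃ z : Y, p • z = y) (F : funSet a Y) :
    ∃ F' : funSet a Y, p • F' = F := by
  choose F' hF' using fun x => hdiv (F x)
  exact ⟨F', funext hF'⟩

variable {Y p} in
/-- Unique divisibility passes to `Fun(X, Y)`. -/
theorem funSet_smul_bijective (hbij : Function.Bijective fun y : Y => p • y) :
    Function.Bijective fun F : funSet a Y => p • F := by
  refine ⟨fun F F' h => ?_, fun F => funSet_divisible a hbij.2 F⟩
  funext x
  exact hbij.1 (congr_fun h x)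

end Torsion

end Fermat.Agent.Lib.CFT.Duality.Semilocal
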