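import Fermat.Agent.Lib.CFT.Duality.BaseCase.KDatumCup
import Fermat.Agent.Lib.CFT.Duality.BaseCase.PVCalc
import Fermat.Agent.Lib.CFT.Duality.BaseCase.Semilocal

/-!
# `P V` applied to the zigzag datum of the base case  (P-CFT, L4)

For a zigzag datum `K : KDatum k D p` and an open subgroup `V` of the global group:

* `pv K V hV : KDatum k D p`: the datum with `N, E, J, C` replaced by `P V N, …, P V C`
  (`P V X = Coind_V^G (X|_V)`) and the local modules `L v` replaced by the semilocal modules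
  `funRep (D.φ v) V (L v) = Fun(G ⧸ V, L v)`;
* `sumHom K V hV : KDatum.Hom (pv K V hV) K`: the sum (trace) morphism;
* `tracePairingK K V hV : KDatum.KPairing (pv K V hV) K (R k V)`: the trace pairings
  `(F, r) ↦ ∑ x, r x • F x` with `R k V = P V k`, together with their local versions
  `funRepTracePairing`.
-/

set_option autoImplicit false

open CategoryTheory Fermat.Agent.Lib.CFT.Profinite

namespace Fermat.Agent.Lib.CFT.Duality.KDatumPV

open Fermat.Agent.Lib.CFT.Duality.DevissageRep Fermat.Agent.Lib.CFT.Duality.CoindDual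
open Fermat.Agent.Lib.CFT.Duality.PVCalc Fermat.Agent.Lib.CFT.Duality.Semilocal
open Fermat.Agent.Lib.CFT.Duality.KCalc

/-! ### The local sum map -/

section LocalSum

variable {k H G : Type} [CommRing k] [Group H] [Group G] (φ : H →* G) (V : Subgroup G)
  [V.FiniteIndex]

/-- The sum of the values of a function on `G ⧸ V`, as a morphism `Fun(G ⧸ V, Y) ⟶ Y`. -/
noncomputable def funRepSum (Y : Rep.{0} k H) : funRep φ V Y ⟶ Y :=
  Rep.ofHom ⟨
    { toFun := fun F => qsum V (F : G ⧸ V → Y)
      map_add' := fun F F' => qsum_add V _ _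
      map_smul' := fun c F => qsum_smul V c _ }, fun h => by
    ext F
    show qsum V ((funRep φ V Y).ρ h F : G ⧸ V → Y) = Y.ρ h (qsum V (F : G ⧸ V → Y))
    rw [map_qsum V (Y.ρ h),
      ← qsum_smul_index V (φ h)⁻¹ (fun x => Y.ρ h ((F : G ⧸ V → Y) x))]
    rfl⟩

theorem funRepSum_hom_apply (Y : Rep.{0} k H) (F : funRep φ V Y) :
    (funRepSum φ V Y).hom F = qsum V (F : G ⧸ V → Y) := rfl

end LocalSum

section PV

variable {k : Type} [CommRing k] {G : Type} [Group G] {D : LocDatum G} {p : ℕ}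
  (K : KDatum k D p) (V : Subgroup G)

/-- The local map of `K.pv V`: `res (P V J) ≅ Fun(G ⧸ V, res J) ⟶ Fun(G ⧸ V, L v)`. -/
noncomputable def pvρ (v : D.ι) : D.resRep (P V K.J) v ⟶ funRep (D.φ v) V (K.L v) :=
  (coindIso (D.φ v) V K.J).hom ≫ funRepMap (D.φ v) V (K.ρ v)

theorem pvρ_hom_apply (v : D.ι) (f : P V K.J) (x : G ⧸ V) :
    ((pvρ K V v).hom f : G ⧸ V → K.L v) x = (K.ρ v).hom (coord V K.J f x) := rfl

theorem pv_zero : PMap V K.i ≫ PMap V K.π = 0 := by
  rw [← PMap_comp, K.zero, PMap_zero]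

/-- `P V` applied to a `KDatum`, with the local modules `Fun(G ⧸ V, L v)`. -/
noncomputable def pv (hV : LES.IsOpenSubgroup D.𝒰 V) : KDatum k D p where
  N := P V K.N
  E := P V K.E
  J := P V K.J
  C := P V K.C
  ι := PMap V K.ι
  i := PMap V K.i
  π := PMap V K.π
  L v := funRep (D.φ v) V (K.L v)
  ρ v := pvρ K V v
  zero := pv_zero K V
  hses := PSeq_shortExact V K.hses
  hJ := by
    have := hV.finiteIndex
    exact isDiscrete_P V K.J D.𝒰 hV K.hJ
  hL v := isDiscrete_funRep (D.compat v) hV (K.hL v)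
  hι_inj := PMap_injective V K.ι K.hι_inj
  hι_tors a := (nsmul_eq_zero_iff V p K.E _).2 fun g => K.hι_tors _
  hι_surj e he := by
    have h1 : ∀ x : G ⧸ V, ∃ a : K.N, K.ι.hom a = coord V K.E e x := fun x =>
      K.hι_surj _ ((nsmul_eq_zero_iff_coord V p K.E e).1 he x)
    choose a ha using h1
    refine ⟨uncoord V K.N a, ?_⟩
    rw [PMap_uncoord]
    simp only [ha]
    exact uncoord_coord V K.E e
  hdivE := divisible_P V p K.E K.hdivE
  hdivL v l := by
    choose s hs using K.hdivL v
    exact ⟨fun x => s ((l : G ⧸ V → K.L v) x), funext fun x => hs _⟩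
  hL_inj v := by
    intro a a' h
    apply coord_injective V K.N
    funext x
    apply K.hL_inj v
    have h2 : ∀ b : P V K.N, ((pvρ K V v).hom ((PMap V K.i).hom ((PMap V K.ι).hom b)) :
        G ⧸ V → K.L v) x = (K.ρ v).hom (K.i.hom (K.ι.hom (coord V K.N b x))) := fun b => by
      rw [pvρ_hom_apply, coord_PMap, coord_PMap]
    exact (h2 a).symm.trans ((congrFun h x).trans (h2 a'))
  hL_surj v l hl := by
    have h1 : ∀ x : G ⧸ V, ∃ a : K.N, (K.ρ v).hom (K.i.hom (K.ι.hom a)) =
        (l : G ⧸ V → K.L v) x := fun x => K.hL_surj v _ (congrFun hl x)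
    choose a ha using h1
    refine ⟨uncoord V K.N a, funext fun x => ?_⟩
    rw [pvρ_hom_apply, coord_PMap, coord_PMap, coord_uncoord]
    exact ha x


@[simp] theorem pv_N (hV : LES.IsOpenSubgroup D.𝒰 V) : (pv K V hV).N = P V K.N := rfl
@[simp] theorem pv_E (hV : LES.IsOpenSubgroup D.𝒰 V) : (pv K V hV).E = P V K.E := rfl
@[simp] theorem pv_J (hV : LES.IsOpenSubgroup D.𝒰 V) : (pv K V hV).J = P V K.J := rfl
@[simp] theorem pv_C (hV : LES.IsOpenSubgroup D.𝒰 V) : (pv K V hV).C = P V K.C := rfl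
@[simp] theorem pv_ι (hV : LES.IsOpenSubgroup D.𝒰 V) : (pv K V hV).ι = PMap V K.ι := rfl
@[simp] theorem pv_i (hV : LES.IsOpenSubgroup D.𝒰 V) : (pv K V hV).i = PMap V K.i := rfl
@[simp] theorem pv_π (hV : LES.IsOpenSubgroup D.𝒰 V) : (pv K V hV).π = PMap V K.π := rfl
@[simp] theorem pv_L (hV : LES.IsOpenSubgroup D.𝒰 V) (v : D.ι) :
    (pv K V hV).L v = funRep (D.φ v) V (K.L v) := rfl
@[simp] theorem pv_ρ (hV : LES.IsOpenSubgroup D.𝒰 V) (v : D.ι) :
    (pv K V hV).ρ v = pvρ K V v := rfl

theorem funRepSum_pvρ [V.FiniteIndex] (v : D.ι) (f : P V K.J) :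
    (funRepSum (D.φ v) V (K.L v)).hom ((pvρ K V v).hom f) =
      (K.ρ v).hom ((sumMap V K.J).hom f) := by
  rw [funRepSum_hom_apply, sumMap_hom_apply, map_qsum V (K.ρ v).hom]
  rfl

/-- The sum morphism `Σ : K.pv V ⟶ K`. -/
noncomputable def sumHom (hV : LES.IsOpenSubgroup D.𝒰 V) [V.FiniteIndex] :
    KDatum.Hom (pv K V hV) K where
  fN := sumMap V K.N
  fE := sumMap V K.E
  fJ := sumMap V K.J
  fC := sumMap V K.C
  fL v := funRepSum (D.φ v) V (K.L v)
  ι_comm := sumMap_naturality V K.ι
  i_comm := sumMap_naturality V K.i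
  π_comm := sumMap_naturality V K.π
  ρ_comm v f := funRepSum_pvρ K V v f

end PV


open Fermat.Agent.Lib.CFT.Coh.Cup

section LocalPairing

variable {k H G : Type} [CommRing k] [Group H] [Group G] (φ : H →* G) (V : Subgroup G)
  [V.FiniteIndex]

/-- The local trace pairing as a bilinear map: `(F, r) ↦ ∑ x, coord r x • F x`. -/
noncomputable def funRepTraceLin (Y : Rep.{0} k H) :
    funRep φ V Y →ₗ[k] Rep.res φ (R k V) →ₗ[k] Y :=
  LinearMap.mk₂ k (fun F r => qsum V fun x => rcoord V r x • (F : G ⧸ V → Y) x)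
    (fun F F' r => by
      rw [← qsum_add]
      exact qsum_congr V fun x => smul_add _ _ _)
    (fun c F r => by
      rw [← qsum_smul]
      exact qsum_congr V fun x => smul_comm _ _ _)
    (fun F r r' => by
      rw [← qsum_add]
      exact qsum_congr V fun x => by rw [rcoord_add, add_smul])
    (fun c F r => by
      rw [← qsum_smul]
      exact qsum_congr V fun x => by rw [rcoord_smul, mul_smul])

theorem funRepTraceLin_apply (Y : Rep.{0} k H) (F : funRep φ V Y) (r : R k V) :
    funRepTraceLin φ V Y F r = qsum V fun x => rcoord V r x • (F : G ⧸ V → Y) x := rfl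

/-- **The local trace pairing** `Fun(G ⧸ V, Y) × res (R V) → Y`. -/
noncomputable def funRepTracePairing (Y : Rep.{0} k H) :
    Pairing (funRep φ V Y) (Rep.res φ (R k V)) Y where
  toLin := funRepTraceLin φ V Y
  equivariant h F r := by
    show funRepTraceLin φ V Y ((funRep φ V Y).ρ h F) ((R k V).ρ (φ h) r) =
      Y.ρ h (funRepTraceLin φ V Y F r)
    rw [funRepTraceLin_apply, funRepTraceLin_apply, map_qsum V (Y.ρ h),
      ← qsum_smul_index V (φ h)⁻¹ (fun x => Y.ρ h (rcoord V r x • (F : G ⧸ V → Y) x))]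
    refine qsum_congr V fun x => ?_
    rw [rcoord_ρ, funRep_ρ_apply, map_smul]

theorem funRepTracePairing_toLin_apply (Y : Rep.{0} k H) (F : funRep φ V Y) (r : R k V) :
    (funRepTracePairing φ V Y).toLin F r =
      qsum V fun x => rcoord V r x • (F : G ⧸ V → Y) x := rfl

/-- Pairing with the constant function `1` is the local sum map. -/
theorem funRepTracePairing_oneR (Y : Rep.{0} k H) (F : funRep φ V Y) :
    (funRepTracePairing φ V Y).toLin F (oneR V) = (funRepSum φ V Y).hom F := by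
  rw [funRepTracePairing_toLin_apply, funRepSum_hom_apply]
  exact qsum_congr V fun x => by rw [rcoord_oneR, one_smul]

end LocalPairing

section Pairing

variable {k : Type} [CommRing k] {G : Type} [Group G] {D : LocDatum G} {p : ℕ}
  (K : KDatum k D p) (V : Subgroup G) [V.FiniteIndex]

theorem ρ_tracePairing (v : D.ι) (j : P V K.J) (r : R k V) :
    (K.ρ v).hom ((tracePairing V K.J).toLin j r) =
      (funRepTracePairing (D.φ v) V (K.L v)).toLin ((pvρ K V v).hom j) r := by
  rw [tracePairing_toLin_apply, funRepTracePairing_toLin_apply, map_qsum V (K.ρ v).hom]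
  refine qsum_congr V fun x => ?_
  rw [pvρ_hom_apply]
  exact map_smul (K.ρ v).hom.toLinearMap _ _

/-- The trace pairings `K.pv V × R V → K`. -/
noncomputable def tracePairingK (hV : LES.IsOpenSubgroup D.𝒰 V) :
    KDatum.KPairing (pv K V hV) K (R k V) where
  ψN := tracePairing V K.N
  ψE := tracePairing V K.E
  ψJ := tracePairing V K.J
  ψC := tracePairing V K.C
  ψL v := funRepTracePairing (D.φ v) V (K.L v)
  hι a r := tracePairing_naturality V K.ι a r
  hi e r := tracePairing_naturality V K.i e r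
  hπ j r := tracePairing_naturality V K.π j r
  hρ v j r := ρ_tracePairing K V v j r

end Pairing

end Fermat.Agent.Lib.CFT.Duality.KDatumPV
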