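import Fermat.Agent.Lib.CFT.Duality.BaseCase.KCalcSeq
import Fermat.Agent.Lib.CFT.Duality.PiComplex
import Fermat.Agent.Lib.CFT.Duality.NatConeMap

/-!
# The `K(X)`-calculus, part 3: a module mapping isomorphically onto the `p`-torsion

Generalisation of `torsionToKp`: for `ι : N ⟶ X` with `p • ι n = 0` the chain map
`kerToKp : C(N) ⟶ Kp X`, `a ↦ (ι a, 0)`.  If `ι` identifies `N` with the `p`-torsion of a discrete
`p`-divisible `X`, it is bijective on cohomology (`kerToT_bijective`).  Also two generic facts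
about products of complexes.
-/

set_option autoImplicit false

universe u

open CategoryTheory Fermat.Agent.Lib.CFT.Profinite

namespace Fermat.Agent.Lib.CFT.Duality.KCalc

open ConcreteHomology

/-! ### Products of complexes -/

section pi

variable {k : Type u} [CommRing k] {ι : Type u} {K K' : ι → CochainComplex (ModuleCat.{u} k) ℕ}

/-- Two chain maps into a product agree if all their components agree. -/
theorem piComplex_hom_ext {L : CochainComplex (ModuleCat.{u} k) ℕ}
    {f g : L ⟶ PiComplex.piComplex K}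
    (h : ∀ i, f ≫ PiComplex.proj K i = g ≫ PiComplex.proj K i) : f = g := by
  ext n x : 3
  funext i
  exact congr($(h i).f n x)

theorem piMap_homologyMap_eq (f : ∀ i, K i ⟶ K' i) (n : ℕ)
    (x : (PiComplex.piComplex K).homology n) :
    (HomologicalComplex.homologyMap (PiComplex.map f) n).hom x =
      (PiComplex.homologyPiEquiv K' n).symm
        (fun i => (HomologicalComplex.homologyMap (f i) n).hom (PiComplex.homologyPiEquiv K n x i)) := by
  rw [LinearEquiv.eq_symm_apply]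
  funext i
  exact PiComplex.homologyPiEquiv_homologyMap_map f n x i

theorem piMap_homologyMap_injective (f : ∀ i, K i ⟶ K' i) (n : ℕ)
    (h : ∀ i, Function.Injective (HomologicalComplex.homologyMap (f i) n).hom) :
    Function.Injective (HomologicalComplex.homologyMap (PiComplex.map f) n).hom := by
  intro x y hxy
  rw [piMap_homologyMap_eq, piMap_homologyMap_eq] at hxy
  apply (PiComplex.homologyPiEquiv K n).injective
  funext i
  exact h i (congr_fun ((PiComplex.homologyPiEquiv K' n).symm.injective hxy) i)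

theorem piMap_homologyMap_surjective (f : ∀ i, K i ⟶ K' i) (n : ℕ)
    (h : ∀ i, Function.Surjective (HomologicalComplex.homologyMap (f i) n).hom) :
    Function.Surjective (HomologicalComplex.homologyMap (PiComplex.map f) n).hom := by
  intro y
  have h' : ∀ i, ∃ x : (K i).homology n, (HomologicalComplex.homologyMap (f i) n).hom x =
      PiComplex.homologyPiEquiv K' n y i := fun i => h i _
  choose x hx using h'
  refine ⟨(PiComplex.homologyPiEquiv K n).symm x, ?_⟩
  rw [piMap_homologyMap_eq, LinearEquiv.symm_apply_eq]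
  funext i
  rw [LinearEquiv.apply_symm_apply, hx]

theorem piMap_homologyMap_bijective (f : ∀ i, K i ⟶ K' i) (n : ℕ)
    (h : ∀ i, Function.Bijective (HomologicalComplex.homologyMap (f i) n).hom) :
    Function.Bijective (HomologicalComplex.homologyMap (PiComplex.map f) n).hom :=
  ⟨piMap_homologyMap_injective f n fun i => (h i).1,
    piMap_homologyMap_surjective f n fun i => (h i).2⟩

end pi

/-! ### The comparison map for a module mapping onto the `p`-torsion -/

variable {k G : Type u} [CommRing k] [Group G] (𝒰 : LevelFamily G) (p : ℕ)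

section kerToKp

variable {N X : Rep.{u} k G} (ι : N ⟶ X) (h0 : ∀ a : N, p • ι.hom a = 0)

include h0 in
theorem levelMap_comp_mulP_eq_zero :
    (𝒰.levelComplexFunctor (k := k)).map ι ≫ mulP 𝒰 p X = 0 := by
  ext n x : 3
  apply Subtype.ext
  funext g
  exact h0 (x.1 g)

/-- The chain map `C(N) ⟶ Kp X`, `a ↦ (ι a, 0)`, for `ι : N ⟶ X` with image killed by `p`. -/
noncomputable def kerToKp : 𝒰.levelComplex N ⟶ Kp 𝒰 p X :=
  kerToCone ((𝒰.levelComplexFunctor (k := k)).map ι) (mulP 𝒰 p X)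
    (levelMap_comp_mulP_eq_zero 𝒰 p ι h0)

theorem fstL_kerToKp (n : ℕ) (x : (𝒰.levelComplex N).X n) :
    natCone.fstL (mulP 𝒰 p X) n (((kerToKp 𝒰 p ι h0).f n).hom x) =
      (((𝒰.levelComplexFunctor (k := k)).map ι).f n).hom x := rfl

theorem sndL_kerToKp (n : ℕ) (x : (𝒰.levelComplex N).X (n + 1)) :
    natCone.sndL (mulP 𝒰 p X) n (((kerToKp 𝒰 p ι h0).f (n + 1)).hom x) = 0 := rfl

/-- The map induced by `kerToKp` on cohomology, `Hʳ(N) ⟶ Tʳ(X)`. -/
noncomputable def kerToT (r : ℕ) : 𝒰.levelCohomology N r →ₗ[k] T 𝒰 p X r :=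
  (HomologicalComplex.homologyMap (kerToKp 𝒰 p ι h0) r).hom

theorem kerToT_classOf (r : ℕ) (z : Z (𝒰.levelComplex N) r) :
    kerToT 𝒰 p ι h0 r (classOf (𝒰.levelComplex N) r z) =
      classOf (Kp 𝒰 p X) r (mapZ (kerToKp 𝒰 p ι h0) r z) :=
  homologyMap_classOf _ r z

/-- The short complex `N ⟶ X ⟶ X`. -/
noncomputable def kerSeq : ShortComplex (Rep.{u} k G) :=
  ShortComplex.mk ι (mulRep p X) (by
    ext a
    exact h0 a)

theorem kerSeq_shortExact (hinj : Function.Injective ι.hom)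
    (hker : ∀ x : X, p • x = 0 → ∃ a : N, ι.hom a = x) (hdiv : ∀ x : X, ∃ y : X, p • y = x) :
    (kerSeq p ι h0).ShortExact where
  exact := by
    rw [← ShortComplex.exact_map_iff_of_faithful (F := forget₂ (Rep k G) (ModuleCat k)),
      ShortComplex.moduleCat_exact_iff]
    intro x hx
    exact hker x hx
  mono_f := (Rep.mono_iff_injective _).2 hinj
  epi_g := (Rep.epi_iff_surjective _).2 hdiv

/-- `(K3)`, general form: if `ι` identifies `N` with the `p`-torsion of the discrete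
`p`-divisible module `X`, then `kerToKp` is bijective on cohomology. -/
theorem kerToKp_homologyMap_bijective (hinj : Function.Injective ι.hom)
    (hker : ∀ x : X, p • x = 0 → ∃ a : N, ι.hom a = x) (hd : 𝒰.IsDiscrete X)
    (hdiv : ∀ x : X, ∃ y : X, p • y = x) (n : ℕ) :
    Function.Bijective (HomologicalComplex.homologyMap (kerToKp 𝒰 p ι h0) n).hom := by
  have hX := kerSeq_shortExact p ι h0 hinj hker hdiv
  refine kerToCone_homologyMap_bijective _ _ _ ?_ ?_ ?_ n
  · intro m a b hab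
    apply Subtype.ext
    funext g
    apply hinj
    have := congr_arg Subtype.val hab
    exact congr_fun this g
  · intro m z
    obtain ⟨y, hy, hyz⟩ := 𝒰.exists_levelCochain_lift hX hd z.2
    exact ⟨⟨y, hy⟩, Subtype.ext (funext hyz)⟩
  · intro m a ha
    obtain ⟨x, hx, hxa⟩ := 𝒰.exists_levelCochain_of_comp_eq_zero hX a.2 (fun g => by
      have := congr_arg Subtype.val ha
      exact congr_fun this g)
    exact ⟨⟨x, hx⟩, Subtype.ext (funext hxa)⟩

theorem kerToT_bijective (hinj : Function.Injective ι.hom)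
    (hker : ∀ x : X, p • x = 0 → ∃ a : N, ι.hom a = x) (hd : 𝒰.IsDiscrete X)
    (hdiv : ∀ x : X, ∃ y : X, p • y = x) (r : ℕ) :
    Function.Bijective (kerToT 𝒰 p ι h0 r) :=
  kerToKp_homologyMap_bijective 𝒰 p ι h0 hinj hker hd hdiv r

/-- `toH ∘ kerToT` is the map induced by `ι`. -/
theorem toH_kerToT (r : ℕ) (y : 𝒰.levelCohomology N r) :
    toH 𝒰 p X r (kerToT 𝒰 p ι h0 r y) = (𝒰.levelCohomologyMap ι r).hom y := by
  obtain ⟨z, rfl⟩ := classOf_surjective (𝒰.levelComplex N) r y
  rw [kerToT_classOf, toH_classOf, levelCohomologyMap_classOf]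
  rfl

end kerToKp

/-! ### Naturality of `kerToKp` -/

section naturality

variable {N X N' X' : Rep.{u} k G} (ι : N ⟶ X) (h0 : ∀ a : N, p • ι.hom a = 0)
  (ι' : N' ⟶ X') (h0' : ∀ a : N', p • ι'.hom a = 0) (fN : N ⟶ N') (fX : X ⟶ X')

theorem kerToKp_comp_KpMap (hc : ι ≫ fX = fN ≫ ι') :
    kerToKp 𝒰 p ι h0 ≫ KpMap 𝒰 p fX =
      (𝒰.levelComplexFunctor (k := k)).map fN ≫ kerToKp 𝒰 p ι' h0' := by
  refine natCone.hom_ext _ (fun n x => ?_) (fun n x => ?_)
  · apply Subtype.ext
    funext g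
    exact congr($(hc).hom (x.1 g))
  · show (((𝒰.levelComplexFunctor (k := k)).map fX).f n).hom
        (natCone.sndL (mulP 𝒰 p X) n (((kerToKp 𝒰 p ι h0).f (n + 1)).hom x)) = 0
    rw [sndL_kerToKp]
    exact map_zero _

theorem TMap_kerToT (hc : ι ≫ fX = fN ≫ ι') (r : ℕ) (y : 𝒰.levelCohomology N r) :
    TMap 𝒰 p fX r (kerToT 𝒰 p ι h0 r y) =
      kerToT 𝒰 p ι' h0' r ((𝒰.levelCohomologyMap fN r).hom y) :=
  natCone.homologyMap_sq _ _ _ _ (kerToKp_comp_KpMap 𝒰 p ι h0 ι' h0' fN fX hc) r y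

end naturality

section changeOfGroup

variable {H : Type u} [Group H] (𝒱 : LevelFamily H) {N X : Rep.{u} k G} {N' X' : Rep.{u} k H}
  (φ : H →* G) (hφ : LevelFamily.IsCompatible 𝒱 𝒰 φ)
  (ι : N ⟶ X) (h0 : ∀ a : N, p • ι.hom a = 0)
  (ι' : N' ⟶ X') (h0' : ∀ a : N', p • ι'.hom a = 0)
  (fN : Rep.res φ N ⟶ N') (fX : Rep.res φ X ⟶ X')

theorem kerToKp_comp_KpMapOfHom (hc : ∀ a : N, fX.hom (ι.hom a) = ι'.hom (fN.hom a)) :
    kerToKp 𝒰 p ι h0 ≫ KpMapOfHom 𝒰 p 𝒱 φ hφ fX =
      LevelFamily.levelCochainsMap φ hφ fN ≫ kerToKp 𝒱 p ι' h0' := by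
  refine natCone.hom_ext _ (fun n x => ?_) (fun n x => ?_)
  · apply Subtype.ext
    funext g
    exact hc (x.1 (φ ∘ g))
  · show ((LevelFamily.levelCochainsMap φ hφ fX).f n).hom
        (natCone.sndL (mulP 𝒰 p X) n (((kerToKp 𝒰 p ι h0).f (n + 1)).hom x)) = 0
    rw [sndL_kerToKp]
    exact map_zero _

theorem TMapOfHom_kerToT (hc : ∀ a : N, fX.hom (ι.hom a) = ι'.hom (fN.hom a)) (r : ℕ)
    (y : 𝒰.levelCohomology N r) :
    TMapOfHom 𝒰 p 𝒱 φ hφ fX r (kerToT 𝒰 p ι h0 r y) =
      kerToT 𝒱 p ι' h0' r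
        ((HomologicalComplex.homologyMap (LevelFamily.levelCochainsMap φ hφ fN) r).hom y) :=
  natCone.homologyMap_sq _ _ _ _ (kerToKp_comp_KpMapOfHom 𝒰 p 𝒱 φ hφ ι h0 ι' h0' fN fX hc) r y

end changeOfGroup

end Fermat.Agent.Lib.CFT.Duality.KCalc
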