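/-
helper53 (P-CFT, L4 base cases, local side).  Reduction of the inputs of local Tate duality
(`LocalTate.LocalBaseFor inv`, helper34) to statements on the open subgroups `W` of `G_q` with
trivial coefficients `𝔽_p` and NO reference to the invariant map:

* `ModPLocal 𝒲 p`: `H¹(W, 𝔽_p)` is finite, `H²(W, 𝔽_p)` is at most a line, the cup product
  `H¹(W, 𝔽_p) × H¹(W, 𝔽_p) → H²(W, 𝔽_p)` is nondegenerate on the right, and `H³(W, 𝔽_p) = 0`;
* `localBaseFor_of_modP`: if `inv : H²(G_q, μ_p) → 𝔽_p` is surjective and `ModPLocal` holds for every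
  open subgroup `W` of the kernel of the cyclotomic character, then `LocalBaseFor inv`.

Ingredients: for a trivial character the duality maps of the trivial module are computed with the
multiplication pairing (`lam_trivial_apply`, `bijective_lam₀_trivial`, `bijective_lam₁_trivial`);
the corestriction is surjective in degree `n` as soon as `Hⁿ⁺¹` vanishes on the kernel of the trace
map (`cores_surjective`), so that `inv ∘ cor` is again surjective, hence bijective on the line
`H²(W, μ_p)`.
-/
import Fermat.Agent.Lib.CFT.Duality.LocalTateTransfer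
import Fermat.Agent.Lib.CFT.Duality.BaseCase.Perfect

set_option autoImplicit false
set_option linter.unusedSectionVars false

universe u

open CategoryTheory CategoryTheory.Limits

namespace Fermat.Agent.Lib.CFT.Duality.LocalBase

open Fermat.Agent.Lib.CFT.Profinite Fermat.Agent.Lib.CFT.Profinite.LevelFamily
open Fermat.Agent.Lib.CFT.Profinite.LES
open Fermat.Agent.Lib.CFT.Coh.Cup Fermat.Agent.Lib.CFT.Duality.DualTwist
open Fermat.Agent.Lib.CFT.Duality.LocalTate Fermat.Agent.Lib.CFT.Duality.DevissageRep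
open Fermat.Agent.Lib.CFT.Duality.CoindDual

section Trivial

variable {k Γ : Type u} [Field k] [Group Γ]

/-- The multiplication pairing `k × k → k` of trivial representations. -/
noncomputable def mulPairing (k Γ : Type u) [Field k] [Group Γ] :
    Pairing (Rep.trivial k Γ k) (Rep.trivial k Γ k) (Rep.trivial k Γ k) where
  toLin := LinearMap.mul k k
  equivariant _ _ _ := rfl

@[simp] theorem mulPairing_toLin_apply (a b : k) :
    (mulPairing k Γ).toLin a b = a * b := rfl

variable (χ : Γ →* kˣ) (hχ : ∀ s, χ s = 1)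

/-- For a trivial character, `k(χ)` is the trivial representation. -/
noncomputable def ofCharIso : groupCohomology.ofChar χ ≅ Rep.trivial k Γ k :=
  Rep.mkIso (Representation.Equiv.mk (LinearEquiv.refl k k) (by
    intro g
    refine LinearMap.ext fun c => ?_
    show (groupCohomology.ofChar χ).ρ g c = c
    rw [ofChar_ρ_apply, hχ g]
    simp))

@[simp] theorem ofCharIso_hom_apply (c : k) : (ofCharIso χ hχ).hom.hom c = c := rfl
@[simp] theorem ofCharIso_inv_apply (c : k) : (ofCharIso χ hχ).inv.hom c = c := rfl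

/-- For a trivial character, the twisted dual of the trivial representation `k` is the trivial
representation `k`, via `f ↦ f 1`. -/
noncomputable def dualTrivIso : (Rep.trivial k Γ k).dualTwist χ ≅ Rep.trivial k Γ k :=
  Rep.mkIso (Representation.Equiv.mk
    (LinearEquiv.ofBijective ((LinearMap.applyₗ (1 : k) : Module.Dual k k →ₗ[k] k))
      ⟨fun f g hfg => by
        refine LinearMap.ext fun c => ?_
        have h1 : c = c • (1 : k) := by simp
        rw [h1, map_smul, map_smul]
        exact congr_arg _ hfg,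
       fun c => ⟨LinearMap.toSpanSingleton k k c, by simp⟩⟩) (by
    intro g
    refine LinearMap.ext fun f => ?_
    show ((Rep.trivial k Γ k).dualTwist χ).ρ g f (1 : k) = f 1
    rw [Rep.dualTwist_ρ_apply, hχ g]
    simp))

@[simp] theorem dualTrivIso_hom_apply (f : (Rep.trivial k Γ k).dualTwist χ) :
    (dualTrivIso χ hχ).hom.hom f = (show Module.Dual k k from f) 1 := rfl

/-- The evaluation pairing of the trivial representation is the multiplication pairing. -/
theorem ofCharIso_evPairing (a : k) (f : (Rep.trivial k Γ k).dualTwist χ) :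
    (ofCharIso χ hχ).hom.hom ((evPairing χ (Rep.trivial k Γ k)).toLin a f) =
      (mulPairing k Γ).toLin a ((dualTrivIso χ hχ).hom.hom f) := by
  rw [ofCharIso_hom_apply, evPairing_toLin_apply, mulPairing_toLin_apply, dualTrivIso_hom_apply]
  have h1 : a = a • (1 : k) := by simp
  conv_lhs => rw [h1, map_smul]
  rfl

end Trivial


section Nat

variable {k Γ : Type u} [CommRing k] [Group Γ] (𝒲 : LevelFamily Γ)

/-- Naturality of the cup product in all three coefficient modules. -/
theorem levelCohomologyMap_cupH {A B C A' B' C' : Rep.{u} k Γ} (φ : Pairing A B C)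
    (φ' : Pairing A' B' C') (α : A ⟶ A') (β : B ⟶ B') (γ : C ⟶ C')
    (hγ : ∀ (a : A) (b : B), γ.hom (φ.toLin a b) = φ'.toLin (α.hom a) (β.hom b))
    {m n l : ℕ} (h : m + n = l) (x : 𝒲.levelCohomology A m) (y : 𝒲.levelCohomology B n) :
    (𝒲.levelCohomologyMap γ l).hom (𝒲.cupH φ h x y) =
      𝒲.cupH φ' h ((𝒲.levelCohomologyMap α m).hom x) ((𝒲.levelCohomologyMap β n).hom y) := by
  obtain ⟨z, hz, rfl⟩ := 𝒲.cls_surjective x
  obtain ⟨w, hw, rfl⟩ := 𝒲.cls_surjective y
  rw [cupH_cls, levelCohomologyMap_cls, levelCohomologyMap_cls, levelCohomologyMap_cls, cupH_cls]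
  refine 𝒲.cls_congr ?_ _
  funext g
  rw [cupTo_apply, cupTo_apply, hγ, Rep.hom_comm_apply]

/-- Cup product with the class of an invariant element, in degree `(m, 0)`. -/
theorem cupH_cls_zero {A B C : Rep.{u} k Γ} (φ : Pairing A B C) {m : ℕ}
    (b : B) (hb : ∀ g : Γ, B.ρ g b = b)
    (hb' : 𝒲.IsLevelCocycle B (fun _ : Fin 0 → Γ => b))
    (ψb : A ⟶ C) (hψ : ∀ a : A, ψb.hom a = φ.toLin a b)
    (x : 𝒲.levelCohomology A m) :
    𝒲.cupH φ (add_zero m) x (𝒲.cls (fun _ : Fin 0 → Γ => b) hb') =
      (𝒲.levelCohomologyMap ψb m).hom x := by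
  obtain ⟨z, hz, rfl⟩ := 𝒲.cls_surjective x
  rw [cupH_cls, levelCohomologyMap_cls]
  refine 𝒲.cls_congr ?_ _
  funext g
  rw [cupTo_apply, hb, hψ]
  rfl

/-- An invariant element defines a level `0`-cocycle. -/
theorem isLevelCocycle_const {B : Rep.{u} k Γ} (b : B) (hb : ∀ g : Γ, B.ρ g b = b) :
    𝒲.IsLevelCocycle B (fun _ : Fin 0 → Γ => b) :=
  ⟨const_mem_levelCochains_zero 𝒲 hb, (d_zero_eq_zero_iff _).2 hb⟩

/-- Every class of degree `0` is the class of a constant invariant cochain. -/
theorem exists_cls_const {B : Rep.{u} k Γ} (y : 𝒲.levelCohomology B 0) :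
    ∃ (b : B) (hb : ∀ g : Γ, B.ρ g b = b), y = 𝒲.cls (fun _ : Fin 0 → Γ => b)
      (isLevelCocycle_const 𝒲 b hb) := by
  obtain ⟨c, hc, rfl⟩ := 𝒲.cls_surjective y
  have hb : ∀ g : Γ, B.ρ g (c default) = c default := (d_zero_eq_zero_iff c).1 hc.2
  refine ⟨c default, hb, 𝒲.cls_congr ?_ _⟩
  funext g
  exact congrArg c (Subsingleton.elim _ _)

end Nat


section Group

variable {k Γ : Type u} [Field k] [Group Γ] (𝒲 : LevelFamily Γ) (χ : Γ →* kˣ)
  (hχ : ∀ s, χ s = 1)
  (inv : 𝒲.levelCohomology (groupCohomology.ofChar χ) 2 →ₗ[k] k)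

/-- The invariant map transported to trivial coefficients. -/
noncomputable def invTriv : 𝒲.levelCohomology (Rep.trivial k Γ k) 2 →ₗ[k] k :=
  inv ∘ₗ (𝒲.levelCohomologyMap (ofCharIso χ hχ).inv 2).hom

/-- The duality pairing of the trivial module in terms of the multiplication pairing. -/
theorem lam_trivial_apply {i j : ℕ} (h : i + j = 1 + 1)
    (x : 𝒲.levelCohomology (Rep.trivial k Γ k) i)
    (y : 𝒲.levelCohomology ((Rep.trivial k Γ k).dualTwist χ) j) :
    lam χ 𝒲 inv h (Rep.trivial k Γ k) x y =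
      invTriv 𝒲 χ hχ inv (𝒲.cupH (mulPairing k Γ) h x
        ((𝒲.levelCohomologyMap (dualTrivIso χ hχ).hom j).hom y)) := by
  rw [lam_apply]
  have key := levelCohomologyMap_cupH 𝒲 (evPairing χ (Rep.trivial k Γ k)) (mulPairing k Γ)
    (𝟙 _) (dualTrivIso χ hχ).hom (ofCharIso χ hχ).hom
    (fun a f => ofCharIso_evPairing χ hχ a f) h x y
  rw [levelCohomologyMap_id_apply] at key
  unfold invTriv
  rw [LinearMap.comp_apply, ← key, levelCohomologyMap_comp_apply, Iso.hom_inv_id,
    levelCohomologyMap_id_apply]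

include hχ in
/-- If `H²(Γ, k)` is at most a line, a surjective invariant map is bijective. -/
theorem invTriv_bijective (hinv : Function.Surjective inv)
    (h2 : ∀ x y : 𝒲.levelCohomology (Rep.trivial k Γ k) 2, x ≠ 0 → ∃ a : k, y = a • x) :
    Function.Bijective (invTriv 𝒲 χ hχ inv) := by
  have hsurj : Function.Surjective (invTriv 𝒲 χ hχ inv) := by
    unfold invTriv
    rw [LinearMap.coe_comp]
    exact hinv.comp (bijective_levelCohomologyMap_of_iso 𝒲 (ofCharIso χ hχ).symm 2).2
  refine ⟨?_, hsurj⟩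
  rw [injective_iff_map_eq_zero]
  intro x hx
  by_contra hx0
  obtain ⟨y, hy⟩ := hsurj 1
  obtain ⟨a, rfl⟩ := h2 x y hx0
  rw [map_smul, hx, smul_zero] at hy
  exact zero_ne_one hy

/-- A module which is at most a line is finite. -/
theorem finite_of_line {V : Type*} [AddCommGroup V] [Module k V]
    (h2 : ∀ x y : V, x ≠ 0 → ∃ a : k, y = a • x) : Module.Finite k V := by
  by_cases h : ∃ x : V, x ≠ 0
  · obtain ⟨x, hx⟩ := h
    refine Module.Finite.of_surjective (LinearMap.toSpanSingleton k V x) fun y => ?_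
    obtain ⟨a, rfl⟩ := h2 x y hx
    exact ⟨a, rfl⟩
  · push Not at h
    have : Subsingleton V := ⟨fun a b => (h a).trans (h b).symm⟩
    infer_instance

/-- The invariant element of `k' = (k)'` corresponding to `1`. -/
noncomputable def oneDual : (Rep.trivial k Γ k).dualTwist χ := (dualTrivIso χ hχ).inv.hom (1 : k)

theorem dualTrivIso_hom_oneDual : (dualTrivIso χ hχ).hom.hom (oneDual χ hχ) = 1 := by
  unfold oneDual
  have := congr($((dualTrivIso χ hχ).inv_hom_id) (1 : k))
  exact this

theorem oneDual_invariant (g : Γ) :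
    ((Rep.trivial k Γ k).dualTwist χ).ρ g (oneDual χ hχ) = oneDual χ hχ := by
  unfold oneDual
  rw [← Rep.hom_comm_apply]
  rfl

theorem eq_smul_oneDual (f : (Rep.trivial k Γ k).dualTwist χ) :
    f = ((dualTrivIso χ hχ).hom.hom f) • oneDual χ hχ := by
  have h1 : (dualTrivIso χ hχ).inv.hom ((dualTrivIso χ hχ).hom.hom f) = f :=
    congr($((dualTrivIso χ hχ).hom_inv_id) f)
  unfold oneDual
  rw [← map_smul, smul_eq_mul, mul_one, h1]

/-- **Duality in degrees `(2, 0)` for the trivial module**, when the invariant map is bijective. -/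
theorem bijective_lam₁_trivial (hinv : Function.Bijective (invTriv 𝒲 χ hχ inv)) :
    Function.Bijective (lam₁ (r := 1) χ 𝒲 inv (Rep.trivial k Γ k)) := by
  have hy₀ := isLevelCocycle_const 𝒲 (oneDual χ hχ) (oneDual_invariant χ hχ)
  refine Perfect.bijective_of_line _ (𝒲.cls (fun _ : Fin 0 → Γ => oneDual χ hχ) hy₀) ?_ ?_
  · intro y
    obtain ⟨b, hb, rfl⟩ := exists_cls_const 𝒲 y
    refine ⟨(dualTrivIso χ hχ).hom.hom b, ?_⟩
    rw [← cls_smul]
    refine 𝒲.cls_congr ?_ _
    funext g
    exact eq_smul_oneDual χ hχ b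
  · have heq : (fun x => lam₁ (r := 1) χ 𝒲 inv (Rep.trivial k Γ k) x
        (𝒲.cls (fun _ : Fin 0 → Γ => oneDual χ hχ) hy₀)) = invTriv 𝒲 χ hχ inv := by
      funext x
      rw [lam_trivial_apply 𝒲 χ hχ inv, levelCohomologyMap_cls]
      have h1 : (fun g : Fin 0 → Γ => (dualTrivIso χ hχ).hom.hom (oneDual χ hχ)) =
          fun _ => (1 : k) := by
        funext g
        exact dualTrivIso_hom_oneDual χ hχ
      rw [𝒲.cls_congr h1 _]
      rw [cupH_cls_zero 𝒲 (mulPairing k Γ) (1 : k) (fun _ => rfl) _ (𝟙 _)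
        (fun a => (mul_one a).symm), levelCohomologyMap_id_apply]
    rw [heq]
    exact hinv

/-- **Duality in degrees `(1, 1)` for the trivial module**, when the invariant map is injective,
`H¹(Γ, k)` is finite dimensional and the cup product `H¹ × H¹ → H²` is nondegenerate on the
left. -/
theorem bijective_lam₀_trivial [Module.Finite k (𝒲.levelCohomology (Rep.trivial k Γ k) 1)]
    (hinv : Function.Injective (invTriv 𝒲 χ hχ inv))
    (hcup : ∀ x : 𝒲.levelCohomology (Rep.trivial k Γ k) 1, x ≠ 0 →
      ∃ y : 𝒲.levelCohomology (Rep.trivial k Γ k) 1,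
        𝒲.cupH (mulPairing k Γ) (rfl : 1 + 1 = 1 + 1) x y ≠ 0) :
    Function.Bijective (lam₀ (r := 1) χ 𝒲 inv (Rep.trivial k Γ k)) := by
  have hθ := bijective_levelCohomologyMap_of_iso 𝒲 (dualTrivIso χ hχ) 1
  let E : 𝒲.levelCohomology ((Rep.trivial k Γ k).dualTwist χ) 1 ≃ₗ[k]
      𝒲.levelCohomology (Rep.trivial k Γ k) 1 :=
    LinearEquiv.ofBijective (𝒲.levelCohomologyMap (dualTrivIso χ hχ).hom 1).hom hθ
  have hfin' : Module.Finite k (𝒲.levelCohomology ((Rep.trivial k Γ k).dualTwist χ) 1) :=
    Module.Finite.equiv E.symm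
  have hinj : Function.Injective (lam₀ (r := 1) χ 𝒲 inv (Rep.trivial k Γ k)) := by
    rw [injective_iff_map_eq_zero]
    intro x hx
    by_contra hx0
    obtain ⟨y, hy⟩ := hcup x hx0
    apply hy
    apply hinv
    rw [map_zero]
    obtain ⟨y', rfl⟩ := hθ.2 y
    rw [← lam_trivial_apply 𝒲 χ hχ inv, hx]
    rfl
  have hdim : Module.finrank k (𝒲.levelCohomology (Rep.trivial k Γ k) 1) =
      Module.finrank k (Module.Dual k (𝒲.levelCohomology ((Rep.trivial k Γ k).dualTwist χ) 1)) := by
    rw [Subspace.dual_finrank_eq]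
    exact E.symm.finrank_eq
  exact ⟨hinj, (LinearMap.injective_iff_surjective_of_finrank_eq_finrank hdim).1 hinj⟩

/-- **Duality in degrees `(1, 1)` for the trivial module**, with nondegeneracy of the cup product
`H¹ × H¹ → H²` on the right. -/
theorem bijective_lam₀_trivial' [Module.Finite k (𝒲.levelCohomology (Rep.trivial k Γ k) 1)]
    (hinv : Function.Injective (invTriv 𝒲 χ hχ inv))
    (hcup : ∀ y : 𝒲.levelCohomology (Rep.trivial k Γ k) 1, y ≠ 0 →
      ∃ x : 𝒲.levelCohomology (Rep.trivial k Γ k) 1,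
        𝒲.cupH (mulPairing k Γ) (rfl : 1 + 1 = 1 + 1) x y ≠ 0) :
    Function.Bijective (lam₀ (r := 1) χ 𝒲 inv (Rep.trivial k Γ k)) := by
  have hθ := bijective_levelCohomologyMap_of_iso 𝒲 (dualTrivIso χ hχ) 1
  let E : 𝒲.levelCohomology ((Rep.trivial k Γ k).dualTwist χ) 1 ≃ₗ[k]
      𝒲.levelCohomology (Rep.trivial k Γ k) 1 :=
    LinearEquiv.ofBijective (𝒲.levelCohomologyMap (dualTrivIso χ hχ).hom 1).hom hθ
  have hfin' : Module.Finite k (𝒲.levelCohomology ((Rep.trivial k Γ k).dualTwist χ) 1) :=
    Module.Finite.equiv E.symm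
  rw [← LinearMap.flip_bijective_iff₁]
  have hinj : Function.Injective (lam₀ (r := 1) χ 𝒲 inv (Rep.trivial k Γ k)).flip := by
    rw [injective_iff_map_eq_zero]
    intro y' hy'
    by_contra hy0
    have hy0' : (𝒲.levelCohomologyMap (dualTrivIso χ hχ).hom 1).hom y' ≠ 0 := by
      intro h0
      apply hy0
      apply hθ.1
      rw [h0, map_zero]
    obtain ⟨x, hx⟩ := hcup _ hy0'
    apply hx
    apply hinv
    rw [map_zero, ← lam_trivial_apply 𝒲 χ hχ inv]
    exact congr($hy' x)
  have hdim : Module.finrank k (𝒲.levelCohomology ((Rep.trivial k Γ k).dualTwist χ) 1) =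
      Module.finrank k (Module.Dual k (𝒲.levelCohomology (Rep.trivial k Γ k) 1)) := by
    rw [Subspace.dual_finrank_eq]
    exact E.finrank_eq
  exact ⟨hinj, (LinearMap.injective_iff_surjective_of_finrank_eq_finrank hdim).1 hinj⟩

end Group

section Cores

variable {k G : Type u} [CommRing k] [Group G] (V : Subgroup G) [V.FiniteIndex] (M : Rep.{u} k G)

/-- The trace map `Coind_V^G (M|_V) ⟶ M` is surjective. -/
theorem coindTrace_surjective : Function.Surjective (coindTrace V M).hom := by
  classical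
  let _ : Fintype (G ⧸ V) := Fintype.ofFinite _
  intro m
  refine ⟨(coordEquiv V M).symm ((Pi.single ((1 : G) : G ⧸ V) m : G ⧸ V → M)), ?_⟩
  show ∑ c : G ⧸ V, traceFun V M ((coordEquiv V M).symm ((Pi.single ((1 : G) : G ⧸ V) m : G ⧸ V → M))) c = m
  have h0 : ∀ (F : P V M) (c : G ⧸ V), traceFun V M F c = coordEquiv V M F c := by
    intro F c
    induction c using QuotientGroup.induction_on with
    | H y => rfl
  have h : ∀ c : G ⧸ V, traceFun V M ((coordEquiv V M).symm
      (Pi.single ((1 : G) : G ⧸ V) m : G ⧸ V → M)) c =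
      (Pi.single ((1 : G) : G ⧸ V) m : G ⧸ V → M) c := by
    intro c
    rw [h0, LinearEquiv.apply_symm_apply]
  rw [Finset.sum_congr rfl (fun c _ => h c)]
  exact Fintype.sum_pi_single' ((1 : G) : G ⧸ V) m

instance epi_coindTrace : Epi (coindTrace V M) :=
  (Rep.epi_iff_surjective _).2 (coindTrace_surjective V M)

/-- The kernel of the trace map. -/
noncomputable abbrev traceKer : Rep.{u} k G := kernel (coindTrace V M)

/-- The short complex `0 ⟶ traceKer ⟶ Coind_V^G (M|_V) ⟶ M ⟶ 0`. -/
noncomputable def traceSeq : ShortComplex (Rep.{u} k G) :=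
  ShortComplex.mk (kernel.ι (coindTrace V M)) (coindTrace V M) (kernel.condition _)

theorem traceSeq_shortExact : (traceSeq V M).ShortExact where
  exact := ShortComplex.exact_of_f_is_kernel _ (kernelIsKernel (coindTrace V M))
  mono_f := by dsimp [traceSeq]; infer_instance
  epi_g := by dsimp [traceSeq]; infer_instance

theorem traceKer_ι_injective : Function.Injective (kernel.ι (coindTrace V M)).hom :=
  (Rep.mono_iff_injective _).1 inferInstance

instance finite_traceKer [Finite M] : Finite (traceKer V M) :=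
  Finite.of_injective _ (traceKer_ι_injective V M)

theorem isDiscrete_traceKer (𝒰 : LevelFamily G) (hV : IsOpenSubgroup 𝒰 V) (hM : 𝒰.IsDiscrete M) :
    𝒰.IsDiscrete (traceKer V M) :=
  DevissageRep.isDiscrete_of_injective 𝒰 _ (traceKer_ι_injective V M)
    (isDiscrete_P V M 𝒰 hV hM)

variable {V M}

/-- **Corestriction is surjective in the top degree**: if `Hⁿ⁺¹` of the kernel of the trace map
vanishes, then `cor : Hⁿ(V, M) → Hⁿ(G, M)` is surjective. -/
theorem cores_surjective {𝒰 : LevelFamily G} (hV : IsOpenSubgroup 𝒰 V) (hM : 𝒰.IsDiscrete M) (n : ℕ)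
    (hvan : Subsingleton (𝒰.levelCohomology (traceKer V M) (n + 1))) :
    Function.Surjective (cores hV hM n).hom := by
  have hd : 𝒰.IsDiscrete (traceSeq V M).X₂ := isDiscrete_P V M 𝒰 hV hM
  have h1 : Function.Surjective (𝒰.levelCohomologyMap (coindTrace V M) n).hom := by
    intro z
    obtain ⟨y, hy⟩ := 𝒰.exists_of_δ_eq_zero (traceSeq_shortExact V M) hd (rfl : n + 1 = n + 1) z
      (@Subsingleton.elim _ hvan _ _)
    exact ⟨y, hy⟩
  unfold cores
  rw [ModuleCat.hom_comp, LinearMap.coe_comp]
  refine h1.comp ?_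
  intro y
  refine ⟨(shapiroIso hV (isDiscrete_res 𝒰 V M hM) n).hom.hom y, ?_⟩
  exact congr($((shapiroIso hV (isDiscrete_res 𝒰 V M hM) n).hom_inv_id) y)

end Cores

/-! ### The arithmetic case -/

section Arith

open ExtCitation

/-- The inputs of local duality for one group `Γ` (an open subgroup of a local Galois group whose
fixed field contains the `p`-th roots of unity), with trivial coefficients `𝔽_p`. -/
structure ModPLocal {Γ : Type} [Group Γ] (𝒲 : LevelFamily Γ) (p : ℕ) [Fact p.Prime] : Prop where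
  /-- `H¹(Γ, 𝔽_p)` is finite -/
  fin1 : Module.Finite (ZMod p) (𝒲.levelCohomology (Rep.trivial (ZMod p) Γ (ZMod p)) 1)
  /-- `H²(Γ, 𝔽_p)` has dimension at most one -/
  line2 : ∀ x y : 𝒲.levelCohomology (Rep.trivial (ZMod p) Γ (ZMod p)) 2, x ≠ 0 →
    ∃ a : ZMod p, y = a • x
  /-- the cup product `H¹ × H¹ → H²` is nondegenerate on the right -/
  cup : ∀ y : 𝒲.levelCohomology (Rep.trivial (ZMod p) Γ (ZMod p)) 1, y ≠ 0 →
    ∃ x : 𝒲.levelCohomology (Rep.trivial (ZMod p) Γ (ZMod p)) 1,
      𝒲.cupH (mulPairing (ZMod p) Γ) (rfl : 1 + 1 = 1 + 1) x y ≠ 0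
  /-- `H³(Γ, 𝔽_p) = 0` -/
  van3 : Subsingleton (𝒲.levelCohomology (Rep.trivial (ZMod p) Γ (ZMod p)) 3)

variable {p : ℕ} [Fact p.Prime] {q : Nat.Primes}

/-- **The inputs of local Tate duality at `q` from statements with trivial coefficients on the open
subgroups.**  If the invariant map `inv : H²(G_q, μ_p) → 𝔽_p` is surjective and `ModPLocal` holds
for every open subgroup `W` of `G_q` on which the cyclotomic character is trivial, then the
hypotheses `LocalBaseFor inv` of local Tate duality hold. -/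
theorem localBaseFor_of_modP
    (inv : (primeLocalLevels q).levelCohomology
      (groupCohomology.ofChar (k := ZMod p) (localCycloChar p q)) 2 →ₗ[ZMod p] ZMod p)
    (hinv : Function.Surjective inv)
    (h : ∀ W : Subgroup (primeLocalGaloisGroup q), W ≤ (localCycloChar p q).ker →
      IsOpenSubgroup (primeLocalLevels q) W → ModPLocal (restrict (primeLocalLevels q) W) p) :
    LocalBaseFor inv := by
  have van : ∀ W : Subgroup (primeLocalGaloisGroup q), W ≤ (localCycloChar p q).ker →
      IsOpenSubgroup (primeLocalLevels q) W →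
      Subsingleton ((restrict (primeLocalLevels q) W).levelCohomology
        (Rep.trivial (ZMod p) W (ZMod p)) 3) := fun W hW hop => (h W hW hop).van3
  have hvan3 : ∀ (N : Rep (ZMod p) (primeLocalGaloisGroup q)) [Finite N],
      (primeLocalLevels q).IsDiscrete N →
      Subsingleton ((primeLocalLevels q).levelCohomology N 3) := by
    intro N _ hN
    obtain ⟨U, hU, hUχ⟩ := exists_level_localCycloChar p q
    have : Module.Finite (ZMod p) N := Module.Finite.of_finite
    exact CdBound.levelCohomology_eq_zero_of_trivial 3 (localCycloChar p q).ker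
      ⟨U, hU, fun s hs => MonoidHom.mem_ker.2 (hUχ s hs)⟩ (not_dvd_index_ker _) van N hN
  have hle : ∀ W : Subgroup (primeLocalGaloisGroup q), (∀ s ∈ W, localCycloChar p q s = 1) →
      W ≤ (localCycloChar p q).ker := fun W hW s hs => MonoidHom.mem_ker.2 (hW s hs)
  refine LocalBaseFor.of_restrict inv van (fun W hW _ hχW => ?_) (fun W hW _ hχW => ?_)
  · exact ⟨(h W (hle W hχW) (isOpenSubgroup_of_mem hW)).fin1,
      finite_of_line (h W (hle W hχW) (isOpenSubgroup_of_mem hW)).line2⟩
  · have hm := h W (hle W hχW) (isOpenSubgroup_of_mem hW)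
    have hop := isOpenSubgroup_of_mem hW
    have hμ := isDiscrete_ofChar (localCycloChar p q) (primeLocalLevels q)
      (exists_level_localCycloChar p q)
    have hχ' : ∀ s : W, (localCycloChar p q).comp W.subtype s = 1 := fun s => hχW s.1 s.2
    have := hop.finiteIndex
    have hfinμ : Finite (groupCohomology.ofChar (k := ZMod p) (localCycloChar p q)) :=
      inferInstanceAs (Finite (ZMod p))
    have hcor : Function.Surjective (cores hop hμ 2).hom :=
      cores_surjective hop hμ 2 (hvan3 _ (isDiscrete_traceKer W _ _ hop hμ))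
    have hinvW : Function.Surjective
        (invRestrict (localCycloChar p q) (primeLocalLevels q) inv hop hμ) := by
      unfold invRestrict
      rw [LinearMap.coe_comp]
      exact hinv.comp hcor
    have hbij := invTriv_bijective (restrict (primeLocalLevels q) W)
      ((localCycloChar p q).comp W.subtype) hχ' _ hinvW hm.line2
    have := hm.fin1
    exact ⟨bijective_lam₀_trivial' _ _ hχ' _ hbij.1 hm.cup, bijective_lam₁_trivial _ _ hχ' _ hbij⟩

end Arith

end Fermat.Agent.Lib.CFT.Duality.LocalBase
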