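/-
helper53 (P-CFT, L4 base cases, local side).  The inputs `LocalBase.ModPLocal 𝒲 p` of local Tate
duality for one group `Γ` (trivial coefficients `𝔽_p`) from "Kummer theory + class formation"
statements about a `p`-divisible discrete `Γ`-module `L` (for a local field: `L = K̄ˣ`) whose
`p`-torsion is `𝔽_p` with trivial action:

`KummerLocal 𝒲 p L` := `L` discrete and `p`-divisible, `L[p]` generated by an invariant element
`ζ ≠ 0`, `H¹(L) = 0`, `H⁰(L)/p` finite, the `p`-torsion of `H²(L)` cyclic, `H²(L)` `p`-divisible,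
`H³(L)` without `p`-torsion, and reciprocity in the form: for every nonzero `η ∈ H¹(Γ, 𝔽_p)` the cup
product with its Bockstein class `δ η ∈ H²(Γ, ℤ)` is nonzero on `H⁰(L)`.

`modPLocal_of_kummerLocal : KummerLocal 𝒲 p L → ModPLocal 𝒲 p` is proved with the `K(X)`-calculus
(helper18 `KCalc`, `KCalcCupT`), change of rings (helper95) and Bockstein pairs (helper77).
-/
import Fermat.Agent.Lib.CFT.Duality.BaseCase.LocalBase
import Fermat.Agent.Lib.CFT.Duality.BaseCase.KCalcCupZero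
import Fermat.Agent.Lib.CFT.Duality.BaseCase.ChangeRing
import Fermat.Agent.Lib.CFT.Duality.BaseCase.Bockstein
import Fermat.Agent.Lib.CFT.Profinite.CupLevel

set_option autoImplicit false
set_option linter.unusedSectionVars false

universe u

open CategoryTheory

namespace Fermat.Agent.Lib.CFT.Duality.LocalModP

open Fermat.Agent.Lib.CFT.Profinite Fermat.Agent.Lib.CFT.Profinite.LevelFamily
open Fermat.Agent.Lib.CFT.Coh.Cup ConcreteHomology
open Fermat.Agent.Lib.CFT.Duality.ChangeRing Fermat.Agent.Lib.CFT.Duality.KCalcCup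
open Fermat.Agent.Lib.CFT.Duality

/-! ### Change of coefficient ring and cup products -/

section ChangeRingCup

variable {k G : Type} [CommRing k] [Group G] (𝒰 : LevelFamily G)
  {A B C : Rep.{0} k G} (ψ : Pairing A B C) (ψ' : Pairing (intRep A) (intRep B) (intRep C))
  (hψ : ∀ (a : A) (b : B), ψ'.toLin a b = ψ.toLin a b)

include hψ in
/-- The comparison `Hⁿ(M) ≃ Hⁿ(intRep M)` is compatible with cup products. -/
theorem levelCohomologyInt_cupH {m n l : ℕ} (h : m + n = l) (x : 𝒰.levelCohomology A m)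
    (y : 𝒰.levelCohomology B n) :
    levelCohomologyInt 𝒰 C l (𝒰.cupH ψ h x y) =
      𝒰.cupH ψ' h (levelCohomologyInt 𝒰 A m x) (levelCohomologyInt 𝒰 B n y) := by
  obtain ⟨a, rfl⟩ := classOf_surjective (𝒰.levelComplex A) m x
  obtain ⟨b, rfl⟩ := classOf_surjective (𝒰.levelComplex B) n y
  rw [cupH_classOf, levelCohomologyInt_classOf, levelCohomologyInt_classOf,
    levelCohomologyInt_classOf, cupH_classOf]
  refine congr_arg _ (Subtype.ext (Subtype.ext ?_))
  funext g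
  show cupTo ψ h a.1.1 b.1.1 g = cupTo ψ' h a.1.1 b.1.1 g
  rw [cupTo_apply, cupTo_apply, hψ]
  rfl

end ChangeRingCup

/-! ### The `K`-calculus part, over a general coefficient ring -/

section Generic

variable {k Γ : Type u} [CommRing k] [Group Γ] (𝒲 : LevelFamily Γ) (p : ℕ) (L : Rep.{u} k Γ)

/-- The scalar multiplication pairing `L × k → L`. -/
noncomputable def smulPairing : Pairing L (Rep.trivial k Γ k) L where
  toLin := (LinearMap.lsmul k L).flip
  equivariant g l c := by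
    show c • L.ρ g l = L.ρ g (c • l)
    rw [map_smul]

@[simp] theorem smulPairing_toLin_apply (l : L) (c : k) : (smulPairing L).toLin l c = c • l := rfl

variable (hd : 𝒲.IsDiscrete L) (hdiv : ∀ l : L, ∃ l' : L, p • l' = l)

include hd hdiv in
/-- `H³(L[p]) = 0` if `H²(L)` is `p`-divisible and `H³(L)` has no `p`-torsion. -/
theorem subsingleton_three
    (hdiv2 : ∀ x : 𝒲.levelCohomology L 2, ∃ x' : 𝒲.levelCohomology L 2, p • x' = x)
    (htors3 : ∀ x : 𝒲.levelCohomology L 3, p • x = 0 → x = 0) :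
    Subsingleton (𝒲.levelCohomology (KCalc.torsionRep p L) 3) := by
  have hT : ∀ t : KCalc.T 𝒲 p L 3, t = 0 := by
    intro t
    have h1 : KCalc.toH 𝒲 p L 3 t = 0 := htors3 _ (KCalc.smul_toH 𝒲 p L 3 t)
    obtain ⟨z, rfl⟩ := (KCalc.toH_eq_zero_iff 𝒲 p L 2 t).1 h1
    obtain ⟨z', rfl⟩ := hdiv2 z
    exact KCalc.ofH_smul 𝒲 p L 2 z'
  refine ⟨fun a b => ?_⟩
  apply (KCalc.torsionToT_bijective 𝒲 p L hd hdiv 3).1
  rw [hT (KCalc.torsionToT 𝒲 p L 3 a), hT (KCalc.torsionToT 𝒲 p L 3 b)]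

include hd hdiv in
/-- `H²(L[p]) → H²(L)` is injective if `H¹(L) = 0`. -/
theorem levelCohomologyMap_torsionι_two_injective
    (h1 : Subsingleton (𝒲.levelCohomology L 1)) :
    Function.Injective (𝒲.levelCohomologyMap (KCalc.torsionι p L) 2).hom := by
  intro a b hab
  apply (KCalc.torsionToT_bijective 𝒲 p L hd hdiv 2).1
  rw [← KCalc.toH_torsionToT, ← KCalc.toH_torsionToT] at hab
  have h0 : KCalc.toH 𝒲 p L (1 + 1) (KCalc.torsionToT 𝒲 p L 2 a - KCalc.torsionToT 𝒲 p L 2 b) = 0 := by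
    rw [map_sub]
    exact sub_eq_zero.2 hab
  obtain ⟨y, hy⟩ := (KCalc.toH_eq_zero_iff 𝒲 p L 1 _).1 h0
  rw [Subsingleton.elim y 0, map_zero] at hy
  exact sub_eq_zero.1 hy.symm

include hd hdiv in
/-- `H¹(L[p])` is finite if `H¹(L) = 0` and `H⁰(L)/p` is finite. -/
theorem finite_one (h1 : Subsingleton (𝒲.levelCohomology L 1))
    (hfin0 : ∃ S : Set (𝒲.levelCohomology L 0), S.Finite ∧
      ∀ c, ∃ s ∈ S, ∃ c' : 𝒲.levelCohomology L 0, c = s + p • c') :
    Finite (𝒲.levelCohomology (KCalc.torsionRep p L) 1) := by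
  obtain ⟨S, hS, hS'⟩ := hfin0
  have hsurj : ∀ t : KCalc.T 𝒲 p L 1, ∃ s ∈ S, KCalc.ofH 𝒲 p L 0 s = t := by
    intro t
    have h0 : KCalc.toH 𝒲 p L (0 + 1) t = 0 := Subsingleton.elim _ _
    obtain ⟨c, rfl⟩ := (KCalc.toH_eq_zero_iff 𝒲 p L 0 t).1 h0
    obtain ⟨s, hs, c', rfl⟩ := hS' c
    exact ⟨s, hs, by rw [map_add, KCalc.ofH_smul, add_zero]⟩
  have hfinT : Finite (KCalc.T 𝒲 p L 1) := by
    have : Finite S := hS
    refine Finite.of_surjective (fun s : S => KCalc.ofH 𝒲 p L 0 s.1) ?_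
    intro t
    obtain ⟨s, hs, rfl⟩ := hsurj t
    exact ⟨⟨s, hs⟩, rfl⟩
  exact Finite.of_injective _ (KCalc.torsionToT_bijective 𝒲 p L hd hdiv 1).1


section Rec

variable {Rb : Rep.{u} k Γ} (red : Rep.trivial k Γ k ⟶ Rb)
  (hred : Bockstein.IsReduction (p : k) red)
  (ψp : Pairing (KCalc.torsionRep p L) Rb (KCalc.torsionRep p L))
  (hψp : ∀ (a : KCalc.torsionRep p L) (r : k),
    (KCalc.torsionι p L).hom (ψp.toLin a (red.hom r)) =
      (smulPairing L).toLin ((KCalc.torsionι p L).hom a) r)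
  (hdR : 𝒲.IsDiscrete (Rep.trivial k Γ k))

theorem classOf_cupR {X' R X : Rep.{u} k Γ} (ψ : Pairing X' R X) {m n l : ℕ} (h : m + n = l)
    (a : Z (𝒲.levelComplex X') m) (b : Z (𝒲.levelComplex R) n)
    (hz : (show (𝒲.levelComplex X).X l from cupR 𝒲 ψ h b.1 a.1) ∈ Z (𝒲.levelComplex X) l) :
    classOf (𝒲.levelComplex X) l ⟨cupR 𝒲 ψ h b.1 a.1, hz⟩ =
      𝒲.cupH ψ h (classOf (𝒲.levelComplex X') m a) (classOf (𝒲.levelComplex R) n b) := by
  rw [cupH_classOf]
  rfl

include hd hdiv hψp in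
/-- **Nondegeneracy from reciprocity.**  If for every nonzero class `η ∈ H¹(R/p)` the cup product
with its Bockstein class `δ η ∈ H²(R)` is nonzero on `H⁰(L)`, then for every such `η` the cup
product with `η` is nonzero on `H¹(L[p])`. -/
theorem exists_cupH_ne_zero
    (hrec : ∀ η : 𝒲.levelCohomology Rb 1, η ≠ 0 → ∃ c : 𝒲.levelCohomology L 0,
      𝒲.cupH (smulPairing L) (rfl : 0 + 2 = 0 + 1 + 1) c
        ((𝒲.δ (Bockstein.bockSeq_shortExact hred) hdR 1 (1 + 1) rfl).hom η) ≠ 0)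
    (η : 𝒲.levelCohomology Rb 1) (hη : η ≠ 0) :
    ∃ a : 𝒲.levelCohomology (KCalc.torsionRep p L) 1,
      𝒲.cupH ψp (rfl : 1 + 1 = 1 + 1) a η ≠ 0 := by
  obtain ⟨x, hxη, hxδ⟩ := Bockstein.exists_bockPair_of_class 𝒲 hred hdR 1 η
  obtain ⟨c, hc⟩ := hrec η hη
  obtain ⟨c₀, rfl⟩ := classOf_surjective (𝒲.levelComplex L) 0 c
  have hy : dL 𝒲 (Rep.trivial k Γ k) 1 x.1.1 = (p : k) • x.1.2 := Bockstein.BockPair.d_fst x
  have hβ : dL 𝒲 (Rep.trivial k Γ k) 2 x.1.2 = 0 :=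
    Bockstein.BockPair.d_snd hred.torsionFree x
  have hRb : ∀ r : Rb, (p : k) • r = 0 := by
    intro r
    obtain ⟨t, rfl⟩ := hred.surjective r
    rw [← map_smul]
    exact hred.red_smul t
  have hyb : dL 𝒲 Rb 1 (cmap 𝒲 red 1 x.1.1) = 0 := dL_cmap_red_eq_zero 𝒲 p x.1.1 x.1.2 hy red hRb
  obtain ⟨a, ha⟩ := (KCalc.torsionToT_bijective 𝒲 p L hd hdiv (0 + 1)).2
    (KCalc.ofH 𝒲 p L 0 (classOf (𝒲.levelComplex L) 0 c₀))
  obtain ⟨a₀, rfl⟩ := classOf_surjective (𝒲.levelComplex (KCalc.torsionRep p L)) (0 + 1) a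
  refine ⟨classOf (𝒲.levelComplex (KCalc.torsionRep p L)) (0 + 1) a₀, fun h0 => hc ?_⟩
  -- the two formulas
  have key1 := toH_PhiT_ofH 𝒲 p (smulPairing L) x.1.1 x.1.2 hy hβ 0 c₀
  have key2 := PhiT_torsionToT 𝒲 p (smulPairing L) x.1.1 x.1.2 hy hβ ψp red hψp hyb (0 + 1) a₀
  rw [← ha, key2] at key1
  -- identify the classes
  have hβZ : (show (𝒲.levelComplex (Rep.trivial k Γ k)).X 2 from x.1.2) ∈
      Z (𝒲.levelComplex (Rep.trivial k Γ k)) 2 := by
    rw [mem_Z_iff, levelComplex_d_apply]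
    exact hβ
  have hyZ : (show (𝒲.levelComplex Rb).X 1 from cmap 𝒲 red 1 x.1.1) ∈ Z (𝒲.levelComplex Rb) 1 := by
    rw [mem_Z_iff, levelComplex_d_apply]
    exact hyb
  have e1 : classOf (𝒲.levelComplex (Rep.trivial k Γ k)) 2 ⟨x.1.2, hβZ⟩ =
      (𝒲.δ (Bockstein.bockSeq_shortExact hred) hdR 1 (1 + 1) rfl).hom η := by
    rw [← hxδ, Bockstein.bockClass_apply, classOf_eq_cls, classMk_eq_cls]
    rfl
  have e2 : classOf (𝒲.levelComplex Rb) 1 ⟨cmap 𝒲 red 1 x.1.1, hyZ⟩ = η := by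
    rw [← hxη, Bockstein.redClass_apply, classOf_eq_cls, classMk_eq_cls]
    rfl
  rw [← e1, ← classOf_cupR 𝒲 (smulPairing L) (rfl : 0 + 2 = 0 + 1 + 1) c₀ ⟨x.1.2, hβZ⟩
    (cupR_beta_mem_Z 𝒲 (smulPairing L) x.1.2 hβ _ c₀)]
  rw [pow_zero, one_smul] at key1
  rw [← key1]
  rw [← e2, ← classOf_cupR 𝒲 ψp (rfl : 0 + 1 + 1 = 0 + 1 + 1) a₀ ⟨cmap 𝒲 red 1 x.1.1, hyZ⟩
    (cupR_red_mem_Z 𝒲 p x.1.1 ψp red hyb _ a₀)] at h0
  rw [h0, map_zero, map_zero]

end Rec

end Generic

/-! ### Coefficient modules and pairings over `ℤ` -/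

/-- An additive map, as a `ℤ`-linear map for arbitrary `ℤ`-module structures. -/
def addToLin {M M₂ : Type*} [AddCommGroup M] [AddCommGroup M₂] [Module ℤ M] [Module ℤ M₂]
    (f : M →+ M₂) : M →ₗ[ℤ] M₂ where
  toFun := f
  map_add' := f.map_add
  map_smul' c x := by
    have := map_intCast_smul f ℤ ℤ c x
    simpa using this

@[simp] theorem addToLin_apply {M M₂ : Type*} [AddCommGroup M] [AddCommGroup M₂] [Module ℤ M]
    [Module ℤ M₂] (f : M →+ M₂) (x : M) : addToLin f x = f x := rfl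

/-- A biadditive map, as a `ℤ`-bilinear map for arbitrary `ℤ`-module structures. -/
def addBilin {N B : Type*} [AddCommGroup N] [AddCommGroup B] [Module ℤ N] [Module ℤ B]
    (s : N → B →+ N) (h0 : ∀ r, s 0 r = 0) (hadd : ∀ a b r, s (a + b) r = s a r + s b r) :=
  LinearMap.mk₂ ℤ (fun a r => s a r) hadd
    (fun c a r => by
      have := map_intCast_smul
        ({ toFun := fun a => s a r, map_zero' := h0 r, map_add' := fun a b => hadd a b r } : N →+ N)
        ℤ ℤ c a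
      simpa using this)
    (fun a r r' => map_add (s a) r r')
    (fun c a r => by
      have := map_intCast_smul (s a) ℤ ℤ c r
      simpa using this)

@[simp] theorem addBilin_apply {N B : Type*} [AddCommGroup N] [AddCommGroup B] [Module ℤ N]
    [Module ℤ B] (s : N → B →+ N) (h0 : ∀ r, s 0 r = 0)
    (hadd : ∀ a b r, s (a + b) r = s a r + s b r) (a : N) (r : B) :
    addBilin s h0 hadd a r = s a r := rfl

/-- A morphism of representations over `ℤ` from an equivariant additive map, for arbitrary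
`ℤ`-module structures. -/
noncomputable def mkHomInt {Γ : Type} [Group Γ] {V W : Type} [AddCommGroup V] [AddCommGroup W]
    [Module ℤ V] [Module ℤ W] (ρ : Representation ℤ Γ V) (σ : Representation ℤ Γ W) (f : V →+ W)
    (hf : ∀ g v, f (ρ g v) = σ g (f v)) : Rep.of ρ ⟶ Rep.of σ :=
  Rep.ofHom ⟨addToLin f, fun g => LinearMap.ext fun v => hf g v⟩

section Coeff

variable (Γ : Type) [Group Γ] (p : ℕ)

/-- The trivial representation `𝔽_p`, as a representation over `ℤ`. -/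
noncomputable abbrev Fp : Rep.{0} ℤ Γ := intRep (Rep.trivial (ZMod p) Γ (ZMod p))

/-- Reduction modulo `p`, `ℤ ⟶ 𝔽_p`. -/
noncomputable def redZ : Rep.trivial ℤ Γ ℤ ⟶ Fp Γ p :=
  Rep.ofHom ⟨(Int.castAddHom (ZMod p)).toIntLinearMap, fun g => by
    ext
    rfl⟩

@[simp] theorem redZ_hom_apply (n : ℤ) : (redZ Γ p).hom n = (n : ZMod p) := rfl

theorem isReduction_redZ [NeZero p] : Bockstein.IsReduction ((p : ℕ) : ℤ) (redZ Γ p) where
  surjective := fun r => ⟨r.cast, by rw [redZ_hom_apply]; exact ZMod.intCast_zmod_cast r⟩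
  ker_eq := fun x => by
    rw [redZ_hom_apply, ZMod.intCast_zmod_eq_zero_iff_dvd]
    constructor
    · rintro ⟨y, rfl⟩
      exact ⟨y, by rw [smul_eq_mul]⟩
    · rintro ⟨y, rfl⟩
      exact ⟨y, by rw [smul_eq_mul]⟩
  torsionFree := fun x hx => by
    rw [smul_eq_mul] at hx
    rcases mul_eq_zero.1 hx with h | h
    · exact absurd (Int.natCast_eq_zero.1 h) (NeZero.ne p)
    · exact h

end Coeff

section Tors

variable {Γ : Type} [Group Γ] (p : ℕ) (L : Rep.{0} ℤ Γ)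

/-- Multiplication of a `p`-torsion element by an element of `𝔽_p`. -/
noncomputable def torsSmul (a : KCalc.torsionRep p L) : ZMod p →+ KCalc.torsionRep p L :=
  ZMod.lift p ⟨zmultiplesHom (KCalc.torsionRep p L) a, by
    show ((p : ℕ) : ℤ) • a = 0
    rw [natCast_zsmul]
    exact Subtype.ext a.2⟩

theorem torsSmul_intCast (a : KCalc.torsionRep p L) (n : ℤ) :
    torsSmul p L a (n : ZMod p) = n • a := by
  unfold torsSmul
  rw [ZMod.lift_coe]
  rfl

theorem torsSmul_add (a b : KCalc.torsionRep p L) (r : ZMod p) :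
    torsSmul p L (a + b) r = torsSmul p L a r + torsSmul p L b r := by
  obtain ⟨n, rfl⟩ := ZMod.intCast_surjective r
  rw [torsSmul_intCast, torsSmul_intCast, torsSmul_intCast, zsmul_add]

theorem torsSmul_zero (r : ZMod p) : torsSmul p L 0 r = 0 := by
  obtain ⟨n, rfl⟩ := ZMod.intCast_surjective r
  rw [torsSmul_intCast, zsmul_zero]

/-- The pairing `L[p] × 𝔽_p → L[p]`. -/
noncomputable def torsPairing : Pairing (KCalc.torsionRep p L) (Fp Γ p) (KCalc.torsionRep p L) where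
  toLin := @addBilin (KCalc.torsionRep p L) (ZMod p) _ _ (KCalc.torsionRep p L).hV2 (Fp Γ p).hV2
    (torsSmul p L) (torsSmul_zero p L) (torsSmul_add p L)
  equivariant g a r := by
    show torsSmul p L ((KCalc.torsionRep p L).ρ g a) r = (KCalc.torsionRep p L).ρ g (torsSmul p L a r)
    obtain ⟨n, rfl⟩ := ZMod.intCast_surjective r
    rw [torsSmul_intCast, torsSmul_intCast]
    exact (map_zsmul ((KCalc.torsionRep p L).ρ g).toAddMonoidHom n a).symm

@[simp] theorem torsPairing_toLin_apply (a : KCalc.torsionRep p L) (r : ZMod p) :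
    (torsPairing p L).toLin a r = torsSmul p L a r := rfl



/-- Compatibility of the two pairings with reduction modulo `p` and the inclusion of the
torsion. -/
theorem torsPairing_redZ (a : KCalc.torsionRep p L) (r : ℤ) :
    (KCalc.torsionι p L).hom ((torsPairing p L).toLin a ((redZ Γ p).hom r)) =
      (smulPairing L).toLin ((KCalc.torsionι p L).hom a) r := by
  rw [torsPairing_toLin_apply, redZ_hom_apply, torsSmul_intCast, smulPairing_toLin_apply,
    KCalc.torsionι_hom_apply, KCalc.torsionι_hom_apply]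
  have h1 : (r • a).1 = r • a.1 := map_zsmul (KCalc.torsionSub p L).subtype.toAddMonoidHom r a
  rw [h1]
  exact (int_smul_eq_zsmul L.hV2 r a.1).symm



/-- The multiplication pairing `𝔽_p × 𝔽_p → 𝔽_p` over `ℤ`. -/
noncomputable def mulPairingInt : Pairing (Fp Γ p) (Fp Γ p) (Fp Γ p) where
  toLin := @addBilin (ZMod p) (ZMod p) _ _ (Fp Γ p).hV2 (Fp Γ p).hV2
    (fun a => AddMonoidHom.mulLeft a) (fun r => zero_mul r) (fun a b r => add_mul a b r)
  equivariant _ _ _ := rfl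

@[simp] theorem mulPairingInt_toLin_apply (a b : ZMod p) :
    (mulPairingInt (Γ := Γ) p).toLin a b = a * b := rfl

section Zeta

variable [Fact p.Prime] (ζ : L) (hζp : p • ζ = 0) (hζinv : ∀ g, L.ρ g ζ = ζ) (hζ0 : ζ ≠ 0)
  (hζgen : ∀ a : L, p • a = 0 → ∃ n : ℕ, a = n • ζ)

include hζinv in
/-- The morphism `𝔽_p ⟶ L[p]`, `r ↦ r • ζ`, attached to an invariant element of order `p`. -/
noncomputable def zetaHom : Fp Γ p ⟶ KCalc.torsionRep p L :=
  @mkHomInt Γ _ (ZMod p) (KCalc.torsionRep p L) _ _ (Fp Γ p).hV2 (KCalc.torsionRep p L).hV2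
    (Fp Γ p).ρ (KCalc.torsionRep p L).ρ (torsSmul p L ⟨ζ, hζp⟩) (fun g r => by
      show torsSmul p L ⟨ζ, hζp⟩ r = (KCalc.torsionRep p L).ρ g (torsSmul p L ⟨ζ, hζp⟩ r)
      obtain ⟨n, rfl⟩ := ZMod.intCast_surjective r
      rw [torsSmul_intCast]
      have h1 : (KCalc.torsionRep p L).ρ g (n • (⟨ζ, hζp⟩ : KCalc.torsionRep p L)) =
          n • (KCalc.torsionRep p L).ρ g ⟨ζ, hζp⟩ :=
        map_zsmul ((KCalc.torsionRep p L).ρ g).toAddMonoidHom n _
      rw [h1]
      congr 1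
      exact Subtype.ext (hζinv g).symm)

@[simp] theorem zetaHom_hom_apply (r : ZMod p) :
    (zetaHom p L ζ hζp hζinv).hom r = torsSmul p L ⟨ζ, hζp⟩ r := rfl

include hζ0 in
theorem zetaHom_injective : Function.Injective (zetaHom p L ζ hζp hζinv).hom := by
  rw [injective_iff_map_eq_zero]
  intro r hr
  by_contra hr0
  rw [zetaHom_hom_apply] at hr
  obtain ⟨n, rfl⟩ := ZMod.intCast_surjective r
  obtain ⟨m, hm⟩ := ZMod.intCast_surjective ((n : ZMod p)⁻¹)
  have h1 : ((m * n : ℤ) : ZMod p) = ((1 : ℤ) : ZMod p) := by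
    push_cast
    rw [hm, inv_mul_cancel₀ hr0]
  have hn : n • (⟨ζ, hζp⟩ : KCalc.torsionRep p L) = 0 := by
    rw [← torsSmul_intCast]
    exact hr
  have h2 : torsSmul p L ⟨ζ, hζp⟩ ((m * n : ℤ) : ZMod p) = 0 := by
    rw [torsSmul_intCast, mul_smul, hn, smul_zero]
  rw [h1, torsSmul_intCast, one_smul] at h2
  exact hζ0 (congr_arg Subtype.val h2)

include hζgen in
theorem zetaHom_surjective : Function.Surjective (zetaHom p L ζ hζp hζinv).hom := by
  intro a
  obtain ⟨n, hn⟩ := hζgen a.1 a.2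
  refine ⟨((n : ℤ) : ZMod p), ?_⟩
  rw [zetaHom_hom_apply, torsSmul_intCast, natCast_zsmul]
  apply Subtype.ext
  rw [hn]
  exact map_nsmul (KCalc.torsionSub p L).subtype.toAddMonoidHom n _

include hζ0 hζgen in
theorem isIso_zetaHom : IsIso (zetaHom p L ζ hζp hζinv) := by
  have h1 : Mono (zetaHom p L ζ hζp hζinv) :=
    (Rep.mono_iff_injective _).2 (zetaHom_injective p L ζ hζp hζinv hζ0)
  have h2 : Epi (zetaHom p L ζ hζp hζinv) :=
    (Rep.epi_iff_surjective _).2 (zetaHom_surjective p L ζ hζp hζinv hζgen)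
  exact isIso_of_mono_of_epi _

/-- `τ (x * r) = ψp (τ x, r)`. -/
theorem zetaHom_mul (x r : ZMod p) :
    (zetaHom p L ζ hζp hζinv).hom ((mulPairingInt (Γ := Γ) p).toLin x r) =
      (torsPairing p L).toLin ((zetaHom p L ζ hζp hζinv).hom x) r := by
  rw [zetaHom_hom_apply, zetaHom_hom_apply, mulPairingInt_toLin_apply, torsPairing_toLin_apply]
  obtain ⟨n, rfl⟩ := ZMod.intCast_surjective x
  obtain ⟨m, rfl⟩ := ZMod.intCast_surjective r
  rw [← Int.cast_mul, torsSmul_intCast, torsSmul_intCast, torsSmul_intCast, mul_comm, mul_smul]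

end Zeta

end Tors

/-! ### The main theorem -/

section Final

variable {Γ : Type} [Group Γ] (𝒲 : LevelFamily Γ) (p : ℕ) [Fact p.Prime] (L : Rep.{0} ℤ Γ)

theorem isDiscrete_trivialInt : 𝒲.IsDiscrete (Rep.trivial ℤ Γ ℤ) := by
  obtain ⟨U, hU⟩ := 𝒲.nonempty
  exact fun m => ⟨U, hU, fun s _ => rfl⟩

/-- The Bockstein homomorphism `H¹(Γ, 𝔽_p) → H²(Γ, ℤ)`. -/
noncomputable def bock : 𝒲.levelCohomology (Fp Γ p) 1 →ₗ[ℤ] 𝒲.levelCohomology (Rep.trivial ℤ Γ ℤ) (1 + 1) :=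
  (𝒲.δ (Bockstein.bockSeq_shortExact (isReduction_redZ Γ p)) (isDiscrete_trivialInt 𝒲) 1 (1 + 1)
    rfl).hom

/-- "Kummer theory and class formation" inputs for the group `Γ` and the module `L`. -/
structure KummerLocal : Prop where
  /-- `L` is a discrete module -/
  disc : 𝒲.IsDiscrete L
  /-- `L` is `p`-divisible -/
  div : ∀ l : L, ∃ l' : L, p • l' = l
  /-- the `p`-torsion of `L` is generated by a nonzero invariant element -/
  tors : ∃ ζ : L, p • ζ = 0 ∧ (∀ g, L.ρ g ζ = ζ) ∧ ζ ≠ 0 ∧ ∀ a : L, p • a = 0 → ∃ n : ℕ, a = n • ζ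
  /-- Hilbert 90 -/
  h1 : Subsingleton (𝒲.levelCohomology L 1)
  /-- `H⁰(L)/p` is finite -/
  fin0 : ∃ S : Set (𝒲.levelCohomology L 0), S.Finite ∧
    ∀ c, ∃ s ∈ S, ∃ c' : 𝒲.levelCohomology L 0, c = s + p • c'
  /-- the `p`-torsion of `H²(L)` is cyclic -/
  cyc2 : ∀ x y : 𝒲.levelCohomology L 2, p • x = 0 → p • y = 0 → x ≠ 0 → ∃ n : ℕ, y = n • x
  /-- `H²(L)` is `p`-divisible -/
  div2 : ∀ x : 𝒲.levelCohomology L 2, ∃ x' : 𝒲.levelCohomology L 2, p • x' = x
  /-- `H³(L)` has no `p`-torsion -/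
  tors3 : ∀ x : 𝒲.levelCohomology L 3, p • x = 0 → x = 0
  /-- reciprocity: the cup product with the Bockstein class of a nonzero character is nonzero on
  `H⁰(L)` -/
  recip : ∀ η : 𝒲.levelCohomology (Fp Γ p) 1, η ≠ 0 → ∃ c : 𝒲.levelCohomology L 0,
    𝒲.cupH (smulPairing L) (rfl : 0 + 2 = 0 + 1 + 1) c (bock 𝒲 p η) ≠ 0

theorem levelCohomologyMap_id_apply_int {M : Rep.{0} ℤ Γ} (n : ℕ) (x : 𝒲.levelCohomology M n) :
    (𝒲.levelCohomologyMap (𝟙 M) n).hom x = x := by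
  rw [LES.levelCohomologyMap_id]
  rfl

/-- A morphism of representations which is an isomorphism induces bijections on level
cohomology. -/
theorem bijective_levelCohomologyMap_of_isIso {M N : Rep.{0} ℤ Γ} (f : M ⟶ N) [IsIso f] (n : ℕ) :
    Function.Bijective (𝒲.levelCohomologyMap f n).hom := by
  refine Function.bijective_iff_has_inverse.2 ⟨(𝒲.levelCohomologyMap (inv f) n).hom, ?_, ?_⟩
  · intro x
    have h1 := LES.levelCohomologyMap_comp 𝒲 f (inv f) n
    rw [IsIso.hom_inv_id] at h1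
    have h2 := congr_arg (fun φ => φ.hom x) h1
    rw [levelCohomologyMap_id_apply_int] at h2
    exact h2.symm
  · intro x
    have h1 := LES.levelCohomologyMap_comp 𝒲 (inv f) f n
    rw [IsIso.inv_hom_id] at h1
    have h2 := congr_arg (fun φ => φ.hom x) h1
    rw [levelCohomologyMap_id_apply_int] at h2
    exact h2.symm

variable {𝒲 p L}

/-- **The mod `p` inputs of local duality from Kummer theory and class formation inputs.** -/
theorem modPLocal_of_kummerLocal (h : KummerLocal 𝒲 p L) : LocalBase.ModPLocal 𝒲 p := by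
  obtain ⟨ζ, hζp, hζinv, hζ0, hζgen⟩ := h.tors
  have hp : p.Prime := Fact.out
  have : NeZero p := ⟨hp.ne_zero⟩
  have hiso := isIso_zetaHom p L ζ hζp hζinv hζ0 hζgen
  have hτ := fun n => bijective_levelCohomologyMap_of_isIso 𝒲 (zetaHom p L ζ hζp hζinv) n
  -- the comparison `Hⁿ(Γ, 𝔽_p) ≃ Hⁿ(L[p])`
  let e : ∀ n, 𝒲.levelCohomology (Rep.trivial (ZMod p) Γ (ZMod p)) n →+
      𝒲.levelCohomology (KCalc.torsionRep p L) n := fun n =>
    ((𝒲.levelCohomologyMap (zetaHom p L ζ hζp hζinv) n).hom : _ →+ _).comp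
      (levelCohomologyInt 𝒲 (Rep.trivial (ZMod p) Γ (ZMod p)) n).toAddMonoidHom
  have he : ∀ n, Function.Bijective (e n) := fun n =>
    (hτ n).comp (levelCohomologyInt 𝒲 (Rep.trivial (ZMod p) Γ (ZMod p)) n).bijective
  refine ⟨?_, ?_, ?_, ?_⟩
  · -- finiteness of `H¹`
    have hfin := finite_one 𝒲 p L h.disc h.div h.h1 h.fin0
    have : Finite (𝒲.levelCohomology (Rep.trivial (ZMod p) Γ (ZMod p)) 1) :=
      Finite.of_injective _ (he 1).1
    exact Module.Finite.of_finite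
  · -- `H²` is at most a line
    intro x y hx
    let J : 𝒲.levelCohomology (Rep.trivial (ZMod p) Γ (ZMod p)) 2 →+ 𝒲.levelCohomology L 2 :=
      ((𝒲.levelCohomologyMap (KCalc.torsionι p L) 2).hom : _ →+ _).comp (e 2)
    have hJ : Function.Injective J :=
      (levelCohomologyMap_torsionι_two_injective 𝒲 p L h.disc h.div h.h1).comp (he 2).1
    have hpz : ∀ z : 𝒲.levelCohomology (Rep.trivial (ZMod p) Γ (ZMod p)) 2, p • z = 0 := by
      intro z
      rw [← Nat.cast_smul_eq_nsmul (ZMod p) p z, ZMod.natCast_self, zero_smul]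
    have hJp : ∀ z, p • J z = 0 := fun z => by rw [← map_nsmul, hpz, map_zero]
    have hJx : J x ≠ 0 := fun h0 => hx (hJ (h0.trans (map_zero J).symm))
    obtain ⟨n, hn⟩ := h.cyc2 (J x) (J y) (hJp x) (hJp y) hJx
    refine ⟨(n : ZMod p), hJ ?_⟩
    rw [hn, Nat.cast_smul_eq_nsmul (ZMod p) n x, map_nsmul]
  · -- nondegeneracy of the cup product
    intro y hy
    have hη : levelCohomologyInt 𝒲 (Rep.trivial (ZMod p) Γ (ZMod p)) 1 y ≠ 0 := by
      intro h0
      exact hy ((levelCohomologyInt 𝒲 _ 1).injective (h0.trans (map_zero _).symm))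
    obtain ⟨a, ha⟩ := exists_cupH_ne_zero 𝒲 p L h.disc h.div (redZ Γ p) (isReduction_redZ Γ p)
      (torsPairing p L) (torsPairing_redZ p L) (isDiscrete_trivialInt 𝒲) h.recip _ hη
    obtain ⟨x, rfl⟩ := (he (0 + 1)).2 a
    refine ⟨x, fun h0 => ha ?_⟩
    have key := LocalBase.levelCohomologyMap_cupH 𝒲 (mulPairingInt (Γ := Γ) p) (torsPairing p L)
      (zetaHom p L ζ hζp hζinv) (𝟙 _) (zetaHom p L ζ hζp hζinv)
      (fun a b => zetaHom_mul p L ζ hζp hζinv a b) (rfl : 0 + 1 + 1 = 0 + 1 + 1)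
      (levelCohomologyInt 𝒲 (Rep.trivial (ZMod p) Γ (ZMod p)) (0 + 1) x)
      (levelCohomologyInt 𝒲 (Rep.trivial (ZMod p) Γ (ZMod p)) 1 y)
    rw [levelCohomologyMap_id_apply_int] at key
    have key2 := levelCohomologyInt_cupH 𝒲 (LocalBase.mulPairing (ZMod p) Γ)
      (mulPairingInt (Γ := Γ) p) (fun _ _ => rfl) (rfl : 0 + 1 + 1 = 0 + 1 + 1) x y
    show 𝒲.cupH (torsPairing p L) _
      ((𝒲.levelCohomologyMap (zetaHom p L ζ hζp hζinv) (0 + 1)).hom
        (levelCohomologyInt 𝒲 (Rep.trivial (ZMod p) Γ (ZMod p)) (0 + 1) x)) _ = 0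
    rw [← key, ← key2, h0, map_zero, map_zero]
  · -- vanishing of `H³`
    have h3 := subsingleton_three 𝒲 p L h.disc h.div h.div2 h.tors3
    exact ⟨fun a b => (he 3).1 (Subsingleton.elim _ _)⟩

end Final

end Fermat.Agent.Lib.CFT.Duality.LocalModP
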