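/-
helper53 (P-CFT, L4 base cases, local side).  `LocalModP.KummerLocal` from a class formation
(helper7 `Formation`, helper34 `FormationT`, `FormationTRec`) resp. from a compatible system of
invariant maps (helper66 `InvData`):

* `subsingleton_levelCohomology` : level cohomology vanishes if it does at all finite layers;
* `fin0_of_invariants` : finiteness of `H⁰(M)/p` from finiteness of `M^Γ/p`;
* `cyc2_of_formation` : the `p`-torsion of `H²(F.C)` is cyclic (the invariant map is injective);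
* `recip_of_formation` : reciprocity in cup product form (generic coefficient ring);
* `kummerLocal_of_formation`, `kummerLocal_of_invData`.
-/
import Fermat.Agent.Lib.CFT.Duality.BaseCase.LocalModP
import Fermat.Agent.Lib.CFT.Duality.BaseCase.FormationTRec
import Fermat.Agent.Lib.CFT.Global.SVersion.FormationOfInv
import Fermat.Agent.Lib.CFT.Global.SVersion.FormationSub

set_option autoImplicit false
set_option linter.unusedSectionVars false

universe u

open CategoryTheory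

namespace Fermat.Agent.Lib.CFT.Duality.KummerLocalOfFormation

open Fermat.Agent.Lib.CFT.Profinite Fermat.Agent.Lib.CFT.Profinite.LevelFamily
open Fermat.Agent.Lib.CFT.Coh.ClassFormation Fermat.Agent.Lib.CFT.Coh.Cup ConcreteHomology
open Fermat.Agent.Lib.CFT.Duality Fermat.Agent.Lib.CFT.Duality.KCalcCup
open Fermat.Agent.Lib.CFT.Duality.FormationT Fermat.Agent.Lib.CFT.Duality.LocalModP

section Generic

variable {k Γ : Type u} [CommRing k] [Group Γ]

/-- Level cohomology vanishes in degree `n` as soon as it does at all finite layers. -/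
theorem subsingleton_levelCohomology (𝒰 : LevelFamily Γ) (M : Rep.{u} k Γ) (n : ℕ)
    (h : ∀ (U : Subgroup Γ) [U.Normal], U ∈ 𝒰.levels →
      Subsingleton (groupCohomology (M.quotientToInvariants U) n)) :
    Subsingleton (𝒰.levelCohomology M n) := by
  obtain ⟨U₀, hU₀⟩ := 𝒰.nonempty
  have key : ∀ z : 𝒰.levelCohomology M n, z = 0 := by
    intro z
    obtain ⟨V, hV, hn, -, y, rfl⟩ := exists_inflH_eq n z hU₀
    have := hn
    have := h V hV
    rw [Subsingleton.elim y 0, map_zero]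
  exact ⟨fun x y => by rw [key x, key y]⟩

/-- Finiteness of `H⁰(M)/p` from finiteness of `M^Γ/p`. -/
theorem fin0_of_invariants (𝒰 : LevelFamily Γ) (M : Rep.{u} k Γ) (p : ℕ)
    (h : ∃ S : Set M, S.Finite ∧ ∀ c : M, (∀ g, M.ρ g c = c) →
      ∃ s ∈ S, ∃ c' : M, (∀ g, M.ρ g c' = c') ∧ c = s + p • c') :
    ∃ S : Set (𝒰.levelCohomology M 0), S.Finite ∧
      ∀ c, ∃ s ∈ S, ∃ c' : 𝒰.levelCohomology M 0, c = s + p • c' := by
  obtain ⟨S, hS, hS'⟩ := h
  refine ⟨(fun x : 𝒰.levelCohomology M 0 => (𝒰.H0Equiv M x).1) ⁻¹' S, ?_, ?_⟩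
  · refine hS.preimage (Function.Injective.injOn ?_)
    exact Subtype.val_injective.comp (𝒰.H0Equiv M).injective
  · intro c
    obtain ⟨s, hs, c', hc', hcs⟩ := hS' (𝒰.H0Equiv M c).1 (𝒰.H0Equiv M c).2
    have hsinv : s ∈ M.ρ.invariants := by
      have h1 : s = (𝒰.H0Equiv M c).1 - p • c' := by rw [hcs]; abel
      rw [h1]
      exact M.ρ.invariants.sub_mem (𝒰.H0Equiv M c).2 (M.ρ.invariants.nsmul_mem hc' p)
    refine ⟨(𝒰.H0Equiv M).symm ⟨s, hsinv⟩, ?_, (𝒰.H0Equiv M).symm ⟨c', hc'⟩, ?_⟩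
    · show ((𝒰.H0Equiv M) ((𝒰.H0Equiv M).symm ⟨s, hsinv⟩)).1 ∈ S
      rw [LinearEquiv.apply_symm_apply]
      exact hs
    · apply (𝒰.H0Equiv M).injective
      rw [map_add, map_nsmul, LinearEquiv.apply_symm_apply, LinearEquiv.apply_symm_apply]
      exact Subtype.ext hcs

variable (F : Formation k Γ) (p : ℕ) [Fact p.Prime]

/-- The `p`-torsion of `H²(F.C)` is cyclic. -/
theorem cyc2_of_formation (x y : F.𝒰.levelCohomology F.C 2) (hx : p • x = 0) (hy : p • y = 0)
    (hx0 : x ≠ 0) : ∃ n : ℕ, y = n • x := by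
  obtain ⟨a, ha⟩ := exists_divP_eq p (F.inv x) (by rw [← map_nsmul, hx, map_zero])
  obtain ⟨b, hb⟩ := exists_divP_eq p (F.inv y) (by rw [← map_nsmul, hy, map_zero])
  have ha0 : a ≠ 0 := by
    rintro rfl
    rw [map_zero] at ha
    exact hx0 (F.inv_injective (ha.symm.trans (map_zero _).symm))
  refine ⟨(b * a⁻¹).val, F.inv_injective ?_⟩
  rw [map_nsmul, ← ha, ← hb, ← map_nsmul]
  congr 1
  rw [nsmul_eq_mul, ZMod.natCast_zmod_val, inv_mul_cancel_right₀ ha0]

/-- **Reciprocity in cup product form**: for a nonzero class `η ∈ H¹(R)`, `R` a reduction of the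
trivial representation `k` modulo `p`, the cup product with the Bockstein class `δ η` is nonzero
on `H⁰(F.C)`. -/
theorem recip_of_formation (π : k →+* ZMod p)
    (hπ : ∀ a : k, π a = 0 → ∃ b : k, a = (p : k) * b)
    (htf : ∀ a : k, (p : k) * a = 0 → a = 0)
    {R : Rep.{u} k Γ} {red : Rep.trivial k Γ k ⟶ R} (hred : Bockstein.IsReduction (p : k) red)
    (hdR : F.𝒰.IsDiscrete (Rep.trivial k Γ k))
    (hH1 : Subsingleton (F.𝒰.levelCohomology F.C 1))
    (η : F.𝒰.levelCohomology R 1) (hη : η ≠ 0) :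
    ∃ c : F.𝒰.levelCohomology F.C 0,
      F.𝒰.cupH (smulPairing F.C) (rfl : 0 + 2 = 0 + 1 + 1) c
        ((F.𝒰.δ (Bockstein.bockSeq_shortExact hred) hdR 1 (1 + 1) rfl).hom η) ≠ 0 := by
  obtain ⟨x, hxη, hxδ⟩ := Bockstein.exists_bockPair_of_class F.𝒰 hred hdR 1 η
  by_contra hcon0
  have hcon : ∀ c : F.𝒰.levelCohomology F.C 0,
      F.𝒰.cupH (smulPairing F.C) (rfl : 0 + 2 = 0 + 1 + 1) c
        ((F.𝒰.δ (Bockstein.bockSeq_shortExact hred) hdR 1 (1 + 1) rfl).hom η) = 0 :=
    fun c => by_contra fun hc => hcon0 ⟨c, hc⟩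
  apply hη
  rw [← hxη]
  refine recPair_right F p (smulPairing F.C) (fun _ _ => rfl) π hπ htf hred x fun t => ?_
  have h0 : KCalc.toH F.𝒰 p F.C (0 + 1) t = 0 := Subsingleton.elim _ _
  obtain ⟨c, rfl⟩ := (KCalc.toH_eq_zero_iff F.𝒰 p F.C 0 t).1 h0
  obtain ⟨c₀, rfl⟩ := classOf_surjective (F.𝒰.levelComplex F.C) 0 c
  apply divP_injective p
  rw [divP_invT, map_zero, PhiB_eq]
  have hβ : dL F.𝒰 (Rep.trivial k Γ k) 2 x.1.2 = 0 := Bockstein.BockPair.d_snd htf x
  have key := toH_PhiT_ofH F.𝒰 p (smulPairing F.C) x.1.1 x.1.2 (Bockstein.BockPair.d_fst x) hβ 0 c₀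
  rw [pow_zero, one_smul] at key
  have hβZ : (show (F.𝒰.levelComplex (Rep.trivial k Γ k)).X 2 from x.1.2) ∈
      Z (F.𝒰.levelComplex (Rep.trivial k Γ k)) 2 := by
    rw [mem_Z_iff, levelComplex_d_apply]
    exact hβ
  have e1 : classOf (F.𝒰.levelComplex (Rep.trivial k Γ k)) 2 ⟨x.1.2, hβZ⟩ =
      (F.𝒰.δ (Bockstein.bockSeq_shortExact hred) hdR 1 (1 + 1) rfl).hom η := by
    rw [← hxδ, Bockstein.bockClass_apply, classOf_eq_cls, classMk_eq_cls]
    rfl
  have h2 := hcon (classOf (F.𝒰.levelComplex F.C) 0 c₀)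
  rw [← e1, ← classOf_cupR F.𝒰 (smulPairing F.C) (rfl : 0 + 2 = 0 + 1 + 1) c₀ ⟨x.1.2, hβZ⟩
    (cupR_beta_mem_Z F.𝒰 (smulPairing F.C) x.1.2 hβ _ c₀)] at h2
  rw [key, h2, map_zero]

end Generic

/-! ### The case `k = ℤ` -/

section Int

variable {Γ : Type} [Group Γ] (F : Formation ℤ Γ) (p : ℕ) [Fact p.Prime]

/-- **`KummerLocal` from a class formation** over `ℤ` whose module is `p`-divisible with
`p`-torsion generated by an invariant element, with Hilbert 90 and vanishing `H³` at the finite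
layers, `C^Γ/p` finite and levels of index divisible by arbitrary powers of `p`. -/
theorem kummerLocal_of_formation
    (hdiv : ∀ l : F.C, ∃ l' : F.C, p • l' = l)
    (htors : ∃ ζ : F.C, p • ζ = 0 ∧ (∀ g, F.C.ρ g ζ = ζ) ∧ ζ ≠ 0 ∧
      ∀ a : F.C, p • a = 0 → ∃ n : ℕ, a = n • ζ)
    (hH1 : ∀ (U : Subgroup Γ) [U.Normal], U ∈ F.𝒰.levels →
      Subsingleton (groupCohomology (F.C.quotientToInvariants U) 1))
    (hH3 : ∀ (U : Subgroup Γ) [U.Normal], U ∈ F.𝒰.levels →
      Subsingleton (groupCohomology (F.C.quotientToInvariants U) 3))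
    (hfin : ∃ S : Set (F.𝒰.levelCohomology F.C 0), S.Finite ∧
      ∀ c, ∃ s ∈ S, ∃ c' : F.𝒰.levelCohomology F.C 0, c = s + p • c')
    (hDIV : HasDiv F p) : KummerLocal F.𝒰 p F.C := by
  have hp : p.Prime := Fact.out
  have : NeZero p := ⟨hp.ne_zero⟩
  have h1 : Subsingleton (F.𝒰.levelCohomology F.C 1) := subsingleton_levelCohomology F.𝒰 F.C 1 hH1
  have h3 : Subsingleton (F.𝒰.levelCohomology F.C 3) := subsingleton_levelCohomology F.𝒰 F.C 3 hH3
  exact
    { disc := F.discrete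
      div := hdiv
      tors := htors
      h1 := h1
      fin0 := hfin
      cyc2 := cyc2_of_formation F p
      div2 := fun x => exists_nsmul_eq F p hDIV x
      tors3 := fun x _ => Subsingleton.elim _ _
      recip := fun η hη => recip_of_formation F p (Int.castRingHom (ZMod p)) (intKer p) (intTf p)
        (isReduction_redZ Γ p) (isDiscrete_trivialInt F.𝒰) h1 η hη }

/-- The finite layers of the formation attached to a system of invariant maps are class
layers. -/
theorem isClassLayer_of_invData {𝒰 : LevelFamily Γ} {C : Rep.{0} ℤ Γ}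
    (D : Global.SVersion.FormationOfInv.InvData 𝒰 C) (U : Subgroup Γ) [U.Normal]
    (hU : U ∈ 𝒰.levels) :
    Coh.TateThm.IsClassLayer (C.quotientToInvariants U) (D.fundCocycle U hU).1 := by
  have := levelFintype 𝒰 U hU
  refine Coh.TateThm.isClassLayer_of_inv (C.quotientToInvariants U) (D.fundCocycle U hU).1
    (D.fundCocycle U hU).2 (D.isZero_H1 U hU) (D.card_H2_dvd U hU) (D.inv U hU) ?_
  rw [← Subgroup.index_eq_card]
  exact D.inv_fundCocycle U hU

/-- **`KummerLocal` from a compatible system of invariant maps** (helper66's `InvData`). -/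
theorem kummerLocal_of_invData {𝒰 : LevelFamily Γ} {C : Rep.{0} ℤ Γ}
    (D : Global.SVersion.FormationOfInv.InvData 𝒰 C) (hdisc : 𝒰.IsDiscrete C)
    (hdiv : ∀ l : C, ∃ l' : C, p • l' = l)
    (htors : ∃ ζ : C, p • ζ = 0 ∧ (∀ g, C.ρ g ζ = ζ) ∧ ζ ≠ 0 ∧
      ∀ a : C, p • a = 0 → ∃ n : ℕ, a = n • ζ)
    (hfin : ∃ S : Set (𝒰.levelCohomology C 0), S.Finite ∧
      ∀ c, ∃ s ∈ S, ∃ c' : 𝒰.levelCohomology C 0, c = s + p • c')
    (hDIV : ∀ U ∈ 𝒰.levels, U.Normal →
      ∃ U' ∈ 𝒰.levels, U'.Normal ∧ U' ≤ U ∧ p * U.index ∣ U'.index) :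
    KummerLocal 𝒰 p C := by
  refine kummerLocal_of_formation (D.toFormation hdisc) p hdiv htors ?_ ?_ hfin hDIV
  · intro U _ hU
    have := levelFintype 𝒰 U hU
    exact ModuleCat.subsingleton_of_isZero
      (Global.SVersion.FormationSub.isZero_H1_of_isClassLayer (isClassLayer_of_invData D U hU))
  · intro U _ hU
    have := levelFintype 𝒰 U hU
    exact ModuleCat.subsingleton_of_isZero
      (Global.SVersion.FormationSub.isZero_H3_of_isClassLayer (isClassLayer_of_invData D U hU))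

end Int

end Fermat.Agent.Lib.CFT.Duality.KummerLocalOfFormation
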