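/-
helper53 (P-CFT, L4 base cases, local side): FINAL ASSEMBLY of the local mod `p` inputs.

`modPLocal_primeLocal q p W hχ hW : LocalBase.ModPLocal (LES.restrict (primeLocalLevels q) W) p`
for every open subgroup `W` of the local Galois group at `q` on which the mod `p` cyclotomic
character is trivial; unconditional.  This is the field `BaseInput.modP` of the base-case input of
S55 (`Duality/BaseCase/GlobalInputOfBase.lean`).

Ingredients: the local class formation on `W` (helper66 `SVersion/LocalFormation`, helper17
`Local/LocalLayer`, the local invariants `Local.localInvTheory` of helper59/43/41/42), the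
Kummer-theoretic facts on `ℚ̄_qˣ` (helper18 `Local/LqKummerFields`, helper89 `Local/LqModule`),
`KummerLocalOfFormation`, `LocalModP`, `Local/LocalHasDiv`.
-/
import Fermat.Agent.Lib.CFT.Duality.BaseCase.KummerLocalOfFormation
import Fermat.Agent.Lib.CFT.Local.LocalHasDiv
import Fermat.Agent.Lib.CFT.Global.SVersion.LocalFormation
import Fermat.Agent.Lib.CFT.Local.LocalInvInstance
import Fermat.Agent.Lib.CFT.Local.LqKummerFields

set_option autoImplicit false
set_option linter.unusedSectionVars false

open CategoryTheory

namespace Fermat.Agent.Lib.CFT.Duality.LocalModPArith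

open Fermat.Agent.Lib.CFT.Profinite Fermat.Agent.Lib.CFT.Profinite.LevelFamily
open Fermat.Agent.Lib.CFT.Profinite.LES
open Fermat.Agent.Lib.CFT.Duality Fermat.Agent.Lib.CFT.Duality.LocalModP
open Fermat.Agent.Lib.CFT.Duality.KummerLocalOfFormation
open Fermat.Agent.Lib.CFT.Local Fermat.Agent.Lib.CFT.Local.LqModule
open Fermat.Agent.Lib.CFT.Global.SVersion.LocalFormation
open Fermat.Agent.Lib.CFT.Coh.ClassFormation ExtCitation

section Generic

variable (K L : Type) [Field K] [Field L] [Algebra K L] [IsGalois K L]

/-- An open subgroup of a Galois group is the fixing subgroup of a finite subextension. -/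
theorem mem_fixingLevels_of_isOpenSubgroup (W : Subgroup (L ≃ₐ[K] L))
    (hW : IsOpenSubgroup (Bridge.fixingLevels K L) W) : W ∈ (Bridge.fixingLevels K L).levels := by
  obtain ⟨U, ⟨F₀, hF₀, rfl⟩, hle⟩ := hW
  have := hF₀
  have hopen : IsOpen (W : Set (L ≃ₐ[K] L)) :=
    Subgroup.isOpen_mono hle (IntermediateField.fixingSubgroup_isOpen F₀)
  have hclosed : IsClosed (W : Set (L ≃ₐ[K] L)) := Subgroup.isClosed_of_isOpen W hopen
  let E : IntermediateField K L := IntermediateField.fixedField W
  have hEF₀ : E ≤ F₀ := by
    intro x hx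
    rw [← InfiniteGalois.fixedField_fixingSubgroup F₀]
    rw [IntermediateField.mem_fixedField_iff] at hx ⊢
    exact fun g hg => hx g (hle hg)
  have hEfin : FiniteDimensional K E :=
    FiniteDimensional.of_injective (IntermediateField.inclusion hEF₀).toLinearMap
      (IntermediateField.inclusion_injective hEF₀)
  exact ⟨E, hEfin, (InfiniteGalois.fixingSubgroup_fixedField ⟨W, hclosed⟩).symm⟩

end Generic

section Arith

variable (q : Nat.Primes) (p : ℕ) [Fact p.Prime] (W : Subgroup (primeLocalGaloisGroup q))

theorem mem_primeLocalLevels_of_isOpenSubgroup (hW : IsOpenSubgroup (primeLocalLevels q) W) :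
    W ∈ (primeLocalLevels q).levels := by
  have : Fact (q : ℕ).Prime := ⟨q.2⟩
  exact mem_fixingLevels_of_isOpenSubgroup ℚ_[(q : ℕ)] (PadicAlgCl (q : ℕ)) W hW

/-- **The mod `p` inputs of local duality for an open subgroup `W` of the local Galois group at
`q`**, from a theory of local invariants and the Kummer-theoretic facts on `ℚ̄_qˣ`. -/
theorem modPLocal_of_localInvTheory (T : @Local.LocalInvTheory (q : ℕ) ⟨q.2⟩)
    (hW : IsOpenSubgroup (primeLocalLevels q) W)
    (hdiv : ∀ l : Rep.res W.subtype (Lq q), ∃ l' : Rep.res W.subtype (Lq q), p • l' = l)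
    (htors : ∃ ζ : Rep.res W.subtype (Lq q), p • ζ = 0 ∧
      (∀ g, (Rep.res W.subtype (Lq q)).ρ g ζ = ζ) ∧ ζ ≠ 0 ∧
      ∀ a : Rep.res W.subtype (Lq q), p • a = 0 → ∃ n : ℕ, a = n • ζ)
    (hfin : ∃ S : Set ((LES.restrict (primeLocalLevels q) W).levelCohomology
        (Rep.res W.subtype (Lq q)) 0), S.Finite ∧
      ∀ c, ∃ s ∈ S, ∃ c' : (LES.restrict (primeLocalLevels q) W).levelCohomology
        (Rep.res W.subtype (Lq q)) 0, c = s + p • c') :
    LocalBase.ModPLocal (LES.restrict (primeLocalLevels q) W) p := by
  have hp : p.Prime := Fact.out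
  have hWl := mem_primeLocalLevels_of_isOpenSubgroup q W hW
  refine modPLocal_of_kummerLocal (L := Rep.res W.subtype (Lq q)) ?_
  refine kummerLocal_of_formation (localFormation q T W hWl) p hdiv htors ?_ ?_ hfin ?_
  · intro U _ hU
    have := levelFintype (LES.restrict (primeLocalLevels q) W) U hU
    exact ModuleCat.subsingleton_of_isZero
      (Global.SVersion.FormationSub.isZero_H1_of_isClassLayer
        (isClassLayer_localFormation q T W hWl U hU))
  · intro U _ hU
    have := levelFintype (LES.restrict (primeLocalLevels q) W) U hU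
    exact ModuleCat.subsingleton_of_isZero
      (Global.SVersion.FormationSub.isZero_H3_of_isClassLayer
        (isClassLayer_localFormation q T W hWl U hU))
  · intro U hU _
    exact Local.LocalHasDiv.hasDiv_primeLocal q W hW p hp.pos U hU

/-- **The mod `p` inputs of local duality for the open subgroups `W` of the local Galois group at
`q` on which the mod `p` cyclotomic character is trivial** (unconditional): the field
`BaseInput.modP` of the base-case input of S55. -/
theorem modPLocal_primeLocal (hχ : W ≤ (LocalTate.localCycloChar p q).ker)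
    (hW : IsOpenSubgroup (primeLocalLevels q) W) :
    LocalBase.ModPLocal (LES.restrict (primeLocalLevels q) W) p :=
  modPLocal_of_localInvTheory q p W (@Local.localInvTheory (q : ℕ) ⟨q.2⟩) hW
    (LqKummerFields.exists_nsmul_eq_LW q p W)
    (LqKummerFields.tors_LW q p W (LqKummerFields.chiLoc_eq_one_of_le_ker q p W hχ))
    (LqKummerFields.fin0_LW q p W hW)

end Arith

end Fermat.Agent.Lib.CFT.Duality.LocalModPArith
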