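import Fermat.Agent.Lib.CFT.Duality.LocalTateArith
import Fermat.Agent.Lib.CFT.Duality.BaseCase.ChangeRing
import Fermat.Agent.Lib.CFT.Duality.BaseCase.PVIso

/-!
# Right exactness of `H²` of the local Galois groups (P-CFT, L4)

* generic: for a short exact sequence `X` of representations with discrete middle term and
  `Hⁿ⁺¹(X₁) = 0`, the map `Hⁿ(X₂) → Hⁿ(X₃)` is surjective (`surjective_map_g_of_subsingleton`);
  variant for a surjective morphism `f : M ⟶ N` in terms of the kernel of `f`
  (`surjective_map_of_subsingleton_kernel`);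
* arithmetic: for `B : LocalBase p q` and `f : M ⟶ N` a surjective morphism of finite discrete
  `𝔽_p[G_q]`-modules, `H²(f)` is surjective (`LocalBase.surjective_H2`), also with `ℤ`-coefficients
  (`LocalBase.surjective_H2_int`);
* the trace map `sumMap W μ : P W μ ⟶ μ` is surjective, and the induced map on `H²(G_q, ·)` is
  surjective (`LocalBase.surjective_H2_res_sumMap`, `LocalBase.surjective_H2_res_sumMap_int`).
-/

set_option autoImplicit false

open CategoryTheory CategoryTheory.Limits

namespace Fermat.Agent.Lib.CFT.Duality.LocalRightExact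

open Fermat.Agent.Lib.CFT.Profinite Fermat.Agent.Lib.CFT.Profinite.LevelFamily
open Fermat.Agent.Lib.CFT.Profinite.LES ExtCitation
open Fermat.Agent.Lib.CFT.Duality.ChangeRing Fermat.Agent.Lib.CFT.Duality.LocalTate
open Fermat.Agent.Lib.CFT.Duality.DevissageRep Fermat.Agent.Lib.CFT.Duality.CoindDual
open Fermat.Agent.Lib.CFT.Duality.PVCalc

/-! ### Generic right exactness -/

section Generic

universe u

variable {k H : Type u} [CommRing k] [Group H] (𝒱 : LevelFamily H)

/-- If `Hⁿ⁺¹(X₁) = 0` then `Hⁿ(X₂) → Hⁿ(X₃)` is surjective. -/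
theorem surjective_map_g_of_subsingleton {X : ShortComplex (Rep.{u} k H)} (hX : X.ShortExact)
    (hd : 𝒱.IsDiscrete X.X₂) (n : ℕ) [Subsingleton (𝒱.levelCohomology X.X₁ (n + 1))] :
    Function.Surjective (𝒱.levelCohomologyMap X.g n).hom := by
  intro z
  exact 𝒱.exists_of_δ_eq_zero hX hd (rfl : n + 1 = n + 1) z (Subsingleton.elim _ _)

/-- The kernel sequence `0 → ker f → M → N → 0` of an epimorphism. -/
noncomputable def kernelSeq {M N : Rep.{u} k H} (f : M ⟶ N) : ShortComplex (Rep.{u} k H) :=
  ShortComplex.mk (kernel.ι f) f (kernel.condition f)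

theorem kernelSeq_shortExact {M N : Rep.{u} k H} (f : M ⟶ N)
    (hf : Function.Surjective f.hom) : (kernelSeq f).ShortExact :=
  { exact := ShortComplex.exact_kernel f
    mono_f := by
      change Mono (kernel.ι f)
      infer_instance
    epi_g := (Rep.epi_iff_surjective f).2 hf }

theorem kernel_ι_injective {M N : Rep.{u} k H} (f : M ⟶ N) :
    Function.Injective (kernel.ι f).hom :=
  (Rep.mono_iff_injective _).1 inferInstance

/-- The kernel of a morphism out of a finite module is finite. -/
theorem finite_kernel {M N : Rep.{u} k H} (f : M ⟶ N) [Finite M] : Finite (kernel f : Rep.{u} k H) :=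
  Finite.of_injective _ (kernel_ι_injective f)

/-- The kernel of a morphism out of a discrete module is discrete. -/
theorem isDiscrete_kernel {M N : Rep.{u} k H} (f : M ⟶ N) (hM : 𝒱.IsDiscrete M) :
    𝒱.IsDiscrete (kernel f) := by
  intro m
  obtain ⟨U, hU, h⟩ := hM ((kernel.ι f).hom m)
  refine ⟨U, hU, fun s hs => kernel_ι_injective f ?_⟩
  rw [Rep.hom_comm_apply]
  exact h s hs

/-- If `Hⁿ⁺¹(ker f) = 0` for a surjective `f : M ⟶ N` with `M` discrete, then `Hⁿ(f)` is
surjective. -/
theorem surjective_map_of_subsingleton_kernel {M N : Rep.{u} k H} (f : M ⟶ N)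
    (hf : Function.Surjective f.hom) (hM : 𝒱.IsDiscrete M) (n : ℕ)
    [Subsingleton (𝒱.levelCohomology (kernel f) (n + 1))] :
    Function.Surjective (𝒱.levelCohomologyMap f n).hom := by
  have : Subsingleton (𝒱.levelCohomology (kernelSeq f).X₁ (n + 1)) :=
    ‹Subsingleton (𝒱.levelCohomology (kernel f) (n + 1))›
  exact surjective_map_g_of_subsingleton 𝒱 (kernelSeq_shortExact f hf) hM n

/-- If `Hⁿ(u ≫ g)` is surjective then so is `Hⁿ(g)`. -/
theorem surjective_map_of_comp {A B C : Rep.{u} k H} (u : A ⟶ B) (g : B ⟶ C) (n : ℕ)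
    (h : Function.Surjective (𝒱.levelCohomologyMap (u ≫ g) n).hom) :
    Function.Surjective (𝒱.levelCohomologyMap g n).hom := by
  intro z
  obtain ⟨x, hx⟩ := h z
  refine ⟨(𝒱.levelCohomologyMap u n).hom x, ?_⟩
  rw [← hx, LES.levelCohomologyMap_comp]
  rfl

/-- An isomorphism of representations induces a bijection on level cohomology. -/
theorem bijective_map_of_iso {A B : Rep.{u} k H} (e : A ≅ B) (n : ℕ) :
    Function.Bijective (𝒱.levelCohomologyMap e.hom n).hom := by
  have h1 : 𝒱.levelCohomologyMap e.hom n ≫ 𝒱.levelCohomologyMap e.inv n = 𝟙 _ := by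
    rw [← LES.levelCohomologyMap_comp, e.hom_inv_id, LES.levelCohomologyMap_id]
  have h2 : 𝒱.levelCohomologyMap e.inv n ≫ 𝒱.levelCohomologyMap e.hom n = 𝟙 _ := by
    rw [← LES.levelCohomologyMap_comp, e.inv_hom_id, LES.levelCohomologyMap_id]
  refine Function.bijective_iff_has_inverse.2
    ⟨(𝒱.levelCohomologyMap e.inv n).hom, fun x => ?_, fun x => ?_⟩
  · exact congr($h1 x)
  · exact congr($h2 x)

/-- Composition of the maps induced on level cohomology, elementwise. -/
theorem map_comp_apply {A B C : Rep.{u} k H} (u : A ⟶ B) (g : B ⟶ C) (n : ℕ)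
    (x : 𝒱.levelCohomology A n) :
    (𝒱.levelCohomologyMap g n).hom ((𝒱.levelCohomologyMap u n).hom x) =
      (𝒱.levelCohomologyMap (u ≫ g) n).hom x := by
  rw [LES.levelCohomologyMap_comp]
  rfl

end Generic

/-! ### The trace map is surjective -/

section Trace

universe u

variable {k G : Type u} [CommRing k] [Group G] (V : Subgroup G) [V.FiniteIndex] (X : Rep.{u} k G)

/-- The sum of a function supported at one point. -/
theorem qsum_single {A : Type*} [AddCommMonoid A] [DecidableEq (G ⧸ V)] (y : G ⧸ V) (a : A) :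
    qsum V (fun x : G ⧸ V => if x = y then a else 0) = a := by
  unfold qsum
  let _ : Fintype (G ⧸ V) := Fintype.ofFinite _
  rw [Finset.sum_eq_single y]
  · exact if_pos rfl
  · intro b _ hb
    exact if_neg hb
  · intro h
    exact absurd (Finset.mem_univ y) h

/-- The trace map `P V X ⟶ X` is surjective. -/
theorem sumMap_surjective : Function.Surjective (sumMap V X).hom := by
  classical
  intro x
  refine ⟨uncoord V X (fun y : G ⧸ V => if y = ((1 : G) : G ⧸ V) then x else 0), ?_⟩
  rw [sumMap_hom_apply, coord_uncoord]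
  exact qsum_single V _ x

end Trace

/-! ### The local Galois groups -/

section Arith

local notation "Γℚ" => (AlgebraicClosure ℚ ≃ₐ[ℚ] AlgebraicClosure ℚ)

variable {p : ℕ} [Fact p.Prime] {q : Nat.Primes}

/-- `H²(G_q, M) → H²(G_q, N)` is surjective for a surjective morphism of finite discrete
`𝔽_p[G_q]`-modules. -/
theorem surjective_H2 (B : LocalBase p q) {M N : Rep.{0} (ZMod p) (primeLocalGaloisGroup q)}
    [Finite M] (hM : (primeLocalLevels q).IsDiscrete M) (f : M ⟶ N)
    (hf : Function.Surjective f.hom) :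
    Function.Surjective ((primeLocalLevels q).levelCohomologyMap f 2).hom := by
  have hfin : Finite (kernel f : Rep.{0} (ZMod p) (primeLocalGaloisGroup q)) := finite_kernel f
  have : Subsingleton ((primeLocalLevels q).levelCohomology (kernel f) (2 + 1)) :=
    B.subsingleton_three (kernel f) (isDiscrete_kernel (primeLocalLevels q) f hM)
  exact surjective_map_of_subsingleton_kernel (primeLocalLevels q) f hf hM 2

/-- The `ℤ`-coefficient version of `surjective_H2`. -/
theorem surjective_H2_int (B : LocalBase p q) {M N : Rep.{0} (ZMod p) (primeLocalGaloisGroup q)}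
    [Finite M] (hM : (primeLocalLevels q).IsDiscrete M) (f : M ⟶ N)
    (hf : Function.Surjective f.hom) :
    Function.Surjective ((primeLocalLevels q).levelCohomologyMap (intMap f) 2).hom := by
  intro y
  obtain ⟨x, hx⟩ := surjective_H2 B hM f hf ((levelCohomologyInt (primeLocalLevels q) N 2).symm y)
  refine ⟨levelCohomologyInt (primeLocalLevels q) M 2 x, ?_⟩
  rw [← levelCohomologyInt_levelCohomologyMap, hx, AddEquiv.apply_symm_apply]

/-- The trace map `Coind_W μ ⟶ μ` induces a surjection on `H²(G_q, ·)`. -/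
theorem surjective_H2_res_sumMap (B : LocalBase p q) (W : Subgroup Γℚ) [W.FiniteIndex]
    (μ : Rep.{0} (ZMod p) Γℚ) [Finite μ]
    (hd : (primeLocalLevels q).IsDiscrete (Rep.res (primeLocalToGlobal q) (P W μ))) :
    Function.Surjective ((primeLocalLevels q).levelCohomologyMap
      ((Rep.resFunctor (primeLocalToGlobal q)).map (sumMap W μ)) 2).hom := by
  have : Finite (Rep.res (primeLocalToGlobal q) (P W μ)) :=
    (inferInstance : Finite (P W μ))
  exact surjective_H2 B hd _ (sumMap_surjective W μ)

/-- The `ℤ`-coefficient version of `surjective_H2_res_sumMap`. -/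
theorem surjective_H2_res_sumMap_int (B : LocalBase p q) (W : Subgroup Γℚ) [W.FiniteIndex]
    (μ : Rep.{0} (ZMod p) Γℚ) [Finite μ]
    (hd : (primeLocalLevels q).IsDiscrete (Rep.res (primeLocalToGlobal q) (P W μ))) :
    Function.Surjective ((primeLocalLevels q).levelCohomologyMap
      ((Rep.resFunctor (primeLocalToGlobal q)).map (intMap (sumMap W μ))) 2).hom := by
  have : Finite (Rep.res (primeLocalToGlobal q) (P W μ)) :=
    (inferInstance : Finite (P W μ))
  exact surjective_H2_int B hd ((Rep.resFunctor (primeLocalToGlobal q)).map (sumMap W μ))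
    (sumMap_surjective W μ)

/-- The shape consumed by `KDatum.Hom.exists_invT_ne_zero` (`(CV3)`) for the sum morphism
`KDatumPV.sumHom`: for a `ℤ`-linear representation `N'` of `Γℚ` isomorphic to `intRep μ`, the
trace map `Coind_W N' ⟶ N'` induces a surjection on `H²(G_q, ·)`. -/
theorem surjective_H2_res_sumMap_of_iso (B : LocalBase p q) (W : Subgroup Γℚ) [W.FiniteIndex]
    (μ : Rep.{0} (ZMod p) Γℚ) [Finite μ]
    (hd : (primeLocalLevels q).IsDiscrete (Rep.res (primeLocalToGlobal q) (P W μ)))
    {N' : Rep.{0} ℤ Γℚ} (e : intRep μ ≅ N') :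
    Function.Surjective ((primeLocalLevels q).levelCohomologyMap
      ((Rep.resFunctor (primeLocalToGlobal q)).map (sumMap W N')) 2).hom := by
  have hsq : ((PVIso.intPIso W μ).hom ≫ PMap W e.hom) ≫ sumMap W N' =
      intMap (sumMap W μ) ≫ e.hom := by
    rw [Category.assoc, sumMap_naturality, ← Category.assoc, PVIso.intPIso_hom_sumMap]
  intro z
  obtain ⟨y, hy⟩ := (bijective_map_of_iso (primeLocalLevels q)
    ((Rep.resFunctor (primeLocalToGlobal q)).mapIso e) 2).2 z
  obtain ⟨x, hx⟩ := surjective_H2_res_sumMap_int B W μ hd y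
  refine ⟨((primeLocalLevels q).levelCohomologyMap ((Rep.resFunctor (primeLocalToGlobal q)).map
    ((PVIso.intPIso W μ).hom ≫ PMap W e.hom)) 2).hom x, ?_⟩
  rw [map_comp_apply, ← Functor.map_comp, hsq, Functor.map_comp, ← map_comp_apply, hx]
  exact hy

/-! ### The same for a general localisation datum whose local groups are the `G_q` -/

/-- Discreteness of the restriction of `Coind_W μ` to a local group of a localisation datum. -/
theorem isDiscrete_res_P {G : Type} [Group G] (D : LocDatum G) (v : D.ι) (W : Subgroup G)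
    [W.FiniteIndex] (hW : IsOpenSubgroup D.𝒰 W) {k : Type} [CommRing k] (μ : Rep.{0} k G)
    (hμ : D.𝒰.IsDiscrete μ) : (D.𝒱 v).IsDiscrete (Rep.res (D.φ v) (P W μ)) :=
  D.isDiscrete_resRep (P W μ) (isDiscrete_P W μ D.𝒰 hW hμ) v

/-- `surjective_H2_res_sumMap_of_iso` for the arithmetic datum: `W` open for the levels unramified
outside `S`, `μ` finite and discrete, `v ∈ S`. -/
theorem surjective_H2_res_sumMap_arith (S : Finset Nat.Primes) (v : (arithDatum S).ι)
    (B : LocalBase p v.1) (W : Subgroup Γℚ) [W.FiniteIndex]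
    (hW : IsOpenSubgroup (arithDatum S).𝒰 W) (μ : Rep.{0} (ZMod p) Γℚ) [Finite μ]
    (hμ : (arithDatum S).𝒰.IsDiscrete μ) {N' : Rep.{0} ℤ Γℚ} (e : intRep μ ≅ N') :
    Function.Surjective (((arithDatum S).𝒱 v).levelCohomologyMap
      ((Rep.resFunctor ((arithDatum S).φ v)).map (sumMap W N')) 2).hom :=
  surjective_H2_res_sumMap_of_iso B W μ (isDiscrete_res_P (arithDatum S) v W hW μ hμ) e

end Arith

end Fermat.Agent.Lib.CFT.Duality.LocalRightExact
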