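import Fermat.Agent.Lib.CFT.Duality.BaseCase.KDatumPV
import Fermat.Agent.Lib.CFT.Duality.BaseCase.BocksteinPV
import Fermat.Agent.Lib.CFT.Duality.BaseCase.GlobalBaseCup

/-!
# The `P`-form contract of the base case of global duality

`PForm D χ K` collects, for a zigzag datum `K` (with `K.N ≅ μ = ofChar χ`), all the facts on the
coinduced data `K.pv W` (`W` an open subgroup of `ker χ`) from which the base cases of global
duality (bijectivity of `β` for `Coind_V 𝔽_p`, vanishing of `H³`, finiteness of `H¹`) follow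
formally:

* `semi₀`, `semi`: the semilocal theorem (`Tⁿ(J) ≅ ∏ᵥ Tⁿ(L v)`) for `K` and `K.pv W`;
* `invT`, `hinv`: the invariant map on `T²(C)`, bijective after composition with the sum map
  `T²(P W C) → T²(C)`;
* `hLG`: the local-global compatibility in its weak form;
* `hleft`, `hright`: the perfectness of the pairing `T¹(P W C) × H¹(R) → ZMod p` induced by the
  Bockstein-twisted cup products;
* `fin`: the finiteness of `H¹(W, 𝔽_p)`.
-/

set_option autoImplicit false

open CategoryTheory Fermat.Agent.Lib.CFT.Profinite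

namespace Fermat.Agent.Lib.CFT.Duality.GlobalBase

open KCalc KCalcCup ChangeRing DevissageRep PVCalc KDatumPV

variable {G : Type} [Group G] (D : LocDatum G) {p : ℕ} [Fact p.Prime] (χ : G →* (ZMod p)ˣ)
  (K : KDatum ℤ D p)

/-- The `P`-form contract of the base case (see the module docstring). -/
structure PForm where
  /-- the invariant map -/
  invT : T D.𝒰 p K.C 2 →+ ZMod p
  /-- the semilocal theorem for `K` -/
  semi₀ : Function.Bijective (K.lamT 2) ∧ Function.Injective (K.lamT 3)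
  /-- local-global compatibility, weak form -/
  hLG : ∀ q : D.ι, ∃ y : T D.𝒰 p K.J 2,
    (∀ v, v ≠ q → K.lamT 2 y v = 0) ∧ invT (TMap D.𝒰 p K.π 2 y) ≠ 0
  /-- the semilocal theorem for `K.pv W` -/
  semi : ∀ (W : Subgroup G) (hW : LES.IsOpenSubgroup D.𝒰 W), W ≤ χ.ker →
    Function.Bijective ((pv K W hW).lamT 1) ∧ Function.Bijective ((pv K W hW).lamT 2) ∧
      Function.Injective ((pv K W hW).lamT 3)
  /-- the invariant map of `K.pv W` is bijective -/
  hinv : ∀ (W : Subgroup G) [W.FiniteIndex], LES.IsOpenSubgroup D.𝒰 W → W ≤ χ.ker →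
    Function.Bijective fun t : T D.𝒰 p (P W K.C) 2 => invT (TMap D.𝒰 p (sumMap W K.C) 2 t)
  /-- finiteness of `H¹(W, 𝔽_p)` -/
  fin : ∀ (W : Subgroup G), LES.IsOpenSubgroup D.𝒰 W → W ≤ χ.ker →
    Module.Finite (ZMod p)
      ((LES.restrict D.𝒰 W).levelCohomology (Rep.trivial (ZMod p) W (ZMod p)) 1)
  /-- left nondegeneracy of the Bockstein-twisted cup product pairing -/
  hleft : ∀ (W : Subgroup G) [W.FiniteIndex], LES.IsOpenSubgroup D.𝒰 W → W ≤ χ.ker →
    ∀ t : T D.𝒰 p (P W K.C) 1,
      (∀ b : Bockstein.BockPair D.𝒰 ((p : ℕ) : ℤ) (R ℤ W) 1,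
        invT (PhiT D.𝒰 p (tracePairing W K.C) b.1.1 b.1.2 b.2
          (Bockstein.BockPair.d_snd (BocksteinPV.isReduction_red W p).torsionFree b) 1 t) = 0) →
      t = 0
  /-- right nondegeneracy of the Bockstein-twisted cup product pairing -/
  hright : ∀ (W : Subgroup G) [W.FiniteIndex], LES.IsOpenSubgroup D.𝒰 W → W ≤ χ.ker →
    ∀ b : Bockstein.BockPair D.𝒰 ((p : ℕ) : ℤ) (R ℤ W) 1,
      (∀ t : T D.𝒰 p (P W K.C) 1,
        invT (PhiT D.𝒰 p (tracePairing W K.C) b.1.1 b.1.2 b.2
          (Bockstein.BockPair.d_snd (BocksteinPV.isReduction_red W p).torsionFree b) 1 t) = 0) →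
      Bockstein.redClass D.𝒰 (BocksteinPV.isReduction_red W p) 1 b = 0

namespace PForm

variable {D χ K} (I : PForm D χ K)

include I

theorem good₀ : K.zig.Good 2 := K.good_of_semilocal 2 I.semi₀.1 I.semi₀.2

theorem good1 (W : Subgroup G) (hW : LES.IsOpenSubgroup D.𝒰 W) (h : W ≤ χ.ker) :
    (pv K W hW).zig.Good 1 :=
  (pv K W hW).good_of_semilocal 1 (I.semi W hW h).1 (I.semi W hW h).2.1.1

theorem good2 (W : Subgroup G) (hW : LES.IsOpenSubgroup D.𝒰 W) (h : W ≤ χ.ker) :
    (pv K W hW).zig.Good 2 :=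
  (pv K W hW).good_of_semilocal 2 (I.semi W hW h).2.1 (I.semi W hW h).2.2

omit I in
/-- The trace datum of a `P`-form contract. -/
noncomputable def traceDatum (e : intRep (groupCohomology.ofChar (k := ZMod p) χ) ≅ K.N) :
    TraceDatum D χ where
  c := ⟨K, e⟩
  good := I.good₀
  invT := I.invT

end PForm

end Fermat.Agent.Lib.CFT.Duality.GlobalBase
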