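/-
helper1 (P-CFT, L4 duality layer).  The vanishing of `H³(G, Coind_W 𝔽_p)` for the open subgroups
`W` of `ker χ`, from the `P`-form contract (`BaseCase/PForm.lean`) and the corresponding local
statements (local vanishing of `H³`, hence local right exactness of `H²`).
-/
import Fermat.Agent.Lib.CFT.Duality.BaseCase.PForm
import Fermat.Agent.Lib.CFT.Duality.BaseCase.CoeffPV
import Fermat.Agent.Lib.CFT.Duality.BaseCase.CoeffVan
import Fermat.Agent.Lib.CFT.Duality.BaseCase.LocalBase
import Fermat.Agent.Lib.CFT.Duality.BaseCase.PVCalcTrace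
import Fermat.Agent.Lib.CFT.Duality.GlobalVanishing

set_option autoImplicit false

open CategoryTheory Fermat.Agent.Lib.CFT.Profinite

namespace Fermat.Agent.Lib.CFT.Duality.GlobalBase

open KCalc ChangeRing DevissageRep PVCalc KDatumPV CoeffPV

namespace PForm

variable {G : Type} [Group G] {D : LocDatum G} {p : ℕ} [Fact p.Prime] {χ : G →* (ZMod p)ˣ}
  {K : KDatum ℤ D p} (I : PForm D χ K)
  (e : intRep (groupCohomology.ofChar (k := ZMod p) χ) ≅ K.N)

include I in
/-- `T²(P W J) ⟶ T²(P W C)` is surjective as soon as, at some place `q`, the local map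
`H²(H_q, P W N) ⟶ H²(H_q, N)` induced by the sum map is surjective. -/
theorem TMap_π_pv_surjective (W : Subgroup G) [W.FiniteIndex] (hW : LES.IsOpenSubgroup D.𝒰 W)
    (hχ : W ≤ χ.ker) (q : D.ι)
    (hq : Function.Surjective
      ((D.𝒱 q).levelCohomologyMap ((Rep.resFunctor (D.φ q)).map (sumMap W K.N)) 2).hom) :
    Function.Surjective (TMap D.𝒰 p (pv K W hW).π 2) := by
  obtain ⟨y₀, hy₀, hne⟩ := I.hLG q
  exact (sumHom K W hW).TMap_π_surjective_of_hom q 2 (I.semi W hW hχ).2.1.2 I.semi₀.1.1 I.invT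
    (I.hinv W hW hχ) y₀ hy₀ hne hq

include I e in
/-- **Vanishing of `H³(G, Coind_W 𝔽_p)`** for an open subgroup `W` of `ker χ`, from the `P`-form
contract, the local vanishing of `H³` and the local surjectivity of the sum map on `H²` at one
place. -/
theorem subsingleton_three (W : Subgroup G) [W.FiniteIndex] (hW : LES.IsOpenSubgroup D.𝒰 W)
    (hχ : W ≤ χ.ker)
    (hloc : ∀ v, Subsingleton
      ((D.𝒱 v).levelCohomology (D.resRep (Additivity.PV (k := ZMod p) W) v) 3))
    (q : D.ι)
    (hq : Function.Surjective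
      ((D.𝒱 q).levelCohomologyMap ((Rep.resFunctor (D.φ q)).map (sumMap W K.N)) 2).hom) :
    Subsingleton (D.𝒰.levelCohomology (Additivity.PV (k := ZMod p) W) 3) :=
  (coeffPV W (⟨K, e⟩ : Coeff D p (groupCohomology.ofChar (k := ZMod p) χ)) hW
      (fun _ hs => MonoidHom.mem_ker.1 (hχ hs))).subsingleton_H 2
    (I.semi W hW hχ).2.2 hloc (I.TMap_π_pv_surjective W hW hχ q hq)

end PForm

/-! ### Local surjectivity of the sum map on `Hⁿ` -/

section LocalSurj

open Fermat.Agent.Lib.CFT.Profinite.LevelFamily Fermat.Agent.Lib.CFT.Profinite.LES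

variable {k : Type} [CommRing k] {G : Type} [Group G] (D : LocDatum G)

/-- Surjectivity of the map induced on the cohomology of a local group is invariant under
isomorphisms of the morphism of coefficient modules. -/
theorem surjective_levelCohomologyMap_of_iso_sq (v : D.ι) {A A' B B' : Rep.{0} k G} (a : A ≅ A')
    (b : B ≅ B') (f : A ⟶ B) (f' : A' ⟶ B') (h : a.hom ≫ f' = f ≫ b.hom) (n : ℕ)
    (hf : Function.Surjective
      ((D.𝒱 v).levelCohomologyMap ((Rep.resFunctor (D.φ v)).map f) n).hom) :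
    Function.Surjective ((D.𝒱 v).levelCohomologyMap ((Rep.resFunctor (D.φ v)).map f') n).hom := by
  intro y'
  obtain ⟨y, rfl⟩ :=
    (levelCohomologyMap_iso_bijective (D.𝒱 v) ((Rep.resFunctor (D.φ v)).mapIso b) n).2 y'
  obtain ⟨x, rfl⟩ := hf y
  refine ⟨((D.𝒱 v).levelCohomologyMap ((Rep.resFunctor (D.φ v)).map a.hom) n).hom x, ?_⟩
  have h1 : (Rep.resFunctor (D.φ v)).map a.hom ≫ (Rep.resFunctor (D.φ v)).map f' =
      (Rep.resFunctor (D.φ v)).map f ≫ (Rep.resFunctor (D.φ v)).map b.hom := by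
    rw [← Functor.map_comp, ← Functor.map_comp, h]
  have h2 := DevissageStep.levelCohomologyMap_comp (D.𝒱 v)
    ((Rep.resFunctor (D.φ v)).map a.hom) ((Rep.resFunctor (D.φ v)).map f') n
  have h3 := DevissageStep.levelCohomologyMap_comp (D.𝒱 v)
    ((Rep.resFunctor (D.φ v)).map f) ((Rep.resFunctor (D.φ v)).map b.hom) n
  rw [h1] at h2
  exact (congr($(h2) x)).symm.trans (congr($(h3) x))

/-- The sum map `P W M ⟶ M` is surjective on the `n`-th cohomology of a local group as soon as
the `(n + 1)`-st cohomology of its kernel vanishes. -/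
theorem surjective_levelCohomologyMap_sumMap (v : D.ι) (W : Subgroup G) [W.FiniteIndex]
    (hW : IsOpenSubgroup D.𝒰 W) (M : Rep.{0} k G) (hM : D.𝒰.IsDiscrete M) (n : ℕ)
    (hvan : Subsingleton ((D.𝒱 v).levelCohomology
      (D.resRep (LocalBase.traceKer W M) v) (n + 1))) :
    Function.Surjective
      ((D.𝒱 v).levelCohomologyMap ((Rep.resFunctor (D.φ v)).map (sumMap W M)) n).hom := by
  have hX := LocalBase.traceSeq_shortExact W M
  have hXv : ((LocalBase.traceSeq W M).map (Rep.resFunctor (D.φ v))).ShortExact :=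
    (Rep.shortExact_res (D.φ v)).2 hX
  have hd : D.𝒰.IsDiscrete (LocalBase.traceSeq W M).X₂ := isDiscrete_P W M D.𝒰 hW hM
  have hdv : (D.𝒱 v).IsDiscrete ((LocalBase.traceSeq W M).map (Rep.resFunctor (D.φ v))).X₂ :=
    D.isDiscrete_resRep (LocalBase.traceSeq W M).X₂ hd v
  have hsub : Subsingleton ((D.𝒱 v).levelCohomology
      ((LocalBase.traceSeq W M).map (Rep.resFunctor (D.φ v))).X₁ (n + 1)) := hvan
  intro z
  rw [PVCalc.sumMap_eq_coindTrace]
  exact (D.𝒱 v).exists_of_δ_eq_zero hXv hdv rfl z (Subsingleton.elim _ _)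

/-- The same for the underlying `ℤ`-modules, transported along an isomorphism `intRep M ≅ N`. -/
theorem surjective_levelCohomologyMap_sumMap_int (v : D.ι) (W : Subgroup G) [W.FiniteIndex]
    (hW : IsOpenSubgroup D.𝒰 W) (M : Rep.{0} k G) (hM : D.𝒰.IsDiscrete M) (n : ℕ)
    (hvan : Subsingleton ((D.𝒱 v).levelCohomology
      (D.resRep (LocalBase.traceKer W M) v) (n + 1)))
    {N : Rep.{0} ℤ G} (e : intRep M ≅ N) :
    Function.Surjective
      ((D.𝒱 v).levelCohomologyMap ((Rep.resFunctor (D.φ v)).map (sumMap W N)) n).hom := by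
  have h0 := surjective_levelCohomologyMap_sumMap D v W hW M hM n hvan
  have h1 : Function.Surjective ((D.𝒱 v).levelCohomologyMap
      ((Rep.resFunctor (D.φ v)).map (intMap (sumMap W M))) n).hom := by
    intro y
    obtain ⟨y', rfl⟩ := (levelCohomologyInt (D.𝒱 v) (D.resRep M v) n).surjective y
    obtain ⟨x, rfl⟩ := h0 y'
    exact ⟨levelCohomologyInt (D.𝒱 v) (D.resRep (P W M) v) n x,
      (levelCohomologyInt_levelCohomologyMap (𝒰 := D.𝒱 v)
        ((Rep.resFunctor (D.φ v)).map (sumMap W M)) n x).symm⟩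
  refine surjective_levelCohomologyMap_of_iso_sq D v
    (PVIso.intPIso W M ≪≫ (PFunc ℤ W).mapIso e) e (intMap (sumMap W M)) (sumMap W N) ?_ n h1
  show ((PVIso.intPIso W M).hom ≫ PMap W e.hom) ≫ sumMap W N = intMap (sumMap W M) ≫ e.hom
  rw [Category.assoc, sumMap_naturality, ← Category.assoc, PVIso.intPIso_hom_sumMap]

end LocalSurj

/-! ### The arithmetic datum -/

section Arith

open ExtCitation Fermat.Agent.Lib.CFT.Profinite.Bridge Fermat.Agent.Lib.CFT.Profinite.LES
open Fermat.Agent.Lib.CFT.Duality.LocalTate Fermat.Agent.Lib.CFT.Duality.GlobalVanishing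

local notation "Γℚ" => (AlgebraicClosure ℚ ≃ₐ[ℚ] AlgebraicClosure ℚ)

variable {p : ℕ} [Fact p.Prime] {S : Finset Nat.Primes}
  {K : KDatum ℤ (arithDatum S) p}

/-- **The vanishing of `H³(Γ, Coind_W 𝔽_p)`** for the open subgroups `W` of the kernel of the
cyclotomic character, from the `P`-form contract and the inputs of local Tate duality. -/
theorem PForm.van (I : PForm (arithDatum S) (cycloChar p) K)
    (e : intRep (groupCohomology.ofChar (k := ZMod p) (cycloChar p)) ≅ K.N)
    (hpS : pPrime p ∈ S) (B : ∀ q : S, LocalBase p q.1) : GlobalVanCoind p S 3 := by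
  intro W hWχ hWo
  have : NeZero p := ⟨(Fact.out : p.Prime).ne_zero⟩
  have := hWo.finiteIndex
  have hPV : (levelsS S).IsDiscrete (Additivity.PV (k := ZMod p) W) :=
    DevissageStep.isDiscrete_PV (levelsS S) W hWo
  have : Finite (Additivity.PV (k := ZMod p) W) := DevissageStep.finite_PV W
  obtain ⟨U, hU, hUχ⟩ := exists_level_le_ker_cycloChar (p := p) S hpS
  have hμ : (levelsS S).IsDiscrete (groupCohomology.ofChar (k := ZMod p) (cycloChar p)) :=
    fun m => ⟨U, hU, fun s hs => by
      show (groupCohomology.ofChar (k := ZMod p) (cycloChar p)).ρ s m = m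
      rw [ofChar_ρ_apply, MonoidHom.mem_ker.1 (hUχ hs), Units.val_one, one_mul]⟩
  have hfinμ : Finite (groupCohomology.ofChar (k := ZMod p) (cycloChar p)) :=
    inferInstanceAs (Finite (ZMod p))
  have hfinP : Finite (P W (groupCohomology.ofChar (k := ZMod p) (cycloChar p))) :=
    DevissageRep.finite_P W _
  have hfinK : Finite (LocalBase.traceKer W
      (groupCohomology.ofChar (k := ZMod p) (cycloChar p))) :=
    Finite.of_injective _ (LocalBase.traceKer_ι_injective W _)
  have hdK : (levelsS S).IsDiscrete (LocalBase.traceKer W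
      (groupCohomology.ofChar (k := ZMod p) (cycloChar p))) :=
    LocalBase.isDiscrete_traceKer W _ (levelsS S) hWo hμ
  refine I.subsingleton_three e W hWo hWχ
    (fun v => subsingleton_three_local B _ hPV v) ⟨pPrime p, hpS⟩ ?_
  exact surjective_levelCohomologyMap_sumMap_int (arithDatum S) ⟨pPrime p, hpS⟩ W hWo _ hμ 2
    (subsingleton_three_local B _ hdK _) e

end Arith

end Fermat.Agent.Lib.CFT.Duality.GlobalBase
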