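import Fermat.Agent.Lib.CFT.Duality.BaseCase.PForm
import Fermat.Agent.Lib.CFT.Duality.BaseCase.CoeffPV
import Fermat.Agent.Lib.CFT.Duality.BaseCase.CoeffPVCup
import Fermat.Agent.Lib.CFT.Duality.BaseCase.PFormVanFin
import Fermat.Agent.Lib.CFT.Duality.BaseCase.GlobalInputOfBase

/-!
# From the `P`-form contract to the frozen statement S55

`PForm.toGlobalInput` : the input `GlobalInput p S` of the final assembly (`Duality/PoitouTate`)
from a `P`-form contract `PForm (arithDatum S) (cycloChar p) K` for a zigzag datum `K` with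
`K.N ≅ μ_p` and the mod `p` local inputs (`ModPLocal`) at the primes of `S`;
`s55_of_pform` : the frozen statement S55 from these data.
-/

set_option autoImplicit false

open CategoryTheory Fermat.Agent.Lib.CFT.Profinite

namespace Fermat.Agent.Lib.CFT.Duality.GlobalBase

open KCalc KCalcCup ChangeRing GlobalDuality DevissageStep DevissageRep PVCalc KDatumPV
open Fermat.Agent.Lib.CFT.Profinite.LevelFamily Fermat.Agent.Lib.CFT.Profinite.LES
open ExtCitation Fermat.Agent.Lib.CFT.Profinite.Bridge
open Fermat.Agent.Lib.CFT.Duality.LocalTate Fermat.Agent.Lib.CFT.Duality.LocalBase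
open Fermat.Agent.Lib.CFT.Duality.GlobalVanishing Fermat.Agent.Lib.CFT.Duality.PoitouTate

local notation "Qbar" => AlgebraicClosure ℚ
local notation "Γℚ" => (AlgebraicClosure ℚ ≃ₐ[ℚ] AlgebraicClosure ℚ)

variable {p : ℕ} [Fact p.Prime] {S : Finset Nat.Primes}
  {K : KDatum ℤ (arithDatum S) p}

namespace PForm

variable (I : PForm (arithDatum S) (cycloChar p) K)
  (e : intRep (groupCohomology.ofChar (k := ZMod p) (cycloChar p)) ≅ K.N)
  (modP : ∀ (q : S) (W : Subgroup (primeLocalGaloisGroup q.1)),
    W ≤ (localCycloChar p q.1).ker → IsOpenSubgroup (primeLocalLevels q.1) W →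
    ModPLocal (restrict (primeLocalLevels q.1) W) p)

/-- The local invariant maps defined by the trace of a `P`-form contract. -/
noncomputable def inv (q : S) :
    (primeLocalLevels q.1).levelCohomology
      (groupCohomology.ofChar (k := ZMod p) (localCycloChar p q.1)) 2 →ₗ[ZMod p] ZMod p :=
  (I.traceDatum e).invAt q

theorem inv_surjective (q : S) : Function.Surjective (I.inv e q) :=
  (I.traceDatum e).invAt_surjective q (I.hLG q)

/-- The inputs of local Tate duality at the primes of `S`. -/
noncomputable def loc (q : S) : LocalBase p q.1 :=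
  (localBaseFor_of_modP (I.inv e q) (I.inv_surjective e q) (modP q)).toLocalBase

/-- The two base cases of global duality for `Coind_V 𝔽_p` from the `P`-form contract. -/
theorem base (hpS : pPrime p ∈ S) (V : Subgroup Γℚ) (hV : V ∈ (arithDatum S).𝒰.levels)
    (hχ : ∀ s ∈ V, cycloChar p s = 1) :
    Function.Bijective (beta0 (arithDatum S) (cycloChar p) 2 (I.traceDatum e).tr
        (Additivity.PV V)) ∧
      Function.Bijective (beta1 (arithDatum S) (cycloChar p) 2 (I.traceDatum e).tr
        (Additivity.PV V)) := by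
  have : NeZero p := ⟨(Fact.out : p.Prime).ne_zero⟩
  have hop : IsOpenSubgroup (levelsS S) V := ⟨V, hV, le_refl V⟩
  have := hop.finiteIndex
  have hker : V ≤ (cycloChar p).ker := fun s hs => MonoidHom.mem_ker.2 (hχ s hs)
  have hd : (levelsS S).IsDiscrete (Additivity.PV (k := ZMod p) V) :=
    DevissageStep.isDiscrete_PV (levelsS S) V hop
  have : Finite (Additivity.PV (k := ZMod p) V) := DevissageStep.finite_PV V
  have hd' : (levelsS S).IsDiscrete
      ((Additivity.PV (k := ZMod p) V).dualTwist (cycloChar p)) :=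
    DualTwist.isDiscrete_dualTwist (cycloChar p) (levelsS S) _ hd
      (exists_level_cycloChar_eq_one hpS)
  have : Finite ((Additivity.PV (k := ZMod p) V).dualTwist (cycloChar p)) :=
    DualTwist.finite_dualTwist (cycloChar p) _
  have hfin : GlobalFin p S 1 := fun W hW hWo => I.fin W hWo hW
  have : Module.Finite (ZMod p) ((arithDatum S).𝒰.levelCohomology
      ((Additivity.PV (k := ZMod p) V).dualTwist (cycloChar p)) 1) :=
    GlobalVanishing.finite_levelCohomology hpS hfin _ hd'
  exact ⟨CoeffPVCup.beta0_bijective_PV V hχ (I.traceDatum e) hop (I.good1 V hop hker)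
      (I.hleft V hop hker) (I.hright V hop hker),
    CoeffPV.beta1_bijective_PV V (I.traceDatum e) hop hχ (I.good2 V hop hker)
      (I.hinv V hop hker)⟩

/-- **The input of the final assembly from the `P`-form contract.** -/
noncomputable def toGlobalInput (hpS : pPrime p ∈ S) : GlobalInput p S :=
  GlobalInput.ofTrivial hpS (I.traceDatum e).tr (I.loc e modP) (I.traceDatum e).traceCompat_invAt
    ((globalVan_iff_coind p S 3).2 (I.van e hpS (I.loc e modP)))
    (fun W hW hWo => I.fin W hWo hW)
    (fun V _ hV hχ => I.base e hpS V hV hχ)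

end PForm

/-- **The frozen statement S55 from the `P`-form contract** and the mod `p` local inputs. -/
theorem s55_of_pform (hp2 : p ≠ 2) (hpS : pPrime p ∈ S)
    (I : PForm (arithDatum S) (cycloChar p) K)
    (e : intRep (groupCohomology.ofChar (k := ZMod p) (cycloChar p)) ≅ K.N)
    (modP : ∀ (q : S) (W : Subgroup (primeLocalGaloisGroup q.1)),
      W ≤ (localCycloChar p q.1).ker → IsOpenSubgroup (primeLocalLevels q.1) W →
      ModPLocal (restrict (primeLocalLevels q.1) W) p)
    (M : Rep (ZMod p) Γℚ) [FiniteDimensional (ZMod p) M]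
    (hsm : ∀ m : M, ∃ F : IntermediateField ℚ Qbar, FiniteDimensional ℚ F ∧
      ∀ s ∈ F.fixingSubgroup, M.ρ s m = m)
    (hMur : ∀ q : Nat.Primes, q ∉ S → ∀ A : ValuationSubring Qbar,
      A.LiesOverPrime (q : ℕ) → ∀ g ∈ A.inertiaSubgroupIn ℚ, M.ρ g = 1) :
    ∃ B : groupCohomology.sha₁ S (M.dualTwist (cycloChar p)) →ₗ[ZMod p]
        groupCohomology.sha₂ S M →ₗ[ZMod p] ZMod p,
      (∀ y, (∀ x, B y x = 0) → y = 0) ∧ (∀ x, (∀ y, B y x = 0) → x = 0) :=
  s55_of_globalInput hp2 hpS (I.toGlobalInput e modP hpS) M hsm hMur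

end Fermat.Agent.Lib.CFT.Duality.GlobalBase
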