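/-
helper1 (P-CFT, L4 duality layer).  The end of the chain: the frozen statement S55 from the `P`-form
contract (`BaseCase/PForm.lean`), an identification `intRep μ_p ≅ K.N` and the mod `p` local inputs.
-/
import Fermat.Agent.Lib.CFT.Duality.BaseCase.PFormAssembly
import Fermat.Agent.Lib.CFT.Duality.BaseCase.PFormVanFin
import Fermat.Agent.Lib.CFT.Duality.BaseCase.CoeffPVCup

set_option autoImplicit false

open CategoryTheory Fermat.Agent.Lib.CFT.Profinite

namespace Fermat.Agent.Lib.CFT.Duality.GlobalBase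

open KCalc KCalcCup ChangeRing GlobalDuality DevissageStep DevissageRep PVCalc KDatumPV
open Fermat.Agent.Lib.CFT.Profinite.LevelFamily Fermat.Agent.Lib.CFT.Profinite.LES
open ExtCitation Fermat.Agent.Lib.CFT.Profinite.Bridge
open Fermat.Agent.Lib.CFT.Duality.LocalTate Fermat.Agent.Lib.CFT.Duality.LocalBase
open Fermat.Agent.Lib.CFT.Duality.GlobalVanishing Fermat.Agent.Lib.CFT.Duality.PoitouTate

local notation "Qbar" => AlgebraicClosure ℚ
local notation "Γℚ" => (AlgebraicClosure ℚ ≃ₐ[ℚ] AlgebraicClosure ℚ)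

variable {p : ℕ} [Fact p.Prime] {S : Finset Nat.Primes}
  {K : KDatum ℤ (arithDatum S) p}

namespace PForm

variable (I : PForm (arithDatum S) (cycloChar p) K)
  (e : intRep (groupCohomology.ofChar (k := ZMod p) (cycloChar p)) ≅ K.N)
  (modP : ∀ (q : S) (W : Subgroup (primeLocalGaloisGroup q.1)),
    W ≤ (localCycloChar p q.1).ker → IsOpenSubgroup (primeLocalLevels q.1) W →
    ModPLocal (restrict (primeLocalLevels q.1) W) p)

/-- **The input of the final assembly from the `P`-form contract and the mod `p` local inputs.**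
(Alias of `PForm.toGlobalInput` in `BaseCase/PFormAssembly.lean`.) -/
noncomputable def globalInput (hpS : pPrime p ∈ S) : GlobalInput p S :=
  I.toGlobalInput e modP hpS

include I e modP in
/-- **The frozen statement S55 from the `P`-form contract and the mod `p` local inputs.** -/
theorem s55_of_pform (hp2 : p ≠ 2) (hpS : pPrime p ∈ S)
    (M : Rep (ZMod p) Γℚ) [FiniteDimensional (ZMod p) M]
    (hsm : ∀ m : M, ∃ F : IntermediateField ℚ Qbar, FiniteDimensional ℚ F ∧
      ∀ s ∈ F.fixingSubgroup, M.ρ s m = m)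
    (hMur : ∀ q : Nat.Primes, q ∉ S → ∀ A : ValuationSubring Qbar,
      A.LiesOverPrime (q : ℕ) → ∀ g ∈ A.inertiaSubgroupIn ℚ, M.ρ g = 1) :
    ∃ B : groupCohomology.sha₁ S (M.dualTwist (cycloChar p)) →ₗ[ZMod p]
        groupCohomology.sha₂ S M →ₗ[ZMod p] ZMod p,
      (∀ y, (∀ x, B y x = 0) → y = 0) ∧ (∀ x, (∀ y, B y x = 0) → x = 0) :=
  s55_of_globalInput hp2 hpS (I.globalInput e modP hpS) M hsm hMur

end PForm

end Fermat.Agent.Lib.CFT.Duality.GlobalBase
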