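import Fermat.Agent.Lib.CFT.Duality.BaseCase.TransferSemilocalTop
import Fermat.Agent.Lib.CFT.Duality.BaseCase.ArithKDatum
import Fermat.Agent.Lib.CFT.Global.SVersion.OpenLevelField

/-!
# The semilocal fields of the `P`-form contract from the `V`-form statement  (P-CFT, L3 ⇒ L4 glue)

`VFormStatement S p hpS` is the semilocal theorem in `V`-form for the arithmetic zigzag datum
`arithKDatum S p hpS`: for every level field `F₀` (unramified outside `S`) and every system of
representatives of the double cosets `φ_v(H_v) \ Γℚ / W`, `W = F₀.fixingSubgroup`, the semilocal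
map `VMap` is bijective in degrees `1`, `2` and injective in degree `3`.  From it we derive the two
fields `semi₀` and `semi` of `GlobalBase.PForm` (in the shapes of `PFormBridge.arithPForm`).
-/

set_option autoImplicit false

open CategoryTheory Fermat.Agent.Lib.CFT.Profinite

namespace Fermat.Agent.Lib.CFT.Duality.GlobalBase.PFormSemi

open Fermat.Agent.Lib.CFT.Duality.KCalc Fermat.Agent.Lib.CFT.Duality.KDatumPV
open Fermat.Agent.Lib.CFT.Duality.Semilocal Fermat.Agent.Lib.CFT.Duality.ArithKDatum
open Fermat.Agent.Lib.CFT.Profinite.Bridge Fermat.Agent.Lib.CFT.Profinite.LES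
open Fermat.Agent.Lib.CFT.Global.SVersion.OpenLevelField

local notation "Qbar" => AlgebraicClosure ℚ
local notation "Γℚ" => (AlgebraicClosure ℚ ≃ₐ[ℚ] AlgebraicClosure ℚ)

variable (S : Finset Nat.Primes) (p : ℕ) [hp : Fact p.Prime]
  (hpS : (⟨p, hp.out⟩ : Nat.Primes) ∈ S)

/-- **The semilocal theorem in `V`-form** for the arithmetic zigzag datum. -/
def VFormStatement : Prop :=
  ∀ (F₀ : IntermediateField ℚ Qbar) (_ : F₀.IsUnramifiedOutside S)
    {ι : (arithDatum S).ι → Type} [∀ v, Finite (ι v)] (r : ∀ v, ι v → Γℚ)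
    (_ : ∀ v (g : Γℚ), ∃ i h, g⁻¹ * (arithDatum S).φ v h * r v i ∈ F₀.fixingSubgroup)
    (_ : ∀ v i j h, (r v j)⁻¹ * (arithDatum S).φ v h * r v i ∈ F₀.fixingSubgroup → i = j),
    Function.Bijective (VMap (arithKDatum S p hpS) F₀.fixingSubgroup r 1) ∧
      Function.Bijective (VMap (arithKDatum S p hpS) F₀.fixingSubgroup r 2) ∧
      Function.Injective (VMap (arithKDatum S p hpS) F₀.fixingSubgroup r 3)

/-- Systems of representatives of the double cosets `φ_v(H_v) \ Γℚ / W` for all places at once. -/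
theorem exists_reps (W : Subgroup Γℚ) [W.FiniteIndex] :
    ∃ (ι : (arithDatum S).ι → Type) (_ : ∀ v, Finite (ι v)) (r : ∀ v, ι v → Γℚ),
      (∀ v (g : Γℚ), ∃ i h, g⁻¹ * (arithDatum S).φ v h * r v i ∈ W) ∧
      (∀ v i j h, (r v j)⁻¹ * (arithDatum S).φ v h * r v i ∈ W → i = j) := by
  choose ι hfin r hcover hdisj using fun v : (arithDatum S).ι =>
    exists_funRep_reps ((arithDatum S).φ v) W
  exact ⟨ι, hfin, r, hcover, hdisj⟩

variable {S p hpS}

/-- The field `semi` of the `P`-form contract: the semilocal theorem for `K.pv W`, for every open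
subgroup `W`. -/
theorem semi (hV : VFormStatement S p hpS) (W : Subgroup Γℚ)
    (hW : IsOpenSubgroup (arithDatum S).𝒰 W) :
    Function.Bijective ((pv (arithKDatum S p hpS) W hW).lamT 1) ∧
      Function.Bijective ((pv (arithKDatum S p hpS) W hW).lamT 2) ∧
      Function.Injective ((pv (arithKDatum S p hpS) W hW).lamT 3) := by
  have := hW.finiteIndex
  obtain ⟨ι, hfin, r, hcover, hdisj⟩ := exists_reps S W
  obtain ⟨F₀, hF₀, rfl⟩ := exists_levelField_of_isOpenSubgroup (S := S) W hW
  obtain ⟨h1, h2, h3⟩ := hV F₀ hF₀ r hcover hdisj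
  exact semi_pv_of_VMap (arithKDatum S p hpS) F₀.fixingSubgroup r hW hcover hdisj h1 h2 h3

/-- The field `semi` in the literal shape of `PForm.semi` / `PFormBridge.arithPForm` (the
hypothesis `W ≤ χ.ker` is not needed). -/
theorem semi_of_le_ker (hV : VFormStatement S p hpS) {A : Type*} [Monoid A] (χ : Γℚ →* A)
    (W : Subgroup Γℚ) (hW : IsOpenSubgroup (arithDatum S).𝒰 W) (_ : W ≤ χ.ker) :
    Function.Bijective ((pv (arithKDatum S p hpS) W hW).lamT 1) ∧
      Function.Bijective ((pv (arithKDatum S p hpS) W hW).lamT 2) ∧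
      Function.Injective ((pv (arithKDatum S p hpS) W hW).lamT 3) :=
  semi hV W hW

/-- The field `semi₀` of the `P`-form contract: the semilocal theorem for `K` itself. -/
theorem semi₀ (hV : VFormStatement S p hpS) :
    Function.Bijective ((arithKDatum S p hpS).lamT 2) ∧
      Function.Injective ((arithKDatum S p hpS).lamT 3) := by
  have hW : (⊥ : IntermediateField ℚ Qbar).fixingSubgroup = ⊤ :=
    IntermediateField.fixingSubgroup_bot
  have := (isOpenSubgroup_of_eq_top (D := arithDatum S) _ hW).finiteIndex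
  obtain ⟨ι, hfin, r, hcover, hdisj⟩ :=
    exists_reps S (⊥ : IntermediateField ℚ Qbar).fixingSubgroup
  obtain ⟨-, h2, h3⟩ := hV ⊥ (IntermediateField.isUnramifiedOutside_bot S) r hcover hdisj
  exact semi₀_of_VMap (arithKDatum S p hpS) _ r hW hcover hdisj h2 h3

end Fermat.Agent.Lib.CFT.Duality.GlobalBase.PFormSemi
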