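import Fermat.Agent.Lib.CFT.Duality.BaseCase.PVCalc
import Fermat.Agent.Lib.CFT.Profinite.CupShapiro

/-!
# `P V X`: comparison of the trace map and the trace pairing with `Profinite/Cores` and
`Profinite/CupShapiro`

* `sumMap_eq_coindTrace : sumMap V X = LES.coindTrace V X`;
* `scalarPairing V X : Pairing (res X) (res k) (res X)`, `(x, c) ↦ c • x`;
* `tracePairing_eq : PVCalc.tracePairing V X = LES.tracePairing V (scalarPairing V X)`;
* the projection formula and the degree zero formula for `PVCalc.tracePairing`.
-/

set_option autoImplicit false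

universe u

open CategoryTheory Fermat.Agent.Lib.CFT.Profinite
open Fermat.Agent.Lib.CFT.Duality.DevissageRep Fermat.Agent.Lib.CFT.Duality.CoindDual
open Fermat.Agent.Lib.CFT.Coh.Cup

namespace Fermat.Agent.Lib.CFT.Duality.PVCalc

variable {k G : Type u} [CommRing k] [Group G] (V : Subgroup G)

section

variable [V.FiniteIndex] (X : Rep.{u} k G)

omit [V.FiniteIndex] in
theorem traceFun_eq_coord (φ : P V X) (x : G ⧸ V) : LES.traceFun V X φ x = coord V X φ x := by
  induction x using QuotientGroup.induction_on with
  | H h => rfl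

/-- The trace map of `PVCalc` is the trace map of `Profinite/Cores`. -/
theorem sumMap_eq_coindTrace : sumMap V X = LES.coindTrace V X := by
  ext φ
  let _ : Fintype (G ⧸ V) := Fintype.ofFinite _
  show ∑ x : G ⧸ V, coord V X φ x = ∑ x : G ⧸ V, LES.traceFun V X φ x
  exact Finset.sum_congr rfl fun x _ => (traceFun_eq_coord V X φ x).symm

variable {V X} {𝒰 : LevelFamily G} in
open LES LevelFamily in
/-- The map induced on cohomology by the trace map `P V X ⟶ X` is the corestriction after
Shapiro's isomorphism. -/
theorem levelCohomologyMap_sumMap (hV : IsOpenSubgroup 𝒰 V) (hX : 𝒰.IsDiscrete X) (n : ℕ)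
    (y : 𝒰.levelCohomology (P V X) n) :
    (𝒰.levelCohomologyMap (sumMap V X) n).hom y =
      (cores hV hX n).hom ((shapiro 𝒰 V (Rep.res V.subtype X) n).hom y) := by
  rw [sumMap_eq_coindTrace, cores, ModuleCat.hom_comp, LinearMap.comp_apply]
  congr 1
  rw [← shapiroIso_hom hV (isDiscrete_res 𝒰 V X hX) n]
  exact (congr($((shapiroIso hV (isDiscrete_res 𝒰 V X hX) n).hom_inv_id) _)).symm

end

/-! ### The scalar pairing -/

section Scalar

variable (X : Rep.{u} k G)

/-- The scalar multiplication pairing `X × k → X`, `(x, c) ↦ c • x`. -/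
noncomputable def scalarPairing : Pairing X (Rep.trivial k G k) X where
  toLin := LinearMap.mk₂ k (fun (x : X) (c : k) => c • x)
    (fun x x' c => smul_add c x x')
    (fun c x c' => smul_comm c' c x)
    (fun x c c' => add_smul c c' x)
    (fun c x c' => by
      show (c * c') • x = c • c' • x
      rw [mul_smul])
  equivariant g x c := by
    show ((Rep.trivial k G k).ρ g c) • X.ρ g x = X.ρ g (c • x)
    rw [map_smul]
    rfl

@[simp]
theorem scalarPairing_toLin_apply (x : X) (c : k) : (scalarPairing X).toLin x c = c • x := rfl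

variable [V.FiniteIndex]

/-- The trace pairing of `PVCalc` is the trace pairing of `Profinite/CupShapiro` attached to the
scalar pairing. -/
theorem tracePairing_eq_toLin (φ : P V X) (r : R k V) :
    (tracePairing V X).toLin φ r =
      (LES.tracePairing V ((scalarPairing X).res V.subtype)).toLin φ r := by
  let _ : Fintype (G ⧸ V) := Fintype.ofFinite _
  show ∑ x : G ⧸ V, rcoord V r x • coord V X φ x =
    ∑ x : G ⧸ V, LES.traceFun V X
      ((LES.coindPairing V ((scalarPairing X).res V.subtype)).toLin φ r) x
  refine Finset.sum_congr rfl fun x _ => ?_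
  induction x using QuotientGroup.induction_on with
  | H h =>
    show r.1 h⁻¹ • X.ρ h (φ.1 h⁻¹) = X.ρ h (r.1 h⁻¹ • φ.1 h⁻¹)
    rw [map_smul]

/-- The trace pairing of `PVCalc` is the trace pairing of `Profinite/CupShapiro` attached to the
scalar pairing. -/
theorem tracePairing_eq :
    tracePairing V X = LES.tracePairing V ((scalarPairing X).res V.subtype) := by
  have h : (tracePairing V X).toLin =
      (LES.tracePairing V ((scalarPairing X).res V.subtype)).toLin := by
    ext φ r
    exact tracePairing_eq_toLin V X φ r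
  cases h1 : tracePairing V X
  cases h2 : LES.tracePairing V ((scalarPairing X).res V.subtype)
  rw [h1, h2] at h
  simp only at h
  subst h
  rfl

variable {V X} {𝒰 : LevelFamily G}

open LES LevelFamily in
/-- **Projection formula** for the trace pairing `P V X × R V → X`: the cup product is the
corestriction of the cup product on `V` for the scalar pairing `X × k → X`. -/
theorem cupH_tracePairing (hV : IsOpenSubgroup 𝒰 V) (hX : 𝒰.IsDiscrete X) {m n l : ℕ}
    (h : m + n = l) (x : 𝒰.levelCohomology (P V X) m) (y : 𝒰.levelCohomology (R k V) n) :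
    𝒰.cupH (tracePairing V X) h x y =
      (cores hV hX l).hom ((restrict 𝒰 V).cupH ((scalarPairing X).res V.subtype) h
        ((shapiro 𝒰 V (Rep.res V.subtype X) m).hom x)
        ((shapiro 𝒰 V (Rep.res V.subtype (Rep.trivial k G k)) n).hom y)) := by
  rw [tracePairing_eq]
  exact LES.cupH_tracePairing ((scalarPairing X).res V.subtype) hV hX h x y

/-- For an invariant `φ`, `traceHom φ` is `applyLeft` of the trace pairing. -/
theorem traceHom_eq_applyLeft (φ : P V X) (hφ : ∀ γ : G, (P V X).ρ γ φ = φ) :
    traceHom V X φ hφ = (tracePairing V X).applyLeft ⟨φ, hφ⟩ := by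
  ext r
  rfl

open LES LevelFamily in
/-- **Degree zero projection formula** for `traceHom`: for an invariant `φ ∈ P V X`, the map
induced on cohomology by `traceHom φ : R V ⟶ X` is the corestriction of the map induced by
`c ↦ c • φ 1 : k ⟶ X|_V`, after Shapiro's isomorphism. -/
theorem levelCohomologyMap_traceHom (hV : IsOpenSubgroup 𝒰 V) (hX : 𝒰.IsDiscrete X)
    (φ : P V X) (hφ : ∀ γ : G, (P V X).ρ γ φ = φ) (n : ℕ) (y : 𝒰.levelCohomology (R k V) n) :
    (𝒰.levelCohomologyMap (traceHom V X φ hφ) n).hom y =
      (cores hV hX n).hom (((restrict 𝒰 V).levelCohomologyMap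
        (((scalarPairing X).res V.subtype).applyLeft (coindInvariantEval V ⟨φ, hφ⟩)) n).hom
        ((shapiro 𝒰 V (Rep.res V.subtype (Rep.trivial k G k)) n).hom y)) := by
  rw [traceHom_eq_applyLeft]
  have e : (tracePairing V X).applyLeft ⟨φ, hφ⟩ =
      (LES.tracePairing V ((scalarPairing X).res V.subtype)).applyLeft ⟨φ, hφ⟩ := by
    rw [tracePairing_eq]
  rw [e]
  exact levelCohomologyMap_tracePairing_applyLeft ((scalarPairing X).res V.subtype) hV hX
    ⟨φ, hφ⟩ n y

end Scalar

end Fermat.Agent.Lib.CFT.Duality.PVCalc
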