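import Fermat.Agent.Lib.CFT.Duality.BaseCase.ArithKDatum
import Fermat.Agent.Lib.CFT.Global.SVersion.SemiLocal
import Fermat.Agent.Lib.CFT.Profinite.LES

/-!
# P-CFT: the local projections `ρ_v` kill the other local components of `J_S` (helper25)

For `q, v ∈ S`, `v ≠ q`: the composite `res_v (J_{S,q}) ⟶ res_v (J_S) ⟶ L_v` of the inclusion of
the `q`-component with the local projection `ρ_v` is zero (`resMap_jsIncl_comp_rho_of_ne`), and
for `v = q` it is the multiplication map on the `q`-component (`rho_jsIncl_self_apply`).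
Consequence on level cohomology (`map_rho_levelCohomologyMap_jsIncl_of_ne`): the image of
`Hⁿ(G_S, J_{S,q})` in `Hⁿ(G_S, J_S)` has trivial `v`-component for all `v ≠ q`.
-/

set_option autoImplicit false

open scoped TensorProduct NumberField
open CategoryTheory

noncomputable section

namespace Fermat.Agent.Lib.CFT.Duality.ArithKDatum

open ExtCitation Fermat.Agent.Lib.CFT.Profinite Fermat.Agent.Lib.CFT.Profinite.Bridge
open Fermat.Agent.Lib.CFT.Global Fermat.Agent.Lib.CFT.Global.SVersion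
open Fermat.Agent.Lib.CFT.Local.LqModule Fermat.Agent.Lib.CFT.Profinite.LES

local notation "Qbar" => AlgebraicClosure ℚ
local notation "Γℚ" => (AlgebraicClosure ℚ ≃ₐ[ℚ] AlgebraicClosure ℚ)

variable (S : Finset Nat.Primes)

/-- `ρ_v` is trivial on the `q`-component of `J_S` for `v ≠ q` (group level). -/
theorem rhoMul_jsInclLoc_of_ne {q v : Nat.Primes} (hq : q ∈ S) (h : v ≠ q) (u : JSqGrp S q) :
    rhoMul v S (jsInclLoc S hq u) = 1 := by
  apply Units.ext
  rw [val_rhoMul, coe_jsInclLoc]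
  show locMult v (((Pi.mulSingle q (u : (LocAlg Qbar q)ˣ) :
    ∀ q' : Nat.Primes, (LocAlg Qbar q')ˣ) v : (LocAlg Qbar v)ˣ) : LocAlg Qbar v) = 1
  rw [Pi.mulSingle_eq_of_ne h, Units.val_one, map_one]

/-- `ρ_q` on the `q`-component of `J_S` is the multiplication map (group level). -/
theorem val_rhoMul_jsInclLoc_self {q : Nat.Primes} (hq : q ∈ S) (u : JSqGrp S q) :
    ((rhoMul q S (jsInclLoc S hq u) : (Qqbar q)ˣ) : Qqbar q) =
      locMult q ((u : (LocAlg Qbar q)ˣ) : LocAlg Qbar q) := by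
  rw [val_rhoMul, coe_jsInclLoc]
  show locMult q (((Pi.mulSingle q (u : (LocAlg Qbar q)ˣ) :
    ∀ q' : Nat.Primes, (LocAlg Qbar q')ˣ) q : (LocAlg Qbar q)ˣ) : LocAlg Qbar q) = _
  rw [Pi.mulSingle_eq_same]

/-- **`ρ_v ∘ incl_q = 0` for `v ≠ q`**, in the form consumed by `LES.map_comp`. -/
theorem resMap_jsIncl_comp_rho_of_ne (q v : ↥S) (h : v ≠ q) :
    (Rep.resFunctor (primeLocalToGlobal v.1)).map (jsIncl S (some q)) ≫ rho v.1 S = 0 := by
  have hne : (v : Nat.Primes) ≠ q := fun h' => h (Subtype.ext h')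
  apply Rep.hom_ext
  apply Representation.IntertwiningMap.ext
  ext u
  show (rho v.1 S).hom ((jsIncl S (some q)).hom u) = 0
  rw [jsIncl_some_apply, rho_hom_apply]
  show ofUnit v.1 (rhoMul v.1 S (jsInclLoc S q.2 (Additive.toMul u))) = 0
  rw [rhoMul_jsInclLoc_of_ne S q.2 hne]
  rfl

/-- `ρ_q ∘ incl_q` is the multiplication map `(ℚ_q ⊗ Qbar)ˣ ⊇ J_{S,q} → Qbar_qˣ`. -/
theorem rho_jsIncl_self_apply (q : ↥S) (u : Additive (JSqGrp S q)) :
    (rho q.1 S).hom ((jsIncl S (some q)).hom u) =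
      ofUnit q.1 (rhoMul q.1 S (jsInclLoc S q.2 (Additive.toMul u))) := rfl

/-! ### Consequence on level cohomology -/

section Coh

universe u

variable {k G G' : Type u} [CommRing k] [Group G] [Group G']
  {𝒰 : LevelFamily G} {𝒰' : LevelFamily G'} {M : Rep.{u} k G} {M' : Rep.{u} k G'}

/-- The map on level cochains induced by the zero morphism is zero. -/
theorem levelCochainsMap_zero (f : G' →* G) (hf : LevelFamily.IsCompatible 𝒰' 𝒰 f) :
    LevelFamily.levelCochainsMap f hf (0 : Rep.res f M ⟶ M') = 0 := by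
  ext n x : 3
  apply Subtype.ext
  funext g
  rfl

/-- The map on level cohomology induced by the zero morphism is zero. -/
theorem LES_map_zero (f : G' →* G) (hf : LevelFamily.IsCompatible 𝒰' 𝒰 f) (n : ℕ) :
    LES.map f hf (0 : Rep.res f M ⟶ M') n = 0 := by
  rw [LES.map_def, levelCochainsMap_zero, HomologicalComplex.homologyMap_zero]

end Coh

/-- The composite `Hⁿ(G_S, J_{S,q}) ⟶ Hⁿ(G_S, J_S) ⟶ Hⁿ(G_v, L_v)` is zero for `v ≠ q`. -/
theorem levelCohomologyMap_jsIncl_comp_map_rho_of_ne (q v : ↥S) (h : v ≠ q) (n : ℕ) :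
    (levelsS S).levelCohomologyMap (jsIncl S (some q)) n ≫
      LES.map (primeLocalToGlobal v.1) (isCompatible_primeLocalLevels S v.1) (rho v.1 S) n = 0 := by
  have h2 : (Rep.resFunctor (primeLocalToGlobal v.1)).map (jsIncl S (some q)) ≫ rho v.1 S = 0 :=
    resMap_jsIncl_comp_rho_of_ne S q v h
  have h1 := LES.map_comp (𝒰 := levelsS S) (𝒰' := levelsS S) (𝒰'' := primeLocalLevels v.1)
    (M := JSq S q.1) (M' := JS S) (M'' := Lq v.1) (MonoidHom.id Γℚ)
    (levelsS S).isCompatible_id (jsIncl S (some q)) (primeLocalToGlobal v.1)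
    (isCompatible_primeLocalLevels S v.1) (rho v.1 S) n
  rw [LES.levelCohomologyMap_eq_map]
  refine h1.symm.trans ?_
  have h3 := LES_map_zero (𝒰 := levelsS S) (𝒰' := primeLocalLevels v.1) (M := JSq S q.1)
    (M' := Lq v.1) ((MonoidHom.id Γℚ).comp (primeLocalToGlobal v.1))
    (LES.IsCompatible.comp (levelsS S).isCompatible_id
      (isCompatible_primeLocalLevels S v.1)) n
  have h2' : ((Rep.resFunctor (primeLocalToGlobal v.1)).map
      (show Rep.res (MonoidHom.id Γℚ) (JSq S q.1) ⟶ JS S from jsIncl S (some q)) ≫ rho v.1 S :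
        Rep.res ((MonoidHom.id Γℚ).comp (primeLocalToGlobal v.1)) (JSq S q.1) ⟶ Lq v.1) = 0 := h2
  exact (congrArg (fun φ : Rep.res ((MonoidHom.id Γℚ).comp (primeLocalToGlobal v.1))
      (JSq S q.1) ⟶ Lq v.1 => LES.map ((MonoidHom.id Γℚ).comp (primeLocalToGlobal v.1))
    (LES.IsCompatible.comp (levelsS S).isCompatible_id
      (isCompatible_primeLocalLevels S v.1)) φ n) h2').trans h3

/-- **The image of `Hⁿ(G_S, J_{S,q})` in `Hⁿ(G_S, J_S)` has trivial component at `v ≠ q`.** -/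
theorem map_rho_levelCohomologyMap_jsIncl_of_ne (q v : ↥S) (h : v ≠ q) (n : ℕ)
    (x : (levelsS S).levelCohomology (JSq S q.1) n) :
    (LES.map ((arithDatum S).φ v) ((arithDatum S).compat v) (rho v.1 S) n).hom
      (((levelsS S).levelCohomologyMap (jsIncl S (some q)) n).hom x) = 0 :=
  congr($(levelCohomologyMap_jsIncl_comp_map_rho_of_ne S q v h n) x)

end Fermat.Agent.Lib.CFT.Duality.ArithKDatum
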