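import Fermat.Agent.Lib.CFT.Duality.BaseCase.Semilocal
import Fermat.Agent.Lib.CFT.Duality.BaseCase.KCalcSeq
import Fermat.Agent.Lib.CFT.Duality.NatConeMap

/-!
# Orbit decomposition for the cone of multiplication by `p`

The cohomology `T^n` of the cone of multiplication by `p` on level cochains
(`Fermat.Agent.Lib.CFT.Duality.KCalc`) is an additive functor of the module, satisfies Shapiro's
lemma, and hence the orbit decomposition of `Fun(G ⧸ V, Y)` holds for `T` as well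
(`funRep_T_bijective`).
-/

set_option autoImplicit false

universe u

open CategoryTheory Fermat.Agent.Lib.CFT.Profinite

namespace Fermat.Agent.Lib.CFT.Duality.Semilocal

open LevelFamily LES ConcreteHomology HomologicalComplex KCalc

variable {k : Type u} [CommRing k]

/-! ### The five lemma for cones in degree `0` -/

section ConeZero

variable {K L K' L' : CochainComplex (ModuleCat.{u} k) ℕ} (φ : K ⟶ L) (φ' : K' ⟶ L')
  (α : K ⟶ K') (β : L ⟶ L') (h : φ ≫ β = α ≫ φ')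

/-- Degree `0` companion of `natCone.map_homology_bijective`: `H⁰` of the cone is the kernel of
`H⁰(φ)`. -/
theorem natCone_map_homology_bijective_zero
    (hα : Function.Bijective (homologyMap α 0).hom)
    (hβ : Function.Injective (homologyMap β 0).hom) :
    Function.Bijective (homologyMap (natCone.map φ φ' α β h) 0).hom := by
  constructor
  · rw [injective_iff_map_eq_zero]
    intro x hx
    apply natCone.homologyMap_fst_zero_injective φ
    rw [map_zero]
    apply hα.1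
    rw [← natCone.homologyMap_map_fst φ φ' α β h 0 x, hx, map_zero, map_zero]
  · intro y
    obtain ⟨a, ha⟩ := hα.2 ((homologyMap (natCone.fst φ') 0).hom y)
    have h1 : (homologyMap φ 0).hom a = 0 := by
      apply hβ
      rw [natCone.homologyMap_sq φ φ' α β h 0 a, ha, map_zero]
      exact natCone.homologyMap_homologyMap_fst φ' 0 y
    obtain ⟨x, hx⟩ := (natCone.homologyMap_eq_zero_iff φ 0 a).1 h1
    refine ⟨x, ?_⟩
    apply natCone.homologyMap_fst_zero_injective φ'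
    rw [natCone.homologyMap_map_fst φ φ' α β h 0 x, hx, ha]

/-- The five lemma for cones in every degree: if `α` and `β` are bijective on homology in all
degrees, so is the map of cones. -/
theorem natCone_map_homology_bijective
    (hα : ∀ n, Function.Bijective (homologyMap α n).hom)
    (hβ : ∀ n, Function.Bijective (homologyMap β n).hom) (n : ℕ) :
    Function.Bijective (homologyMap (natCone.map φ φ' α β h) n).hom := by
  cases n with
  | zero => exact natCone_map_homology_bijective_zero φ φ' α β h (hα 0) (hβ 0).1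
  | succ m =>
    exact natCone.map_homology_bijective φ φ' α β h m (hα m).2 (hβ m) (hα (m + 1)) (hβ (m + 1)).1

end ConeZero

/-! ### `T` as an additive functor -/

section TFunctor

variable {H : Type u} [Group H] (𝒱 : LevelFamily H) (p : ℕ)

theorem KpMap_add {X Y : Rep.{u} k H} (f g : X ⟶ Y) :
    KpMap 𝒱 p (f + g) = KpMap 𝒱 p f + KpMap 𝒱 p g :=
  natCone.hom_ext _ (fun _ _ => rfl) (fun _ _ => rfl)

theorem TMap_add {X Y : Rep.{u} k H} (f g : X ⟶ Y) (r : ℕ) :
    TMap 𝒱 p (f + g) r = TMap 𝒱 p f r + TMap 𝒱 p g r := by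
  unfold TMap
  rw [KpMap_add, homologyMap_add]
  rfl

/-- `T^r` as a functor of the module. -/
noncomputable def TFunctor (r : ℕ) : Rep.{u} k H ⥤ ModuleCat.{u} k where
  obj X := T 𝒱 p X r
  map f := ModuleCat.ofHom (TMap 𝒱 p f r)
  map_id X := by
    ext t
    exact TMap_id 𝒱 p r t
  map_comp f g := by
    ext t
    exact TMap_comp 𝒱 p f g r t

instance (r : ℕ) : (TFunctor (k := k) 𝒱 p r).Additive where
  map_add {X Y f g} := by
    ext t
    show TMap 𝒱 p (f + g) r t = TMap 𝒱 p f r t + TMap 𝒱 p g r t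
    rw [TMap_add]
    rfl

@[simp]
theorem TFunctor_map_hom {X Y : Rep.{u} k H} (f : X ⟶ Y) (r : ℕ) :
    ((TFunctor 𝒱 p r).map f).hom = TMap 𝒱 p f r := rfl

end TFunctor

/-! ### Change of group for `T` -/

section ChangeOfGroup

variable {H H' : Type u} [Group H] [Group H'] (𝒱 : LevelFamily H) (𝒱' : LevelFamily H') (p : ℕ)
  {X X₁ : Rep.{u} k H} {Y Y₁ : Rep.{u} k H'} (ψ : H' →* H) (hψ : IsCompatible 𝒱' 𝒱 ψ)

theorem KpMap_comp_KpMapOfHom (f : X ⟶ X₁) (lam : Rep.res ψ X₁ ⟶ Y) :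
    KpMap 𝒱 p f ≫ KpMapOfHom 𝒱 p 𝒱' ψ hψ lam =
      KpMapOfHom 𝒱 p 𝒱' ψ hψ ((Rep.resFunctor ψ).map f ≫ lam) :=
  natCone.hom_ext _ (fun _ _ => rfl) (fun _ _ => rfl)

theorem KpMapOfHom_comp_KpMap (lam : Rep.res ψ X ⟶ Y) (g : Y ⟶ Y₁) :
    KpMapOfHom 𝒱 p 𝒱' ψ hψ lam ≫ KpMap 𝒱' p g =
      KpMapOfHom 𝒱 p 𝒱' ψ hψ (lam ≫ g) :=
  natCone.hom_ext _ (fun _ _ => rfl) (fun _ _ => rfl)

theorem TMapOfHom_TMap (f : X ⟶ X₁) (lam : Rep.res ψ X₁ ⟶ Y) (r : ℕ) (t : T 𝒱 p X r) :
    TMapOfHom 𝒱 p 𝒱' ψ hψ lam r (TMap 𝒱 p f r t) =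
      TMapOfHom 𝒱 p 𝒱' ψ hψ ((Rep.resFunctor ψ).map f ≫ lam) r t := by
  unfold TMapOfHom TMap
  rw [← KpMap_comp_KpMapOfHom, homologyMap_comp]
  rfl

theorem TMap_TMapOfHom (lam : Rep.res ψ X ⟶ Y) (g : Y ⟶ Y₁) (r : ℕ) (t : T 𝒱 p X r) :
    TMap 𝒱' p g r (TMapOfHom 𝒱 p 𝒱' ψ hψ lam r t) =
      TMapOfHom 𝒱 p 𝒱' ψ hψ (lam ≫ g) r t := by
  unfold TMapOfHom TMap
  rw [← KpMapOfHom_comp_KpMap, homologyMap_comp]
  rfl

/-- If the change-of-group map is bijective on level cohomology in all degrees, so is the induced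
map on `T`. -/
theorem TMapOfHom_bijective (lam : Rep.res ψ X ⟶ Y)
    (hb : ∀ n, Function.Bijective (LES.map ψ hψ lam n).hom) (r : ℕ) :
    Function.Bijective (TMapOfHom 𝒱 p 𝒱' ψ hψ lam r) :=
  natCone_map_homology_bijective _ _ _ _ (mulP_comp_levelCochainsMap 𝒱 p 𝒱' ψ hψ lam) hb hb r

end ChangeOfGroup

/-! ### Shapiro's lemma for `T` -/

section ShapiroT

variable {H : Type u} [Group H] {𝒱 : LevelFamily H} (p : ℕ) {S : Subgroup H}

/-- **Shapiro's lemma** for the cohomology of the cone of multiplication by `p`. -/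
theorem shapiro_T_bijective (hS : IsOpenSubgroup 𝒱 S) (B : Rep.{u} k S)
    (hB : (restrict 𝒱 S).IsDiscrete B) (r : ℕ) :
    Function.Bijective (TMapOfHom 𝒱 p (restrict 𝒱 S) S.subtype (isCompatible_comap 𝒱 S.subtype)
      (coindEval S B) r) :=
  TMapOfHom_bijective 𝒱 (restrict 𝒱 S) p S.subtype (isCompatible_comap 𝒱 S.subtype)
    (coindEval S B) (fun n => shapiro_bijective hS n B hB) r

end ShapiroT

/-! ### The orbit decomposition for `T` -/

section MainT

variable {H : Type u} [Group H] {X : Type u} (a : H →* Equiv.Perm X) (Y : Rep.{u} k H)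
  (𝒱 : LevelFamily H) (p : ℕ)

/-- The orbit map on `T`: restriction to the stabiliser `S` of `x₀` followed by evaluation
at `x₀`. -/
noncomputable def orbitMapT (x₀ : X) (S : Subgroup H) (hS : ∀ s ∈ S, a s x₀ = x₀) (n : ℕ) :
    T 𝒱 p (funSet a Y) n →ₗ[k] T (restrict 𝒱 S) p (Rep.res S.subtype Y) n :=
  TMapOfHom 𝒱 p (restrict 𝒱 S) S.subtype (isCompatible_comap 𝒱 S.subtype)
    (evalAt a Y x₀ S hS) n

theorem orbitMapT_eq (x₀ : X) (S : Subgroup H) (hS : ∀ s ∈ S, a s x₀ = x₀) (n : ℕ)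
    (t : T 𝒱 p (funSet a Y) n) :
    orbitMapT a Y 𝒱 p x₀ S hS n t =
      TMapOfHom 𝒱 p (restrict 𝒱 S) S.subtype (isCompatible_comap 𝒱 S.subtype)
        (coindEval S (Rep.res S.subtype Y)) n (TMap 𝒱 p (projAt a Y x₀ S hS) n t) := by
  rw [TMapOfHom_TMap, projAt_comp_coindEval]
  rfl

variable {Y} in
/-- Naturality of the orbit maps on `T` in the module. -/
theorem orbitMapT_naturality {Y' : Rep.{u} k H} (f : Y ⟶ Y') (x₀ : X) (S : Subgroup H)
    (hS : ∀ s ∈ S, a s x₀ = x₀) (n : ℕ) (t : T 𝒱 p (funSet a Y) n) :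
    orbitMapT a Y' 𝒱 p x₀ S hS n (TMap 𝒱 p (funSetMap a f) n t) =
      TMap (restrict 𝒱 S) p ((Rep.resFunctor S.subtype).map f) n
        (orbitMapT a Y 𝒱 p x₀ S hS n t) := by
  unfold orbitMapT
  rw [TMapOfHom_TMap, TMap_TMapOfHom]
  rfl

/-- The orbit maps on `T` are compatible with `toH`. -/
theorem toH_orbitMapT (x₀ : X) (S : Subgroup H) (hS : ∀ s ∈ S, a s x₀ = x₀) (n : ℕ)
    (t : T 𝒱 p (funSet a Y) n) :
    toH (restrict 𝒱 S) p (Rep.res S.subtype Y) n (orbitMapT a Y 𝒱 p x₀ S hS n t) =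
      (orbitMap a Y 𝒱 x₀ S hS n).hom (toH 𝒱 p (funSet a Y) n t) :=
  toH_TMapOfHom 𝒱 p (restrict 𝒱 S) S.subtype (isCompatible_comap 𝒱 S.subtype)
    (evalAt a Y x₀ S hS) n t

/-- The orbit maps on `T` are compatible with `ofH`. -/
theorem orbitMapT_ofH (x₀ : X) (S : Subgroup H) (hS : ∀ s ∈ S, a s x₀ = x₀) (n : ℕ)
    (y : 𝒱.levelCohomology (funSet a Y) n) :
    orbitMapT a Y 𝒱 p x₀ S hS (n + 1) (ofH 𝒱 p (funSet a Y) n y) =
      ofH (restrict 𝒱 S) p (Rep.res S.subtype Y) n ((orbitMap a Y 𝒱 x₀ S hS n).hom y) :=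
  TMapOfHom_ofH 𝒱 p (restrict 𝒱 S) S.subtype (isCompatible_comap 𝒱 S.subtype)
    (evalAt a Y x₀ S hS) n y

variable {Y 𝒱} in
/-- **Orbit decomposition** for the cohomology of the cone of multiplication by `p`. -/
theorem funSet_T_bijective (hY : 𝒱.IsDiscrete Y) {ι : Type*} [Finite ι] (r : ι → X)
    (S : ι → Subgroup H) (hS : ∀ i h, h ∈ S i ↔ a h (r i) = r i)
    (hopen : ∀ i, IsOpenSubgroup 𝒱 (S i))
    (hcover : ∀ x : X, ∃ i h, a h (r i) = x)
    (hdisj : ∀ i j h, a h (r i) = r j → i = j) (n : ℕ) :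
    Function.Bijective (fun (t : T 𝒱 p (funSet a Y) n) (i : ι) =>
      orbitMapT a Y 𝒱 p (r i) (S i) (fun s hs => (hS i s).1 hs) n t) := by
  classical
  have := Fintype.ofFinite ι
  have hdisj' : ∀ i j, InOrbit a (r i) (r j) → i = j := fun i j ⟨h, e⟩ => hdisj i j h e
  have hb1 := bijective_of_projectors (TFunctor (k := k) 𝒱 p n)
    (fun i => projAt a Y (r i) (S i) (fun s hs => (hS i s).1 hs))
    (fun i => extAt a Y (r i) (S i) (fun h hh => (hS i h).2 hh))
    (fun i => extAt_comp_projAt a Y (r i) (S i) _ _)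
    (fun i j hij => extAt_comp_projAt_of_not a Y (r i) (S i) _ _
      (fun h => hij (hdisj' i j h)))
    (sum_projAt_comp_extAt a Y r S hS hcover hdisj')
  have hb2 : Function.Bijective (Pi.map (fun i =>
      ⇑(TMapOfHom 𝒱 p (restrict 𝒱 (S i)) (S i).subtype (isCompatible_comap 𝒱 (S i).subtype)
        (coindEval (S i) (Rep.res (S i).subtype Y)) n))) :=
    Function.Bijective.piMap (fun i => shapiro_T_bijective p (hopen i) _
      (isDiscrete_res 𝒱 (S i) Y hY) n)
  have hfun : (fun (t : T 𝒱 p (funSet a Y) n) (i : ι) =>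
      orbitMapT a Y 𝒱 p (r i) (S i) (fun s hs => (hS i s).1 hs) n t) =
      (Pi.map (fun i =>
        ⇑(TMapOfHom 𝒱 p (restrict 𝒱 (S i)) (S i).subtype (isCompatible_comap 𝒱 (S i).subtype)
          (coindEval (S i) (Rep.res (S i).subtype Y)) n))) ∘
        (fun (t : (TFunctor (k := k) 𝒱 p n).obj (funSet a Y)) (i : ι) =>
          ((TFunctor (k := k) 𝒱 p n).map
            (projAt a Y (r i) (S i) (fun s hs => (hS i s).1 hs))).hom t) := by
    funext t i
    rw [orbitMapT_eq]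
    rfl
  rw [hfun]
  exact hb2.comp hb1

end MainT

/-! ### The case `X = G ⧸ V` -/

section CosetT

variable {H G : Type u} [Group H] [Group G] (φ : H →* G) (V : Subgroup G)
  {𝒰 : LevelFamily G} (𝒱 : LevelFamily H) (p : ℕ)

/-- The orbit map of `funRep` on `T`: restriction to the stabiliser of `g V` followed by
evaluation at `g V`. -/
noncomputable def funRepTMapAt (Y : Rep.{u} k H) (g : G) (n : ℕ) :
    T 𝒱 p (funRep φ V Y) n →ₗ[k]
      T (restrict 𝒱 (funStab φ V g)) p (Rep.res (funStab φ V g).subtype Y) n :=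
  TMapOfHom 𝒱 p (restrict 𝒱 (funStab φ V g)) (funStab φ V g).subtype
    (isCompatible_comap 𝒱 (funStab φ V g).subtype) (funEval φ V Y g) n

/-- Naturality in the module. -/
theorem funRepTMapAt_naturality {Y Y' : Rep.{u} k H} (f : Y ⟶ Y') (g : G) (n : ℕ)
    (t : T 𝒱 p (funRep φ V Y) n) :
    funRepTMapAt φ V 𝒱 p Y' g n (TMap 𝒱 p (funRepMap φ V f) n t) =
      TMap (restrict 𝒱 (funStab φ V g)) p ((Rep.resFunctor (funStab φ V g).subtype).map f) n
        (funRepTMapAt φ V 𝒱 p Y g n t) :=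
  orbitMapT_naturality (cosetPerm φ V) 𝒱 p f _ _ _ n t

/-- Compatibility with `toH`. -/
theorem toH_funRepTMapAt (Y : Rep.{u} k H) (g : G) (n : ℕ) (t : T 𝒱 p (funRep φ V Y) n) :
    toH (restrict 𝒱 (funStab φ V g)) p (Rep.res (funStab φ V g).subtype Y) n
        (funRepTMapAt φ V 𝒱 p Y g n t) =
      (funRepMapAt φ V 𝒱 Y g n).hom (toH 𝒱 p (funRep φ V Y) n t) :=
  toH_orbitMapT (cosetPerm φ V) Y 𝒱 p _ _ _ n t

/-- Compatibility with `ofH`. -/
theorem funRepTMapAt_ofH (Y : Rep.{u} k H) (g : G) (n : ℕ)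
    (y : 𝒱.levelCohomology (funRep φ V Y) n) :
    funRepTMapAt φ V 𝒱 p Y g (n + 1) (ofH 𝒱 p (funRep φ V Y) n y) =
      ofH (restrict 𝒱 (funStab φ V g)) p (Rep.res (funStab φ V g).subtype Y) n
        ((funRepMapAt φ V 𝒱 Y g n).hom y) :=
  orbitMapT_ofH (cosetPerm φ V) Y 𝒱 p _ _ _ n y

variable {φ V 𝒱} in
/-- **Orbit decomposition** of `T^n(H, Fun(G ⧸ V, Y))`: for a finite system `r` of
representatives of the `φ(H)`-orbits on `G ⧸ V`, the orbit maps identify it with the product of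
the `T^n(funStab (r i), Y)`. -/
theorem funRep_T_bijective (hφ : IsCompatible 𝒱 𝒰 φ) (hV : IsOpenSubgroup 𝒰 V)
    {Y : Rep.{u} k H} (hY : 𝒱.IsDiscrete Y) {ι : Type*} [Finite ι] (r : ι → G)
    (hcover : ∀ g : G, ∃ i h, g⁻¹ * φ h * r i ∈ V)
    (hdisj : ∀ i j h, (r j)⁻¹ * φ h * r i ∈ V → i = j) (n : ℕ) :
    Function.Bijective (fun (t : T 𝒱 p (funRep φ V Y) n) (i : ι) =>
      funRepTMapAt φ V 𝒱 p Y (r i) n t) := by
  refine funSet_T_bijective (cosetPerm φ V) p hY (fun i => (r i : G ⧸ V))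
    (fun i => funStab φ V (r i))
    (fun i h => (cosetPerm_apply_mk_eq_iff φ V h (r i) (r i)).symm)
    (fun i => isOpenSubgroup_funStab hφ hV (r i)) (fun x => ?_) (fun i j h e => ?_) n
  · induction x using QuotientGroup.induction_on with
    | H g =>
      obtain ⟨i, h, hh⟩ := hcover g
      exact ⟨i, h, (cosetPerm_apply_mk_eq_iff φ V h (r i) g).2 hh⟩
  · exact hdisj i j h ((cosetPerm_apply_mk_eq_iff φ V h (r i) (r j)).1 e)

end CosetT

end Fermat.Agent.Lib.CFT.Duality.Semilocal
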