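import Fermat.Agent.Lib.CFT.Duality.BaseCase.RhoIncl
import Fermat.Agent.Lib.CFT.Duality.BaseCase.SemilocalCone

/-!
# P-CFT: `T`-level version of `RhoIncl` (helper25)

For `q, v ∈ S`, `v ≠ q`, and `t ∈ Tⁿ(G_S, J_{S,q})`: the `v`-component of
`lamT n (TMap (jsIncl S (some q)) n t)` vanishes (`lamT_TMap_jsIncl_of_ne`).  So the classes coming
from the `q`-component of `J_S` satisfy the first half of the weak local-global compatibility
`PForm.hLG`.
-/

set_option autoImplicit false

open scoped TensorProduct NumberField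
open CategoryTheory

noncomputable section

namespace Fermat.Agent.Lib.CFT.Duality.ArithKDatum

open ExtCitation Fermat.Agent.Lib.CFT.Profinite Fermat.Agent.Lib.CFT.Profinite.Bridge
open Fermat.Agent.Lib.CFT.Global Fermat.Agent.Lib.CFT.Global.SVersion
open Fermat.Agent.Lib.CFT.Local.LqModule Fermat.Agent.Lib.CFT.Profinite.LES
open Fermat.Agent.Lib.CFT.Duality.KCalc

local notation "Qbar" => AlgebraicClosure ℚ
local notation "Γℚ" => (AlgebraicClosure ℚ ≃ₐ[ℚ] AlgebraicClosure ℚ)

section Generic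

universe u

variable {k G H : Type u} [CommRing k] [Group G] [Group H]
  (𝒰 : LevelFamily G) (p : ℕ) (𝒱 : LevelFamily H) {X : Rep.{u} k G} {Y : Rep.{u} k H}
  (φ : H →* G) (hφ : LevelFamily.IsCompatible 𝒱 𝒰 φ)

/-- The change-of-group map of cones induced by the zero morphism is zero. -/
theorem KpMapOfHom_zero : KpMapOfHom 𝒰 p 𝒱 φ hφ (0 : Rep.res φ X ⟶ Y) = 0 :=
  natCone.hom_ext _ (fun _ _ => rfl) (fun _ _ => rfl)

/-- The change-of-group map on `T` induced by the zero morphism is zero. -/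
theorem TMapOfHom_zero (r : ℕ) (t : T 𝒰 p X r) :
    TMapOfHom 𝒰 p 𝒱 φ hφ (0 : Rep.res φ X ⟶ Y) r t = 0 := by
  unfold TMapOfHom
  rw [KpMapOfHom_zero, HomologicalComplex.homologyMap_zero]
  rfl

end Generic

variable (S : Finset Nat.Primes) (p : ℕ) [hp : Fact p.Prime]
  (hpS : (⟨p, hp.out⟩ : Nat.Primes) ∈ S)

omit hp in
/-- `T`-level: the `v`-component of a class coming from the `q`-component of `J_S` vanishes,
`v ≠ q`. -/
theorem TMapOfHom_rho_TMap_jsIncl_of_ne (q v : ↥S) (h : v ≠ q) (n : ℕ)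
    (t : T (levelsS S) p (JSq S q.1) n) :
    TMapOfHom (levelsS S) p (primeLocalLevels v.1) (primeLocalToGlobal v.1)
      (isCompatible_primeLocalLevels S v.1) (rho v.1 S) n
      (TMap (levelsS S) p (show JSq S q.1 ⟶ JS S from jsIncl S (some q)) n t) = 0 := by
  rw [Semilocal.TMapOfHom_TMap]
  have h2 : ((Rep.resFunctor (primeLocalToGlobal v.1)).map
      (show JSq S q.1 ⟶ JS S from jsIncl S (some q)) ≫ rho v.1 S :
        Rep.res (primeLocalToGlobal v.1) (JSq S q.1) ⟶ Lq v.1) = 0 :=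
    resMap_jsIncl_comp_rho_of_ne S q v h
  rw [h2]
  exact TMapOfHom_zero _ _ _ _ _ n t

/-- **First half of `hLG` for classes from the `q`-component**: for the arithmetic zigzag datum,
`lamT n (TMap (jsIncl S (some q)) n t) v = 0` for all `v ≠ q`. -/
theorem lamT_TMap_jsIncl_of_ne (q : ↥S) (n : ℕ) (t : T (levelsS S) p (JSq S q.1) n)
    (v : (arithDatum S).ι) (h : v ≠ q) :
    (arithKDatum S p hpS).lamT n
      (TMap (arithDatum S).𝒰 p (show JSq S q.1 ⟶ JS S from jsIncl S (some q)) n t) v = 0 :=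
  TMapOfHom_rho_TMap_jsIncl_of_ne S p q v h n t

end Fermat.Agent.Lib.CFT.Duality.ArithKDatum
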