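import Fermat.Agent.Lib.CFT.Duality.BaseCase.SemilocalCone
import Fermat.Agent.Lib.CFT.Duality.BaseCase.KDatumPV
import Fermat.Agent.Lib.CFT.Profinite.MackeyT

/-!
# Transfer of the semilocal statement: from the `V`-form to the `P`-form  (P-CFT, L4)

Let `φ : H →* G`, `W ≤ G` an open subgroup, `J` a discrete `G`-module, `L` an `H`-module and
`ρ : res φ J ⟶ L`.

* `V`-form: for `g : G`, the stabiliser `funStab φ W g = {h | g⁻¹ φ(h) g ∈ W}` maps to `W` by
  `funStabHom φ W g : h ↦ g⁻¹ φ(h) g`, and `funStabMor φ W ρ g : j ↦ ρ (g • j)` is a morphism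
  `res (funStabHom φ W g) (res W J) ⟶ res (funStab φ W g) L`; they induce
  `T^n(W, J) ⟶ T^n(funStab φ W g, L)`.
* `P`-form: `T^n(G, P W J) ⟶ T^n(H, Fun(G ⧸ W, L))` induced by `φ` and
  `coindIso ≫ funRepMap ρ`.

The key square `funRepTMapAt_pvMor` says that evaluation at the coset `g W` of the `P`-form map is
the `V`-form map at `g` composed with Shapiro's isomorphism.  With the orbit decomposition
`funRep_T_bijective`, the `P`-form map is bijective (injective) iff the product over a system of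
representatives of the double cosets of the `V`-form maps is.
-/

set_option autoImplicit false

universe u

open CategoryTheory Fermat.Agent.Lib.CFT.Profinite

namespace Fermat.Agent.Lib.CFT.Duality.Semilocal

open LevelFamily LES KCalc

variable {k : Type u} [CommRing k] {H G : Type u} [Group H] [Group G]

/-! ### The `V`-form change of group -/

section VForm

variable (φ : H →* G) (W : Subgroup G)

/-- The homomorphism `funStab φ W g →* W`, `h ↦ g⁻¹ φ(h) g`. -/
def funStabHom (g : G) : funStab φ W g →* W where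
  toFun h := ⟨g⁻¹ * φ h * g, h.2⟩
  map_one' := by
    apply Subtype.ext
    show g⁻¹ * φ ((1 : funStab φ W g) : H) * g = 1
    rw [Subgroup.coe_one, map_one, mul_one, inv_mul_cancel]
  map_mul' x y := by
    apply Subtype.ext
    show g⁻¹ * φ ((x * y : funStab φ W g) : H) * g = (g⁻¹ * φ x * g) * (g⁻¹ * φ y * g)
    rw [Subgroup.coe_mul, map_mul]
    group

@[simp]
theorem funStabHom_coe (g : G) (h : funStab φ W g) :
    ((funStabHom φ W g h : W) : G) = g⁻¹ * φ h * g := rfl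

/-- `W.subtype ∘ funStabHom = conj g⁻¹ ∘ φ ∘ (funStab).subtype`. -/
theorem conj_inv_comp_eq (g : G) :
    (MulAut.conj g⁻¹).toMonoidHom.comp (φ.comp (funStab φ W g).subtype) =
      W.subtype.comp (funStabHom φ W g) := by
  ext s
  show g⁻¹ * φ s * g⁻¹⁻¹ = g⁻¹ * φ s * g
  rw [inv_inv]

variable {φ} in
theorem isCompatible_funStabHom {𝒰 : LevelFamily G} {𝒱 : LevelFamily H}
    (hφ : IsCompatible 𝒱 𝒰 φ) (g : G) :
    IsCompatible (restrict 𝒱 (funStab φ W g)) (restrict 𝒰 W) (funStabHom φ W g) := by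
  rintro _ ⟨U, hU, rfl⟩
  obtain ⟨U₁, hU₁, hU₁U, hn⟩ := 𝒰.normal_le U hU
  obtain ⟨U', hU', hle⟩ := hφ U₁ hU₁
  refine ⟨U'.comap (funStab φ W g).subtype, comap_mem_comap_levels _ hU', fun s hs => ?_⟩
  have hs' : (s : H) ∈ U' := hs
  show ((funStabHom φ W g s : W) : G) ∈ U
  rw [funStabHom_coe]
  have := hn.conj_mem _ (hle hs') g⁻¹
  rw [inv_inv] at this
  exact hU₁U this

variable {φ} in
/-- The morphism `j ↦ ρ (g • j)`, from `J` restricted to `funStab φ W g` through
`h ↦ g⁻¹ φ(h) g ∈ W` to `L` restricted to `funStab φ W g`. -/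
noncomputable def funStabMor {J : Rep.{u} k G} {L : Rep.{u} k H} (ρ : Rep.res φ J ⟶ L) (g : G) :
    Rep.res (funStabHom φ W g) (Rep.res W.subtype J) ⟶ Rep.res (funStab φ W g).subtype L :=
  Rep.ofHom ⟨ρ.hom.toLinearMap ∘ₗ J.ρ g, fun s => by
    ext j
    show ρ.hom (J.ρ g (J.ρ (g⁻¹ * φ s * g) j)) = L.ρ s (ρ.hom (J.ρ g j))
    rw [← Rep.hom_comm_apply ρ (s : H) (J.ρ g j)]
    show ρ.hom (J.ρ g (J.ρ (g⁻¹ * φ s * g) j)) = ρ.hom (J.ρ (φ s) (J.ρ g j))
    rw [← Module.End.mul_apply, ← Module.End.mul_apply, ← map_mul, ← map_mul]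
    congr 3
    group⟩

variable {φ} in
@[simp]
theorem funStabMor_hom_apply {J : Rep.{u} k G} {L : Rep.{u} k H} (ρ : Rep.res φ J ⟶ L) (g : G)
    (j : J) : (funStabMor W ρ g).hom j = ρ.hom (J.ρ g j) := rfl

end VForm

/-! ### Existence of representatives of the double cosets -/

section Reps

variable (φ : H →* G) (W : Subgroup G)

/-- The orbit relation of `H` acting on `G ⧸ W` through `φ`. -/
def cosetOrbitSetoid : Setoid (G ⧸ W) where
  r x y := ∃ h : H, cosetPerm φ W h x = y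
  iseqv :=
    { refl := fun x => ⟨1, by rw [map_one]; rfl⟩
      symm := by
        rintro x y ⟨h, rfl⟩
        refine ⟨h⁻¹, ?_⟩
        rw [map_inv, ← Equiv.Perm.mul_apply, inv_mul_cancel, Equiv.Perm.one_apply]
      trans := by
        rintro x y z ⟨h, rfl⟩ ⟨h', rfl⟩
        exact ⟨h' * h, by rw [map_mul, Equiv.Perm.mul_apply]⟩ }

/-- A finite system of representatives of the double cosets `φ(H) \ G / W` exists as soon as `W`
has finite index. -/
theorem exists_funRep_reps [W.FiniteIndex] :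
    ∃ (ι : Type u) (_ : Finite ι) (r : ι → G),
      (∀ g : G, ∃ i h, g⁻¹ * φ h * r i ∈ W) ∧ (∀ i j h, (r j)⁻¹ * φ h * r i ∈ W → i = j) := by
  have : Finite (G ⧸ W) := Subgroup.finite_quotient_of_finiteIndex
  refine ⟨Quotient (cosetOrbitSetoid φ W), inferInstance,
    fun i => (Quotient.out i : G ⧸ W).out, fun g => ?_, fun i j h hh => ?_⟩
  · obtain ⟨h, hh⟩ : (cosetOrbitSetoid φ W).r
        (Quotient.out (Quotient.mk (cosetOrbitSetoid φ W) (g : G ⧸ W))) (g : G ⧸ W) :=
      Quotient.exact (Quotient.out_eq _)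
    refine ⟨Quotient.mk (cosetOrbitSetoid φ W) (g : G ⧸ W), h, ?_⟩
    rw [← cosetPerm_apply_mk_eq_iff, QuotientGroup.out_eq']
    exact hh
  · rw [← cosetPerm_apply_mk_eq_iff, QuotientGroup.out_eq', QuotientGroup.out_eq'] at hh
    rw [← Quotient.out_eq i, ← Quotient.out_eq j]
    exact Quotient.sound ⟨h, hh⟩

end Reps

/-! ### The key square -/

section Square

variable {𝒰 : LevelFamily G} {𝒱 : LevelFamily H} (p : ℕ) {φ : H →* G} (W : Subgroup G)

/-- The `P`-form coefficient morphism `res φ (P W J) ≅ Fun(G ⧸ W, res φ J) ⟶ Fun(G ⧸ W, L)`. -/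
noncomputable def pvMor {J : Rep.{u} k G} {L : Rep.{u} k H} (ρ : Rep.res φ J ⟶ L) :
    Rep.res φ (DevissageRep.P W J) ⟶ funRep φ W L :=
  (coindIso φ W J).hom ≫ funRepMap φ W ρ

theorem pvMor_hom_apply_mk {J : Rep.{u} k G} {L : Rep.{u} k H} (ρ : Rep.res φ J ⟶ L)
    (f : DevissageRep.P W J) (g : G) :
    ((pvMor W ρ).hom f : G ⧸ W → L) (g : G ⧸ W) = ρ.hom (J.ρ g (f.1 g⁻¹)) := rfl

/-- **The key square**: evaluation at the coset `g W` of the `P`-form semilocal map is the
`V`-form map at `g` composed with Shapiro's isomorphism. -/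
theorem funRepTMapAt_pvMor (hφ : IsCompatible 𝒱 𝒰 φ) (hW : IsOpenSubgroup 𝒰 W)
    {J : Rep.{u} k G} (hJ : 𝒰.IsDiscrete J) {L : Rep.{u} k H} (ρ : Rep.res φ J ⟶ L) (g : G)
    (n : ℕ) (t : T 𝒰 p (DevissageRep.P W J) n) :
    funRepTMapAt φ W 𝒱 p L g n (TMapOfHom 𝒰 p 𝒱 φ hφ (pvMor W ρ) n t) =
      TMapOfHom (restrict 𝒰 W) p (restrict 𝒱 (funStab φ W g)) (funStabHom φ W g)
        (isCompatible_funStabHom W hφ g) (funStabMor W ρ g) n
        (shapiroT 𝒰 p W (Rep.res W.subtype J) n t) := by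
  have hc := conjMapT_apply 𝒰 p g⁻¹ n (DevissageRep.P W J)
    (isDiscrete_coind hW (Profinite.LES.isDiscrete_res 𝒰 W J hJ)) t
  have h1 := LES.TMapOfHom_comp 𝒰 𝒱 p φ hφ (restrict 𝒱 (funStab φ W g))
    (funStab φ W g).subtype (isCompatible_comap 𝒱 (funStab φ W g).subtype)
    (pvMor W ρ) (funEval φ W L g) n t
  have h2 := LES.TMapOfHom_comp 𝒰 (restrict 𝒰 W) p W.subtype (isCompatible_comap 𝒰 W.subtype)
    (restrict 𝒱 (funStab φ W g)) (funStabHom φ W g) (isCompatible_funStabHom W hφ g)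
    (coindEval W (Rep.res W.subtype J)) (funStabMor W ρ g) n t
  have h3 := LES.TMapOfHom_comp 𝒰 𝒰 p (MulAut.conj g⁻¹).toMonoidHom (isCompatible_conj 𝒰 g⁻¹)
    (restrict 𝒱 (funStab φ W g)) (φ.comp (funStab φ W g).subtype)
    (IsCompatible.comp hφ (isCompatible_comap 𝒱 (funStab φ W g).subtype))
    (conjMor (DevissageRep.P W J) g⁻¹)
    ((Rep.resFunctor (funStab φ W g).subtype).map (pvMor W ρ) ≫ funEval φ W L g) n t
  rw [funRepTMapAt, shapiroT, ← h1, ← h2]
  rw [← conjMapT, hc] at h3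
  rw [← h3]
  refine congr_fun (congr_arg DFunLike.coe
    (TMapOfHom_congr 𝒰 _ p _ (conj_inv_comp_eq φ W g) _ _ ?_ n)) t
  ext F
  show ρ.hom (J.ρ g (F.1 (g⁻¹ * g⁻¹⁻¹))) = ρ.hom (J.ρ g (F.1 1))
  rw [mul_inv_cancel]

end Square

/-! ### The transfer for a zigzag datum -/

section Datum

open KDatumPV DevissageRep

variable {k : Type} [CommRing k] {G : Type} [Group G] {D : LocDatum G} {p : ℕ}
  (K : KDatum k D p) (W : Subgroup G)

/-- The `V`-form semilocal map at the place `v` and the coset `g W`: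
`T^n(W, J) ⟶ T^n(funStab (D.φ v) W g, L v)`. -/
noncomputable def VMapAt (v : D.ι) (g : G) (n : ℕ) :
    T (restrict D.𝒰 W) p (Rep.res W.subtype K.J) n →ₗ[k]
      T (restrict (D.𝒱 v) (funStab (D.φ v) W g)) p
        (Rep.res (funStab (D.φ v) W g).subtype (K.L v)) n :=
  TMapOfHom (restrict D.𝒰 W) p (restrict (D.𝒱 v) (funStab (D.φ v) W g))
    (funStabHom (D.φ v) W g) (isCompatible_funStabHom W (D.compat v) g)
    (funStabMor W (K.ρ v) g) n

/-- The key square for the datum `K.pv W`. -/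
theorem funRepTMapAt_lamT_pv (hW : IsOpenSubgroup D.𝒰 W) (v : D.ι) (g : G) (n : ℕ)
    (t : T D.𝒰 p (P W K.J) n) :
    funRepTMapAt (D.φ v) W (D.𝒱 v) p (K.L v) g n ((pv K W hW).lamT n t v) =
      VMapAt K W v g n (shapiroT D.𝒰 p W (Rep.res W.subtype K.J) n t) :=
  funRepTMapAt_pvMor p W (D.compat v) hW K.hJ (K.ρ v) g n t

variable {ι : D.ι → Type*} (r : ∀ v, ι v → G)

/-- The total `V`-form semilocal map, for a system `r v` of representatives of the double cosets
`φ_v(H_v) \ G / W`: `T^n(W, J) ⟶ ∏_v ∏_i T^n(funStab (D.φ v) W (r v i), L v)`. -/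
noncomputable def VMap (n : ℕ) :
    T (restrict D.𝒰 W) p (Rep.res W.subtype K.J) n →ₗ[k]
      ∀ (v : D.ι) (i : ι v), T (restrict (D.𝒱 v) (funStab (D.φ v) W (r v i))) p
        (Rep.res (funStab (D.φ v) W (r v i)).subtype (K.L v)) n :=
  LinearMap.pi fun v => LinearMap.pi fun i => VMapAt K W v (r v i) n

@[simp]
theorem VMap_apply (n : ℕ) (t : T (restrict D.𝒰 W) p (Rep.res W.subtype K.J) n) (v : D.ι)
    (i : ι v) : VMap K W r n t v i = VMapAt K W v (r v i) n t := rfl

/-- The product over the places of the orbit decompositions. -/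
noncomputable def orbitDecomp (n : ℕ) (y : ∀ v, T (D.𝒱 v) p (funRep (D.φ v) W (K.L v)) n)
    (v : D.ι) (i : ι v) : T (restrict (D.𝒱 v) (funStab (D.φ v) W (r v i))) p
      (Rep.res (funStab (D.φ v) W (r v i)).subtype (K.L v)) n :=
  funRepTMapAt (D.φ v) W (D.𝒱 v) p (K.L v) (r v i) n (y v)

theorem orbitDecomp_comp_lamT_pv (hW : IsOpenSubgroup D.𝒰 W) (n : ℕ) :
    orbitDecomp K W r n ∘ ⇑((pv K W hW).lamT n) =
      ⇑(VMap K W r n) ∘ ⇑(shapiroT D.𝒰 p W (Rep.res W.subtype K.J) n) := by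
  funext t v i
  exact funRepTMapAt_lamT_pv K W hW v (r v i) n t

variable [∀ v, Finite (ι v)]

theorem orbitDecomp_bijective (hW : IsOpenSubgroup D.𝒰 W)
    (hcover : ∀ v (g : G), ∃ i h, g⁻¹ * D.φ v h * r v i ∈ W)
    (hdisj : ∀ v i j h, (r v j)⁻¹ * D.φ v h * r v i ∈ W → i = j) (n : ℕ) :
    Function.Bijective (orbitDecomp K W r n) :=
  Function.Bijective.piMap fun v =>
    funRep_T_bijective p (D.compat v) hW (K.hL v) (r v) (hcover v) (hdisj v) n

theorem shapiroT_res_bijective (hW : IsOpenSubgroup D.𝒰 W) (n : ℕ) :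
    Function.Bijective (shapiroT D.𝒰 p W (Rep.res W.subtype K.J) n) :=
  shapiroT_bijective p hW _ (Profinite.LES.isDiscrete_res D.𝒰 W K.J K.hJ) n

/-- **Transfer of the semilocal statement, bijectivity**: the `P`-form semilocal map of `K.pv W`
is bijective iff the `V`-form semilocal map of `W` is. -/
theorem lamT_pv_bijective_iff (hW : IsOpenSubgroup D.𝒰 W)
    (hcover : ∀ v (g : G), ∃ i h, g⁻¹ * D.φ v h * r v i ∈ W)
    (hdisj : ∀ v i j h, (r v j)⁻¹ * D.φ v h * r v i ∈ W → i = j) (n : ℕ) :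
    Function.Bijective ((pv K W hW).lamT n) ↔ Function.Bijective (VMap K W r n) := by
  have h1 := Function.Bijective.of_comp_iff' (orbitDecomp_bijective K W r hW hcover hdisj n)
    ⇑((pv K W hW).lamT n)
  have h2 := Function.Bijective.of_comp_iff ⇑(VMap K W r n) (shapiroT_res_bijective K W hW n)
  rw [orbitDecomp_comp_lamT_pv K W r hW n] at h1
  exact h1.symm.trans h2

/-- **Transfer of the semilocal statement, injectivity**. -/
theorem lamT_pv_injective_iff (hW : IsOpenSubgroup D.𝒰 W)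
    (hcover : ∀ v (g : G), ∃ i h, g⁻¹ * D.φ v h * r v i ∈ W)
    (hdisj : ∀ v i j h, (r v j)⁻¹ * D.φ v h * r v i ∈ W → i = j) (n : ℕ) :
    Function.Injective ((pv K W hW).lamT n) ↔ Function.Injective (VMap K W r n) := by
  have h1 := Function.Injective.of_comp_iff (orbitDecomp_bijective K W r hW hcover hdisj n).1
    ⇑((pv K W hW).lamT n)
  have h2 := Function.Injective.of_comp_iff' ⇑(VMap K W r n) (shapiroT_res_bijective K W hW n)
  rw [orbitDecomp_comp_lamT_pv K W r hW n] at h1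
  exact h1.symm.trans h2

/-- **Transfer of the semilocal statement, surjectivity**. -/
theorem lamT_pv_surjective_iff (hW : IsOpenSubgroup D.𝒰 W)
    (hcover : ∀ v (g : G), ∃ i h, g⁻¹ * D.φ v h * r v i ∈ W)
    (hdisj : ∀ v i j h, (r v j)⁻¹ * D.φ v h * r v i ∈ W → i = j) (n : ℕ) :
    Function.Surjective ((pv K W hW).lamT n) ↔ Function.Surjective (VMap K W r n) := by
  have h1 := Function.Surjective.of_comp_iff' (orbitDecomp_bijective K W r hW hcover hdisj n)
    ⇑((pv K W hW).lamT n)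
  have h2 := Function.Surjective.of_comp_iff ⇑(VMap K W r n) (shapiroT_res_bijective K W hW n).2
  rw [orbitDecomp_comp_lamT_pv K W r hW n] at h1
  exact h1.symm.trans h2

/-- The field `semi` of the `P`-form contract from the `V`-form facts. -/
theorem semi_pv_of_VMap (hW : IsOpenSubgroup D.𝒰 W)
    (hcover : ∀ v (g : G), ∃ i h, g⁻¹ * D.φ v h * r v i ∈ W)
    (hdisj : ∀ v i j h, (r v j)⁻¹ * D.φ v h * r v i ∈ W → i = j)
    (h1 : Function.Bijective (VMap K W r 1)) (h2 : Function.Bijective (VMap K W r 2))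
    (h3 : Function.Injective (VMap K W r 3)) :
    Function.Bijective ((pv K W hW).lamT 1) ∧ Function.Bijective ((pv K W hW).lamT 2) ∧
      Function.Injective ((pv K W hW).lamT 3) :=
  ⟨(lamT_pv_bijective_iff K W r hW hcover hdisj 1).2 h1,
    (lamT_pv_bijective_iff K W r hW hcover hdisj 2).2 h2,
    (lamT_pv_injective_iff K W r hW hcover hdisj 3).2 h3⟩

end Datum

end Fermat.Agent.Lib.CFT.Duality.Semilocal
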