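import Fermat.Agent.Lib.CFT.Duality.BaseCase.S55OfArith
import Fermat.Agent.Lib.CFT.Duality.BaseCase.PFormSemi
import Fermat.Agent.Lib.CFT.Duality.BaseCase.ArithH90
import Fermat.Agent.Lib.CFT.Duality.BaseCase.WFieldsOfFormation
import Fermat.Agent.Lib.CFT.Duality.BaseCase.LocalModPArith
import Fermat.Agent.Lib.CFT.Global.SVersion.Formation
import Fermat.Agent.Lib.CFT.Global.SVersion.FormationMain
import Fermat.Agent.Lib.CFT.Global.SVersion.SemiLocalMain
import Fermat.Agent.Lib.CFT.Global.ExistenceOpen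

/-!
# P-CFT L4: the frozen statement S55 from the L3 theorems (helper87)

`s55_of_L3`: the frozen statement S55 from

* `hdata` : the cardinality data of the finite layers of `(Γℚ, galFamily S, C_S)` (helper84,
  `SVersion/LayerDataCS`), which gives the class formation `formationQOf S hdata` (helper33);
* `hV` : the semilocal theorem in `V`-form (helper11, `SVersion/SemiLocalMain`);
* `hWF` : the four module-theoretic fields for every open `W ≤ ker χ_p` (helper78,
  `Global/ExistenceOpen`, from existence mod `p`);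
* `hH` : the weak local-global statement at the `H`-level (helper75, `SVersion/LocalGlobal`).

Everything else (local mod `p` inputs, local Hilbert 90, injectivity of the invariant map, the
whole consumer chain) is discharged here.
-/

set_option autoImplicit false

open CategoryTheory Fermat.Agent.Lib.CFT.Profinite

namespace Fermat.Agent.Lib.CFT.Duality.GlobalBase

open KCalc KCalcCup ChangeRing DevissageRep PVCalc KDatumPV
open Fermat.Agent.Lib.CFT.Profinite.LES ExtCitation Fermat.Agent.Lib.CFT.Profinite.Bridge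
open Fermat.Agent.Lib.CFT.Duality.LocalBase Fermat.Agent.Lib.CFT.Global.SVersion
open Fermat.Agent.Lib.CFT.Duality.LocalTate
open Fermat.Agent.Lib.CFT.Duality.ArithKDatum Fermat.Agent.Lib.CFT.Duality.GlobalBase.PFormBridge
open Fermat.Agent.Lib.CFT.Global.SVersion.Formation
open Fermat.Agent.Lib.CFT.Global.SVersion.FormationOfLayers
open Fermat.Agent.Lib.CFT.Duality.FormationT

local notation "Qbar" => AlgebraicClosure ℚ
local notation "Γℚ" => (AlgebraicClosure ℚ ≃ₐ[ℚ] AlgebraicClosure ℚ)

/-- The invariant map `T²(G_S, C_S) → ZMod p` of the `S`-class formation, on the level family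
`levelsS S` of the arithmetic datum. -/
noncomputable abbrev arithInvT (S : Finset Nat.Primes) (p : ℕ) [Fact p.Prime]
    (hdata : LayerData (galFamily S) (CS S)) : T (arithDatum S).𝒰 p (CS S) 2 →+ ZMod p :=
  invG (formationQOf S hdata) (levelsS S) (isCompatible_galFamily_levelsS S) p

/-- **The frozen statement S55 from the L3 theorems.** -/
theorem s55_of_L3 {p : ℕ} [hp : Fact p.Prime] (hp2 : p ≠ 2) (S : Finset Nat.Primes)
    (hpS : pPrime p ∈ S)
    (hdata : LayerData (galFamily S) (CS S))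
    (hV : PFormSemi.VFormStatement S p hpS)
    (hWF : ∀ (W : Subgroup Γℚ) [W.FiniteIndex], LES.IsOpenSubgroup (arithDatum S).𝒰 W →
      W ≤ (cycloChar p).ker → WFields (arithDatum S).𝒰 p (CS S) (arithInvT S p hdata) W)
    (hH : ∀ q : (arithDatum S).ι,
      ∃ y : (arithDatum S).𝒰.levelCohomology (arithKDatum S p hpS).J 2, p • y = 0 ∧
        (∀ v, v ≠ q → (LES.map ((arithDatum S).φ v) ((arithDatum S).compat v)
          ((arithKDatum S p hpS).ρ v) 2).hom y = 0) ∧
        ((arithDatum S).𝒰.levelCohomologyMap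
          ((arithKDatum S p hpS).π ≫ cs'ToCSHom S) 2).hom y ≠ 0)
    (M : Rep (ZMod p) Γℚ) [FiniteDimensional (ZMod p) M]
    (hsm : ∀ m : M, ∃ F : IntermediateField ℚ Qbar, FiniteDimensional ℚ F ∧
      ∀ s ∈ F.fixingSubgroup, M.ρ s m = m)
    (hMur : ∀ q : Nat.Primes, q ∉ S → ∀ A : ValuationSubring Qbar,
      A.LiesOverPrime (q : ℕ) → ∀ g ∈ A.inertiaSubgroupIn ℚ, M.ρ g = 1) :
    ∃ B : groupCohomology.sha₁ S (M.dualTwist (cycloChar p)) →ₗ[ZMod p]
        groupCohomology.sha₂ S M →ₗ[ZMod p] ZMod p,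
      (∀ y, (∀ x, B y x = 0) → y = 0) ∧ (∀ x, (∀ y, B y x = 0) → x = 0) :=
  s55_of_arith hp2 S hpS (arithInvT S p hdata) (PFormSemi.semi₀ hV)
    (ArithLG.arith_hLG S p hpS (arithInvT S p hdata)
      (invG_injective (formationQOf S hdata) (levelsS S) (isCompatible_galFamily_levelsS S)
        (isCompatible_levelsS_galFamily S) p)
      (ArithLG.arith_h90 S p hpS) hH)
    (PFormSemi.semi_of_le_ker hV (cycloChar p))
    (WFields.hinv_all (arithDatum S) (cycloChar p) (arithInvT S p hdata) hWF)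
    (WFields.fin_all (arithDatum S) (cycloChar p) (arithInvT S p hdata) hWF)
    (WFields.hleft_all (arithDatum S) (cycloChar p) (arithInvT S p hdata) hWF)
    (WFields.hright_all (arithDatum S) (cycloChar p) (arithInvT S p hdata) hWF)
    (fun q W hχ hW => LocalModPArith.modPLocal_primeLocal q.1 p W hχ hW)
    M hsm hMur

/-- **The frozen statement S55 from the two remaining L3 inputs**: the layer data `hdata` of
`(Γℚ, galFamily S, C_S)` and the weak local-global statement `hH` at the `H`-level.  The semilocal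
theorem is `SemiLocalMain.vform` (helper11 et al.), the four module-theoretic fields are
`ExistenceOpen.wfields_arithDatum` (helper78 et al., existence mod `p`). -/
theorem s55_of_layerData_LG {p : ℕ} [hp : Fact p.Prime] (hp2 : p ≠ 2) (S : Finset Nat.Primes)
    (hpS : pPrime p ∈ S)
    (hdata : LayerData (galFamily S) (CS S))
    (hH : ∀ q : (arithDatum S).ι,
      ∃ y : (arithDatum S).𝒰.levelCohomology (arithKDatum S p hpS).J 2, p • y = 0 ∧
        (∀ v, v ≠ q → (LES.map ((arithDatum S).φ v) ((arithDatum S).compat v)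
          ((arithKDatum S p hpS).ρ v) 2).hom y = 0) ∧
        ((arithDatum S).𝒰.levelCohomologyMap
          ((arithKDatum S p hpS).π ≫ cs'ToCSHom S) 2).hom y ≠ 0)
    (M : Rep (ZMod p) Γℚ) [FiniteDimensional (ZMod p) M]
    (hsm : ∀ m : M, ∃ F : IntermediateField ℚ Qbar, FiniteDimensional ℚ F ∧
      ∀ s ∈ F.fixingSubgroup, M.ρ s m = m)
    (hMur : ∀ q : Nat.Primes, q ∉ S → ∀ A : ValuationSubring Qbar,
      A.LiesOverPrime (q : ℕ) → ∀ g ∈ A.inertiaSubgroupIn ℚ, M.ρ g = 1) :
    ∃ B : groupCohomology.sha₁ S (M.dualTwist (cycloChar p)) →ₗ[ZMod p]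
        groupCohomology.sha₂ S M →ₗ[ZMod p] ZMod p,
      (∀ y, (∀ x, B y x = 0) → y = 0) ∧ (∀ x, (∀ y, B y x = 0) → x = 0) :=
  s55_of_L3 hp2 S hpS hdata (SemiLocalMain.vform S p hpS hp2)
    (Fermat.Agent.Lib.CFT.Global.ExistenceOpen.wfields_arithDatum p hdata hpS) hH M hsm hMur

/-- **The frozen statement S55 from the weak local-global statement `hH` alone** (the layer data
is `FormationMain.layerData_CS`, helper33/helper84/helper50). -/
theorem s55_of_hH {p : ℕ} [hp : Fact p.Prime] (hp2 : p ≠ 2) (S : Finset Nat.Primes)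
    (hpS : pPrime p ∈ S)
    (hH : ∀ q : (arithDatum S).ι,
      ∃ y : (arithDatum S).𝒰.levelCohomology (arithKDatum S p hpS).J 2, p • y = 0 ∧
        (∀ v, v ≠ q → (LES.map ((arithDatum S).φ v) ((arithDatum S).compat v)
          ((arithKDatum S p hpS).ρ v) 2).hom y = 0) ∧
        ((arithDatum S).𝒰.levelCohomologyMap
          ((arithKDatum S p hpS).π ≫ cs'ToCSHom S) 2).hom y ≠ 0)
    (M : Rep (ZMod p) Γℚ) [FiniteDimensional (ZMod p) M]
    (hsm : ∀ m : M, ∃ F : IntermediateField ℚ Qbar, FiniteDimensional ℚ F ∧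
      ∀ s ∈ F.fixingSubgroup, M.ρ s m = m)
    (hMur : ∀ q : Nat.Primes, q ∉ S → ∀ A : ValuationSubring Qbar,
      A.LiesOverPrime (q : ℕ) → ∀ g ∈ A.inertiaSubgroupIn ℚ, M.ρ g = 1) :
    ∃ B : groupCohomology.sha₁ S (M.dualTwist (cycloChar p)) →ₗ[ZMod p]
        groupCohomology.sha₂ S M →ₗ[ZMod p] ZMod p,
      (∀ y, (∀ x, B y x = 0) → y = 0) ∧ (∀ x, (∀ y, B y x = 0) → x = 0) :=
  s55_of_layerData_LG hp2 S hpS (FormationMain.layerData_CS S) hH M hsm hMur

end Fermat.Agent.Lib.CFT.Duality.GlobalBase
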