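import Fermat.Agent.Lib.CFT.Duality.BaseCase.PFormBridge
import Fermat.Agent.Lib.CFT.Duality.BaseCase.PFormAssembly

/-!
# P-CFT L4: the frozen statement S55 from the arithmetic inputs on `C_S` (helper25)

`s55_of_arith` = `s55_of_pform` ∘ `PFormBridge.arithPForm` with `K = arithKDatum S p hpS` and
`e = Iso.refl`: the complete list of the remaining arithmetic inputs of S55, in their final shapes:

* `invT : T²(G_S, C_S) → ZMod p` (any additive map), with `hinv`, `hleft`, `hright` on the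
  coinduced modules `P W C_S` (`W` open in `ker χ_p`) — from the class formation `(G_S, C_S)`;
* `semi₀`, `semi`: the semilocal theorem for `J_S` and `P W J_S`;
* `hLG`: local-global compatibility (weak form) through `J_S ⟶ C'_S ⟶ C_S`;
* `fin`: finiteness of `H¹(W, 𝔽_p)`;
* `modP`: the mod `p` local inputs.
-/

set_option autoImplicit false

open CategoryTheory Fermat.Agent.Lib.CFT.Profinite

namespace Fermat.Agent.Lib.CFT.Duality.GlobalBase

open KCalc KCalcCup ChangeRing DevissageRep PVCalc KDatumPV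
open Fermat.Agent.Lib.CFT.Profinite.LES ExtCitation Fermat.Agent.Lib.CFT.Profinite.Bridge
open Fermat.Agent.Lib.CFT.Duality.LocalBase Fermat.Agent.Lib.CFT.Global.SVersion
open Fermat.Agent.Lib.CFT.Duality.LocalTate
open Fermat.Agent.Lib.CFT.Duality.ArithKDatum Fermat.Agent.Lib.CFT.Duality.GlobalBase.PFormBridge

local notation "Qbar" => AlgebraicClosure ℚ
local notation "Γℚ" => (AlgebraicClosure ℚ ≃ₐ[ℚ] AlgebraicClosure ℚ)

/-- **The frozen statement S55 from the arithmetic inputs stated on `C_S`.** -/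
theorem s55_of_arith {p : ℕ} [hp : Fact p.Prime] (hp2 : p ≠ 2) (S : Finset Nat.Primes)
    (hpS : pPrime p ∈ S)
    (invT : T (arithDatum S).𝒰 p (CS S) 2 →+ ZMod p)
    (semi₀ : Function.Bijective ((arithKDatum S p hpS).lamT 2) ∧
      Function.Injective ((arithKDatum S p hpS).lamT 3))
    (hLG : ∀ q : (arithDatum S).ι, ∃ y : T (arithDatum S).𝒰 p (arithKDatum S p hpS).J 2,
      (∀ v, v ≠ q → (arithKDatum S p hpS).lamT 2 y v = 0) ∧
        invT (TMap (arithDatum S).𝒰 p ((arithKDatum S p hpS).π ≫ cs'ToCSHom S) 2 y) ≠ 0)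
    (semi : ∀ (W : Subgroup Γℚ) (hW : LES.IsOpenSubgroup (arithDatum S).𝒰 W),
      W ≤ (cycloChar p).ker →
      Function.Bijective ((pv (arithKDatum S p hpS) W hW).lamT 1) ∧
        Function.Bijective ((pv (arithKDatum S p hpS) W hW).lamT 2) ∧
          Function.Injective ((pv (arithKDatum S p hpS) W hW).lamT 3))
    (hinv : ∀ (W : Subgroup Γℚ) [W.FiniteIndex], LES.IsOpenSubgroup (arithDatum S).𝒰 W →
      W ≤ (cycloChar p).ker →
      Function.Bijective fun t : T (arithDatum S).𝒰 p (P W (CS S)) 2 =>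
        invT (TMap (arithDatum S).𝒰 p (sumMap W (CS S)) 2 t))
    (fin : ∀ (W : Subgroup Γℚ), LES.IsOpenSubgroup (arithDatum S).𝒰 W →
      W ≤ (cycloChar p).ker →
      Module.Finite (ZMod p)
        ((LES.restrict (arithDatum S).𝒰 W).levelCohomology
          (Rep.trivial (ZMod p) W (ZMod p)) 1))
    (hleft : ∀ (W : Subgroup Γℚ) [W.FiniteIndex], LES.IsOpenSubgroup (arithDatum S).𝒰 W →
      W ≤ (cycloChar p).ker → ∀ t : T (arithDatum S).𝒰 p (P W (CS S)) 1,
        (∀ b : Bockstein.BockPair (arithDatum S).𝒰 ((p : ℕ) : ℤ) (R ℤ W) 1,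
          invT (PhiT (arithDatum S).𝒰 p (tracePairing W (CS S)) b.1.1 b.1.2 b.2
            (Bockstein.BockPair.d_snd (BocksteinPV.isReduction_red W p).torsionFree b) 1 t) = 0) →
        t = 0)
    (hright : ∀ (W : Subgroup Γℚ) [W.FiniteIndex], LES.IsOpenSubgroup (arithDatum S).𝒰 W →
      W ≤ (cycloChar p).ker →
      ∀ b : Bockstein.BockPair (arithDatum S).𝒰 ((p : ℕ) : ℤ) (R ℤ W) 1,
        (∀ t : T (arithDatum S).𝒰 p (P W (CS S)) 1,
          invT (PhiT (arithDatum S).𝒰 p (tracePairing W (CS S)) b.1.1 b.1.2 b.2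
            (Bockstein.BockPair.d_snd (BocksteinPV.isReduction_red W p).torsionFree b) 1 t) = 0) →
        Bockstein.redClass (arithDatum S).𝒰 (BocksteinPV.isReduction_red W p) 1 b = 0)
    (modP : ∀ (q : S) (W : Subgroup (primeLocalGaloisGroup q.1)),
      W ≤ (localCycloChar p q.1).ker → IsOpenSubgroup (primeLocalLevels q.1) W →
      ModPLocal (restrict (primeLocalLevels q.1) W) p)
    (M : Rep (ZMod p) Γℚ) [FiniteDimensional (ZMod p) M]
    (hsm : ∀ m : M, ∃ F : IntermediateField ℚ Qbar, FiniteDimensional ℚ F ∧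
      ∀ s ∈ F.fixingSubgroup, M.ρ s m = m)
    (hMur : ∀ q : Nat.Primes, q ∉ S → ∀ A : ValuationSubring Qbar,
      A.LiesOverPrime (q : ℕ) → ∀ g ∈ A.inertiaSubgroupIn ℚ, M.ρ g = 1) :
    ∃ B : groupCohomology.sha₁ S (M.dualTwist (cycloChar p)) →ₗ[ZMod p]
        groupCohomology.sha₂ S M →ₗ[ZMod p] ZMod p,
      (∀ y, (∀ x, B y x = 0) → y = 0) ∧ (∀ x, (∀ y, B y x = 0) → x = 0) :=
  s55_of_pform hp2 hpS
    (arithPForm S p hpS (cycloChar p) invT semi₀ hLG semi hinv fin hleft hright)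
    (Iso.refl _) modP M hsm hMur

end Fermat.Agent.Lib.CFT.Duality.GlobalBase
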