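import Fermat.Agent.Lib.CFT.Duality.BaseCase.PVCalcTrace
import Fermat.Agent.Lib.CFT.Profinite.CoresT
import Fermat.Agent.Lib.CFT.Duality.BaseCase.KCalcCupT
import Fermat.Agent.Lib.CFT.Duality.BaseCase.Bockstein
import Fermat.Agent.Lib.CFT.Duality.BaseCase.BocksteinPV
import Fermat.Agent.Lib.CFT.Duality.BaseCase.PVIso
import Fermat.Agent.Lib.CFT.Duality.BaseCase.TransferPhi

/-!
# Transfer of the class formation facts from `V` to `P V C` (P-CFT, L4 base cases, `[TR-2]`)

Let `V` be an open subgroup of `(G, 𝒰)` and `C` a discrete representation of `G`.  The facts about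
the group `V` with coefficients `Rep.res V.subtype C` (*`V`-form*) are transported to facts about
the group `G` with coefficients `P V C = Coind_V^G (C|_V)` (*`P`-form*):

* `subsingleton_levelCohomology_P` : `Hⁿ(V, C) = 0 ⇒ Hⁿ(G, P V C) = 0`;
* `TMap_sumMap` : `Tʳ(Σ_C) = coresT ∘ shapiroT`;
* `inv_TMap_sumMap`, `bijective_inv_TMap_sumMap` : if `inv_G ∘ coresT = inv_V` then
  `inv_G ∘ Tʳ(Σ_C) = inv_V ∘ shapiroT`, bijective if `inv_V` is;
* `finite_T_P` : `Tʳ(G, P V C)` is finite if `Tʳ(V, C)` is;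
* `Perfect.transfer_left`, `Perfect.transfer_right` : the abstract transfer of the non-degeneracy
  of the reciprocity pairing.
-/

set_option autoImplicit false
set_option linter.unusedSectionVars false

universe u

open CategoryTheory Fermat.Agent.Lib.CFT.Profinite
open Fermat.Agent.Lib.CFT.Duality.DevissageRep Fermat.Agent.Lib.CFT.Duality.KCalc

namespace Fermat.Agent.Lib.CFT.Duality.TransferFormation

open LES LevelFamily PVCalc

variable {k G : Type u} [CommRing k] [Group G] {𝒰 : LevelFamily G} {V : Subgroup G}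
  (p : ℕ) {C : Rep.{u} k G}

/-! ### (o1) Vanishing -/

/-- `Hⁿ(G, P V C) = 0` if `Hⁿ(V, C) = 0`. -/
theorem subsingleton_levelCohomology_P (hV : IsOpenSubgroup 𝒰 V) (hC : 𝒰.IsDiscrete C) (n : ℕ)
    (h : Subsingleton ((restrict 𝒰 V).levelCohomology (Rep.res V.subtype C) n)) :
    Subsingleton (𝒰.levelCohomology (P V C) n) :=
  (shapiro_bijective hV n (Rep.res V.subtype C) (isDiscrete_res 𝒰 V C hC)).1.subsingleton

/-- `Tʳ(G, P V C) = 0` if `Tʳ(V, C) = 0`. -/
theorem subsingleton_T_P (hV : IsOpenSubgroup 𝒰 V) (hC : 𝒰.IsDiscrete C) (r : ℕ)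
    (h : Subsingleton (T (restrict 𝒰 V) p (Rep.res V.subtype C) r)) :
    Subsingleton (T 𝒰 p (P V C) r) :=
  (shapiroT_bijective p hV (Rep.res V.subtype C) (isDiscrete_res 𝒰 V C hC) r).1.subsingleton

/-! ### (o4) Finiteness -/

/-- `Tʳ(G, P V C)` is finite if `Tʳ(V, C)` is. -/
theorem finite_T_P (hV : IsOpenSubgroup 𝒰 V) (hC : 𝒰.IsDiscrete C) (r : ℕ)
    (h : Finite (T (restrict 𝒰 V) p (Rep.res V.subtype C) r)) :
    Finite (T 𝒰 p (P V C) r) :=
  Finite.of_injective _
    (shapiroT_bijective p hV (Rep.res V.subtype C) (isDiscrete_res 𝒰 V C hC) r).1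

/-- `Hⁿ(G, P V C)` is finite if `Hⁿ(V, C)` is. -/
theorem finite_levelCohomology_P (hV : IsOpenSubgroup 𝒰 V) (hC : 𝒰.IsDiscrete C) (n : ℕ)
    (h : Finite ((restrict 𝒰 V).levelCohomology (Rep.res V.subtype C) n)) :
    Finite (𝒰.levelCohomology (P V C) n) :=
  Finite.of_injective _
    (shapiro_bijective hV n (Rep.res V.subtype C) (isDiscrete_res 𝒰 V C hC)).1

/-! ### (o2) The invariant map -/

section Inv

variable [V.FiniteIndex]

/-- The map induced on `T` by the trace map `Σ_C : P V C ⟶ C` is the corestriction after the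
Shapiro map. -/
theorem TMap_sumMap (hV : IsOpenSubgroup 𝒰 V) (hC : 𝒰.IsDiscrete C) (r : ℕ)
    (t : T 𝒰 p (P V C) r) :
    TMap 𝒰 p (sumMap V C) r t =
      coresT p hV hC r (shapiroT 𝒰 p V (Rep.res V.subtype C) r t) := by
  rw [sumMap_eq_coindTrace]
  exact (coresT_shapiroT p hV hC r t).symm

variable {Z : Type*} (invG : T 𝒰 p C 2 → Z) (invV : T (restrict 𝒰 V) p (Rep.res V.subtype C) 2 → Z)

/-- The compatibility `inv_G ∘ T²(trace) = inv_V ∘ shapiroT` follows from
`inv_G ∘ coresT = inv_V`. -/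
theorem hcor_of_coresT (hV : IsOpenSubgroup 𝒰 V) (hC : 𝒰.IsDiscrete C)
    (hcor : ∀ t, invG (coresT p hV hC 2 t) = invV t)
    (s : T 𝒰 p (Rep.coind V.subtype (Rep.res V.subtype C)) 2) :
    invG (TMap 𝒰 p (coindTrace V C) 2 s) =
      invV (shapiroT 𝒰 p V (Rep.res V.subtype C) 2 s) := by
  rw [← hcor]
  exact congrArg invG (coresT_shapiroT p hV hC 2 s).symm

variable (hcor : ∀ s : T 𝒰 p (Rep.coind V.subtype (Rep.res V.subtype C)) 2,
  invG (TMap 𝒰 p (coindTrace V C) 2 s) = invV (shapiroT 𝒰 p V (Rep.res V.subtype C) 2 s))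

include hcor in
/-- If `inv_G ∘ T²(trace) = inv_V ∘ shapiroT` then `inv_G ∘ T²(Σ_C) = inv_V ∘ shapiroT`. -/
theorem inv_TMap_sumMap (t : T 𝒰 p (P V C) 2) :
    invG (TMap 𝒰 p (sumMap V C) 2 t) = invV (shapiroT 𝒰 p V (Rep.res V.subtype C) 2 t) := by
  rw [sumMap_eq_coindTrace]
  exact hcor t

include hcor in
/-- `(o2)`: if `inv_V` is bijective and `inv_G ∘ T²(trace) = inv_V ∘ shapiroT`, then
`inv_G ∘ T²(Σ_C)` is bijective on `T²(G, P V C)`. -/
theorem bijective_inv_TMap_sumMap (hV : IsOpenSubgroup 𝒰 V) (hC : 𝒰.IsDiscrete C)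
    (hinv : Function.Bijective invV) :
    Function.Bijective fun t : T 𝒰 p (P V C) 2 => invG (TMap 𝒰 p (sumMap V C) 2 t) := by
  have h : (fun t : T 𝒰 p (P V C) 2 => invG (TMap 𝒰 p (sumMap V C) 2 t)) =
      invV ∘ shapiroT 𝒰 p V (Rep.res V.subtype C) 2 := by
    funext t
    exact inv_TMap_sumMap p invG invV hcor t
  rw [h]
  exact hinv.comp (shapiroT_bijective p hV (Rep.res V.subtype C) (isDiscrete_res 𝒰 V C hC) 2)

end Inv

/-! ### (o3) Abstract transfer of non-degeneracy -/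

namespace Perfect

variable {TG TV QG QV HG HV Z : Type*} [Zero Z] [Zero TG] [Zero TV] [Zero HG] [Zero HV]
  (sh : TG → TV) (shQ : QG → QV) (shH : HG → HV)
  (pairG : QG → TG → Z) (pairV : QV → TV → Z) (clsG : QG → HG) (clsV : QV → HV)

/-- Transfer of left non-degeneracy.  `V`-form hypothesis: an element `t'` is zero as soon as
every class `η` is represented by some `q'` with `⟨q', t'⟩ = 0`. -/
theorem transfer_left (hsh : Function.Injective sh) (hsh0 : sh 0 = 0)
    (hpair : ∀ q t, pairG q t = pairV (shQ q) (sh t))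
    (hcls : ∀ q, clsV (shQ q) = shH (clsG q))
    (hclsG : Function.Surjective clsG) (hshH : Function.Surjective shH)
    (hleft : ∀ t' : TV, (∀ η : HV, ∃ q' : QV, clsV q' = η ∧ pairV q' t' = 0) → t' = 0)
    (t : TG) (ht : ∀ q, pairG q t = 0) : t = 0 := by
  apply hsh
  rw [hsh0]
  refine hleft _ fun η => ?_
  obtain ⟨ξ, rfl⟩ := hshH η
  obtain ⟨q, rfl⟩ := hclsG ξ
  exact ⟨shQ q, hcls q, by rw [← hpair, ht]⟩

/-- Transfer of right non-degeneracy. -/
theorem transfer_right (hsh : Function.Surjective sh)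
    (hpair : ∀ q t, pairG q t = pairV (shQ q) (sh t))
    (hcls : ∀ q, clsV (shQ q) = shH (clsG q))
    (hshH : ∀ ξ, shH ξ = 0 → ξ = 0)
    (hright : ∀ q' : QV, (∀ t', pairV q' t' = 0) → clsV q' = 0)
    (q : QG) (hq : ∀ t, pairG q t = 0) : clsG q = 0 := by
  apply hshH
  rw [← hcls]
  refine hright _ fun t' => ?_
  obtain ⟨t, rfl⟩ := hsh t'
  rw [← hpair, hq]

end Perfect

/-! ### (o3) Transfer of non-degeneracy for the Bockstein-twisted cup products -/

section Recip

open Bockstein KCalcCup TransferPhi Fermat.Agent.Lib.CFT.Coh.Cup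

variable [V.FiniteIndex] {B : Rep.{u} k V}
  (ψ : Pairing (Rep.res V.subtype C) B (Rep.res V.subtype C))
  (htf : ∀ r : B, (p : k) • r = 0 → r = 0)
  (htfc : ∀ r : Rep.coind V.subtype B, (p : k) • r = 0 → r = 0)
  {Rb : Rep.{u} k G} {red : Rep.coind V.subtype B ⟶ Rb} (hred : IsReduction (p : k) red)
  {Rb' : Rep.{u} k V} {red' : B ⟶ Rb'} (hred' : IsReduction (p : k) red')
  (ρb : Rep.res V.subtype Rb ⟶ Rb')
  (hsq : (Rep.resFunctor V.subtype).map red ≫ ρb = coindEval V B ≫ red')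
  {Z : Type*} [Zero Z] (invG : T 𝒰 p C 2 → Z)
  (invV : T (restrict 𝒰 V) p (Rep.res V.subtype C) 2 → Z)
  (hcor : ∀ s : T 𝒰 p (Rep.coind V.subtype (Rep.res V.subtype C)) 2,
    invG (TMap 𝒰 p (coindTrace V C) 2 s) = invV (shapiroT 𝒰 p V (Rep.res V.subtype C) 2 s))

/-- The `P`-form reciprocity pairing: `(q, t) ↦ inv_G (Φ_q t)` for a Bockstein pair `q` of
`Coind B` and `t ∈ T¹(G, P V C)`, with respect to the trace pairing of `ψ`. -/
noncomputable def pairG (q : BockPair 𝒰 (p : k) (Rep.coind V.subtype B) 1)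
    (t : T 𝒰 p (P V C) 1) : Z :=
  invG (PhiTB 𝒰 p (LES.tracePairing V ψ) htfc q 1 t)

/-- The `V`-form reciprocity pairing: `(q', t') ↦ inv_V (Φ_{q'} t')` for a Bockstein pair `q'` of
`B` and `t' ∈ T¹(V, C)`, with respect to `ψ`. -/
noncomputable def pairV (q' : BockPair (restrict 𝒰 V) (p : k) B 1)
    (t' : T (restrict 𝒰 V) p (Rep.res V.subtype C) 1) : Z :=
  invV (PhiTB (restrict 𝒰 V) p ψ htf q' 1 t')

include hcor in
/-- The `P`-form pairing is the `V`-form pairing after the Shapiro maps. -/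
theorem pairG_eq (q : BockPair 𝒰 (p : k) (Rep.coind V.subtype B) 1) (t : T 𝒰 p (P V C) 1) :
    pairG p ψ htfc invG q t =
      pairV p ψ htf invV (shBock 𝒰 V B 1 q) (shapiroT 𝒰 p V (Rep.res V.subtype C) 1 t) := by
  unfold pairG pairV
  rw [PhiTB_tracePairing, hcor, shapiroT_PhiTB p ψ htf htfc]

include hsq in
/-- The reduction classes of `q` and of its Shapiro image correspond under `H¹(ρb)`. -/
theorem redClass_shBock (q : BockPair 𝒰 (p : k) (Rep.coind V.subtype B) 1) :
    redClass (restrict 𝒰 V) hred' 1 (shBock 𝒰 V B 1 q) =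
      (LES.map V.subtype (isCompatible_comap 𝒰 V.subtype) ρb 1).hom (redClass 𝒰 hred 1 q) :=
  (map_redClass V.subtype (isCompatible_comap 𝒰 V.subtype) (coindEval V B) hred hred' ρb hsq
    1 q).symm

include hcor hsq hred in
/-- `(o3)`, left kernel: the `P`-form reciprocity pairing has trivial left kernel if the `V`-form
pairing has (in the form: `t' = 0` as soon as every class of `H¹(V, Rb')` is represented by a
Bockstein pair `q'` with `⟨q', t'⟩ = 0`). -/
theorem left_P (hV : IsOpenSubgroup 𝒰 V) (hC : 𝒰.IsDiscrete C)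
    (hRt : 𝒰.IsDiscrete (Rep.coind V.subtype B))
    (hρb : Function.Surjective
      (LES.map V.subtype (isCompatible_comap 𝒰 V.subtype) ρb 1).hom)
    (hleft : ∀ t' : T (restrict 𝒰 V) p (Rep.res V.subtype C) 1,
      (∀ η : (restrict 𝒰 V).levelCohomology Rb' 1, ∃ q' : BockPair (restrict 𝒰 V) (p : k) B 1,
        redClass (restrict 𝒰 V) hred' 1 q' = η ∧ pairV p ψ htf invV q' t' = 0) → t' = 0)
    (t : T 𝒰 p (P V C) 1) (ht : ∀ q, pairG p ψ htfc invG q t = 0) : t = 0 :=
  Perfect.transfer_left (shapiroT 𝒰 p V (Rep.res V.subtype C) 1) (shBock 𝒰 V B 1)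
    (LES.map V.subtype (isCompatible_comap 𝒰 V.subtype) ρb 1).hom
    (pairG p ψ htfc invG) (pairV p ψ htf invV) (redClass 𝒰 hred 1)
    (redClass (restrict 𝒰 V) hred' 1)
    (shapiroT_bijective p hV (Rep.res V.subtype C) (isDiscrete_res 𝒰 V C hC) 1).1
    (map_zero _) (pairG_eq p ψ htf htfc invG invV hcor)
    (redClass_shBock p hred hred' ρb hsq)
    (redClass_surjective 𝒰 hred hRt 1) hρb hleft t ht

include hcor hsq in
/-- `(o3)`, right kernel: if `⟨q, t⟩ = 0` for all `t ∈ T¹(G, P V C)` then the class of `q` in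
`H¹(G, Rb)` vanishes, provided the analogous statement holds on `V`. -/
theorem right_P (hV : IsOpenSubgroup 𝒰 V) (hC : 𝒰.IsDiscrete C)
    (hρb : Function.Injective
      (LES.map V.subtype (isCompatible_comap 𝒰 V.subtype) ρb 1).hom)
    (hright : ∀ q' : BockPair (restrict 𝒰 V) (p : k) B 1,
      (∀ t', pairV p ψ htf invV q' t' = 0) → redClass (restrict 𝒰 V) hred' 1 q' = 0)
    (q : BockPair 𝒰 (p : k) (Rep.coind V.subtype B) 1)
    (hq : ∀ t, pairG p ψ htfc invG q t = 0) : redClass 𝒰 hred 1 q = 0 :=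
  Perfect.transfer_right (shapiroT 𝒰 p V (Rep.res V.subtype C) 1) (shBock 𝒰 V B 1)
    (LES.map V.subtype (isCompatible_comap 𝒰 V.subtype) ρb 1).hom
    (pairG p ψ htfc invG) (pairV p ψ htf invV) (redClass 𝒰 hred 1)
    (redClass (restrict 𝒰 V) hred' 1)
    (shapiroT_bijective p hV (Rep.res V.subtype C) (isDiscrete_res 𝒰 V C hC) 1).2
    (pairG_eq p ψ htf htfc invG invV hcor)
    (redClass_shBock p hred hred' ρb hsq)
    (fun _ hξ => hρb (hξ.trans (map_zero _).symm)) hright q hq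

end Recip

/-! ### The standard reductions: `Coind_V ℤ → Coind_V 𝔽_p` on `G` and `ℤ → 𝔽_p` on `V` -/

section Standard

open Bockstein BocksteinPV ChangeRing

variable {G : Type} [Group G] (𝒰 : LevelFamily G) (V : Subgroup G) (p : ℕ)

/-- Evaluation at `1`: `(Coind_V 𝔽_p)|_V ⟶ 𝔽_p` (underlying `ℤ`-linear representations). -/
noncomputable def evalOne : Rep.res V.subtype (R V p) ⟶ RTriv V p :=
  (Rep.resFunctor V.subtype).map (PVIso.intPIso V (Rep.trivial (ZMod p) G (ZMod p))).hom ≫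
    coindEval V (Rep.res V.subtype (RTriv G p))

@[simp]
theorem evalOne_hom_apply (F : R V p) : (evalOne V p).hom F = F.1 1 := rfl

/-- The reductions modulo `p` on `G` and on `V` are compatible with the evaluations at `1`. -/
theorem red_comp_evalOne :
    (Rep.resFunctor V.subtype).map (red V p) ≫ evalOne V p =
      coindEval V (Rep.res V.subtype (Rep.trivial ℤ G ℤ)) ≫ redTriv V p := by
  ext F
  rfl

/-- The map induced by `evalOne` on level cohomology is the Shapiro map, up to the identification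
`intPIso`. -/
theorem map_evalOne_eq (n : ℕ) :
    LES.map V.subtype (isCompatible_comap 𝒰 V.subtype) (evalOne V p) n =
      𝒰.levelCohomologyMap (PVIso.intPIso V (Rep.trivial (ZMod p) G (ZMod p))).hom n ≫
        shapiro 𝒰 V (Rep.res V.subtype (RTriv G p)) n := by
  have h1 := LES.map_comp (𝒰 := 𝒰) (𝒰' := 𝒰) (𝒰'' := restrict 𝒰 V)
    (M := R V p) (M' := P V (RTriv G p)) (M'' := Rep.res V.subtype (RTriv G p))
    (MonoidHom.id G) 𝒰.isCompatible_id
    (PVIso.intPIso V (Rep.trivial (ZMod p) G (ZMod p))).hom V.subtype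
    (isCompatible_comap 𝒰 V.subtype) (coindEval V (Rep.res V.subtype (RTriv G p))) n
  rw [levelCohomologyMap_eq_map, shapiro, ← h1]
  exact map_congr rfl _ rfl n

variable {𝒰 V} in
/-- `Hⁿ(G, Coind_V 𝔽_p) → Hⁿ(V, 𝔽_p)` induced by the evaluation at `1` is bijective. -/
theorem map_evalOne_bijective (hV : IsOpenSubgroup 𝒰 V) (n : ℕ) :
    Function.Bijective
      (LES.map V.subtype (isCompatible_comap 𝒰 V.subtype) (evalOne V p) n).hom := by
  have hb : Function.Bijective
      ((shapiro 𝒰 V (Rep.res V.subtype (RTriv G p)) n).hom ∘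
        (𝒰.levelCohomologyMap (PVIso.intPIso V (Rep.trivial (ZMod p) G (ZMod p))).hom n).hom) :=
    (shapiro_bijective hV n _ (isDiscrete_res 𝒰 V _ (isDiscrete_RTriv G p 𝒰))).comp
      ((levelCohomologyFunctor (k := ℤ) 𝒰 n).mapIso
        (PVIso.intPIso V (Rep.trivial (ZMod p) G (ZMod p)))).toLinearEquiv.bijective
  have he : ∀ x, (LES.map V.subtype (isCompatible_comap 𝒰 V.subtype) (evalOne V p) n).hom x =
      (shapiro 𝒰 V (Rep.res V.subtype (RTriv G p)) n).hom
        ((𝒰.levelCohomologyMap (PVIso.intPIso V (Rep.trivial (ZMod p) G (ZMod p))).hom n).hom x) :=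
    fun x => congr($(map_evalOne_eq 𝒰 V p n) x)
  refine ⟨fun x y hxy => hb.1 ?_, fun y => ?_⟩
  · exact (he x).symm.trans (hxy.trans (he y))
  · obtain ⟨x, hx⟩ := hb.2 y
    exact ⟨x, (he x).trans hx⟩

/-- The reduction `ℤ → 𝔽_p` on `V`, with source written as the restriction of the trivial
representation of `G`. -/
noncomputable def redV : Rep.res V.subtype (Rep.trivial ℤ G ℤ) ⟶ RTriv V p := redTriv V p

theorem isReduction_redV [NeZero p] : IsReduction (p : ℤ) (redV V p) := isReduction_redTriv V p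

theorem red_comp_evalOne' :
    (Rep.resFunctor V.subtype).map (red V p) ≫ evalOne V p =
      coindEval V (Rep.res V.subtype (Rep.trivial ℤ G ℤ)) ≫ redV V p :=
  red_comp_evalOne V p

end Standard

/-! ### The `P`-form statements for the standard data, in the shape of `GlobalBase.PForm` -/

section Main

open Bockstein BocksteinPV ChangeRing KCalcCup TransferPhi Fermat.Agent.Lib.CFT.Coh.Cup

variable {G : Type} [Group G] {𝒰 : LevelFamily G} {V : Subgroup G} [V.FiniteIndex] (p : ℕ)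
  [NeZero p] (C : Rep.{0} ℤ G)

/-- The scalar pairing `C × ℤ → C`, restricted to `V`. -/
noncomputable abbrev scalarV :
    Pairing (Rep.res V.subtype C) (Rep.res V.subtype (Rep.trivial ℤ G ℤ)) (Rep.res V.subtype C) :=
  (scalarPairing C).res V.subtype

variable {Z : Type*} [Zero Z] (invG : T 𝒰 p C 2 → Z)
  (invV : T (restrict 𝒰 V) p (Rep.res V.subtype C) 2 → Z)

/-- The `V`-form reciprocity pairing for the standard data: `(q', t') ↦ inv_V (Φ_{q'} t')` for a
Bockstein pair `q'` of the trivial representation `ℤ` of `V` and `t' ∈ T¹(V, C)`. -/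
noncomputable def recV (q' : BockPair (restrict 𝒰 V) ((p : ℕ) : ℤ)
      (Rep.res V.subtype (Rep.trivial ℤ G ℤ)) 1)
    (t' : T (restrict 𝒰 V) p (Rep.res V.subtype C) 1) : Z :=
  invV (PhiT (restrict 𝒰 V) p (scalarV (V := V) C) q'.1.1 q'.1.2 q'.2
    (BockPair.d_snd (isReduction_redV V p).torsionFree q') 1 t')

variable (hcor : ∀ s : T 𝒰 p (Rep.coind V.subtype (Rep.res V.subtype C)) 2,
  invG (TMap 𝒰 p (coindTrace V C) 2 s) = invV (shapiroT 𝒰 p V (Rep.res V.subtype C) 2 s))

include hcor in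
/-- **`PForm.hleft`** from the `V`-form. -/
theorem hleft_of_V (hV : IsOpenSubgroup 𝒰 V) (hC : 𝒰.IsDiscrete C)
    (hleft : ∀ t' : T (restrict 𝒰 V) p (Rep.res V.subtype C) 1,
      (∀ η : (restrict 𝒰 V).levelCohomology (RTriv V p) 1,
        ∃ q' : BockPair (restrict 𝒰 V) ((p : ℕ) : ℤ) (Rep.res V.subtype (Rep.trivial ℤ G ℤ)) 1,
          redClass (restrict 𝒰 V) (isReduction_redV V p) 1 q' = η ∧
            recV p C invV q' t' = 0) → t' = 0)
    (t : T 𝒰 p (P V C) 1)
    (ht : ∀ b : BockPair 𝒰 ((p : ℕ) : ℤ) (R ℤ V) 1,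
      invG (PhiT 𝒰 p (tracePairing V C) b.1.1 b.1.2 b.2
        (BockPair.d_snd (isReduction_red V p).torsionFree b) 1 t) = 0) : t = 0 := by
  rw [tracePairing_eq] at ht
  exact left_P p (scalarV (V := V) C) (isReduction_redV V p).torsionFree
    (isReduction_red V p).torsionFree (isReduction_red V p) (isReduction_redV V p) (evalOne V p)
    (red_comp_evalOne' V p) invG invV hcor hV hC (isDiscrete_Rt V 𝒰 hV)
    (map_evalOne_bijective p hV 1).2 hleft t ht

include hcor in
/-- **`PForm.hright`** from the `V`-form. -/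
theorem hright_of_V (hV : IsOpenSubgroup 𝒰 V) (hC : 𝒰.IsDiscrete C)
    (hright : ∀ q' : BockPair (restrict 𝒰 V) ((p : ℕ) : ℤ)
        (Rep.res V.subtype (Rep.trivial ℤ G ℤ)) 1,
      (∀ t', recV p C invV q' t' = 0) →
        redClass (restrict 𝒰 V) (isReduction_redV V p) 1 q' = 0)
    (b : BockPair 𝒰 ((p : ℕ) : ℤ) (R ℤ V) 1)
    (hb : ∀ t : T 𝒰 p (P V C) 1,
      invG (PhiT 𝒰 p (tracePairing V C) b.1.1 b.1.2 b.2
        (BockPair.d_snd (isReduction_red V p).torsionFree b) 1 t) = 0) :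
    redClass 𝒰 (isReduction_red V p) 1 b = 0 := by
  rw [tracePairing_eq] at hb
  exact right_P p (scalarV (V := V) C) (isReduction_redV V p).torsionFree
    (isReduction_red V p).torsionFree (isReduction_red V p) (isReduction_redV V p) (evalOne V p)
    (red_comp_evalOne' V p) invG invV hcor hV hC
    (map_evalOne_bijective p hV 1).1 hright b hb

end Main

end Fermat.Agent.Lib.CFT.Duality.TransferFormation
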