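import Fermat.Agent.Lib.CFT.Duality.BaseCase.TransferSemilocal
import Fermat.Agent.Lib.CFT.Duality.BaseCase.TransferTop

/-!
# Transfer of the semilocal statement for `W = ⊤`  (P-CFT, L4)

For `W = ⊤` the `V`-form semilocal map `VMap K W r n` (for any system of representatives `r`) is
bijective (injective) iff the semilocal map `K.lamT n` of the datum `K` itself is.  This gives the
field `semi₀` of the `P`-form contract from the `V`-form facts for the whole group.
-/

set_option autoImplicit false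

universe u

open CategoryTheory Fermat.Agent.Lib.CFT.Profinite

namespace Fermat.Agent.Lib.CFT.Duality.Semilocal

open LevelFamily LES KCalc

section Generic

variable {k : Type u} [CommRing k] {H G : Type u} [Group H] [Group G]

/-- Restriction to a subgroup which is the whole group is bijective on `T`. -/
theorem TMapOfHom_subtype_bijective (𝒰 : LevelFamily G) (p : ℕ) (X : Rep.{u} k G)
    (W : Subgroup G) (hW : W = ⊤) (n : ℕ) :
    Function.Bijective (TMapOfHom 𝒰 p (restrict 𝒰 W) W.subtype (isCompatible_comap 𝒰 W.subtype)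
      (𝟙 (Rep.res W.subtype X)) n) := by
  subst hW
  exact TMapOfHom_top_bijective 𝒰 p X n

theorem funStab_top (φ : H →* G) (g : G) : funStab φ (⊤ : Subgroup G) g = ⊤ := by
  ext h
  simp only [mem_funStab, Subgroup.mem_top]

theorem subtype_comp_funStabHom_one (φ : H →* G) (W : Subgroup G) :
    W.subtype.comp (funStabHom φ W 1) = φ.comp (funStab φ W 1).subtype := by
  ext s
  show (1 : G)⁻¹ * φ s * 1 = φ s
  rw [inv_one, one_mul, mul_one]

variable {𝒰 : LevelFamily G} {𝒱 : LevelFamily H} (p : ℕ) {φ : H →* G} (W : Subgroup G)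

/-- The `V`-form map at `g = 1` is the restriction of the change-of-group map along `φ`. -/
theorem VForm_one_square (hφ : IsCompatible 𝒱 𝒰 φ) {J : Rep.{u} k G} {L : Rep.{u} k H}
    (ρ : Rep.res φ J ⟶ L) (n : ℕ) (t : T 𝒰 p J n) :
    TMapOfHom (restrict 𝒰 W) p (restrict 𝒱 (funStab φ W 1)) (funStabHom φ W 1)
        (isCompatible_funStabHom W hφ 1) (funStabMor W ρ 1) n
        (TMapOfHom 𝒰 p (restrict 𝒰 W) W.subtype (isCompatible_comap 𝒰 W.subtype)
          (𝟙 (Rep.res W.subtype J)) n t) =
      TMapOfHom 𝒱 p (restrict 𝒱 (funStab φ W 1)) (funStab φ W 1).subtype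
        (isCompatible_comap 𝒱 (funStab φ W 1).subtype)
        (𝟙 (Rep.res (funStab φ W 1).subtype L)) n (TMapOfHom 𝒰 p 𝒱 φ hφ ρ n t) := by
  rw [← LES.TMapOfHom_comp, ← LES.TMapOfHom_comp]
  refine congr_fun (congr_arg DFunLike.coe
    (TMapOfHom_congr 𝒰 _ p _ (subtype_comp_funStabHom_one φ W) _ _ ?_ n)) t
  ext j
  show ρ.hom (J.ρ 1 j) = ρ.hom j
  rw [map_one, Module.End.one_apply]

end Generic

section Datum

open KDatumPV DevissageRep

variable {k : Type} [CommRing k] {G : Type} [Group G] {D : LocDatum G} {p : ℕ}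
  (K : KDatum k D p) (W : Subgroup G)

/-- The trivial system of representatives for `W = ⊤`. -/
def repsOne (_ : D.ι) (_ : Unit) : G := 1

/-- Restriction of the local classes to `funStab (D.φ v) W 1`. -/
noncomputable def resOne (n : ℕ) (y : ∀ v, T (D.𝒱 v) p (K.L v) n) (v : D.ι) (_ : Unit) :
    T (restrict (D.𝒱 v) (funStab (D.φ v) W 1)) p
      (Rep.res (funStab (D.φ v) W 1).subtype (K.L v)) n :=
  TMapOfHom (D.𝒱 v) p (restrict (D.𝒱 v) (funStab (D.φ v) W 1)) (funStab (D.φ v) W 1).subtype
    (isCompatible_comap (D.𝒱 v) (funStab (D.φ v) W 1).subtype)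
    (𝟙 (Rep.res (funStab (D.φ v) W 1).subtype (K.L v))) n (y v)

theorem resOne_bijective (hW : W = ⊤) (n : ℕ) : Function.Bijective (resOne K W n) := by
  have hb : ∀ v, Function.Bijective (TMapOfHom (D.𝒱 v) p
      (restrict (D.𝒱 v) (funStab (D.φ v) W 1)) (funStab (D.φ v) W 1).subtype
      (isCompatible_comap (D.𝒱 v) (funStab (D.φ v) W 1).subtype)
      (𝟙 (Rep.res (funStab (D.φ v) W 1).subtype (K.L v))) n) := fun v =>
    TMapOfHom_subtype_bijective (D.𝒱 v) p (K.L v) _ (by rw [hW]; exact funStab_top (D.φ v) 1) n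
  constructor
  · intro y y' h
    funext v
    exact (hb v).1 (congr_fun (congr_fun h v) ())
  · intro z
    choose y hy using fun v => (hb v).2 (z v ())
    exact ⟨y, funext fun v => funext fun _ => hy v⟩

theorem resOne_comp_lamT (n : ℕ) :
    resOne K W n ∘ ⇑(K.lamT n) =
      ⇑(VMap K W (repsOne (D := D)) n) ∘
        ⇑(TMapOfHom D.𝒰 p (restrict D.𝒰 W) W.subtype (isCompatible_comap D.𝒰 W.subtype)
          (𝟙 (Rep.res W.subtype K.J)) n) := by
  funext t v i
  exact (VForm_one_square p W (D.compat v) (K.ρ v) n t).symm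

/-- For `W = ⊤`, the semilocal map of `K` is bijective iff the `V`-form map for the trivial system
of representatives is. -/
theorem lamT_bijective_iff_VMap_one (hW : W = ⊤) (n : ℕ) :
    Function.Bijective (K.lamT n) ↔ Function.Bijective (VMap K W (repsOne (D := D)) n) := by
  have h1 := Function.Bijective.of_comp_iff' (resOne_bijective K W hW n) ⇑(K.lamT n)
  have h2 := Function.Bijective.of_comp_iff ⇑(VMap K W (repsOne (D := D)) n)
    (TMapOfHom_subtype_bijective D.𝒰 p K.J W hW n)
  rw [resOne_comp_lamT K W n] at h1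
  exact h1.symm.trans h2

theorem lamT_injective_iff_VMap_one (hW : W = ⊤) (n : ℕ) :
    Function.Injective (K.lamT n) ↔ Function.Injective (VMap K W (repsOne (D := D)) n) := by
  have h1 := Function.Injective.of_comp_iff (resOne_bijective K W hW n).1 ⇑(K.lamT n)
  have h2 := Function.Injective.of_comp_iff' ⇑(VMap K W (repsOne (D := D)) n)
    (TMapOfHom_subtype_bijective D.𝒰 p K.J W hW n)
  rw [resOne_comp_lamT K W n] at h1
  exact h1.symm.trans h2

theorem isOpenSubgroup_of_eq_top (hW : W = ⊤) : IsOpenSubgroup D.𝒰 W := by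
  obtain ⟨U, hU⟩ := D.𝒰.nonempty
  exact ⟨U, hU, by rw [hW]; exact le_top⟩

theorem repsOne_cover (hW : W = ⊤) (v : D.ι) (g : G) :
    ∃ (i : Unit) (h : D.H v), g⁻¹ * D.φ v h * repsOne (D := D) v i ∈ W :=
  ⟨(), 1, by rw [hW]; exact Subgroup.mem_top _⟩

theorem repsOne_disj (v : D.ι) (i j : Unit) (h : D.H v)
    (_ : (repsOne (D := D) v j)⁻¹ * D.φ v h * repsOne (D := D) v i ∈ W) : i = j := rfl

variable {ι : D.ι → Type*} (r : ∀ v, ι v → G) [∀ v, Finite (ι v)]

/-- **The field `semi₀`, bijectivity**: for `W = ⊤` and any system of representatives, the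
semilocal map of `K` is bijective iff the `V`-form map is. -/
theorem lamT_bijective_iff_VMap (hW : W = ⊤)
    (hcover : ∀ v (g : G), ∃ i h, g⁻¹ * D.φ v h * r v i ∈ W)
    (hdisj : ∀ v i j h, (r v j)⁻¹ * D.φ v h * r v i ∈ W → i = j) (n : ℕ) :
    Function.Bijective (K.lamT n) ↔ Function.Bijective (VMap K W r n) :=
  (lamT_bijective_iff_VMap_one K W hW n).trans
    ((lamT_pv_bijective_iff K W (repsOne (D := D)) (isOpenSubgroup_of_eq_top W hW)
      (repsOne_cover W hW) (repsOne_disj W) n).symm.trans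
      (lamT_pv_bijective_iff K W r (isOpenSubgroup_of_eq_top W hW) hcover hdisj n))

/-- **The field `semi₀`, injectivity**. -/
theorem lamT_injective_iff_VMap (hW : W = ⊤)
    (hcover : ∀ v (g : G), ∃ i h, g⁻¹ * D.φ v h * r v i ∈ W)
    (hdisj : ∀ v i j h, (r v j)⁻¹ * D.φ v h * r v i ∈ W → i = j) (n : ℕ) :
    Function.Injective (K.lamT n) ↔ Function.Injective (VMap K W r n) :=
  (lamT_injective_iff_VMap_one K W hW n).trans
    ((lamT_pv_injective_iff K W (repsOne (D := D)) (isOpenSubgroup_of_eq_top W hW)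
      (repsOne_cover W hW) (repsOne_disj W) n).symm.trans
      (lamT_pv_injective_iff K W r (isOpenSubgroup_of_eq_top W hW) hcover hdisj n))

/-- The field `semi₀` of the `P`-form contract from the `V`-form facts at `W = ⊤`. -/
theorem semi₀_of_VMap (hW : W = ⊤)
    (hcover : ∀ v (g : G), ∃ i h, g⁻¹ * D.φ v h * r v i ∈ W)
    (hdisj : ∀ v i j h, (r v j)⁻¹ * D.φ v h * r v i ∈ W → i = j)
    (h2 : Function.Bijective (VMap K W r 2)) (h3 : Function.Injective (VMap K W r 3)) :
    Function.Bijective (K.lamT 2) ∧ Function.Injective (K.lamT 3) :=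
  ⟨(lamT_bijective_iff_VMap K W r hW hcover hdisj 2).2 h2,
    (lamT_injective_iff_VMap K W r hW hcover hdisj 3).2 h3⟩

end Datum

end Fermat.Agent.Lib.CFT.Duality.Semilocal
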