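import Fermat.Agent.Lib.CFT.Duality.BaseCase.TransferFormation
import Fermat.Agent.Lib.CFT.Duality.BaseCase.FormationTFin
import Fermat.Agent.Lib.CFT.Duality.BaseCase.FormationTCores

/-!
# The `P`-form contract from the `V`-form package (P-CFT, L4 base cases, `[TR-2]`, part 2)

For an open subgroup `V` of `(G, 𝒰)`, a discrete representation `C` of `G` over `ℤ` and a `V`-form
package `I : FormationT.VForm (restrict 𝒰 V) (C|_V) p …` (`Duality/BaseCase/FormationTFin.lean`)
whose invariant map is compatible with an invariant map `inv_G` on `T²(G, C)` through the trace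
(`hcor`), we obtain the fields `hinv`, `hleft`, `hright` of `GlobalBase.PForm` for `W = V`.
-/

set_option autoImplicit false
set_option linter.unusedSectionVars false

open CategoryTheory Fermat.Agent.Lib.CFT.Profinite
open Fermat.Agent.Lib.CFT.Duality.DevissageRep Fermat.Agent.Lib.CFT.Duality.KCalc

namespace Fermat.Agent.Lib.CFT.Duality.TransferFormation

open LES LevelFamily PVCalc Bockstein BocksteinPV KCalcCup Fermat.Agent.Lib.CFT.Coh.Cup

variable {G : Type} [Group G] {𝒰 : LevelFamily G} {V : Subgroup G} [V.FiniteIndex] (p : ℕ)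
  [Fact p.Prime] (C : Rep.{0} ℤ G) {htf : ∀ a : ℤ, ((p : ℕ) : ℤ) * a = 0 → a = 0}
  (I : FormationT.VForm (restrict 𝒰 V) (Rep.res V.subtype C) p
    (scalarPairing (Rep.res V.subtype C)) htf (isReduction_redTriv V p))
  (invG : T 𝒰 p C 2 → ZMod p)
  (hcor : ∀ s : T 𝒰 p (Rep.coind V.subtype (Rep.res V.subtype C)) 2,
    invG (TMap 𝒰 p (coindTrace V C) 2 s) =
      I.invT (shapiroT 𝒰 p V (Rep.res V.subtype C) 2 s))

include hcor in
/-- **`PForm.hinv`** from the `V`-form package. -/
theorem hinv_of_VForm (hV : IsOpenSubgroup 𝒰 V) (hC : 𝒰.IsDiscrete C) :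
    Function.Bijective fun t : T 𝒰 p (P V C) 2 => invG (TMap 𝒰 p (sumMap V C) 2 t) :=
  bijective_inv_TMap_sumMap p invG I.invT hcor hV hC I.invT.bijective

include hcor in
/-- **`PForm.hleft`** from the `V`-form package. -/
theorem hleft_of_VForm (hV : IsOpenSubgroup 𝒰 V) (hC : 𝒰.IsDiscrete C)
    (t : T 𝒰 p (P V C) 1)
    (ht : ∀ b : BockPair 𝒰 ((p : ℕ) : ℤ) (R ℤ V) 1,
      invG (PhiT 𝒰 p (tracePairing V C) b.1.1 b.1.2 b.2
        (BockPair.d_snd (isReduction_red V p).torsionFree b) 1 t) = 0) : t = 0 :=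
  hleft_of_V p C invG I.invT hcor hV hC (fun t' ht' => I.hleft_forSome t' ht') t ht

include hcor in
/-- **`PForm.hright`** from the `V`-form package. -/
theorem hright_of_VForm (hV : IsOpenSubgroup 𝒰 V) (hC : 𝒰.IsDiscrete C)
    (b : BockPair 𝒰 ((p : ℕ) : ℤ) (R ℤ V) 1)
    (hb : ∀ t : T 𝒰 p (P V C) 1,
      invG (PhiT 𝒰 p (tracePairing V C) b.1.1 b.1.2 b.2
        (BockPair.d_snd (isReduction_red V p).torsionFree b) 1 t) = 0) :
    redClass 𝒰 (isReduction_red V p) 1 b = 0 :=
  hright_of_V p C invG I.invT hcor hV hC (fun q' hq' => I.hright q' hq') b hb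

/-! ### From class formations on `G` and on `V` -/

section Formation

open Fermat.Agent.Lib.CFT.Coh.ClassFormation

variable {G : Type} [Group G] (F : Formation ℤ G) (p : ℕ) [Fact p.Prime] (V : Subgroup G)
  [V.FiniteIndex] (F' : FormationOn (restrict F.𝒰 V) (Rep.res V.subtype F.C))
  (h : IsResCompat F F'.toFormation V.subtype (𝟙 _) V.index) (hV : IsOpenSubgroup F.𝒰 V)
  {htf : ∀ a : ℤ, ((p : ℕ) : ℤ) * a = 0 → a = 0}
  (I : FormationT.VForm (restrict F.𝒰 V) (Rep.res V.subtype F.C) p
    (scalarPairing (Rep.res V.subtype F.C)) htf (isReduction_redTriv V p))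
  (hI : ∀ t, I.invT t = FormationT.invT F'.toFormation p t)

include h hI hV in
/-- The compatibility `(hcor)` for the invariant maps of two compatible class formations. -/
theorem hcor_of_formation
    (s : T F.𝒰 p (Rep.coind V.subtype (Rep.res V.subtype F.C)) 2) :
    FormationT.invT F p (TMap F.𝒰 p (coindTrace V F.C) 2 s) =
      I.invT (shapiroT F.𝒰 p V (Rep.res V.subtype F.C) 2 s) := by
  rw [hI]
  exact FormationT.invT_TMap_coindTrace F p V F' h hV s

include h hI hV in
/-- **`PForm.hinv`** for two compatible class formations on `G` and on the open subgroup `V`. -/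
theorem hinv_of_formation :
    Function.Bijective fun t : T F.𝒰 p (P V F.C) 2 =>
      FormationT.invT F p (TMap F.𝒰 p (sumMap V F.C) 2 t) :=
  hinv_of_VForm p F.C I (FormationT.invT F p) (hcor_of_formation F p V F' h hV I hI) hV F.discrete

include h hI hV in
/-- **`PForm.hleft`** for two compatible class formations. -/
theorem hleft_of_formation (t : T F.𝒰 p (P V F.C) 1)
    (ht : ∀ b : BockPair F.𝒰 ((p : ℕ) : ℤ) (R ℤ V) 1,
      FormationT.invT F p (PhiT F.𝒰 p (tracePairing V F.C) b.1.1 b.1.2 b.2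
        (BockPair.d_snd (isReduction_red V p).torsionFree b) 1 t) = 0) : t = 0 :=
  hleft_of_VForm p F.C I (FormationT.invT F p) (hcor_of_formation F p V F' h hV I hI) hV
    F.discrete t ht

include h hI hV in
/-- **`PForm.hright`** for two compatible class formations. -/
theorem hright_of_formation (b : BockPair F.𝒰 ((p : ℕ) : ℤ) (R ℤ V) 1)
    (hb : ∀ t : T F.𝒰 p (P V F.C) 1,
      FormationT.invT F p (PhiT F.𝒰 p (tracePairing V F.C) b.1.1 b.1.2 b.2
        (BockPair.d_snd (isReduction_red V p).torsionFree b) 1 t) = 0) :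
    redClass F.𝒰 (isReduction_red V p) 1 b = 0 :=
  hright_of_VForm p F.C I (FormationT.invT F p) (hcor_of_formation F p V F' h hV I hI) hV
    F.discrete b hb

include hV in
/-- `H¹(G, P V C) = 0` if `H¹(V, C) = 0`. -/
theorem subsingleton_H1_P_of_formation
    (h1 : Subsingleton ((restrict F.𝒰 V).levelCohomology (Rep.res V.subtype F.C) 1)) :
    Subsingleton (F.𝒰.levelCohomology (P V F.C) 1) :=
  subsingleton_levelCohomology_P hV F.discrete 1 h1

end Formation

end Fermat.Agent.Lib.CFT.Duality.TransferFormation
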