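import Fermat.Agent.Lib.CFT.Duality.BaseCase.TransferVForm
import Fermat.Agent.Lib.CFT.Duality.LocDatum

/-!
# The four module-theoretic fields of the `P`-form contract, for one open subgroup

`WFields 𝒰 p C invT W` bundles the statements `hinv`, `fin`, `hleft`, `hright` of
`GlobalBase.PForm` / `PFormBridge.arithPForm` for ONE subgroup `W` (of finite index), a module `C`
and an invariant map `invT : T²(C) →+ ZMod p`.  `WFields.hinv_all` etc. turn a family of `WFields`
into the four arguments of `PFormBridge.pformOfBridge` / `arithPForm`.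
-/

set_option autoImplicit false
set_option linter.unusedSectionVars false

open CategoryTheory Fermat.Agent.Lib.CFT.Profinite

namespace Fermat.Agent.Lib.CFT.Duality.GlobalBase

open KCalc KCalcCup DevissageRep PVCalc

variable {G : Type} [Group G]

/-- The statements `hinv`, `fin`, `hleft`, `hright` of the `P`-form contract for one subgroup
`W`. -/
structure WFields (𝒰 : LevelFamily G) (p : ℕ) [Fact p.Prime] (C : Rep.{0} ℤ G)
    (invT : T 𝒰 p C 2 →+ ZMod p) (W : Subgroup G) [W.FiniteIndex] : Prop where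
  hinv : Function.Bijective fun t : T 𝒰 p (P W C) 2 => invT (TMap 𝒰 p (sumMap W C) 2 t)
  fin : Module.Finite (ZMod p)
    ((LES.restrict 𝒰 W).levelCohomology (Rep.trivial (ZMod p) W (ZMod p)) 1)
  hleft : ∀ t : T 𝒰 p (P W C) 1,
    (∀ b : Bockstein.BockPair 𝒰 ((p : ℕ) : ℤ) (R ℤ W) 1,
      invT (PhiT 𝒰 p (tracePairing W C) b.1.1 b.1.2 b.2
        (Bockstein.BockPair.d_snd (BocksteinPV.isReduction_red W p).torsionFree b) 1 t) = 0) →
    t = 0
  hright : ∀ b : Bockstein.BockPair 𝒰 ((p : ℕ) : ℤ) (R ℤ W) 1,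
    (∀ t : T 𝒰 p (P W C) 1,
      invT (PhiT 𝒰 p (tracePairing W C) b.1.1 b.1.2 b.2
        (Bockstein.BockPair.d_snd (BocksteinPV.isReduction_red W p).torsionFree b) 1 t) = 0) →
    Bockstein.redClass 𝒰 (BocksteinPV.isReduction_red W p) 1 b = 0

/-- The four fields for `W` from a `V`-form package on `restrict 𝒰 W` whose invariant map is
compatible with `invT` through the trace (`hcor`). -/
theorem WFields.of_VForm {𝒰 : LevelFamily G} {p : ℕ} [Fact p.Prime] {C : Rep.{0} ℤ G}
    (invT : T 𝒰 p C 2 →+ ZMod p) {W : Subgroup G} [W.FiniteIndex]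
    (hW : LES.IsOpenSubgroup 𝒰 W) (hC : 𝒰.IsDiscrete C)
    {htf : ∀ a : ℤ, ((p : ℕ) : ℤ) * a = 0 → a = 0}
    (I : FormationT.VForm (LES.restrict 𝒰 W) (Rep.res W.subtype C) p
      (scalarPairing (Rep.res W.subtype C)) htf (BocksteinPV.isReduction_redTriv W p))
    (hcor : ∀ s : T 𝒰 p (Rep.coind W.subtype (Rep.res W.subtype C)) 2,
      invT (TMap 𝒰 p (LES.coindTrace W C) 2 s) =
        I.invT (LES.shapiroT 𝒰 p W (Rep.res W.subtype C) 2 s)) :
    WFields 𝒰 p C invT W where
  hinv := TransferFormation.hinv_of_VForm p C I invT hcor hW hC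
  fin := I.fin
  hleft := TransferFormation.hleft_of_VForm p C I invT hcor hW hC
  hright := TransferFormation.hright_of_VForm p C I invT hcor hW hC

section All

variable (D : LocDatum G) {p : ℕ} [Fact p.Prime] (χ : G →* (ZMod p)ˣ) {C : Rep.{0} ℤ G}
  (invT : T D.𝒰 p C 2 →+ ZMod p)
  (h : ∀ (W : Subgroup G) [W.FiniteIndex], LES.IsOpenSubgroup D.𝒰 W → W ≤ χ.ker →
    WFields D.𝒰 p C invT W)

include h

theorem WFields.hinv_all :
    ∀ (W : Subgroup G) [W.FiniteIndex], LES.IsOpenSubgroup D.𝒰 W → W ≤ χ.ker →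
      Function.Bijective fun t : T D.𝒰 p (P W C) 2 => invT (TMap D.𝒰 p (sumMap W C) 2 t) :=
  fun W _ hW hle => (h W hW hle).hinv

theorem WFields.fin_all :
    ∀ (W : Subgroup G), LES.IsOpenSubgroup D.𝒰 W → W ≤ χ.ker →
      Module.Finite (ZMod p)
        ((LES.restrict D.𝒰 W).levelCohomology (Rep.trivial (ZMod p) W (ZMod p)) 1) :=
  fun W hW hle => by
    have := hW.finiteIndex
    exact (h W hW hle).fin

theorem WFields.hleft_all :
    ∀ (W : Subgroup G) [W.FiniteIndex], LES.IsOpenSubgroup D.𝒰 W → W ≤ χ.ker →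
      ∀ t : T D.𝒰 p (P W C) 1,
        (∀ b : Bockstein.BockPair D.𝒰 ((p : ℕ) : ℤ) (R ℤ W) 1,
          invT (PhiT D.𝒰 p (tracePairing W C) b.1.1 b.1.2 b.2
            (Bockstein.BockPair.d_snd (BocksteinPV.isReduction_red W p).torsionFree b) 1 t) = 0) →
        t = 0 :=
  fun W _ hW hle => (h W hW hle).hleft

theorem WFields.hright_all :
    ∀ (W : Subgroup G) [W.FiniteIndex], LES.IsOpenSubgroup D.𝒰 W → W ≤ χ.ker →
      ∀ b : Bockstein.BockPair D.𝒰 ((p : ℕ) : ℤ) (R ℤ W) 1,
        (∀ t : T D.𝒰 p (P W C) 1,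
          invT (PhiT D.𝒰 p (tracePairing W C) b.1.1 b.1.2 b.2
            (Bockstein.BockPair.d_snd (BocksteinPV.isReduction_red W p).torsionFree b) 1 t) = 0) →
        Bockstein.redClass D.𝒰 (BocksteinPV.isReduction_red W p) 1 b = 0 :=
  fun W _ hW hle => (h W hW hle).hright

end All

end Fermat.Agent.Lib.CFT.Duality.GlobalBase
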